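import Mathlib.NumberTheory.ModularForms.QExpansion
import Mathlib.RingTheory.LaurentSeries
import Fermat.Prelude.Def_ModularCurve_X0
import Fermat.Prelude.Def_ModularCurve_LaurentCoeff

/-!
# Laurent `q`-expansions valid on the whole upper half plane

`HasQExp h f x` says that the Laurent series `x` converges to `f` at every point of `ℍ`, in the
variable `exp (2πiτ/h)`.
-/

set_option autoImplicit false

noncomputable section

open Complex Filter Function
open UpperHalfPlane hiding I
open scoped Real Topology Manifold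

namespace Fermat.Agent.Modular

local notation "𝕢" => Function.Periodic.qParam

/-- `f` is given on all of `ℍ` by the Laurent series `x` in `exp (2πiτ/h)`. -/
def HasQExp (h : ℝ) (f : ℍ → ℂ) (x : LaurentSeries ℂ) : Prop :=
  ∀ τ : ℍ, HasSum (fun n : ℤ => x.coeff n * 𝕢 h τ ^ n) (f τ)

theorem hasSum_coeff_mul (x y : LaurentSeries ℂ) (n : ℤ) :
    HasSum (fun i => x.coeff i * y.coeff (n - i)) ((x * y).coeff n) := by
  have key : (x * y).coeff n = ∑ i ∈ (Finset.antidiagonal x.isPWO_support y.isPWO_support n).image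
      Prod.fst, x.coeff i * y.coeff (n - i) := by
    rw [HahnSeries.coeff_mul, Finset.sum_image]
    · refine Finset.sum_congr rfl fun ij hij => ?_
      obtain ⟨-, -, hn⟩ := Finset.mem_antidiagonal.1 hij
      rw [show n - ij.1 = ij.2 by omega]
    · intro a ha b hb hab
      obtain ⟨-, -, ha⟩ := Finset.mem_antidiagonal.1 ha
      obtain ⟨-, -, hb⟩ := Finset.mem_antidiagonal.1 hb
      exact Prod.ext hab (by omega)
  rw [key]
  refine hasSum_sum_of_ne_finset_zero fun i hi => ?_
  by_contra hne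
  obtain ⟨hx, hy⟩ := mul_ne_zero_iff.1 hne
  exact hi (Finset.mem_image.2 ⟨(i, n - i),
    Finset.mem_antidiagonal.2 ⟨hx, hy, by simp⟩, rfl⟩)

theorem hasSum_fiber (a b c : ℤ → ℂ) {A : ℂ} (hs : HasSum (fun p : ℤ × ℤ => a p.1 * b p.2) A)
    (hc : ∀ n, HasSum (fun i => a i * b (n - i)) (c n)) : HasSum c A := by
  let e : ℤ × ℤ ≃ ℤ × ℤ :=
    ⟨fun p => (p.2, p.1 - p.2), fun p => (p.1 + p.2, p.1), fun p => by ext <;> simp,
      fun p => by ext <;> simp⟩
  have hs' : HasSum ((fun p : ℤ × ℤ => a p.1 * b p.2) ∘ e) A := e.hasSum_iff.2 hs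
  exact HasSum.prod_fiberwise hs' hc

theorem hasSum_mul_aux (a b c : ℤ → ℂ) {q A B : ℂ} (hq : q ≠ 0)
    (h1 : HasSum (fun n => a n * q ^ n) A) (h2 : HasSum (fun n => b n * q ^ n) B)
    (hc : ∀ n, HasSum (fun i => a i * b (n - i)) (c n)) :
    HasSum (fun n => c n * q ^ n) (A * B) := by
  let a' : ℤ → ℂ := fun n => a n * q ^ n
  let b' : ℤ → ℂ := fun n => b n * q ^ n
  have n1 : Summable fun n => ‖a' n‖ := h1.summable.norm
  have n2 : Summable fun n => ‖b' n‖ := h2.summable.norm
  have hp : Summable fun p : ℤ × ℤ => a' p.1 * b' p.2 := summable_mul_of_summable_norm n1 n2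
  have hs : HasSum (fun p : ℤ × ℤ => a' p.1 * b' p.2) (A * B) :=
    HasSum.mul (f := a') (g := b') h1 h2 hp
  refine hasSum_fiber a' b' _ hs fun n => ((hc n).mul_right (q ^ n)).congr_fun fun i => ?_
  show a i * q ^ i * (b (n - i) * q ^ (n - i)) = _
  rw [mul_mul_mul_comm, ← zpow_add₀ hq, add_sub_cancel]

namespace HasQExp

variable {h : ℝ} {f g : ℍ → ℂ} {x y : LaurentSeries ℂ}

theorem single (h : ℝ) (m : ℤ) (c : ℂ) :
    HasQExp h (fun τ => c * 𝕢 h τ ^ m) (HahnSeries.single m c) := by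
  intro τ
  convert! hasSum_single (f := fun n : ℤ => (HahnSeries.single m c).coeff n * 𝕢 h τ ^ n) m ?_ using 1
  · simp
  · intro n hn
    simp [HahnSeries.coeff_single_of_ne hn]

theorem const (h : ℝ) (c : ℂ) : HasQExp h (fun _ => c) (HahnSeries.C c) := by
  simpa [HahnSeries.C_apply] using single h 0 c

theorem const_algebraMap (h : ℝ) (c : ℂ) :
    HasQExp h (fun _ => c) (algebraMap ℂ (LaurentSeries ℂ) c) := by
  rw [ModularCurve.algebraMap_laurentSeries_eq_single]
  simpa using single h 0 c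

theorem zero (h : ℝ) : HasQExp h 0 0 := fun τ => by simp [hasSum_zero]

theorem one (h : ℝ) : HasQExp h 1 1 := by
  have := single h 0 1
  simpa [Pi.one_def] using this

theorem congr (hf : HasQExp h f x) (e : ∀ τ, f τ = g τ) : HasQExp h g x :=
  fun τ => e τ ▸ hf τ

theorem add (hf : HasQExp h f x) (hg : HasQExp h g y) : HasQExp h (f + g) (x + y) :=
  fun τ => by simpa [add_mul] using (hf τ).add (hg τ)

theorem neg (hf : HasQExp h f x) : HasQExp h (-f) (-x) :=
  fun τ => by simpa using (hf τ).neg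

theorem sub (hf : HasQExp h f x) (hg : HasQExp h g y) : HasQExp h (f - g) (x - y) :=
  fun τ => by simpa [sub_mul] using (hf τ).sub (hg τ)

theorem mul (hf : HasQExp h f x) (hg : HasQExp h g y) : HasQExp h (f * g) (x * y) := fun τ =>
  hasSum_mul_aux (fun n => x.coeff n) (fun n => y.coeff n) (fun n => (x * y).coeff n)
    (Function.Periodic.qParam_ne_zero (τ : ℂ)) (hf τ) (hg τ) (hasSum_coeff_mul x y)

theorem pow (hf : HasQExp h f x) (n : ℕ) : HasQExp h (f ^ n) (x ^ n) := by
  induction n with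
  | zero => simpa using one h
  | succ n ih => simpa [pow_succ] using ih.mul hf

theorem const_mul (hf : HasQExp h f x) (c : ℂ) :
    HasQExp h (fun τ => c * f τ) (HahnSeries.C c * x) := (const h c).mul hf

theorem sum {ι : Type*} (s : Finset ι) {F : ι → ℍ → ℂ} {X : ι → LaurentSeries ℂ}
    (hF : ∀ i ∈ s, HasQExp h (F i) (X i)) : HasQExp h (∑ i ∈ s, F i) (∑ i ∈ s, X i) := by
  classical
  induction s using Finset.induction with
  | empty => simpa using zero h
  | insert a s ha ih =>
    rw [Finset.sum_insert ha, Finset.sum_insert ha]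
    exact (hF a (Finset.mem_insert_self a s)).add
      (ih fun i hi => hF i (Finset.mem_insert_of_mem hi))

theorem prod {ι : Type*} (s : Finset ι) {F : ι → ℍ → ℂ} {X : ι → LaurentSeries ℂ}
    (hF : ∀ i ∈ s, HasQExp h (F i) (X i)) : HasQExp h (∏ i ∈ s, F i) (∏ i ∈ s, X i) := by
  classical
  induction s using Finset.induction with
  | empty => simpa using one h
  | insert a s ha ih =>
    rw [Finset.prod_insert ha, Finset.prod_insert ha]
    exact (hF a (Finset.mem_insert_self a s)).mul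
      (ih fun i hi => hF i (Finset.mem_insert_of_mem hi))

/-- The series determines the function. -/
theorem eq (hf : HasQExp h f x) (hg : HasQExp h g x) : f = g :=
  funext fun τ => (hf τ).unique (hg τ)

/-- Any point of the punctured unit disc is a value of the parameter. -/
theorem exists_qParam_eq (hh : 0 < h) {q : ℂ} (hq : ‖q‖ < 1) (hq0 : q ≠ 0) :
    ∃ τ : ℍ, 𝕢 h τ = q :=
  ⟨⟨_, Function.Periodic.im_invQParam_pos_of_norm_lt_one hh hq hq0⟩,
    Function.Periodic.qParam_right_inv hh.ne' hq0⟩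

theorem hasSum_nat (hf : HasQExp h f x) {m : ℤ} (hm : ∀ n < m, x.coeff n = 0) (τ : ℍ) :
    HasSum (fun k : ℕ => x.coeff (m + k) * 𝕢 h τ ^ k) (f τ * (𝕢 h τ ^ m)⁻¹) := by
  set q := 𝕢 h τ
  have hq : q ≠ 0 := Function.Periodic.qParam_ne_zero (τ : ℂ)
  have hinj : Injective fun k : ℕ => m + (k : ℤ) := fun a b hab => by simpa using hab
  have h1 : HasSum (fun k : ℕ => x.coeff (m + k) * q ^ (m + (k : ℤ))) (f τ) := by
    refine (hinj.hasSum_iff ?_).2 (hf τ)
    intro n hn
    by_cases hnm : n < m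
    · simp [hm n hnm]
    · exact absurd ⟨(n - m).toNat, by simp only; omega⟩ hn
  have h2 := h1.mul_right (q ^ m)⁻¹
  convert! h2 using 2 with k
  rw [zpow_add₀ hq, zpow_natCast]
  field_simp

/-- The power series `∑ x_{m+k} q^k` on the unit disc. -/
def discFun (x : LaurentSeries ℂ) (m : ℤ) (q : ℂ) : ℂ := ∑' k : ℕ, x.coeff (m + k) * q ^ k

theorem summable_nat (hf : HasQExp h f x) (hh : 0 < h) {m : ℤ} (hm : ∀ n < m, x.coeff n = 0)
    {q : ℂ} (hq : ‖q‖ < 1) : Summable fun k : ℕ => x.coeff (m + k) * q ^ k := by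
  rcases eq_or_ne q 0 with rfl | hq0
  · refine summable_of_ne_finset_zero (s := {0}) fun k hk => ?_
    simp [zero_pow (by simpa using hk)]
  · obtain ⟨τ, rfl⟩ := exists_qParam_eq hh hq hq0
    exact (hf.hasSum_nat hm τ).summable

theorem hasFPowerSeriesOnBall_discFun (hf : HasQExp h f x) (hh : 0 < h) {m : ℤ}
    (hm : ∀ n < m, x.coeff n = 0) :
    HasFPowerSeriesOnBall (discFun x m)
      (FormalMultilinearSeries.ofScalars ℂ fun k : ℕ => x.coeff (m + k)) 0 1 := by
  constructor
  · refine le_of_forall_lt_imp_le_of_dense fun r hr => ?_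
    lift r to NNReal using hr.ne_top
    apply FormalMultilinearSeries.le_radius_of_summable
    simp only [FormalMultilinearSeries.ofScalars_norm]
    have := (hf.summable_nat hh hm (q := ((r : ℝ) : ℂ)) (by simpa using hr)).norm
    simpa using this
  · simp
  · intro y hy
    rw [← ENNReal.coe_one, Metric.eball_coe, NNReal.coe_one, mem_ball_zero_iff] at hy
    simpa [discFun, mul_comm] using (hf.summable_nat hh hm hy).hasSum

theorem differentiableOn_discFun (hf : HasQExp h f x) (hh : 0 < h) {m : ℤ}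
    (hm : ∀ n < m, x.coeff n = 0) : DifferentiableOn ℂ (discFun x m) (Metric.ball 0 1) := by
  have := (hf.hasFPowerSeriesOnBall_discFun hh hm).analyticOnNhd.differentiableOn
  rwa [← ENNReal.coe_one, Metric.eball_coe, NNReal.coe_one] at this

theorem eq_qParam_mul_discFun (hf : HasQExp h f x) {m : ℤ} (hm : ∀ n < m, x.coeff n = 0)
    (τ : ℍ) : f τ = 𝕢 h τ ^ m * discFun x m (𝕢 h τ) := by
  have hq : 𝕢 h τ ^ m ≠ 0 := zpow_ne_zero _ (Function.Periodic.qParam_ne_zero (τ : ℂ))
  rw [discFun, (hf.hasSum_nat hm τ).tsum_eq]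
  field_simp

theorem exists_forall_lt_coeff_eq_zero (x : LaurentSeries ℂ) :
    ∃ m : ℤ, ∀ n < m, x.coeff n = 0 :=
  ⟨x.order, fun _ hn => HahnSeries.coeff_eq_zero_of_lt_order hn⟩

theorem tendsto (hf : HasQExp h f x) (hh : 0 < h) {m : ℤ} (hm : ∀ n < m, x.coeff n = 0) :
    Tendsto (fun τ : ℍ => f τ * (𝕢 h τ ^ m)⁻¹) atImInfty (𝓝 (x.coeff m)) := by
  have hc := (hf.hasFPowerSeriesOnBall_discFun hh hm).hasFPowerSeriesAt.continuousAt
  have h0 : discFun x m 0 = x.coeff m := by
    rw [discFun, tsum_eq_single 0 fun k hk => by simp [zero_pow hk]]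
    simp
  have := hc.tendsto.comp (UpperHalfPlane.qParam_tendsto_atImInfty hh)
  rw [h0] at this
  refine this.congr fun τ => ?_
  exact (hf.hasSum_nat hm τ).tsum_eq

theorem eq_zero_of_eq_zero (hf : HasQExp h 0 x) (hh : 0 < h) : x = 0 := by
  by_contra hx
  have := hf.tendsto hh (m := x.order) fun n hn => HahnSeries.coeff_eq_zero_of_lt_order hn
  simp only [Pi.zero_apply, zero_mul] at this
  exact HahnSeries.coeff_order_eq_zero.not.2 hx (tendsto_nhds_unique this tendsto_const_nhds)

/-- The function determines the series. -/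
theorem unique (hf : HasQExp h f x) (hg : HasQExp h f y) (hh : 0 < h) : x = y :=
  sub_eq_zero.1 (eq_zero_of_eq_zero (by simpa using hf.sub hg) hh)

theorem eq_zero_iff (hf : HasQExp h f x) (hh : 0 < h) : f = 0 ↔ x = 0 :=
  ⟨fun e => eq_zero_of_eq_zero (e ▸ hf) hh, fun e => (e ▸ hf).eq (zero h)⟩

theorem mdifferentiable (hf : HasQExp h f x) (hh : 0 < h) : MDiff f := by
  obtain ⟨m, hm⟩ := exists_forall_lt_coeff_eq_zero x
  rw [UpperHalfPlane.mdifferentiable_iff]
  intro z hz
  have hmem : 𝕢 h z ∈ Metric.ball (0 : ℂ) 1 := by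
    simpa using Function.Periodic.norm_qParam_lt_one hh hz
  have h1 : DifferentiableAt ℂ (fun w => 𝕢 h w ^ m * discFun x m (𝕢 h w)) z := by
    refine DifferentiableAt.mul ?_ ?_
    · exact DifferentiableAt.zpow (by fun_prop) (Or.inl (Function.Periodic.qParam_ne_zero z))
    · exact ((hf.differentiableOn_discFun hh hm).differentiableAt
        (Metric.isOpen_ball.mem_nhds hmem)).comp z (by fun_prop)
  refine (h1.differentiableWithinAt).congr (fun w hw => ?_) ?_
  · simp [UpperHalfPlane.ofComplex_apply_of_im_pos hw, hf.eq_qParam_mul_discFun hm]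
  · simp [UpperHalfPlane.ofComplex_apply_of_im_pos hz, hf.eq_qParam_mul_discFun hm]

/-- Values agree at points with the same parameter. -/
theorem apply_eq_of_qParam_eq (hf : HasQExp h f x) {τ τ' : ℍ} (e : 𝕢 h τ = 𝕢 h τ') :
    f τ = f τ' :=
  (hf τ).unique (e ▸ hf τ')

theorem periodic (hf : HasQExp h f x) (hh : h ≠ 0) (τ τ' : ℍ) (n : ℤ)
    (e : (τ' : ℂ) = τ + n * h) : f τ' = f τ := by
  refine hf.apply_eq_of_qParam_eq ?_
  have hh' : (h : ℂ) ≠ 0 := Complex.ofReal_ne_zero.2 hh
  rw [Function.Periodic.qParam, Function.Periodic.qParam, e, Complex.exp_eq_exp_iff_exists_int]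
  exact ⟨n, by field_simp⟩

theorem isBoundedAtImInfty (hf : HasQExp h f x) (hh : 0 < h) (hx : ∀ n < 0, x.coeff n = 0) :
    IsBoundedAtImInfty f := by
  have := hf.tendsto hh hx
  simp only [zpow_zero, inv_one, mul_one] at this
  exact this.isBigO_one ℝ

theorem isZeroAtImInfty (hf : HasQExp h f x) (hh : 0 < h) (hx : ∀ n ≤ 0, x.coeff n = 0) :
    IsZeroAtImInfty f := by
  have := hf.tendsto hh (m := 0) fun n hn => hx n hn.le
  simpa [hx 0 le_rfl, UpperHalfPlane.IsZeroAtImInfty, Filter.ZeroAtFilter] using this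

theorem coeff_eq_zero_of_isBoundedAtImInfty (hf : HasQExp h f x) (hh : 0 < h)
    (hb : IsBoundedAtImInfty f) {n : ℤ} (hn : n < 0) : x.coeff n = 0 := by
  by_contra hne
  have hx : x ≠ 0 := fun e => hne (by simp [e])
  have hord : x.order < 0 := lt_of_le_of_lt (HahnSeries.order_le_of_coeff_ne_zero hne) hn
  obtain ⟨k, hk⟩ : ∃ k : ℕ, x.order = -((k + 1 : ℕ) : ℤ) := ⟨(-x.order - 1).toNat, by omega⟩
  have ht := hf.tendsto hh (m := x.order) fun n hn => HahnSeries.coeff_eq_zero_of_lt_order hn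
  have h0 : Tendsto (fun τ : ℍ => f τ * (𝕢 h τ ^ x.order)⁻¹) atImInfty (𝓝 0) := by
    simp only [hk, zpow_neg, inv_inv, zpow_natCast]
    have hq : UpperHalfPlane.IsZeroAtImInfty fun τ : ℍ => 𝕢 h τ ^ (k + 1) := by
      simpa [UpperHalfPlane.IsZeroAtImInfty, Filter.ZeroAtFilter] using
        (UpperHalfPlane.qParam_tendsto_atImInfty hh).pow (k + 1)
    have h2 := hb.mul ((Asymptotics.isLittleO_one_iff ℝ).2 hq).isBigO
    have h3 : (fun τ : ℍ => f τ * 𝕢 h τ ^ (k + 1)) =o[atImInfty] fun _ => (1 : ℝ) := by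
      simpa using (Asymptotics.IsBigO.mul_isLittleO hb ((Asymptotics.isLittleO_one_iff ℝ).2 hq))
    exact (Asymptotics.isLittleO_one_iff ℝ).1 h3
  exact HahnSeries.coeff_order_eq_zero.not.2 hx (tendsto_nhds_unique ht h0)

theorem coeff_zero_eq_zero_of_isZeroAtImInfty (hf : HasQExp h f x) (hh : 0 < h)
    (hz : IsZeroAtImInfty f) {n : ℤ} (hn : n ≤ 0) : x.coeff n = 0 := by
  have hb : IsBoundedAtImInfty f := hz.boundedAtFilter
  rcases hn.lt_or_eq with hn | rfl
  · exact hf.coeff_eq_zero_of_isBoundedAtImInfty hh hb hn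
  · have ht := hf.tendsto hh (m := 0) fun k hk => hf.coeff_eq_zero_of_isBoundedAtImInfty hh hb hk
    simp only [zpow_zero, inv_one, mul_one] at ht
    exact tendsto_nhds_unique ht hz

/-- A periodic holomorphic function bounded at infinity after multiplication by a power of the
parameter has a `q`-expansion. -/
theorem exists_of_isBoundedAtImInfty_mul (hh : 0 < h) (hper : Periodic (f ∘ ofComplex) h)
    (hhol : MDiff f) (m : ℤ) (hb : IsBoundedAtImInfty fun τ : ℍ => 𝕢 h τ ^ m * f τ) :
    ∃ x : LaurentSeries ℂ, HasQExp h f x ∧ ∀ n < -m, x.coeff n = 0 := by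
  set g : ℍ → ℂ := fun τ => 𝕢 h τ ^ m * f τ with hg
  have hqper : ∀ w : ℂ, 𝕢 h (w + h) = 𝕢 h w := by
    intro w
    have hh' : (h : ℂ) ≠ 0 := Complex.ofReal_ne_zero.2 hh.ne'
    rw [Function.Periodic.qParam, Function.Periodic.qParam, Complex.exp_eq_exp_iff_exists_int]
    exact ⟨1, by field_simp; simp⟩
  have gper : Periodic (g ∘ ofComplex) h := by
    intro w
    have hw' := hper w
    simp only [comp_apply] at hw' ⊢
    by_cases hw : 0 < w.im
    · have : 0 < (w + h).im := by simpa using hw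
      simp only [hg, ofComplex_apply_of_im_pos hw, ofComplex_apply_of_im_pos this] at hw' ⊢
      rw [hw']
      exact congrArg (fun t => t ^ m * _) (hqper w)
    · have : (w + h).im ≤ 0 := by simpa using not_lt.1 hw
      rw [ofComplex_apply_of_im_nonpos (not_lt.1 hw), ofComplex_apply_of_im_nonpos this]
  have ghol : MDiff g := by
    rw [UpperHalfPlane.mdifferentiable_iff] at hhol ⊢
    intro z hz
    refine ((DifferentiableAt.zpow (by fun_prop)
      (Or.inl (Function.Periodic.qParam_ne_zero z))).differentiableWithinAt.mul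
        (hhol z hz) : DifferentiableWithinAt ℂ (fun w => 𝕢 h w ^ m * (f ∘ ofComplex) w) _ z).congr
      (fun w hw => ?_) ?_
    · simp [hg, ofComplex_apply_of_im_pos hw]
    · simp [hg, ofComplex_apply_of_im_pos hz]
  refine ⟨HahnSeries.single (-m) 1 * HahnSeries.ofPowerSeries ℤ ℂ (qExpansion h g), ?_, ?_⟩
  · intro τ
    have hs := UpperHalfPlane.hasSum_qExpansion hh gper ghol hb τ
    have hq : 𝕢 h τ ≠ 0 := Function.Periodic.qParam_ne_zero (τ : ℂ)
    have hinj : Injective fun k : ℕ => -m + (k : ℤ) := fun a b hab => by simpa using hab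
    refine (hinj.hasSum_iff ?_).1 ?_
    · intro n hn
      have : n < -m := by
        by_contra hc
        exact hn ⟨(n + m).toNat, by simp only; omega⟩
      rw [HahnSeries.coeff_single_mul, ModularCurve.ofPowerSeries_coeff_of_neg _ (by omega)]
      simp
    · have h2 := hs.mul_left (𝕢 h τ ^ (-m))
      simp only [hg, smul_eq_mul, ← mul_assoc, ← zpow_add₀ hq, neg_add_cancel, zpow_zero,
        one_mul] at h2
      refine h2.congr_fun fun k => ?_
      simp only [comp_apply, HahnSeries.coeff_single_mul, one_mul]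
      rw [show -m + (k : ℤ) - -m = (k : ℤ) by ring, HahnSeries.ofPowerSeries_apply_coeff,
        zpow_add₀ hq, zpow_natCast]
      ring
  · intro n hn
    rw [HahnSeries.coeff_single_mul, ModularCurve.ofPowerSeries_coeff_of_neg _ (by omega)]
    simp

theorem ofPowerSeries {p : PowerSeries ℂ}
    (hf : ∀ τ : ℍ, HasSum (fun k : ℕ => p.coeff k * 𝕢 h τ ^ k) (f τ)) :
    HasQExp h f (HahnSeries.ofPowerSeries ℤ ℂ p) := by
  intro τ
  have hinj : Injective fun k : ℕ => (k : ℤ) := fun a b hab => by simpa using hab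
  refine (hinj.hasSum_iff ?_).1 ?_
  · intro n hn
    have : n < 0 := by
      by_contra hc
      exact hn ⟨n.toNat, Int.toNat_of_nonneg (by omega)⟩
    rw [ModularCurve.ofPowerSeries_coeff_of_neg _ this, zero_mul]
  · refine (hf τ).congr_fun fun k => ?_
    rw [comp_apply, HahnSeries.ofPowerSeries_apply_coeff, zpow_natCast]

/-- A quotient by a nowhere vanishing function again has an expansion. -/
theorem div (hf : HasQExp h f x) (hg : HasQExp h g y) (hh : 0 < h) (hne : ∀ τ, g τ ≠ 0) :
    HasQExp h (f / g) (x / y) := by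
  have hy : y ≠ 0 := fun e => by
    have := (hg.eq_zero_iff hh).2 e
    exact hne UpperHalfPlane.I (congrFun this _)
  have hper : Periodic ((f / g) ∘ ofComplex) h := by
    intro w
    simp only [comp_apply, Pi.div_apply]
    by_cases hw : 0 < w.im
    · have : 0 < (w + h).im := by simpa using hw
      rw [ofComplex_apply_of_im_pos hw, ofComplex_apply_of_im_pos this,
        hf.periodic hh.ne' ⟨w, hw⟩ ⟨w + h, this⟩ 1 (by simp),
        hg.periodic hh.ne' ⟨w, hw⟩ ⟨w + h, this⟩ 1 (by simp)]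
    · have : (w + h).im ≤ 0 := by simpa using not_lt.1 hw
      rw [ofComplex_apply_of_im_nonpos (not_lt.1 hw), ofComplex_apply_of_im_nonpos this]
  have hhol : MDiff (f / g) := by
    have h1 := hf.mdifferentiable hh
    have h2 := hg.mdifferentiable hh
    rw [UpperHalfPlane.mdifferentiable_iff] at h1 h2 ⊢
    exact fun z hz => (h1 z hz).div (h2 z hz) (hne _)
  have tx := hf.tendsto hh (m := x.order) fun n hn => HahnSeries.coeff_eq_zero_of_lt_order hn
  have ty := hg.tendsto hh (m := y.order) fun n hn => HahnSeries.coeff_eq_zero_of_lt_order hn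
  have hb : IsBoundedAtImInfty fun τ : ℍ => 𝕢 h τ ^ (y.order - x.order) * (f / g) τ := by
    have := (tx.div ty (HahnSeries.coeff_order_eq_zero.not.2 hy)).congr
      (f₂ := fun τ : ℍ => 𝕢 h τ ^ (y.order - x.order) * (f / g) τ) fun τ => by
        have hq : 𝕢 h τ ≠ 0 := Function.Periodic.qParam_ne_zero (τ : ℂ)
        have := hne τ
        simp only [Pi.div_apply, zpow_sub₀ hq]
        field_simp
    exact this.isBigO_one ℝ
  obtain ⟨z, hz, -⟩ := exists_of_isBoundedAtImInfty_mul hh hper hhol _ hb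
  have hzy : z * y = x :=
    ((hz.mul hg).congr fun τ => by simp [hne τ]).unique hf hh
  rwa [← hzy, mul_div_cancel_right₀ _ hy]

end HasQExp

/-- The series with coefficient `cⁿ xₙ`. -/
def twistSeries (c : ℂˣ) : LaurentSeries ℂ →+* LaurentSeries ℂ where
  toFun x := ⟨fun n => ((c ^ n : ℂˣ) : ℂ) * x.coeff n,
    x.isPWO_support.mono fun n hn => by
      simp only [Function.mem_support] at hn
      exact right_ne_zero_of_mul hn⟩
  map_one' := by
    ext n
    rcases eq_or_ne n 0 with rfl | hn <;> simp [HahnSeries.coeff_one, *]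
  map_zero' := by ext n; simp
  map_add' x y := by ext n; simp [mul_add]
  map_mul' x y := by
    ext n
    simp only [HahnSeries.coeff_mul, Finset.mul_sum]
    refine Finset.sum_congr ?_ fun ij hij => ?_
    · ext ij
      simp only [Finset.mem_antidiagonal, HahnSeries.mem_support, mul_ne_zero_iff,
        Units.ne_zero, not_false_eq_true, true_and, ne_eq]
    · obtain ⟨-, -, hn⟩ := Finset.mem_antidiagonal.1 hij
      rw [← hn, zpow_add, Units.val_mul]
      ring

@[simp]
theorem twistSeries_coeff (c : ℂˣ) (x : LaurentSeries ℂ) (n : ℤ) :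
    (twistSeries c x).coeff n = ((c ^ n : ℂˣ) : ℂ) * x.coeff n := rfl

/-- The point `(a τ + b) / d`. -/
def affineH (a : ℕ) [NeZero a] (b : ℤ) (d : ℕ) [NeZero d] (τ : ℍ) : ℍ :=
  ⟨(a * (τ : ℂ) + b) / d, by
    have ha : (0 : ℝ) < a := by exact_mod_cast Nat.pos_of_ne_zero (NeZero.ne a)
    have hd : (0 : ℝ) < d := by exact_mod_cast Nat.pos_of_ne_zero (NeZero.ne d)
    rw [Complex.div_natCast_im]
    simp only [Complex.add_im, Complex.mul_im, Complex.natCast_re, Complex.natCast_im,
      Complex.intCast_im, zero_mul, add_zero]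
    exact div_pos (mul_pos ha τ.im_pos) hd⟩

@[simp]
theorem coe_affineH (a : ℕ) [NeZero a] (b : ℤ) (d : ℕ) [NeZero d] (τ : ℍ) :
    (affineH a b d τ : ℂ) = (a * (τ : ℂ) + b) / d := rfl

/-- The point `d τ`. -/
abbrev mulH (d : ℕ) [NeZero d] (τ : ℍ) : ℍ := affineH d 0 1 τ

theorem coe_mulH (d : ℕ) [NeZero d] (τ : ℍ) : (mulH d τ : ℂ) = d * τ := by simp

namespace HasQExp

variable {h : ℝ} {f : ℍ → ℂ} {x : LaurentSeries ℂ}

/-- Substitution `q ↦ c q'^a` in a `q`-expansion. -/
theorem comp_of_qParam_eq (hf : HasQExp h f x) {h' : ℝ} (φ : ℍ → ℍ) (a : ℕ) [NeZero a] (c : ℂˣ)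
    (hφ : ∀ τ : ℍ, 𝕢 h (φ τ) = (c : ℂ) * 𝕢 h' τ ^ a) :
    HasQExp h' (f ∘ φ) (ModularCurve.qExpand ℂ a (twistSeries c x)) := by
  intro τ
  have hinj : Injective fun n : ℤ => (a : ℤ) * n :=
    mul_right_injective₀ (by exact_mod_cast NeZero.ne a)
  refine (hinj.hasSum_iff ?_).1 ?_
  · intro n hn
    rw [ModularCurve.qExpand_coeff_of_not_dvd _ _ fun ⟨k, hk⟩ => hn ⟨k, hk.symm⟩, zero_mul]
  · refine (hf (φ τ)).congr_fun fun n => ?_
    simp only [comp_apply, ModularCurve.qExpand_coeff_mul, twistSeries_coeff, hφ, mul_zpow,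
      Units.val_zpow_eq_zpow_val]
    rw [zpow_mul, zpow_natCast]
    ring

theorem comp_mulH (hf : HasQExp h f x) (d : ℕ) [NeZero d] :
    HasQExp h (fun τ => f (mulH d τ)) (ModularCurve.qExpand ℂ d x) := by
  have := hf.comp_of_qParam_eq (h' := h) (mulH d) d 1 fun τ => by
    rw [coe_mulH, Units.val_one, one_mul, Function.Periodic.qParam, Function.Periodic.qParam,
      ← Complex.exp_nat_mul]
    ring_nf
  have hx : twistSeries 1 x = x := by ext n; simp
  rw [hx] at this
  exact this

theorem comp_affineH (hf : HasQExp 1 f x) (a : ℕ) [NeZero a] (b : ℤ) (d : ℕ) [NeZero d] :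
    HasQExp (d : ℝ) (fun τ => f (affineH a b d τ))
      (ModularCurve.qExpand ℂ a
        (twistSeries (Units.mk0 (𝕢 (d : ℝ) (b : ℂ)) (Function.Periodic.qParam_ne_zero _)) x)) :=
  hf.comp_of_qParam_eq (h' := (d : ℝ)) (affineH a b d) a _ fun τ => by
    rw [Units.val_mk0, coe_affineH, Function.Periodic.qParam, Function.Periodic.qParam,
      Function.Periodic.qParam, ← Complex.exp_nat_mul, ← Complex.exp_add]
    congr 1
    push_cast
    field_simp
    ring

theorem dilate_period (hf : HasQExp h f x) (hh : h ≠ 0) (d : ℕ) [NeZero d] :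
    HasQExp (h * d) f (ModularCurve.qExpand ℂ d x) := by
  have := hf.comp_of_qParam_eq (h' := h * d) id d 1 fun τ => by
    have hh' : (h : ℂ) ≠ 0 := Complex.ofReal_ne_zero.2 hh
    have hd : (d : ℂ) ≠ 0 := Nat.cast_ne_zero.2 (NeZero.ne d)
    rw [id, Units.val_one, one_mul, Function.Periodic.qParam, Function.Periodic.qParam,
      ← Complex.exp_nat_mul]
    congr 1
    push_cast
    field_simp
  have hx : twistSeries 1 x = x := by ext n; simp
  simpa [hx] using this

end HasQExp

end Fermat.Agent.Modular
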