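import Mathlib.NumberTheory.ModularForms.Discriminant
import Mathlib.NumberTheory.ModularForms.EisensteinSeries.QExpansion
import Mathlib.Analysis.Complex.LocallyUniformLimit
import Mathlib.RingTheory.PowerSeries.Trunc
import Fermat.Prelude.Def_ModularCurve_JqCoeff
import Fermat.Prelude.Def_ModularCurve_ModularUnit
import Fermat.Agent.Modular.QExp

/-!
# The `q`-expansions of `E₄`, `Δ` and `j`

The formal series of the prelude are the expansions of the analytic functions.
-/

set_option autoImplicit false

noncomputable section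

open Complex Filter Function
open UpperHalfPlane hiding I
open scoped Real Topology Manifold MatrixGroups

namespace Fermat.Agent.Modular

local notation "𝕢" => Function.Periodic.qParam

/-- An integral power series, seen as a complex Laurent series. -/
def intSeriesC : PowerSeries ℤ →+* LaurentSeries ℂ :=
  (HahnSeries.ofPowerSeries ℤ ℂ).comp (PowerSeries.map (Int.castRingHom ℂ))

theorem intSeriesC_apply (p : PowerSeries ℤ) :
    intSeriesC p = HahnSeries.ofPowerSeries ℤ ℂ (p.map (Int.castRingHom ℂ)) := rfl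

theorem hasQExp_eisenstein4 :
    HasQExp 1 ModularForm.E₄ (intSeriesC ModularCurve.eisenstein4) := by
  refine HasQExp.ofPowerSeries fun τ => ?_
  have hcoeff : ∀ m : ℕ, (qExpansion (1 : ℝ) ModularForm.E₄).coeff m =
      (ModularCurve.eisenstein4.map (Int.castRingHom ℂ)).coeff m := by
    intro m
    have hb : bernoulli 4 = -1 / 30 := by
      rw [bernoulli_eq_bernoulli'_of_ne_one (by norm_num), bernoulli'_four]
    rw [EisensteinSeries.E_qExpansion_coeff (by norm_num) ⟨2, rfl⟩, PowerSeries.coeff_map,
      ModularCurve.eisenstein4, PowerSeries.coeff_mk, hb, ArithmeticFunction.sigma_apply]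
    split_ifs with hm
    · simp
    · simp only [map_mul, eq_intCast, map_sum, map_pow]
      push_cast
      norm_num
  have := ModularForm.hasSum_qExpansion ModularForm.E₄ one_pos one_mem_strictPeriods_SL τ
  simpa only [hcoeff] using this

/-- The infinite product `∏ (1 - q^(n+1))`. -/
def eulerProd (q : ℂ) : ℂ := ∏' n : ℕ, (1 - q ^ (n + 1))

theorem coeff_etaProd_eq (n : ℕ) {N : ℕ} (hN : n ≤ N) :
    (ModularCurve.etaProd).coeff n =
      (∏ i ∈ Finset.range N, ((1 : Polynomial ℤ) - Polynomial.X ^ (i + 1))).coeff n := by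
  open scoped PowerSeries.WithPiTopology in
  have hcont : Continuous fun p : PowerSeries ℤ => p.coeff n :=
    PowerSeries.WithPiTopology.continuous_coeff ℤ n
  open scoped PowerSeries.WithPiTopology in
  have hlim := (hcont.tendsto _).comp
    (PowerSeries.WithPiTopology.multipliable_one_sub_X_pow ℤ).hasProd.tendsto_prod_nat
  refine tendsto_nhds_unique hlim ?_
  refine tendsto_const_nhds.congr' (eventually_atTop.2 ⟨N, fun M hM => ?_⟩)
  simp only [comp_apply]
  induction M, hM using Nat.le_induction with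
  | base =>
    rw [← Polynomial.coeff_coe, ← Polynomial.coeToPowerSeries.ringHom_apply, map_prod]
    simp
  | succ M hM ih =>
    rw [Finset.prod_range_succ, mul_sub, mul_one, map_sub, PowerSeries.coeff_mul_X_pow',
      if_neg (by omega), sub_zero, ih]

theorem iteratedDeriv_polynomial_eval (p : Polynomial ℂ) (n : ℕ) :
    iteratedDeriv n (fun q : ℂ => p.eval q) = fun q => (Polynomial.derivative^[n] p).eval q := by
  induction n with
  | zero => simp
  | succ n ih =>
    rw [iteratedDeriv_succ, ih, Function.iterate_succ_apply']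
    funext q
    exact Polynomial.deriv _

theorem differentiableOn_eulerProd : DifferentiableOn ℂ eulerProd (Metric.ball 0 1) :=
  ModularForm.differentiableOn_tprod_one_sub_pow

theorem taylor_eulerProd (n : ℕ) :
    iteratedDeriv n eulerProd 0 = (n.factorial : ℂ) * ((ModularCurve.etaProd).coeff n : ℤ) := by
  set P : ℕ → ℂ → ℂ := fun N q => ∏ i ∈ Finset.range N, (1 - q ^ (i + 1)) with hP
  have hlim0 : TendstoLocallyUniformlyOn P eulerProd atTop (Metric.ball (0 : ℂ) 1) := by
    have := ModularForm.multipliableLocallyUniformlyOn_one_sub_pow.hasProdLocallyUniformlyOn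
    intro u hu x hx
    obtain ⟨t, ht, hev⟩ := this u hu x hx
    exact ⟨t, ht, tendsto_finset_range.eventually hev⟩
  set p : ℕ → Polynomial ℂ := fun N =>
    (∏ i ∈ Finset.range N, ((1 : Polynomial ℤ) - Polynomial.X ^ (i + 1))).map (Int.castRingHom ℂ)
    with hp
  have hPp : ∀ N, P N = fun q => (p N).eval q := by
    intro N
    funext q
    simp [hP, hp, Polynomial.map_prod, Polynomial.eval_prod]
  have hlim : ∀ k, TendstoLocallyUniformlyOn (fun N => iteratedDeriv k (P N))
      (iteratedDeriv k eulerProd) atTop (Metric.ball (0 : ℂ) 1) := by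
    intro k
    induction k with
    | zero => simpa using hlim0
    | succ k ih =>
      simp only [iteratedDeriv_succ]
      refine ih.deriv (Eventually.of_forall fun N => ?_) Metric.isOpen_ball
      rw [hPp, iteratedDeriv_polynomial_eval]
      exact (Polynomial.differentiable _).differentiableOn
  refine tendsto_nhds_unique ((hlim n).tendsto_at (Metric.mem_ball_self one_pos))
    (tendsto_const_nhds.congr' (eventually_atTop.2 ⟨n, fun N hN => ?_⟩))
  dsimp only
  rw [hPp, iteratedDeriv_polynomial_eval]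
  simp only [← Polynomial.coeff_zero_eq_eval_zero, Polynomial.coeff_iterate_derivative, zero_add,
    Nat.descFactorial_self, nsmul_eq_mul, hp, Polynomial.coeff_map, eq_intCast]
  rw [coeff_etaProd_eq n hN]

theorem hasQExp_eulerProd :
    HasQExp 1 (fun τ : ℍ => eulerProd (𝕢 1 τ)) (intSeriesC ModularCurve.etaProd) := by
  refine HasQExp.ofPowerSeries fun τ => ?_
  have hq : 𝕢 1 τ ∈ Metric.ball (0 : ℂ) 1 := by
    simpa using Function.Periodic.norm_qParam_lt_one one_pos τ.im_pos
  refine (Complex.hasSum_taylorSeries_on_ball (r := 1) differentiableOn_eulerProd hq).congr_fun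
    fun k => ?_
  rw [taylor_eulerProd, PowerSeries.coeff_map, eq_intCast, smul_eq_mul, smul_eq_mul, sub_zero]
  have : (k.factorial : ℂ) ≠ 0 := Nat.cast_ne_zero.2 k.factorial_ne_zero
  field_simp

theorem discriminant_eq_eulerProd (τ : ℍ) :
    ModularForm.discriminant τ = 𝕢 1 τ * eulerProd (𝕢 1 τ) ^ 24 := by
  rw [ModularForm.discriminant_eq_q_prod, eulerProd,
    (ModularForm.multipliable_one_sub_pow
      (Function.Periodic.norm_qParam_lt_one one_pos τ.im_pos)).tprod_pow]

theorem hasQExp_discriminant :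
    HasQExp 1 ModularForm.discriminant
      (HahnSeries.single 1 1 * intSeriesC ModularCurve.dedekindEtaUnit) := by
  have := (HasQExp.single 1 1 1).mul (hasQExp_eulerProd.pow 24)
  rw [← map_pow] at this
  refine this.congr fun τ => ?_
  simp [discriminant_eq_eulerProd]

/-- The modular invariant `j = E₄³ / Δ`. -/
def kleinJ (τ : ℍ) : ℂ := ModularForm.E₄ τ ^ 3 / ModularForm.discriminant τ

theorem kleinJ_def (τ : ℍ) :
    kleinJ τ = ModularForm.E₄ τ ^ 3 / ModularForm.discriminant τ := rfl

theorem kleinJ_smul (g : SL(2, ℤ)) (τ : ℍ) : kleinJ (g • τ) = kleinJ τ := by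
  have hg : (Matrix.SpecialLinearGroup.mapGL ℝ g) ∈ (𝒮ℒ : Subgroup (GL (Fin 2) ℝ)) := ⟨g, rfl⟩
  have h4 := SlashInvariantForm.slash_action_eqn'' ModularForm.E₄ hg τ
  have h12 := SlashInvariantForm.slash_action_eqn'' CuspForm.discriminant hg τ
  rw [CuspForm.coe_discriminant] at h12
  have hd := UpperHalfPlane.denom_ne_zero (Matrix.SpecialLinearGroup.mapGL ℝ g) τ
  change ModularForm.E₄ (Matrix.SpecialLinearGroup.mapGL ℝ g • τ) ^ 3 /
    ModularForm.discriminant (Matrix.SpecialLinearGroup.mapGL ℝ g • τ) = _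
  rw [h4, h12, mul_pow, ← zpow_natCast (_ ^ (4 : ℤ)), ← zpow_mul, kleinJ]
  exact mul_div_mul_left _ _ (zpow_ne_zero _ hd)

theorem intSeriesC_jNum_mul :
    intSeriesC ModularCurve.jNum * intSeriesC ModularCurve.dedekindEtaUnit =
      intSeriesC ModularCurve.eisenstein4 ^ 3 := by
  rw [← map_mul, ← map_pow, ModularCurve.jNum, mul_assoc,
    mul_comm ModularCurve.dedekindEtaUnitInv, ModularCurve.dedekindEtaUnit_mul_inv, mul_one]

theorem hasQExp_kleinJ : HasQExp 1 kleinJ (ModularCurve.jqModC ℂ) := by
  have h := (hasQExp_eisenstein4.pow 3).div hasQExp_discriminant one_pos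
    ModularForm.discriminant_ne_zero
  have hu : intSeriesC ModularCurve.dedekindEtaUnit ≠ 0 := fun e => by
    have := (hasQExp_discriminant.eq_zero_iff one_pos).2 (by rw [e, mul_zero])
    exact ModularForm.discriminant_ne_zero UpperHalfPlane.I (congrFun this _)
  have he : ModularCurve.jqModC ℂ = intSeriesC ModularCurve.eisenstein4 ^ 3 /
      (HahnSeries.single (1 : ℤ) 1 * intSeriesC ModularCurve.dedekindEtaUnit) := by
    rw [eq_div_iff (mul_ne_zero (HahnSeries.single_ne_zero one_ne_zero) hu),
      ← intSeriesC_jNum_mul, ModularCurve.jqModC, ← intSeriesC_apply, mul_mul_mul_comm,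
      HahnSeries.single_mul_single, neg_add_cancel, mul_one, ← HahnSeries.C_apply, map_one, one_mul]
  rw [he]
  exact h

theorem mdifferentiable_kleinJ : MDiff kleinJ := hasQExp_kleinJ.mdifferentiable one_pos

theorem continuous_kleinJ : Continuous kleinJ := mdifferentiable_kleinJ.continuous

theorem tendsto_kleinJ_mul_qParam :
    Tendsto (fun τ : ℍ => kleinJ τ * 𝕢 1 τ) atImInfty (𝓝 1) := by
  have hj : ModularCurve.jqModC ℂ =
      HahnSeries.single (-1 : ℤ) 1 * intSeriesC ModularCurve.jNum := rfl
  have h := hasQExp_kleinJ.tendsto one_pos (m := -1) fun n hn => by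
    rw [hj, HahnSeries.coeff_single_mul, intSeriesC_apply,
      ModularCurve.ofPowerSeries_coeff_of_neg _ (by omega), mul_zero]
  have hc : (ModularCurve.jqModC ℂ).coeff (-1) = 1 := by
    rw [hj, HahnSeries.coeff_single_mul, one_mul, sub_neg_eq_add, neg_add_cancel, intSeriesC_apply,
      show (0 : ℤ) = ((0 : ℕ) : ℤ) from rfl, HahnSeries.ofPowerSeries_apply_coeff]
    simp
  rw [hc] at h
  simpa using h

theorem coeffEmb_jq : ModularCurve.coeffEmb ℂ ModularCurve.jq = ModularCurve.jqModC ℂ := by
  rw [← ModularCurve.jqModC_rat]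
  exact ModularCurve.map_jqModC (algebraMap ℚ ℂ)

theorem coeffEmb_qExpand_jq (d : ℕ) [NeZero d] :
    ModularCurve.coeffEmb ℂ (ModularCurve.qExpand ℚ d ModularCurve.jq) =
      ModularCurve.qExpand ℂ d (ModularCurve.jqModC ℂ) := by
  rw [← coeffEmb_jq]
  ext k
  rw [ModularCurve.coeffEmb_coeff]
  by_cases hk : (d : ℤ) ∣ k
  · obtain ⟨m, rfl⟩ := hk
    rw [ModularCurve.qExpand_coeff_mul, ModularCurve.qExpand_coeff_mul,
      ModularCurve.coeffEmb_coeff]
  · rw [ModularCurve.qExpand_coeff_of_not_dvd _ _ hk, ModularCurve.qExpand_coeff_of_not_dvd _ _ hk,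
      map_zero]

theorem hasQExp_kleinJ_mulH (d : ℕ) [NeZero d] :
    HasQExp 1 (fun τ => kleinJ (mulH d τ))
      (ModularCurve.qExpand ℂ d (ModularCurve.jqModC ℂ)) :=
  hasQExp_kleinJ.comp_mulH d

theorem hasQExp_kleinJ_mulH' (d : ℕ) [NeZero d] :
    HasQExp 1 (fun τ => kleinJ (mulH d τ))
      (ModularCurve.coeffEmb ℂ (ModularCurve.qExpand ℚ d ModularCurve.jq)) :=
  (coeffEmb_qExpand_jq d).symm ▸ hasQExp_kleinJ_mulH d

end Fermat.Agent.Modular
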