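import Mathlib.NumberTheory.ModularForms.LevelOne.DimensionFormula
import Mathlib.Algebra.Polynomial.Bivariate
import Fermat.Agent.Modular.JFun

/-!
# `SL(2, ℤ)`-invariant functions of finite order at infinity are polynomials in `j`
-/

set_option autoImplicit false

noncomputable section

open UpperHalfPlane Filter Asymptotics EisensteinSeries ModularForm Manifold
open scoped Real Topology MatrixGroups

namespace Fermat.Agent.Modular

/-- `f` grows at most like `|q|⁻ᵐ` at `i∞`. -/
def GrowthLE (m : ℕ) (f : ℍ → ℂ) : Prop :=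
  f =O[atImInfty] fun z : ℍ => Real.exp (2 * π * m * z.im)

theorem GrowthLE.mono {m n : ℕ} {f : ℍ → ℂ} (hf : GrowthLE m f) (h : m ≤ n) : GrowthLE n f := by
  refine IsBigO.trans hf (IsBigO.of_bound 1 (Eventually.of_forall fun z => ?_))
  rw [one_mul, Real.norm_of_nonneg (Real.exp_pos _).le, Real.norm_of_nonneg (Real.exp_pos _).le,
    Real.exp_le_exp]
  have h1 := z.im_pos
  have h2 : (m : ℝ) ≤ n := by exact_mod_cast h
  gcongr

theorem GrowthLE.add {m : ℕ} {f g : ℍ → ℂ} (hf : GrowthLE m f) (hg : GrowthLE m g) :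
    GrowthLE m (f + g) :=
  IsBigO.add hf hg

theorem GrowthLE.neg {m : ℕ} {f : ℍ → ℂ} (hf : GrowthLE m f) : GrowthLE m (-f) :=
  IsBigO.neg_left hf

theorem GrowthLE.sub {m : ℕ} {f g : ℍ → ℂ} (hf : GrowthLE m f) (hg : GrowthLE m g) :
    GrowthLE m (f - g) :=
  IsBigO.sub hf hg

theorem GrowthLE.mul {m n : ℕ} {f g : ℍ → ℂ} (hf : GrowthLE m f) (hg : GrowthLE n g) :
    GrowthLE (m + n) (f * g) := by
  refine (IsBigO.mul hf hg).congr_right fun z => ?_
  rw [← Real.exp_add]
  push_cast
  ring_nf

theorem growthLE_const (c : ℂ) : GrowthLE 0 (fun _ => c) := by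
  refine IsBigO.of_bound ‖c‖ (Eventually.of_forall fun z => ?_)
  simp

theorem GrowthLE.sum {ι : Type*} {m : ℕ} (s : Finset ι) {f : ι → ℍ → ℂ}
    (hf : ∀ i ∈ s, GrowthLE m (f i)) : GrowthLE m (∑ i ∈ s, f i) := by
  have := IsBigO.sum (s := s) hf
  refine this.congr_left fun z => ?_
  simp [Finset.sum_apply]

theorem GrowthLE.prod {ι : Type*} {m : ℕ} (s : Finset ι) {f : ι → ℍ → ℂ}
    (hf : ∀ i ∈ s, GrowthLE m (f i)) : GrowthLE (s.card * m) (∏ i ∈ s, f i) := by
  classical
  induction s using Finset.induction with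
  | empty => simpa using! growthLE_const 1
  | insert i s hi ih =>
    rw [Finset.prod_insert hi, Finset.card_insert_of_notMem hi, Nat.succ_mul, add_comm]
    exact (hf i (Finset.mem_insert_self _ _)).mul
      (ih fun j hj => hf j (Finset.mem_insert_of_mem hj))

/-- Polynomials in functions of bounded growth. -/
theorem GrowthLE.pow {m : ℕ} {f : ℍ → ℂ} (hf : GrowthLE m f) (n : ℕ) :
    GrowthLE (n * m) (f ^ n) := by
  simpa using GrowthLE.prod (Finset.range n) (f := fun _ => f) fun _ _ => hf

theorem exp_neg_isBigO_discriminant_pow (n : ℕ) :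
    (fun z : ℍ => Real.exp (-2 * π * z.im) ^ n) =O[atImInfty]
      fun z => ModularForm.discriminant z ^ n :=
  ModularForm.exp_isBigO_discriminant.pow n

theorem discriminant_isBigO_exp :
    ModularForm.discriminant =O[atImInfty] fun z : ℍ => Real.exp (-2 * π * z.im) := by
  simpa using! CuspFormClass.exp_decay_atImInfty (h := 1) CuspForm.discriminant one_pos
    one_mem_strictPeriods_SL

theorem periodic_of_invariant {F : ℍ → ℂ} (hF : ∀ (γ : SL(2, ℤ)) z, F (γ • z) = F z) :
    Function.Periodic (F ∘ ofComplex) 1 := by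
  intro w
  by_cases hw : 0 < w.im
  · have hw' : 0 < (w + 1).im := by simpa using hw
    simp only [Function.comp_apply, ofComplex_apply_of_im_pos hw, ofComplex_apply_of_im_pos hw']
    convert! hF ModularGroup.T ⟨w, hw⟩ using 2
    rw [UpperHalfPlane.modular_T_smul]
    ext
    simp [add_comm]
  · have hw' : (w + 1).im ≤ 0 := by simpa using hw
    simp only [Function.comp_apply, ofComplex_apply_of_im_nonpos (not_lt.mp hw),
      ofComplex_apply_of_im_nonpos hw']

/-- `E₄³ → 1` exponentially fast. -/
theorem E4_cube_pow_sub_one (n : ℕ) :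
    (fun z : ℍ => ((ModularForm.E₄ z) ^ 3) ^ n - 1) =O[atImInfty]
      fun z : ℍ => Real.exp (-2 * π * z.im) := by
  have hv : valueAtInfty (⇑ModularForm.E₄) = 1 := by
    rw [← EisensteinSeries.E_qExpansion_coeff_zero (by norm_num : 3 ≤ 4) ⟨2, rfl⟩]
    refine (UpperHalfPlane.qExpansion_coeff_zero one_pos ?_ ?_).symm
    · exact ModularFormClass.analyticAt_cuspFunction_zero ModularForm.E₄ one_pos
        one_mem_strictPeriods_SL
    · exact SlashInvariantFormClass.periodic_comp_ofComplex ModularForm.E₄ one_mem_strictPeriods_SL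
  have h := UpperHalfPlane.exp_decay_sub_atImInfty (h := 1) one_pos
    (SlashInvariantFormClass.periodic_comp_ofComplex ModularForm.E₄ one_mem_strictPeriods_SL)
    ModularForm.E₄.holo' (ModularFormClass.bdd_at_infty ModularForm.E₄)
  simp only [hv, div_one] at h
  rw [← div_one (1 : ℂ)]
  have hb : ∀ k : ℕ, (fun z : ℍ => ModularForm.E₄ z ^ k) =O[atImInfty] fun _ => (1 : ℝ) := by
    intro k
    simpa using (show (⇑ModularForm.E₄) =O[atImInfty] fun _ => (1 : ℝ) from
      ModularFormClass.bdd_at_infty ModularForm.E₄).pow k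
  have hsum : (fun z : ℍ => ∑ k ∈ Finset.range (3 * n), ModularForm.E₄ z ^ k)
      =O[atImInfty] fun _ => (1 : ℝ) := (IsBigO.sum fun k _ => hb k).congr_left fun z => Finset.sum_apply _ _ _
  refine ((hsum.mul h).congr ?_ ?_)
  · intro z
    rw [geom_sum_mul, pow_mul, div_one]
  · intro z
    rw [one_mul]

/-- An invariant holomorphic function with growth `≤ m` at `i∞` is a polynomial of degree
`≤ m` in `j`. -/
theorem exists_polynomial_kleinJ (m : ℕ) (F : ℍ → ℂ) (hinv : ∀ (γ : SL(2, ℤ)) z, F (γ • z) = F z)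
    (hol : MDiff F) (hgr : GrowthLE m F) :
    ∃ p : Polynomial ℂ, p.natDegree ≤ m ∧ ∀ z, F z = p.eval (kleinJ z) := by
  induction m generalizing F with
  | zero =>
    have hbdd : IsBoundedAtImInfty F := by
      refine hgr.congr_right fun z => ?_
      simp
    let G : ModularForm 𝒮ℒ 0 :=
      { toFun := F
        slash_action_eq' := by
          rintro _ ⟨γ, rfl⟩
          funext z
          change (F ∣[(0 : ℤ)] γ) z = F z
          rw [ModularForm.SL_slash_apply, hinv]
          simp
        holo' := hol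
        bdd_at_cusps' := fun {c} hc => by
          rw [Subgroup.IsArithmetic.isCusp_iff_isCusp_SL2Z] at hc
          rw [OnePoint.isBoundedAt_iff_forall_SL2Z hc]
          intro γ _
          convert! hbdd using 1
          funext z
          rw [ModularForm.SL_slash_apply, hinv]
          simp }
    obtain ⟨c, hc⟩ := ModularFormClass.levelOne_weight_zero_const G
    exact ⟨Polynomial.C c, by simp, fun z => by rw [Polynomial.eval_C]; exact congrFun hc z⟩
  | succ m ih =>
    set D : ℍ → ℂ := ModularForm.discriminant with hD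
    set G : ℍ → ℂ := fun z => F z * D z ^ (m + 1) with hG
    have hGbdd : IsBoundedAtImInfty G := by
      refine (IsBigO.mul hgr (discriminant_isBigO_exp.pow (m + 1))).congr_right fun z => ?_
      rw [← Real.exp_nat_mul, ← Real.exp_add, Pi.one_apply]
      push_cast
      ring_nf
      exact Real.exp_zero
    have hDper : Function.Periodic (D ∘ ofComplex) 1 := by
      simpa [hD] using! SlashInvariantFormClass.periodic_comp_ofComplex CuspForm.discriminant
        one_mem_strictPeriods_SL
    have hGper : Function.Periodic (G ∘ ofComplex) 1 := by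
      intro w
      have h1 := periodic_of_invariant hinv w
      have h2 := hDper w
      simp only [Function.comp_apply, hG] at h1 h2 ⊢
      rw [h1, h2]
    have hGhol : MDiff G := hol.mul (CuspForm.discriminant.holo'.pow (m + 1))
    have hdecay := UpperHalfPlane.exp_decay_sub_atImInfty (h := 1) one_pos hGper hGhol hGbdd
    simp only [div_one] at hdecay
    set c := valueAtInfty G
    have hkey : (fun z => (F z - c * kleinJ z ^ (m + 1)) * D z ^ (m + 1)) =O[atImInfty]
        fun z : ℍ => Real.exp (-2 * π * z.im) := by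
      refine (hdecay.sub ((E4_cube_pow_sub_one (m + 1)).const_mul_left c)).congr_left fun z => ?_
      have hD0 : D z ≠ 0 := ModularForm.discriminant_ne_zero z
      simp only [hG, kleinJ_def, hD] at hD0 ⊢
      rw [div_pow, sub_mul, mul_assoc, div_mul_cancel₀ _ (pow_ne_zero _ hD0)]
      ring
    have hgr' : GrowthLE m (fun z => F z - c * kleinJ z ^ (m + 1)) := by
      have h1 : (fun z : ℍ => (D z)⁻¹ ^ (m + 1)) =O[atImInfty]
          fun z : ℍ => Real.exp (2 * π * z.im) ^ (m + 1) := by
        refine IsBigO.pow ?_ _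
        refine (ModularForm.exp_isBigO_discriminant.inv_rev ?_).congr_right fun z => ?_
        · exact Eventually.of_forall fun z h => absurd h (Real.exp_pos _).ne'
        · rw [← Real.exp_neg]
          ring_nf
      refine (hkey.mul h1).congr ?_ ?_
      · intro z
        rw [inv_pow, mul_inv_cancel_right₀ (pow_ne_zero _ (ModularForm.discriminant_ne_zero z))]
      · intro z
        rw [← Real.exp_nat_mul, ← Real.exp_add]
        push_cast
        ring_nf
    obtain ⟨p, hp, hpe⟩ := ih (fun z => F z - c * kleinJ z ^ (m + 1))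
      (fun γ z => by simp only [hinv, kleinJ_smul])
      (hol.sub (mdifferentiable_const.mul (mdifferentiable_kleinJ.pow (m + 1)))) hgr'
    refine ⟨p + Polynomial.C c * Polynomial.X ^ (m + 1), ?_, fun z => ?_⟩
    · refine (Polynomial.natDegree_add_le _ _).trans (max_le (hp.trans (Nat.le_succ m)) ?_)
      exact Polynomial.natDegree_C_mul_X_pow_le c (m + 1)
    · rw [Polynomial.eval_add, ← hpe z]
      simp



/-- Holomorphic functions on `ℍ` of at most exponential growth at `i∞`. -/
def Grow : Subalgebra ℂ (ℍ → ℂ) where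
  carrier := {f | MDiff f ∧ ∃ m, GrowthLE m f}
  mul_mem' := by
    rintro f g ⟨hf, m, hm⟩ ⟨hg, n, hn⟩
    exact ⟨hf.mul hg, m + n, hm.mul hn⟩
  add_mem' := by
    rintro f g ⟨hf, m, hm⟩ ⟨hg, n, hn⟩
    exact ⟨hf.add hg, max m n, (hm.mono (le_max_left m n)).add (hn.mono (le_max_right m n))⟩
  algebraMap_mem' c := ⟨mdifferentiable_const, 0, growthLE_const c⟩

/-- Evaluation at a point. -/
def evalHom (z : ℍ) : Grow →+* ℂ := (Pi.evalRingHom (fun _ : ℍ => ℂ) z).comp Grow.val.toRingHom

@[simp]
theorem evalHom_apply (z : ℍ) (F : Grow) : evalHom z F = (F : ℍ → ℂ) z := rfl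

theorem growthLE_kleinJ : GrowthLE 1 kleinJ := by
  have h1 : (fun z : ℍ => kleinJ z * Function.Periodic.qParam 1 z)
      =O[atImInfty] fun _ => (1 : ℝ) := tendsto_kleinJ_mul_qParam.isBigO_one ℝ
  have h2 : (fun z : ℍ => (Function.Periodic.qParam 1 (z : ℂ))⁻¹)
      =O[atImInfty] fun z : ℍ => Real.exp (2 * π * (1 : ℕ) * z.im) := by
    refine IsBigO.of_bound 1 (Eventually.of_forall fun z => le_of_eq ?_)
    rw [norm_inv, Function.Periodic.norm_qParam, Real.norm_of_nonneg (Real.exp_pos _).le,
      ← Real.exp_neg]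
    simp [div_one]
  refine (h1.mul h2).congr (fun z => ?_) (fun z => by rw [one_mul])
  rw [mul_inv_cancel_right₀ (Function.Periodic.qParam_ne_zero _)]

theorem kleinJ_mem_grow : kleinJ ∈ Grow := ⟨mdifferentiable_kleinJ, 1, growthLE_kleinJ⟩

theorem not_bounded_kleinJ : ¬ IsBoundedAtImInfty kleinJ := by
  intro h
  have hq : IsZeroAtImInfty fun z : ℍ => Function.Periodic.qParam 1 (z : ℂ) := by
    simpa [IsZeroAtImInfty, ZeroAtFilter] using UpperHalfPlane.qParam_tendsto_atImInfty one_pos
  have h0 := (Asymptotics.IsBigO.mul_isLittleO h ((Asymptotics.isLittleO_one_iff ℝ).2 hq))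
  simp only [Pi.one_apply, mul_one] at h0
  exact one_ne_zero (tendsto_nhds_unique tendsto_kleinJ_mul_qParam
    ((Asymptotics.isLittleO_one_iff ℝ).1 h0))

theorem infinite_range_kleinJ : (Set.range kleinJ).Infinite := by
  intro hfin
  obtain ⟨C, hC⟩ := hfin.isBounded.exists_norm_le
  refine not_bounded_kleinJ (IsBigO.of_bound C (Eventually.of_forall fun z => ?_))
  simpa using hC _ ⟨z, rfl⟩

theorem eq_zero_of_eval_kleinJ {p : Polynomial ℂ} (h : ∀ z, p.eval (kleinJ z) = 0) : p = 0 :=
  p.eq_zero_of_infinite_isRoot (infinite_range_kleinJ.mono (by rintro _ ⟨z, rfl⟩; exact h z))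

/-- An invariant element of `Grow` is a polynomial in `j`. -/
theorem exists_polynomial_of_invariant (F : Grow)
    (hinv : ∀ (γ : SL(2, ℤ)) z, evalHom (γ • z) F = evalHom z F) :
    ∃ p : Polynomial ℂ, ∀ z, evalHom z F = p.eval (kleinJ z) := by
  obtain ⟨m, hm⟩ := F.2.2
  obtain ⟨p, -, hp⟩ := exists_polynomial_kleinJ m F hinv F.2.1 hm
  exact ⟨p, hp⟩

theorem exists_bivariate_of_invariant (P : Polynomial Grow)
    (hinv : ∀ (γ : SL(2, ℤ)) z, P.map (evalHom (γ • z)) = P.map (evalHom z)) :
    ∃ R : Polynomial (Polynomial ℂ), R.natDegree ≤ P.natDegree ∧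
      ∀ z, R.map (Polynomial.evalRingHom (kleinJ z)) = P.map (evalHom z) := by
  have h : ∀ k, ∃ p : Polynomial ℂ, ∀ z, evalHom z (P.coeff k) = p.eval (kleinJ z) := by
    intro k
    refine exists_polynomial_of_invariant _ fun γ z => ?_
    simpa [Polynomial.coeff_map] using congrArg (fun Q => Q.coeff k) (hinv γ z)
  choose p hp using h
  refine ⟨∑ k ∈ Finset.range (P.natDegree + 1), Polynomial.monomial k (p k), ?_, fun z => ?_⟩
  · refine Polynomial.natDegree_sum_le_of_forall_le _ _ fun k hk => ?_
    refine (Polynomial.natDegree_monomial_le _).trans ?_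
    rw [Finset.mem_range] at hk
    omega
  · ext k
    simp only [Polynomial.coeff_map, Polynomial.finsetSum_coeff, Polynomial.coeff_monomial,
      Finset.sum_ite_eq', Finset.mem_range, Polynomial.coe_evalRingHom]
    split_ifs with hk
    · exact (hp k z).symm
    · rw [Polynomial.eval_zero, Polynomial.coeff_eq_zero_of_natDegree_lt (by omega), map_zero]

end Fermat.Agent.Modular

end
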