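import Fermat.Agent.Modular.Index
import Fermat.Agent.Modular.LevelOneFunctions

/-!
# Conjugates of `Γ₀(N)`-invariant functions

The conjugates of `j(N z)` are pairwise distinct; this gives the irreducible relation of
degree `ψ(N)` over `ℂ[j]` and the interpolation formula for arbitrary invariant functions.
-/

set_option autoImplicit false

noncomputable section

open CongruenceSubgroup UpperHalfPlane Filter Asymptotics Manifold
open scoped Real Topology MatrixGroups

namespace Fermat.Agent.Modular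

/-- `Γ₀(N)`-invariant functions, all of whose translates lie in `Grow`. -/
def IsModFun (N : ℕ) (F : ℍ → ℂ) : Prop :=
  (∀ γ ∈ Gamma0 N, ∀ z, F (γ • z) = F z) ∧ ∀ g : SL(2, ℤ), (fun z => F (g • z)) ∈ Grow

variable {N : ℕ}

/-- The conjugate at a coset. -/
def conjAt (F : ℍ → ℂ) (q : SL(2, ℤ) ⧸ Gamma0 N) (z : ℍ) : ℂ :=
  F ((Quotient.out q)⁻¹ • z)

theorem IsModFun.conjAt_mk {F : ℍ → ℂ} (hF : IsModFun N F) (g : SL(2, ℤ)) (z : ℍ) :
    conjAt F (QuotientGroup.mk g : SL(2, ℤ) ⧸ Gamma0 N) z = F (g⁻¹ • z) := by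
  obtain ⟨h, hh⟩ := QuotientGroup.mk_out_eq_mul (Gamma0 N) g
  rw [conjAt, show Quotient.out (QuotientGroup.mk g : SL(2, ℤ) ⧸ Gamma0 N) = g * h from hh,
    _root_.mul_inv_rev, mul_smul, hF.1 _ ((Gamma0 N).inv_mem h.2)]

theorem IsModFun.conjAt_one {F : ℍ → ℂ} (hF : IsModFun N F) (z : ℍ) :
    conjAt F (QuotientGroup.mk 1 : SL(2, ℤ) ⧸ Gamma0 N) z = F z := by
  rw [hF.conjAt_mk, inv_one, one_smul]

theorem IsModFun.conjAt_smul {F : ℍ → ℂ} (hF : IsModFun N F) (γ : SL(2, ℤ))
    (q : SL(2, ℤ) ⧸ Gamma0 N) (z : ℍ) :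
    conjAt F q (γ • z) = conjAt F (γ⁻¹ • q) z := by
  induction q using QuotientGroup.induction_on with
  | _ g =>
    rw [MulAction.Quotient.smul_mk, hF.conjAt_mk, hF.conjAt_mk, smul_eq_mul, _root_.mul_inv_rev,
      inv_inv, mul_smul]

/-- The conjugate as an element of `Grow`. -/
def conjGrow {F : ℍ → ℂ} (hF : IsModFun N F) (q : SL(2, ℤ) ⧸ Gamma0 N) : Grow :=
  ⟨conjAt F q, hF.2 _⟩

section Poly

variable [NeZero N]

/-- The cosets form a finite type. -/
@[reducible] def cosetFintype (N : ℕ) [NeZero N] : Fintype (SL(2, ℤ) ⧸ Gamma0 N) :=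
  Fintype.ofFinite _

attribute [local instance] cosetFintype

theorem card_cosets : Fintype.card (SL(2, ℤ) ⧸ Gamma0 N) = ModularCurve.dedekindPsi N := by
  rw [← Nat.card_eq_fintype_card, ← Subgroup.index_eq_card, index_Gamma0]

open Classical in
/-- `∏ (X - F_q)`. -/
def conjProd {F : ℍ → ℂ} (hF : IsModFun N F) : Polynomial Grow :=
  ∏ q : SL(2, ℤ) ⧸ Gamma0 N, (Polynomial.X - Polynomial.C (conjGrow hF q))

theorem map_conjProd {F : ℍ → ℂ} (hF : IsModFun N F) (z : ℍ) :
    (conjProd hF).map (evalHom z)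
      = ∏ q : SL(2, ℤ) ⧸ Gamma0 N, (Polynomial.X - Polynomial.C (conjAt F q z)) := by
  simp [conjProd, Polynomial.map_prod, conjGrow]

theorem exists_conjPoly {F : ℍ → ℂ} (hF : IsModFun N F) :
    ∃ R : Polynomial (Polynomial ℂ), R.Monic ∧ R.natDegree = ModularCurve.dedekindPsi N ∧
      ∀ z, R.map (Polynomial.evalRingHom (kleinJ z))
        = ∏ q : SL(2, ℤ) ⧸ Gamma0 N, (Polynomial.X - Polynomial.C (conjAt F q z)) := by
  classical
  obtain ⟨R, hdeg, hR⟩ := exists_bivariate_of_invariant (conjProd hF) fun γ z => by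
    rw [map_conjProd, map_conjProd]
    refine Fintype.prod_equiv (MulAction.toPerm γ⁻¹) _ _ fun q => ?_
    rw [hF.conjAt_smul]
    rfl
  have hd : (conjProd hF).natDegree = ModularCurve.dedekindPsi N := by
    rw [conjProd, Polynomial.natDegree_prod_of_monic _ _ fun q _ => Polynomial.monic_X_sub_C _]
    simp [card_cosets]
  have htop : R.coeff (ModularCurve.dedekindPsi N) = 1 := by
    rw [← sub_eq_zero]
    refine eq_zero_of_eval_kleinJ fun z => ?_
    have h := congrArg (fun Q => Q.coeff (ModularCurve.dedekindPsi N)) (hR z)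
    simp only [Polynomial.coeff_map, Polynomial.coe_evalRingHom] at h
    have hm : (conjProd hF).Monic := Polynomial.monic_prod_of_monic _ _
      fun q _ => Polynomial.monic_X_sub_C _
    have hc : (conjProd hF).coeff (ModularCurve.dedekindPsi N) = 1 := hd ▸ hm.coeff_natDegree
    rw [hc, map_one] at h
    simp [h]
  have hle : R.natDegree ≤ ModularCurve.dedekindPsi N := hd ▸ hdeg
  have hdeg' : R.natDegree = ModularCurve.dedekindPsi N :=
    le_antisymm hle (Polynomial.le_natDegree_of_ne_zero (by rw [htop]; exact one_ne_zero))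
  refine ⟨R, ?_, hdeg', fun z => by rw [hR, map_conjProd]⟩
  rw [Polynomial.Monic, Polynomial.leadingCoeff, hdeg', htop]

/-- Interpolation: for distinct-valued `F`, `G * ∏_{q ≠ 1}(F - F_q)` is in `ℂ[j, F]`. -/
theorem exists_interp {F G : ℍ → ℂ} (hF : IsModFun N F) (hG : IsModFun N G) :
    ∃ R : Polynomial (Polynomial ℂ), R.natDegree < ModularCurve.dedekindPsi N ∧
      ∀ z, R.evalEval (kleinJ z) (F z) = G z *
      (∏ q ∈ ({QuotientGroup.mk 1}ᶜ : Set (SL(2, ℤ) ⧸ Gamma0 N)).toFinite.toFinset,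
        (F z - conjAt F q z)) := by
  classical
  let P : Polynomial Grow := ∑ q : SL(2, ℤ) ⧸ Gamma0 N, Polynomial.C (conjGrow hG q) *
    ∏ q' ∈ Finset.univ.erase q, (Polynomial.X - Polynomial.C (conjGrow hF q'))
  have hmap : ∀ z, P.map (evalHom z) = ∑ q : SL(2, ℤ) ⧸ Gamma0 N,
      Polynomial.C (conjAt G q z) *
        ∏ q' ∈ Finset.univ.erase q, (Polynomial.X - Polynomial.C (conjAt F q' z)) := fun z => by
    simp [P, Polynomial.map_sum, Polynomial.map_prod, conjGrow]
  obtain ⟨R, hRdeg, hR⟩ := exists_bivariate_of_invariant P fun γ z => by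
    rw [hmap, hmap]
    refine Fintype.sum_equiv (MulAction.toPerm γ⁻¹) _ _ fun q => ?_
    rw [hG.conjAt_smul]
    congr 1
    refine Finset.prod_equiv (MulAction.toPerm γ⁻¹) (fun i => ?_) fun i _ => ?_
    · simp
    · rw [hF.conjAt_smul]
      rfl
  have hpos : 0 < ModularCurve.dedekindPsi N := by
    rw [← card_cosets]
    exact Fintype.card_pos
  have hPdeg : P.natDegree ≤ ModularCurve.dedekindPsi N - 1 := by
    refine Polynomial.natDegree_sum_le_of_forall_le _ _ fun q _ => ?_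
    refine (Polynomial.natDegree_C_mul_le _ _).trans ((Polynomial.natDegree_prod_le _ _).trans ?_)
    simp [Polynomial.natDegree_X_sub_C, Finset.card_erase_of_mem, card_cosets]
  refine ⟨R, by omega, fun z => ?_⟩
  rw [← Polynomial.map_evalRingHom_eval, hR, hmap, Polynomial.eval_finsetSum,
    Finset.sum_eq_single (QuotientGroup.mk 1 : SL(2, ℤ) ⧸ Gamma0 N)]
  · rw [Polynomial.eval_mul, Polynomial.eval_C, hG.conjAt_one, Polynomial.eval_prod]
    simp only [Polynomial.eval_sub, Polynomial.eval_X, Polynomial.eval_C]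
    congr 1
    refine Finset.prod_congr ?_ fun _ _ => rfl
    ext q
    simp
  · intro q _ hq
    rw [Polynomial.eval_mul, Polynomial.eval_prod]
    refine mul_eq_zero_of_right _ (Finset.prod_eq_zero
      (i := (QuotientGroup.mk 1 : SL(2, ℤ) ⧸ Gamma0 N)) ?_ ?_)
    · simpa using hq.symm
    · simp [hF.conjAt_one]
  · simp

/-- If the conjugates of `F` are pairwise distinct functions, a relation of degree `< ψ(N)`
between `j` and `F` is trivial. -/
theorem eq_zero_of_relation {F : ℍ → ℂ} (hF : IsModFun N F)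
    (hinj : Function.Injective (fun q : SL(2, ℤ) ⧸ Gamma0 N => conjAt F q))
    (R : Polynomial (Polynomial ℂ)) (hdeg : R.natDegree < ModularCurve.dedekindPsi N)
    (hR : ∀ z, R.evalEval (kleinJ z) (F z) = 0) : R = 0 := by
  classical
  have hall : ∀ (q : SL(2, ℤ) ⧸ Gamma0 N) z, R.evalEval (kleinJ z) (conjAt F q z) = 0 := by
    intro q z
    induction q using QuotientGroup.induction_on with
    | _ g => rw [hF.conjAt_mk, ← kleinJ_smul g⁻¹ z, hR]
  let D : ℍ → ℂ := ∏ p ∈ (Finset.univ : Finset ((SL(2, ℤ) ⧸ Gamma0 N) × (SL(2, ℤ) ⧸ Gamma0 N))).filter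
    (fun p => p.1 ≠ p.2), (conjAt F p.1 - conjAt F p.2)
  have hDm : ∀ p : (SL(2, ℤ) ⧸ Gamma0 N) × (SL(2, ℤ) ⧸ Gamma0 N),
      MDiff (conjAt F p.1 - conjAt F p.2) := fun p => (hF.2 _).1.sub (hF.2 _).1
  have hD : D ≠ 0 := by
    rw [Ne, UpperHalfPlane.prod_eq_zero_iff fun p _ => hDm p]
    rintro ⟨p, hp, hp0⟩
    exact (Finset.mem_filter.mp hp).2 (hinj (sub_eq_zero.mp hp0))
  ext1 k
  rw [Polynomial.coeff_zero]
  refine eq_zero_of_eval_kleinJ ?_
  let c : ℍ → ℂ := fun z => (R.coeff k).eval (kleinJ z)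
  have hc : c ∈ Grow := by
    have hca : c = Polynomial.aeval kleinJ (R.coeff k) := by
      funext z
      rw [← Pi.evalAlgHom_apply ℂ (fun _ : ℍ => ℂ) z (Polynomial.aeval kleinJ (R.coeff k)),
        ← Polynomial.aeval_algHom_apply]
      simp [c]
    rw [hca]
    exact (Algebra.adjoin_le (Set.singleton_subset_iff.mpr kleinJ_mem_grow))
      (Polynomial.aeval_mem_adjoin_singleton ℂ kleinJ)
  have hmul : c * D = 0 := by
    funext z
    by_cases hz : D z = 0
    · simp [hz]
    · have hdist : Function.Injective (fun q : SL(2, ℤ) ⧸ Gamma0 N => conjAt F q z) := by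
        intro a b hab
        by_contra hne
        refine hz ?_
        simp only [D, Finset.prod_apply]
        exact Finset.prod_eq_zero (i := (a, b)) (by simp [hne]) (by simpa [sub_eq_zero] using hab)
      have h0 : R.map (Polynomial.evalRingHom (kleinJ z)) = 0 := by
        refine Polynomial.eq_zero_of_natDegree_lt_card_of_eval_eq_zero _ hdist (fun q => ?_) ?_
        · rw [Polynomial.map_evalRingHom_eval]
          exact hall q z
        · exact (Polynomial.natDegree_map_le).trans_lt (card_cosets (N := N) ▸ hdeg)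
      have := congrArg (fun Q => Q.coeff k) h0
      simp only [Polynomial.coeff_map, Polynomial.coe_evalRingHom, Polynomial.coeff_zero] at this
      simp [c, this]
  have hDmd : MDiff D := by
    have h2 : ∀ s : Finset ((SL(2, ℤ) ⧸ Gamma0 N) × (SL(2, ℤ) ⧸ Gamma0 N)),
        (∏ p ∈ s, (conjAt F p.1 - conjAt F p.2)) ∈ Grow :=
      fun s => Subalgebra.prod_mem Grow fun p _ => Grow.sub_mem (hF.2 _) (hF.2 _)
    exact (h2 _).1
  exact congrFun (((UpperHalfPlane.mul_eq_zero_iff hc.1 hDmd).mp hmul).resolve_right hD)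

end Poly

/-! `j(d z)` -/

section JLevel

theorem coe_smul_SL (g : SL(2, ℤ)) (z : ℍ) :
    ((g • z : ℍ) : ℂ) = ((g 0 0 : ℂ) * z + g 0 1) / ((g 1 0 : ℂ) * z + g 1 1) := by
  rw [UpperHalfPlane.coe_specialLinearGroup_apply]
  simp

theorem denom_ne_zero_SL (g : SL(2, ℤ)) (z : ℍ) : (g 1 0 : ℂ) * z + g 1 1 ≠ 0 := by
  have := UpperHalfPlane.denom_ne_zero (Matrix.SpecialLinearGroup.mapGL ℝ g) z
  simpa [UpperHalfPlane.denom] using this

/-- If `diag(n,1) γ = δ M` with `M` upper triangular, then `n (γ z) = δ (M z)`. -/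
theorem mulH_smul (n a d : ℕ) [NeZero n] [NeZero a] [NeZero d] (b : ℤ) (γ δ : SL(2, ℤ))
    (h : (δ : Matrix (Fin 2) (Fin 2) ℤ) * !![(a : ℤ), b; 0, (d : ℤ)]
      = levelMat n * (γ : Matrix (Fin 2) (Fin 2) ℤ)) (z : ℍ) :
    mulH n (γ • z) = δ • affineH a b d z := by
  rw [levelMat_mul, Matrix.eta_fin_two (δ : Matrix (Fin 2) (Fin 2) ℤ), Matrix.mul_fin_two] at h
  have e00 := congrFun (congrFun h 0) 0
  have e01 := congrFun (congrFun h 0) 1
  have e10 := congrFun (congrFun h 1) 0
  have e11 := congrFun (congrFun h 1) 1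
  simp at e00 e01 e10 e11
  apply_fun (fun x : ℤ => (x : ℂ)) at e00 e01 e10 e11
  push_cast at e00 e01 e10 e11
  ext1
  rw [coe_mulH, coe_smul_SL, coe_smul_SL, coe_affineH]
  have hd : (d : ℂ) ≠ 0 := Nat.cast_ne_zero.mpr (NeZero.ne d)
  have hrhs : ∀ p q : ℂ, (p * (((a : ℂ) * z + b) / d) + q) =
      ((p * a) * z + (p * b + q * d)) / d := fun p q => by field_simp; ring
  rw [hrhs, hrhs, e00, e01, e10, e11, div_div_div_cancel_right₀ hd, mul_div_assoc', mul_add,
    mul_assoc]

theorem exists_affine (n : ℕ) [NeZero n] (g : SL(2, ℤ)) :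
    ∃ (x : ℕ × ℕ) (_ : NeZero (n / x.1)) (_ : NeZero x.1), x ∈ primTriples n ∧
      x = cosetTriple (QuotientGroup.mk g : SL(2, ℤ) ⧸ Gamma0 n) ∧
      ∀ z, kleinJ (mulH n (g⁻¹ • z)) = kleinJ (affineH (n / x.1) (x.2 : ℤ) x.1 z) := by
  set x := cosetTriple (QuotientGroup.mk g : SL(2, ℤ) ⧸ Gamma0 n)
  have hx : x ∈ primTriples n := cosetTriple_mem _
  obtain ⟨hd, hb, -⟩ := mem_primTriples.mp (show (x.1, x.2) ∈ primTriples n from hx)
  have hd0 : NeZero x.1 := ⟨by omega⟩
  have ha : NeZero (n / x.1) := ⟨(Nat.div_pos (Nat.le_of_dvd (Nat.pos_of_ne_zero (NeZero.ne n)) hd)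
    (Nat.pos_of_ne_zero hd0.out)).ne'⟩
  refine ⟨x, ha, hd0, hx, rfl, fun z => ?_⟩
  obtain ⟨δ, hδ⟩ := isTripleOf_cosetTriple (N := n) g
  rw [mulH_smul n (n / x.1) x.1 (x.2 : ℤ) g⁻¹ δ hδ z, kleinJ_smul]

theorem im_affineH (a : ℕ) [NeZero a] (b : ℤ) (d : ℕ) [NeZero d] (z : ℍ) :
    (affineH a b d z).im = (a : ℝ) * z.im / d := by
  show ((affineH a b d z : ℍ) : ℂ).im = _
  rw [coe_affineH, Complex.div_natCast_im]
  simp

theorem tendsto_affineH (a : ℕ) [NeZero a] (b : ℤ) (d : ℕ) [NeZero d] :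
    Tendsto (affineH a b d) atImInfty atImInfty := by
  have ha : (0 : ℝ) < a := by exact_mod_cast Nat.pos_of_ne_zero (NeZero.ne a)
  have hd : (0 : ℝ) < d := by exact_mod_cast Nat.pos_of_ne_zero (NeZero.ne d)
  rw [atImInfty, tendsto_comap_iff]
  refine (Tendsto.atTop_div_const hd ((tendsto_comap (f := UpperHalfPlane.im)).const_mul_atTop ha)).congr
    fun z => ?_
  exact (im_affineH a b d z).symm

theorem growthLE_affineH {m : ℕ} {f : ℍ → ℂ} (hf : GrowthLE m f) (a : ℕ) [NeZero a] (b : ℤ)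
    (d : ℕ) [NeZero d] : GrowthLE (m * a) (fun z => f (affineH a b d z)) := by
  refine (hf.comp_tendsto (tendsto_affineH a b d)).trans
    (IsBigO.of_bound 1 (Eventually.of_forall fun z => ?_))
  rw [one_mul, Function.comp_apply, Real.norm_of_nonneg (Real.exp_pos _).le,
    Real.norm_of_nonneg (Real.exp_pos _).le, Real.exp_le_exp, im_affineH]
  have hd : (1 : ℝ) ≤ d := by exact_mod_cast Nat.pos_of_ne_zero (NeZero.ne d)
  have h0 : 0 ≤ (a : ℝ) * z.im := mul_nonneg (Nat.cast_nonneg a) z.im_pos.le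
  have h2 : (a : ℝ) * z.im / d ≤ (a : ℝ) * z.im := div_le_self h0 hd
  have h3 : (0 : ℝ) ≤ 2 * π * m := by positivity
  push_cast
  nlinarith [mul_le_mul_of_nonneg_left h2 h3]

/-- `j(d z)`. -/
def jLevel (d : ℕ) [NeZero d] (z : ℍ) : ℂ := kleinJ (mulH d z)

theorem mdifferentiable_affineH (a : ℕ) [NeZero a] (b : ℤ) (d : ℕ) [NeZero d] :
    MDiff (affineH a b d) := by
  have ha : (0 : ℝ) < a := by exact_mod_cast Nat.pos_of_ne_zero (NeZero.ne a)
  have hd : (0 : ℝ) < d := by exact_mod_cast Nat.pos_of_ne_zero (NeZero.ne d)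
  have hdet : (!![(a : ℝ), (b : ℝ); 0, (d : ℝ)]).det ≠ 0 := by
    rw [Matrix.det_fin_two_of]
    simpa using (mul_pos ha hd).ne'
  set g : GL (Fin 2) ℝ := Matrix.GeneralLinearGroup.mkOfDetNeZero _ hdet
  have hg : 0 < g.det.val := by
    show 0 < (!![(a : ℝ), (b : ℝ); 0, (d : ℝ)]).det
    rw [Matrix.det_fin_two_of]
    simpa using mul_pos ha hd
  have h : affineH a b d = fun z => g • z := by
    funext z
    ext1
    rw [coe_affineH, UpperHalfPlane.coe_smul_of_det_pos hg]
    simp [UpperHalfPlane.num, UpperHalfPlane.denom, g]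
  rw [h]
  exact mdifferentiable_smul hg

theorem mem_grow_affineH (a : ℕ) [NeZero a] (b : ℤ) (d : ℕ) [NeZero d] :
    (fun z => kleinJ (affineH a b d z)) ∈ Grow :=
  ⟨mdifferentiable_kleinJ.comp (mdifferentiable_affineH a b d), _,
    growthLE_affineH growthLE_kleinJ a b d⟩

theorem isModFun_jLevel {N : ℕ} (d : ℕ) [NeZero d] (hd : d ∣ N) : IsModFun N (jLevel d) := by
  refine ⟨fun γ hγ z => ?_, fun g => ?_⟩
  · have hγd : γ ∈ Gamma0 d := by
      rw [Gamma0_mem, ZMod.intCast_zmod_eq_zero_iff_dvd] at hγ ⊢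
      exact (Int.natCast_dvd_natCast.mpr hd).trans hγ
    obtain ⟨δ, hδ⟩ := exists_conj_levelMat hγd
    have h := mulH_smul d d 1 0 γ δ (by simpa [levelMat] using hδ.symm) z
    rw [jLevel, h, kleinJ_smul]
    rfl
  · obtain ⟨x, ha, hb, -, -, hx⟩ := exists_affine d g⁻¹
    have : (fun z => jLevel d (g • z)) = fun z => kleinJ (affineH (d / x.1) (x.2 : ℤ) x.1 z) := by
      funext z
      rw [← hx z, inv_inv]
      rfl
    rw [this]
    exact mem_grow_affineH _ _ _

theorem isModFun_kleinJ (N : ℕ) : IsModFun N kleinJ :=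
  ⟨fun γ _ z => kleinJ_smul γ z,
    fun g => by simp only [kleinJ_smul]; exact kleinJ_mem_grow⟩

theorem affine_injective {n : ℕ} {a a' d d' : ℕ} [NeZero a] [NeZero a'] [NeZero d] [NeZero d']
    {b b' : ℕ} (had : a * d = n) (had' : a' * d' = n) (hb : b < d) (hb' : b' < d')
    (h : ∀ z, kleinJ (affineH a b d z) = kleinJ (affineH a' b' d' z)) : d = d' ∧ b = b' := by
  have h1 := tendsto_kleinJ_mul_qParam.comp (tendsto_affineH a (b : ℤ) d)
  have h2 := tendsto_kleinJ_mul_qParam.comp (tendsto_affineH a' (b' : ℤ) d')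
  set c : ℝ := (a : ℝ) / d - (a' : ℝ) / d' with hc
  set e : ℝ := (b : ℝ) / d - (b' : ℝ) / d' with he
  have hlim : Tendsto (fun z : ℍ => Complex.exp (2 * π * Complex.I * ((c : ℂ) * z + e))) atImInfty
      (𝓝 1) := by
    have h3 := h1.div h2 one_ne_zero
    rw [div_one] at h3
    refine h3.congr' ?_
    filter_upwards [h2.eventually_ne one_ne_zero] with z hz
    simp only [Function.comp_apply] at hz ⊢
    have hzj : kleinJ (affineH a' (b' : ℤ) d' z) ≠ 0 := left_ne_zero_of_mul hz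
    rw [Pi.div_apply, Function.comp_apply, Function.comp_apply, h z, mul_div_mul_left _ _ hzj,
      Function.Periodic.qParam, Function.Periodic.qParam, ← Complex.exp_sub, coe_affineH,
      coe_affineH, hc, he]
    congr 1
    push_cast
    ring
  have hnorm : Tendsto (fun z : ℍ => Real.exp (-(2 * π * c) * z.im)) atImInfty (𝓝 1) := by
    have := hlim.norm
    rw [norm_one] at this
    refine this.congr fun z => ?_
    rw [Complex.norm_exp]
    simp [mul_assoc]
  haveI hne : NeBot (atImInfty : Filter ℍ) := by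
    rw [atImInfty]
    exact comap_neBot fun t ht => by
      obtain ⟨A, hA⟩ := mem_atTop_sets.mp ht
      exact ⟨⟨⟨0, max A 1⟩, by simp⟩, hA _ (le_max_left A 1)⟩
  have hc0 : c = 0 := by
    have hlog := (Real.continuousAt_log one_ne_zero).tendsto.comp hnorm
    rw [Real.log_one] at hlog
    by_contra hne0
    have h4 : Tendsto (fun z : ℍ => -(2 * π * c) * z.im * (-(2 * π * c))⁻¹) atImInfty (𝓝 (0 * _)) :=
      (hlog.congr fun z => by simp [Real.log_exp]).mul_const _
    rw [zero_mul] at h4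
    have h5 : Tendsto (fun z : ℍ => z.im) atImInfty (𝓝 0) := h4.congr fun z => by
      have : (-(2 * π * c)) ≠ 0 := by simp [hne0, Real.pi_ne_zero]
      field_simp
    haveI : NeBot (comap UpperHalfPlane.im atTop) := hne
    exact not_tendsto_nhds_of_tendsto_atTop (tendsto_comap (f := UpperHalfPlane.im)) 0 h5
  have hdd : d = d' := by
    rw [hc, sub_eq_zero, div_eq_div_iff (by exact_mod_cast NeZero.ne d)
      (by exact_mod_cast NeZero.ne d')] at hc0
    have hnat : a * d' = a' * d := by exact_mod_cast hc0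
    have h6 : d' * d' * a = d * d * a := by
      calc d' * d' * a = d' * (a * d') := by ring
        _ = d' * (a' * d) := by rw [hnat]
        _ = d * (a' * d') := by ring
        _ = d * (a * d) := by rw [had', had]
        _ = d * d * a := by ring
    exact (Nat.mul_self_inj.mp (Nat.eq_of_mul_eq_mul_right (Nat.pos_of_ne_zero (NeZero.ne a)) h6)).symm
  subst hdd
  refine ⟨rfl, ?_⟩
  have hconst : Complex.exp (2 * π * Complex.I * (e : ℂ)) = 1 := by
    refine tendsto_nhds_unique ?_ hlim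
    simp [hc0]
  obtain ⟨k, hk⟩ := Complex.exp_eq_one_iff.mp hconst
  have hek : (e : ℂ) = k := mul_left_cancel₀ Complex.two_pi_I_ne_zero (hk.trans (mul_comm _ _))
  have hek' : e = k := by exact_mod_cast hek
  have hd : (0 : ℝ) < d := by exact_mod_cast Nat.pos_of_ne_zero (NeZero.ne d)
  rw [he, ← sub_div, div_eq_iff hd.ne'] at hek'
  have hint : (b : ℤ) - b' = k * d := by exact_mod_cast hek'
  have h7 : -1 < k ∧ k < 1 := by
    constructor <;> nlinarith [Int.natCast_nonneg b, Int.natCast_nonneg b',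
      (Int.ofNat_lt.mpr hb), (Int.ofNat_lt.mpr hb')]
  obtain rfl : k = 0 := by omega
  omega

theorem conjAt_jLevel_injective (N : ℕ) [NeZero N] :
    Function.Injective (fun q : SL(2, ℤ) ⧸ Gamma0 N => conjAt (jLevel N) q) := by
  intro p q h
  refine cosetTriple_injective ?_
  induction p using QuotientGroup.induction_on with
  | _ g => induction q using QuotientGroup.induction_on with
    | _ g' =>
      obtain ⟨x, _, _, hx, hxe, hxj⟩ := exists_affine N g
      obtain ⟨y, _, _, hy, hye, hyj⟩ := exists_affine N g'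
      rw [← hxe, ← hye]
      obtain ⟨hxd, hxb, -⟩ := mem_primTriples.mp (show (x.1, x.2) ∈ primTriples N from hx)
      obtain ⟨hyd, hyb, -⟩ := mem_primTriples.mp (show (y.1, y.2) ∈ primTriples N from hy)
      obtain ⟨h1, h2⟩ := affine_injective (n := N) (Nat.div_mul_cancel hxd)
        (Nat.div_mul_cancel hyd) hxb hyb fun z => by
          have hz := congrFun h z
          simp only [(isModFun_jLevel N dvd_rfl).conjAt_mk, jLevel] at hz
          rw [← hxj, ← hyj, hz]
      exact Prod.ext h1 h2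

end JLevel
end Fermat.Agent.Modular

end
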