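import Mathlib.Analysis.Complex.UpperHalfPlane.Manifold
import Mathlib.NumberTheory.ModularForms.Basic
import Mathlib.Analysis.Analytic.Order
import Mathlib.RingTheory.Valuation.ExtendToLocalization
import Mathlib.RingTheory.Localization.FractionRing
import Mathlib.Algebra.Ring.Action.Basic
import Mathlib.GroupTheory.GroupAction.Hom

/-!
# Holomorphic functions on the upper half plane and their fraction field

`Hol` is the domain of holomorphic functions on `ℍ`, `Mero` its fraction field.
`translate g` is `F ↦ F ∘ g⁻¹`, and `ordVal z` is the order of vanishing at `z`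
as a `ℤᵐ⁰`-valued valuation on `Mero`; `ordPt z` is its additive form.
-/

noncomputable section

open scoped Manifold Topology MatrixGroups
open UpperHalfPlane WithZero

namespace Fermat.Agent.Modular

/-- Holomorphic functions on the upper half plane. -/
def Hol : Subalgebra ℂ (ℍ → ℂ) where
  carrier := {f | MDiff f}
  mul_mem' hf hg := hf.mul hg
  add_mem' hf hg := hf.add hg
  algebraMap_mem' _ := mdifferentiable_const

theorem mem_hol {f : ℍ → ℂ} : f ∈ Hol ↔ MDiff f := Iff.rfl

theorem Hol.mdifferentiable (F : Hol) : MDiff (F : ℍ → ℂ) := F.2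

instance : IsDomain Hol :=
  haveI : NoZeroDivisors Hol := ⟨fun {F G} h => by
    have h' : (F : ℍ → ℂ) * (G : ℍ → ℂ) = 0 := congrArg Subtype.val h
    exact ((mul_eq_zero_iff F.2 G.2).mp h').imp Subtype.ext Subtype.ext⟩
  haveI : Nontrivial Hol := ⟨⟨0, 1, fun h => by
    simpa using congrFun (congrArg Subtype.val h) UpperHalfPlane.I⟩⟩
  NoZeroDivisors.to_isDomain _

/-- Meromorphic functions, as fractions of holomorphic ones. -/
abbrev Mero : Type := FractionRing Hol

/-- Translation of holomorphic functions: `F ↦ (z ↦ F (g⁻¹ • z))`. -/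
instance : SMul SL(2, ℤ) Hol where
  smul g F := ⟨fun z => (F : ℍ → ℂ) (g⁻¹ • z), by
    exact F.2.comp (mdifferentiable_smul (g := (Matrix.SpecialLinearGroup.mapGL ℝ g⁻¹)) (by simp))⟩

@[simp]
theorem smul_hol_apply (g : SL(2, ℤ)) (F : Hol) (z : ℍ) :
    (g • F : Hol).1 z = F.1 (g⁻¹ • z) := rfl

instance : MulSemiringAction SL(2, ℤ) Hol where
  one_smul F := by ext z; simp
  mul_smul g h F := by ext z; simp [mul_smul]
  smul_zero g := by ext z; simp
  smul_add g F G := by ext z; simp
  smul_one g := by ext z; simp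
  smul_mul g F G := by ext z; simp

theorem smul_algebraMap_hol (g : SL(2, ℤ)) (c : ℂ) :
    g • algebraMap ℂ Hol c = algebraMap ℂ Hol c := by
  ext z; rfl

/-- Translation, as a ring automorphism of `Mero`. -/
def translate : SL(2, ℤ) →* (Mero ≃+* Mero) where
  toFun g := IsFractionRing.ringEquivOfRingEquiv (MulSemiringAction.toRingEquiv _ Hol g)
  map_one' := by
    refine RingEquiv.toRingHom_injective (IsLocalization.ringHom_ext (nonZeroDivisors Hol) ?_)
    ext F; simp
  map_mul' g h := by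
    refine RingEquiv.toRingHom_injective (IsLocalization.ringHom_ext (nonZeroDivisors Hol) ?_)
    ext F; simp

@[simp]
theorem translate_algebraMap (g : SL(2, ℤ)) (F : Hol) :
    translate g (algebraMap Hol Mero F) = algebraMap Hol Mero (g • F) := by
  simp [translate]

theorem translate_mul (g h : SL(2, ℤ)) (φ : Mero) :
    translate (g * h) φ = translate g (translate h φ) := by
  rw [map_mul]; rfl

@[simp]
theorem translate_const (g : SL(2, ℤ)) (c : ℂ) :
    translate g (algebraMap ℂ Mero c) = algebraMap ℂ Mero c := by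
  rw [IsScalarTower.algebraMap_apply ℂ Hol Mero, translate_algebraMap, smul_algebraMap_hol]

/-- Order of vanishing of a holomorphic function at a point. -/
def holOrd (z : ℍ) (F : Hol) : ℕ := analyticOrderNatAt ((F : ℍ → ℂ) ∘ ofComplex) (z : ℂ)

theorem Hol.analyticAt (F : Hol) (z : ℍ) : AnalyticAt ℂ ((F : ℍ → ℂ) ∘ ofComplex) (z : ℂ) :=
  (UpperHalfPlane.mdifferentiable_iff.mp F.2).analyticAt (isOpen_upperHalfPlaneSet.mem_nhds z.im_pos)

theorem analyticOrderAt_eq_top_iff_hol {z : ℍ} {F : Hol} :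
    analyticOrderAt ((F : ℍ → ℂ) ∘ ofComplex) (z : ℂ) = ⊤ ↔ F = 0 := by
  rw [analyticOrderAt_eq_top]
  constructor
  · intro h
    ext w
    have hpc : IsPreconnected upperHalfPlaneSet := (convex_halfSpace_im_gt 0).isPreconnected
    have h1 := ((UpperHalfPlane.mdifferentiable_iff.mp F.2).analyticOnNhd isOpen_upperHalfPlaneSet)
      |>.eqOn_zero_of_preconnected_of_eventuallyEq_zero hpc z.im_pos h w.im_pos
    simpa using h1
  · rintro rfl
    exact Filter.Eventually.of_forall fun _ => rfl

theorem analyticOrderAt_hol {z : ℍ} {F : Hol} (hF : F ≠ 0) :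
    analyticOrderAt ((F : ℍ → ℂ) ∘ ofComplex) (z : ℂ) = holOrd z F :=
  (Nat.cast_analyticOrderNatAt (mt analyticOrderAt_eq_top_iff_hol.mp hF)).symm

theorem holOrd_mul {z : ℍ} {F G : Hol} (hF : F ≠ 0) (hG : G ≠ 0) :
    holOrd z (F * G) = holOrd z F + holOrd z G :=
  analyticOrderNatAt_mul (Hol.analyticAt F z) (Hol.analyticAt G z)
    (mt analyticOrderAt_eq_top_iff_hol.mp hF) (mt analyticOrderAt_eq_top_iff_hol.mp hG)

theorem min_holOrd_le_add {z : ℍ} {F G : Hol} (hF : F ≠ 0) (hG : G ≠ 0) (h : F + G ≠ 0) :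
    min (holOrd z F) (holOrd z G) ≤ holOrd z (F + G) := by
  have key := le_analyticOrderAt_add (f := (F : ℍ → ℂ) ∘ ofComplex)
    (g := (G : ℍ → ℂ) ∘ ofComplex) (z₀ := (z : ℂ))
  rw [show ((F : ℍ → ℂ) ∘ ofComplex + (G : ℍ → ℂ) ∘ ofComplex)
      = ((F + G : Hol) : ℍ → ℂ) ∘ ofComplex from rfl,
    analyticOrderAt_hol h, analyticOrderAt_hol hF, analyticOrderAt_hol hG] at key
  simp only [min_le_iff, Nat.cast_le] at key ⊢
  exact key

open scoped Classical in
/-- Order of vanishing at `z`, as a valuation on `Hol`. -/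
def holVal (z : ℍ) : Valuation Hol (WithZero (Multiplicative ℤ)) where
  toFun F := if F = 0 then 0 else exp (-(holOrd z F : ℤ))
  map_zero' := if_pos rfl
  map_one' := by
    have h : holOrd z (1 : Hol) = 0 := by
      have := holOrd_mul (z := z) (F := 1) (G := 1) one_ne_zero one_ne_zero
      simp only [one_mul] at this
      omega
    simp [h]
  map_mul' F G := by
    rcases eq_or_ne F 0 with rfl | hF
    · simp
    rcases eq_or_ne G 0 with rfl | hG
    · simp
    rw [if_neg (mul_ne_zero hF hG), if_neg hF, if_neg hG, holOrd_mul hF hG, ← exp_add]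
    congr 1
    push_cast
    ring
  map_add_le_max' F G := by
    rcases eq_or_ne F 0 with rfl | hF
    · simp
    rcases eq_or_ne G 0 with rfl | hG
    · simp
    rcases eq_or_ne (F + G) 0 with h | h
    · simp [h]
    rw [if_neg h, if_neg hF, if_neg hG, le_max_iff, exp_le_exp, exp_le_exp]
    have := min_holOrd_le_add (z := z) hF hG h
    omega

theorem holVal_apply {z : ℍ} {F : Hol} (hF : F ≠ 0) : holVal z F = exp (-(holOrd z F : ℤ)) :=
  if_neg hF

theorem holVal_supp (z : ℍ) : nonZeroDivisors Hol ≤ (holVal z).supp.primeCompl := by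
  intro F hF
  simp only [Ideal.mem_primeCompl_iff, Valuation.mem_supp_iff]
  rw [holVal_apply (nonZeroDivisors.ne_zero hF)]
  exact exp_ne_zero

/-- Order at `z`, as a valuation on `Mero`. -/
def ordVal (z : ℍ) : Valuation Mero (WithZero (Multiplicative ℤ)) :=
  (holVal z).extendToLocalization (holVal_supp z) Mero

@[simp]
theorem ordVal_algebraMap (z : ℍ) (F : Hol) :
    ordVal z (algebraMap Hol Mero F) = holVal z F :=
  Valuation.extendToLocalization_apply_map_apply _ _ _ _

/-- Order at `z` of a meromorphic function (`0` for the zero function). -/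
def ordPt (z : ℍ) (φ : Mero) : ℤ := -WithZero.log (ordVal z φ)

theorem ordPt_algebraMap {z : ℍ} {F : Hol} (hF : F ≠ 0) :
    ordPt z (algebraMap Hol Mero F) = holOrd z F := by
  simp [ordPt, holVal_apply hF]

theorem ordPt_mul {z : ℍ} {φ ψ : Mero} (hφ : φ ≠ 0) (hψ : ψ ≠ 0) :
    ordPt z (φ * ψ) = ordPt z φ + ordPt z ψ := by
  simp only [ordPt, map_mul]
  rw [WithZero.log_mul ((Valuation.ne_zero_iff _).mpr hφ) ((Valuation.ne_zero_iff _).mpr hψ)]
  ring

theorem holOrd_smul (g : SL(2, ℤ)) (z : ℍ) (F : Hol) :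
    holOrd z (g • F) = holOrd (g⁻¹ • z) F := by
  have hg : (0 : ℝ) < (Matrix.SpecialLinearGroup.mapGL ℝ g⁻¹ : GL (Fin 2) ℝ).val.det := by
    rw [← Matrix.GeneralLinearGroup.val_det_apply, Matrix.SpecialLinearGroup.det_mapGL]
    simp
  rw [holOrd, holOrd, analyticOrderNatAt, analyticOrderNatAt]
  congr 1
  set γ : GL (Fin 2) ℝ := Matrix.SpecialLinearGroup.mapGL ℝ g⁻¹
  have hz : ((γ • z : ℍ) : ℂ) = (fun w : ℂ => ((γ • ofComplex w : ℍ) : ℂ)) z := by simp
  have h1 : analyticOrderAt ((((F : ℍ → ℂ) ∘ ofComplex))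
      ∘ fun w : ℂ => ((γ • ofComplex w : ℍ) : ℂ)) (z : ℂ)
      = analyticOrderAt ((F : ℍ → ℂ) ∘ ofComplex) ((γ • z : ℍ) : ℂ) := by
    rw [analyticOrderAt_comp_of_deriv_ne_zero (analyticAt_smul hg z) (deriv_smul_ne_zero hg z)]
    simp
  refine Eq.trans (Eq.trans (analyticOrderAt_congr (Filter.Eventually.of_forall fun w => ?_)) h1) rfl
  simp [γ]
  rfl

theorem ordVal_translate (g : SL(2, ℤ)) (z : ℍ) (φ : Mero) :
    ordVal z (translate g φ) = ordVal (g⁻¹ • z) φ := by
  obtain ⟨a, b, hb, rfl⟩ := IsFractionRing.div_surjective (A := Hol) φ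
  have key : ∀ F : Hol, holVal z (g • F) = holVal (g⁻¹ • z) F := fun F => by
    rcases eq_or_ne F 0 with rfl | hF
    · simp
    rw [holVal_apply hF, holVal_apply ((smul_ne_zero_iff_ne g).mpr hF), holOrd_smul]
  simp [key]

theorem ordPt_translate (g : SL(2, ℤ)) (z : ℍ) (φ : Mero) :
    ordPt z (translate g φ) = ordPt (g⁻¹ • z) φ := by
  rw [ordPt, ordPt, ordVal_translate]

end Fermat.Agent.Modular
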