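import Mathlib.FieldTheory.IntermediateField.Adjoin.Algebra
import Mathlib.NumberTheory.ModularForms.CongruenceSubgroups
import Fermat.Prelude.Def_ModularCurve_X0ModL
import Fermat.Prelude.Def_ModularCurve_ArithmeticGalois
import Fermat.Agent.Modular.Hol
import Fermat.Agent.Modular.QExp
import Fermat.Agent.Modular.JFun

/-!
# Evaluation of the modular function field as meromorphic functions on `ℍ`

`RC N` is the ring `ℂ[j(q^d) : d ∣ N]`, `FC N` its fraction field inside `ℂ((q))`.
`evalHol`, `evalMero` send them to functions on `ℍ`.  For a field `L` with `ι : L →+* ℂ`,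
`toFC ι N` maps `FL L N = laurentBaseChange L (modularFunctionFieldFull N)` to `FC N`, and
`sigma ι N g` is the embedding `f ↦ f (g⁻¹ • z)`.
-/

noncomputable section

set_option linter.unusedSectionVars false

open scoped Manifold MatrixGroups
open UpperHalfPlane CongruenceSubgroup ModularCurve IntermediateField
open scoped IntermediateField.algebraAdjoinAdjoin

namespace Fermat.Agent.Modular

variable (N : ℕ) [NeZero N]

/-- `ℂ[j(q^d) : d ∣ N]`. -/
abbrev RC : Subalgebra ℂ (LaurentSeries ℂ) := Algebra.adjoin ℂ (divisorExpansionsC ℂ N)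

/-- `ℂ(j(q^d) : d ∣ N)`. -/
abbrev FC : IntermediateField ℂ (LaurentSeries ℂ) := modularFunctionFieldFullC ℂ N

/-- `F_L = L(j(q^d) : d ∣ N)`. -/
abbrev FL (L : Type*) [Field L] [Algebra ℚ L] : IntermediateField L (LaurentSeries L) :=
  laurentBaseChange L (modularFunctionFieldFull N)

instance : Algebra (RC N) (FC N) :=
  (Subalgebra.inclusion
    (IntermediateField.algebra_adjoin_le_adjoin ℂ (divisorExpansionsC ℂ N))).toRingHom.toAlgebra

instance : IsScalarTower ℂ (RC N) (FC N) := IsScalarTower.of_algebraMap_eq' rfl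

instance : IsFractionRing (RC N) (FC N) :=
  inferInstanceAs (IsFractionRing (Algebra.adjoin ℂ (divisorExpansionsC ℂ N))
    (IntermediateField.adjoin ℂ (divisorExpansionsC ℂ N)))

/-- `z ↦ j(dz)`. -/
def jHol (d : ℕ) [NeZero d] : Hol :=
  ⟨fun z => kleinJ (mulH d z), (hasQExp_kleinJ.comp_mulH d).mdifferentiable one_pos⟩

@[simp]
theorem jHol_apply (d : ℕ) [NeZero d] (z : ℍ) : (jHol d).1 z = kleinJ (mulH d z) := rfl

theorem hasQExp_jHol (d : ℕ) [NeZero d] :
    HasQExp 1 (jHol d).1 (qExpand ℂ d (jqModC ℂ)) :=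
  hasQExp_kleinJ.comp_mulH d

omit [NeZero N] in
theorem jHol_smul_of_mem {d : ℕ} [NeZero d] (hd : d ∣ N) {g : SL(2, ℤ)} (hg : g ∈ Gamma0 N)
    (z : ℍ) : (jHol d).1 (g • z) = (jHol d).1 z := by
  obtain ⟨k, hk⟩ : (d : ℤ) ∣ g 1 0 := by
    have h : (N : ℤ) ∣ g 1 0 := (ZMod.intCast_zmod_eq_zero_iff_dvd _ _).mp (Gamma0_mem.mp hg)
    exact (Int.natCast_dvd_natCast.mpr hd).trans h
  have hdet : g 0 0 * g 1 1 - g 0 1 * g 1 0 = 1 := by
    rw [← Matrix.det_fin_two]; exact g.2
  let h : SL(2, ℤ) := ⟨!![g 0 0, d * g 0 1; k, g 1 1],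
    by rw [Matrix.det_fin_two_of]; rw [hk] at hdet; linarith⟩
  have key : mulH d (g • z) = h • mulH d z := by
    apply UpperHalfPlane.ext
    rw [coe_mulH, coe_specialLinearGroup_apply, coe_specialLinearGroup_apply, coe_mulH]
    simp only [h, eq_intCast, Matrix.of_apply, Matrix.cons_val', Matrix.cons_val_zero,
      Matrix.cons_val_one, Matrix.empty_val', Matrix.cons_val_fin_one]
    rw [hk]
    push_cast
    rw [mul_div_assoc']
    congr 1 <;> ring
  rw [jHol_apply, jHol_apply, key, kleinJ_smul]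

theorem exists_hol_of_mem_RC {x : LaurentSeries ℂ} (hx : x ∈ RC N) :
    ∃ F : Hol, HasQExp 1 F.1 x ∧ ∀ g ∈ Gamma0 N, g • F = F := by
  induction hx using Algebra.adjoin_induction with
  | mem y hy =>
    obtain ⟨d, _, hd, rfl⟩ := hy
    exact ⟨jHol d, hasQExp_jHol d, fun g hg =>
      Subtype.ext (funext fun z => jHol_smul_of_mem N hd (inv_mem hg) z)⟩
  | algebraMap c => exact ⟨algebraMap ℂ Hol c, HasQExp.const_algebraMap 1 c,
      fun g _ => smul_algebraMap_hol g c⟩
  | add x y _ _ hx hy =>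
    obtain ⟨F, hF, hF'⟩ := hx
    obtain ⟨G, hG, hG'⟩ := hy
    exact ⟨F + G, hF.add hG, fun g hg => by rw [smul_add, hF' g hg, hG' g hg]⟩
  | mul x y _ _ hx hy =>
    obtain ⟨F, hF, hF'⟩ := hx
    obtain ⟨G, hG, hG'⟩ := hy
    exact ⟨F * G, hF.mul hG, fun g hg => by rw [smul_mul', hF' g hg, hG' g hg]⟩

/-- The function with a given expansion. -/
def evalHolFun (x : RC N) : Hol := (exists_hol_of_mem_RC N x.2).choose

theorem hasQExp_evalHolFun (x : RC N) :
    HasQExp 1 (evalHolFun N x).1 (x : LaurentSeries ℂ) :=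
  (exists_hol_of_mem_RC N x.2).choose_spec.1

theorem evalHolFun_eq {x : RC N} {F : Hol} (h : HasQExp 1 F.1 (x : LaurentSeries ℂ)) :
    evalHolFun N x = F :=
  Subtype.ext ((hasQExp_evalHolFun N x).eq h)

/-- `ℂ[j(q^d)] → Hol`. -/
def evalHol : RC N →ₐ[ℂ] Hol where
  toFun := evalHolFun N
  map_one' := evalHolFun_eq N (HasQExp.one 1)
  map_mul' x y := evalHolFun_eq N ((hasQExp_evalHolFun N x).mul (hasQExp_evalHolFun N y))
  map_zero' := evalHolFun_eq N (HasQExp.zero 1)
  map_add' x y := evalHolFun_eq N ((hasQExp_evalHolFun N x).add (hasQExp_evalHolFun N y))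
  commutes' c := evalHolFun_eq N (HasQExp.const_algebraMap 1 c)

theorem hasQExp_evalHol (x : RC N) : HasQExp 1 (evalHol N x).1 (x : LaurentSeries ℂ) :=
  hasQExp_evalHolFun N x

theorem smul_evalHol {g : SL(2, ℤ)} (hg : g ∈ Gamma0 N) (x : RC N) :
    g • evalHol N x = evalHol N x :=
  (exists_hol_of_mem_RC N x.2).choose_spec.2 g hg

theorem evalHol_injective : Function.Injective (evalHol N) := by
  intro x y h
  apply Subtype.ext
  exact (hasQExp_evalHol N x).unique (h ▸ hasQExp_evalHol N y) one_pos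

theorem evalMero_aux :
    Function.Injective ((IsScalarTower.toAlgHom ℂ Hol Mero).comp (evalHol N)) :=
  (IsFractionRing.injective Hol Mero).comp (evalHol_injective N)

/-- Modular functions as meromorphic functions on `ℍ`. -/
def evalMero : FC N →ₐ[ℂ] Mero :=
  IsFractionRing.liftAlgHom (R := ℂ) (A := RC N) (K := FC N) (L := Mero)
    (g := (IsScalarTower.toAlgHom ℂ Hol Mero).comp (evalHol N)) (evalMero_aux N)

theorem evalMero_algebraMap (x : RC N) :
    evalMero N (algebraMap (RC N) (FC N) x) = algebraMap Hol Mero (evalHol N x) := by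
  rw [evalMero, IsFractionRing.liftAlgHom_apply]
  exact IsFractionRing.lift_algebraMap _ _

theorem translate_evalMero {g : SL(2, ℤ)} (hg : g ∈ Gamma0 N) (f : FC N) :
    translate g (evalMero N f) = evalMero N f := by
  obtain ⟨a, b, -, rfl⟩ := IsFractionRing.div_surjective (A := RC N) f
  simp [evalMero_algebraMap, smul_evalHol N hg]

omit [NeZero N] in
theorem mem_RC {d : ℕ} [NeZero d] (hd : d ∣ N) : qExpand ℂ d (jqModC ℂ) ∈ RC N :=
  Algebra.subset_adjoin (mem_divisorExpansionsC ℂ N hd)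

/-- The generator `j(q^d)` of `FC N`. -/
def jdC {d : ℕ} [NeZero d] (hd : d ∣ N) : FC N :=
  ⟨qExpand ℂ d (jqModC ℂ), jqModCd_mem_full ℂ N hd⟩

theorem evalHol_gen {d : ℕ} [NeZero d] (hd : d ∣ N) :
    evalHol N ⟨qExpand ℂ d (jqModC ℂ), mem_RC N hd⟩ = jHol d :=
  evalHolFun_eq N (hasQExp_jHol d)

@[simp]
theorem evalMero_jdC {d : ℕ} [NeZero d] (hd : d ∣ N) :
    evalMero N (jdC N hd) = algebraMap Hol Mero (jHol d) := by
  rw [← evalHol_gen N hd, ← evalMero_algebraMap]
  rfl

section BaseChange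

variable {L : Type*} [Field L] [Algebra ℚ L] (ι : L →+* ℂ)

omit [NeZero N] in
theorem coeffMap_mem_FC {x : LaurentSeries L} (hx : x ∈ FL N L) :
    coeffMap ι x ∈ FC N := by
  rw [mem_laurentBaseChange_iff] at hx
  induction hx using Subfield.closure_induction with
  | mem y hy =>
    rcases hy with ⟨a, rfl⟩ | ⟨z, hz, rfl⟩
    · rw [algebraMap_laurentSeries_eq_single, coeffMap_single,
        ← algebraMap_laurentSeries_eq_single]
      exact (FC N).algebraMap_mem _
    · rw [coeffEmb, coeffMap_coeffMap, coeffMap_congr (g := algebraMap ℚ ℂ) (Subsingleton.elim _ _)]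
      induction hz using IntermediateField.adjoin_induction with
      | mem w hw =>
        obtain ⟨d, _, hd, rfl⟩ := hw
        rw [coeffMap_qExpand, ← jqModC_rat, coeffMap_jqModC]
        exact jqModCd_mem_full ℂ N hd
      | algebraMap c =>
        rw [algebraMap_laurentSeries_eq_single, coeffMap_single,
          ← algebraMap_laurentSeries_eq_single]
        exact (FC N).algebraMap_mem _
      | add x y _ _ hx hy => rw [map_add]; exact add_mem hx hy
      | inv x _ hx => rw [map_inv₀]; exact inv_mem hx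
      | mul x y _ _ hx hy => rw [map_mul]; exact mul_mem hx hy
  | one => simp
  | add x y _ _ hx hy => rw [map_add]; exact add_mem hx hy
  | neg x _ hx => rw [map_neg]; exact neg_mem hx
  | inv x _ hx => rw [map_inv₀]; exact inv_mem hx
  | mul x y _ _ hx hy => rw [map_mul]; exact mul_mem hx hy

/-- Extension of constants along `ι`. -/
def toFC : FL N L →+* FC N :=
  ((coeffMap ι).comp (FL N L).val.toRingHom).codRestrict _ fun x => coeffMap_mem_FC N ι x.2

omit [NeZero N] in
@[simp]
theorem coe_toFC (x : FL N L) :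
    (toFC N ι x : LaurentSeries ℂ) = coeffMap ι (x : LaurentSeries L) := rfl

omit [NeZero N] in
theorem toFC_algebraMap (a : L) :
    toFC N ι (algebraMap L (FL N L) a) = algebraMap ℂ (FC N) (ι a) := by
  apply Subtype.ext
  show coeffMap ι (algebraMap L (LaurentSeries L) a) = algebraMap ℂ (LaurentSeries ℂ) (ι a)
  rw [algebraMap_laurentSeries_eq_single, coeffMap_single, algebraMap_laurentSeries_eq_single]

variable (L) in
/-- The generator `j(q^d)` of `FL N L`. -/
def jdL {d : ℕ} [NeZero d] (hd : d ∣ N) : FL N L :=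
  ⟨coeffEmb L (qExpand ℚ d jq), coeffEmb_mem_laurentBaseChange L (jqd_mem_full N hd)⟩

variable (L) in
/-- The function `j` in `FL N L`. -/
def jL : FL N L :=
  ⟨coeffEmb L jq, coeffEmb_mem_laurentBaseChange L
    (modularFunctionField_le_full N (jq_mem N))⟩

omit [NeZero N] in
theorem toFC_jdL {d : ℕ} [NeZero d] (hd : d ∣ N) : toFC N ι (jdL N L hd) = jdC N hd := by
  apply Subtype.ext
  show coeffMap ι (coeffEmb L (qExpand ℚ d jq)) = qExpand ℂ d (jqModC ℂ)
  rw [coeffEmb, coeffMap_coeffMap, coeffMap_qExpand, ← jqModC_rat, coeffMap_jqModC]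

theorem toFC_jL : toFC N ι (jL N L) = jdC N (one_dvd N) := by
  rw [← toFC_jdL N ι (one_dvd N)]
  congr 1
  exact Subtype.ext (congrArg (coeffEmb L) (qExpand_one_apply jq).symm)

/-- The embedding `f ↦ f (g⁻¹ • z)`. -/
def sigma (g : SL(2, ℤ)) : FL N L →+* Mero :=
  (translate g).toRingHom.comp ((evalMero N).toRingHom.comp (toFC N ι))

theorem sigma_apply (g : SL(2, ℤ)) (f : FL N L) :
    sigma N ι g f = translate g (evalMero N (toFC N ι f)) := rfl

theorem sigma_mul_right {g h : SL(2, ℤ)} (hh : h ∈ Gamma0 N) :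
    sigma N ι (g * h) = sigma N ι g := by
  ext f
  rw [sigma_apply, sigma_apply, translate_mul, translate_evalMero N hh]

/-- The embedding attached to a coset. -/
def sigmaCoset (q : SL(2, ℤ) ⧸ Gamma0 N) : FL N L →+* Mero :=
  Quotient.liftOn' q (sigma N ι) fun g g' hg => by
    have h : g⁻¹ * g' ∈ Gamma0 N := QuotientGroup.leftRel_apply.mp hg
    rw [← sigma_mul_right N ι h, mul_inv_cancel_left]

@[simp]
theorem sigmaCoset_mk (g : SL(2, ℤ)) :
    sigmaCoset N ι (g : SL(2, ℤ) ⧸ Gamma0 N) = sigma N ι g := rfl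

theorem translate_sigmaCoset (h : SL(2, ℤ)) (q : SL(2, ℤ) ⧸ Gamma0 N) (f : FL N L) :
    translate h (sigmaCoset N ι q f) = sigmaCoset N ι (h • q) f := by
  induction q using QuotientGroup.induction_on with
  | H g => rw [MulAction.Quotient.smul_mk, sigmaCoset_mk, sigmaCoset_mk, sigma_apply, sigma_apply,
      smul_eq_mul, translate_mul]

theorem sigmaCoset_algebraMap (q : SL(2, ℤ) ⧸ Gamma0 N) (a : L) :
    sigmaCoset N ι q (algebraMap L (FL N L) a) = algebraMap ℂ Mero (ι a) := by
  induction q using QuotientGroup.induction_on with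
  | H g => rw [sigmaCoset_mk, sigma_apply, toFC_algebraMap, AlgHom.commutes, translate_const]

theorem sigma_jdL (g : SL(2, ℤ)) {d : ℕ} [NeZero d] (hd : d ∣ N) :
    sigma N ι g (jdL N L hd) = algebraMap Hol Mero (g • jHol d) := by
  rw [sigma_apply, toFC_jdL, evalMero_jdC, translate_algebraMap]

theorem smul_jHol_one (g : SL(2, ℤ)) : g • jHol 1 = jHol 1 := by
  refine Subtype.ext (funext fun z => ?_)
  rw [smul_hol_apply]
  exact jHol_smul_of_mem 1 (d := 1) dvd_rfl (g := g⁻¹) (Gamma0_mem.mpr (Subsingleton.elim _ _)) z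

theorem sigmaCoset_jL (q : SL(2, ℤ) ⧸ Gamma0 N) :
    sigmaCoset N ι q (jL N L) = algebraMap Hol Mero (jHol 1) := by
  induction q using QuotientGroup.induction_on with
  | H g => rw [sigmaCoset_mk, sigma_apply, toFC_jL, evalMero_jdC, translate_algebraMap,
      smul_jHol_one]

end BaseChange

end Fermat.Agent.Modular
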