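import Mathlib.FieldTheory.IntermediateField.Adjoin.Basic
import Fermat.Prelude.Thm_ModularCurve_coeffMap_qExpand
import Fermat.Agent.Modular.Conjugates
import Fermat.Agent.Modular.Eval

/-!
# `[L(j(q^d) : d ∣ N) : L(j)] = ψ(N)` and `L(j(q^d) : d ∣ N) = L(j, j(q^N))`

for any field `L` with an embedding `ι : L →+* ℂ`.
-/

set_option autoImplicit false

noncomputable section

open Polynomial UpperHalfPlane CongruenceSubgroup ModularCurve IntermediateField
open scoped MatrixGroups Manifold IntermediateField

namespace Fermat.Agent.Modular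

theorem hasQExp_eval_kleinJ (p : Polynomial ℂ) :
    HasQExp 1 (fun z => p.eval (kleinJ z)) (aeval (jqModC ℂ) p) := by
  induction p using Polynomial.induction_on' with
  | add p q hp hq =>
    rw [map_add]
    exact (hp.add hq).congr fun z => by simp
  | monomial n c =>
    rw [aeval_monomial]
    exact ((HasQExp.const_algebraMap 1 c).mul (hasQExp_kleinJ.pow n)).congr fun z => by simp

theorem hasQExp_evalEval (R : Polynomial (Polynomial ℂ)) (d : ℕ) [NeZero d] :
    HasQExp 1 (fun z => R.evalEval (kleinJ z) (jLevel d z))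
      (R.eval₂ (aeval (jqModC ℂ)).toRingHom (qExpand ℂ d (jqModC ℂ))) := by
  induction R using Polynomial.induction_on' with
  | add p q hp hq =>
    rw [eval₂_add]
    exact (hp.add hq).congr fun z => by simp [evalEval]
  | monomial n c =>
    rw [eval₂_monomial]
    exact ((hasQExp_eval_kleinJ c).mul ((hasQExp_kleinJ.comp_mulH d).pow n)).congr fun z => by
      simp [evalEval, jLevel]

theorem relation_iff (R : Polynomial (Polynomial ℂ)) (d : ℕ) [NeZero d] :
    R.eval₂ (aeval (jqModC ℂ)).toRingHom (qExpand ℂ d (jqModC ℂ)) = 0 ↔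
      ∀ z, R.evalEval (kleinJ z) (jLevel d z) = 0 := by
  rw [← (hasQExp_evalEval R d).eq_zero_iff one_pos, funext_iff]
  rfl

theorem eq_zero_of_relation_complex (N : ℕ) [NeZero N] (R : Polynomial (Polynomial ℂ))
    (hdeg : R.natDegree < dedekindPsi N)
    (hR : R.eval₂ (aeval (jqModC ℂ)).toRingHom (qExpand ℂ N (jqModC ℂ)) = 0) : R = 0 :=
  eq_zero_of_relation (isModFun_jLevel N dvd_rfl) (conjAt_jLevel_injective N) R hdeg
    ((relation_iff R N).mp hR)

theorem exists_monic_relation_complex (N : ℕ) [NeZero N] :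
    ∃ R : Polynomial (Polynomial ℂ), R.Monic ∧ R.natDegree = dedekindPsi N ∧
      R.eval₂ (aeval (jqModC ℂ)).toRingHom (qExpand ℂ N (jqModC ℂ)) = 0 := by
  classical
  letI := cosetFintype N
  obtain ⟨R, hm, hd, hR⟩ := exists_conjPoly (isModFun_jLevel (N := N) N dvd_rfl)
  refine ⟨R, hm, hd, (relation_iff R N).mpr fun z => ?_⟩
  rw [← map_evalRingHom_eval, hR, Polynomial.eval_prod]
  exact Finset.prod_eq_zero
    (i := (QuotientGroup.mk 1 : SL(2, ℤ) ⧸ Gamma0 N)) (Finset.mem_univ _)
    (by simp [(isModFun_jLevel N dvd_rfl).conjAt_one])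

theorem exists_interp_complex (N d : ℕ) [NeZero N] [NeZero d] (hd : d ∣ N) :
    ∃ R S : Polynomial (Polynomial ℂ), S ≠ 0 ∧ S.natDegree < dedekindPsi N ∧
      R.natDegree < dedekindPsi N ∧
      R.eval₂ (aeval (jqModC ℂ)).toRingHom (qExpand ℂ N (jqModC ℂ)) =
        S.eval₂ (aeval (jqModC ℂ)).toRingHom (qExpand ℂ N (jqModC ℂ)) *
          qExpand ℂ d (jqModC ℂ) := by
  classical
  letI := cosetFintype N
  have hF := isModFun_jLevel (N := N) N dvd_rfl
  have h1 : IsModFun N (fun _ => (1 : ℂ)) :=
    ⟨fun _ _ _ => rfl, fun _ => Grow.one_mem⟩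
  obtain ⟨R, hRd, hR⟩ := exists_interp hF (isModFun_jLevel d hd)
  obtain ⟨S, hSd, hS⟩ := exists_interp hF h1
  refine ⟨R, S, ?_, hSd, hRd, ?_⟩
  · rintro rfl
    have hz : (∏ q ∈ ({QuotientGroup.mk 1}ᶜ : Set (SL(2, ℤ) ⧸ Gamma0 N)).toFinite.toFinset,
        (jLevel N - conjAt (jLevel N) q)) = 0 := by
      funext z
      simpa [Finset.prod_apply] using (hS z).symm
    have hmd : ∀ q : SL(2, ℤ) ⧸ Gamma0 N, MDiff (jLevel N - conjAt (jLevel N) q) := by
      intro q
      have := (hF.2 1).1
      simp only [one_smul] at this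
      exact this.sub (hF.2 _).1
    rw [UpperHalfPlane.prod_eq_zero_iff fun q _ => hmd q] at hz
    obtain ⟨q, hq, hq0⟩ := hz
    have : (fun p : SL(2, ℤ) ⧸ Gamma0 N => conjAt (jLevel N) p) (QuotientGroup.mk 1)
        = (fun p : SL(2, ℤ) ⧸ Gamma0 N => conjAt (jLevel N) p) q := by
      funext z
      dsimp only
      rw [hF.conjAt_one]
      exact sub_eq_zero.mp (congrFun hq0 z)
    rw [Set.Finite.mem_toFinset] at hq
    exact hq (conjAt_jLevel_injective N this).symm
  · refine (hasQExp_evalEval R N).unique ?_ one_pos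
    refine ((hasQExp_evalEval S N).mul (hasQExp_kleinJ.comp_mulH d)).congr fun z => ?_
    rw [Pi.mul_apply, hR, hS, one_mul, mul_comm]
    rfl

section Descent

variable {L : Type*} [Field L] [Algebra ℚ L]

/-- Apply an additive map to the coefficients of a bivariate polynomial. -/
def mapCoeff₂ {A B : Type*} [Semiring A] [Semiring B] (π : A →+ B)
    (R : Polynomial (Polynomial A)) : Polynomial (Polynomial B) :=
  ∑ k ∈ Finset.range (R.natDegree + 1),
    monomial k (∑ i ∈ Finset.range ((R.coeff k).natDegree + 1),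
      monomial i (π ((R.coeff k).coeff i)))

theorem coeff_mapCoeff₂ {A B : Type*} [Semiring A] [Semiring B] (π : A →+ B)
    (R : Polynomial (Polynomial A)) (k i : ℕ) :
    ((mapCoeff₂ π R).coeff k).coeff i = π ((R.coeff k).coeff i) := by
  rw [mapCoeff₂, finsetSum_coeff]
  simp only [coeff_monomial, Finset.sum_ite_eq', Finset.mem_range]
  split_ifs with hk
  · rw [finsetSum_coeff]
    simp only [coeff_monomial, Finset.sum_ite_eq', Finset.mem_range]
    split_ifs with hi
    · rfl
    · rw [coeff_eq_zero_of_natDegree_lt (n := i) (p := R.coeff k) (by omega), map_zero]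
  · rw [coeff_zero, coeff_eq_zero_of_natDegree_lt (n := k) (p := R) (by omega), coeff_zero,
      map_zero]

theorem natDegree_mapCoeff₂_le {A B : Type*} [Semiring A] [Semiring B] (π : A →+ B)
    (R : Polynomial (Polynomial A)) : (mapCoeff₂ π R).natDegree ≤ R.natDegree := by
  refine natDegree_le_iff_coeff_eq_zero.mpr fun k hk => ?_
  ext i
  rw [coeff_mapCoeff₂, coeff_eq_zero_of_natDegree_lt hk, coeff_zero, map_zero, coeff_zero]

theorem mapCoeff₂_monic {A B : Type*} [Semiring A] [Semiring B] (π : A →+ B) (h1 : π 1 = 1)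
    {R : Polynomial (Polynomial A)} (hR : R.Monic) : (mapCoeff₂ π R).Monic := by
  refine monic_of_natDegree_le_of_coeff_eq_one R.natDegree (natDegree_mapCoeff₂_le π R) ?_
  ext i
  rw [coeff_mapCoeff₂, hR.coeff_natDegree, coeff_one, coeff_one]
  split_ifs <;> simp [h1]

/-- An `L`-linear retraction applied coefficientwise to a series. -/
def projSeries (π : ℂ →+ L) (x : LaurentSeries ℂ) : LaurentSeries L :=
  HahnSeries.map x π

theorem projSeries_coeff (π : ℂ →+ L) (x : LaurentSeries ℂ) (n : ℤ) :
    (projSeries π x).coeff n = π (x.coeff n) := rfl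

theorem projSeries_add (π : ℂ →+ L) (x y : LaurentSeries ℂ) :
    projSeries π (x + y) = projSeries π x + projSeries π y := by
  ext n; simp [projSeries_coeff]

theorem projSeries_zero (π : ℂ →+ L) : projSeries π 0 = 0 := by
  ext n; simp [projSeries_coeff]

theorem projSeries_sum (π : ℂ →+ L) {α : Type*} (s : Finset α) (x : α → LaurentSeries ℂ) :
    projSeries π (∑ a ∈ s, x a) = ∑ a ∈ s, projSeries π (x a) := by
  classical
  induction s using Finset.induction with
  | empty => simp [projSeries_zero]
  | insert a s ha ih => rw [Finset.sum_insert ha, Finset.sum_insert ha, projSeries_add, ih]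

theorem projSeries_const_mul (ι : L →+* ℂ) (π : ℂ →+ L)
    (hπ : ∀ (a : L) (w : ℂ), π (ι a * w) = a * π w) (c : ℂ) (y : LaurentSeries L) :
    projSeries π (algebraMap ℂ (LaurentSeries ℂ) c * coeffMap ι y)
      = algebraMap L (LaurentSeries L) (π c) * y := by
  ext n
  rw [projSeries_coeff, algebraMap_laurentSeries_eq_single, algebraMap_laurentSeries_eq_single,
    HahnSeries.coeff_single_zero_mul, HahnSeries.coeff_single_zero_mul, coeffMap_coeff,
    mul_comm c, hπ, mul_comm]

/-- Descent: an additive `L`-linear map commutes with evaluation at series defined over `L`. -/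
theorem projSeries_eval₂ (ι : L →+* ℂ) (π : ℂ →+ L)
    (hπ : ∀ (a : L) (w : ℂ), π (ι a * w) = a * π w) (R : Polynomial (Polynomial ℂ))
    (x y z : LaurentSeries L) :
    projSeries π
        (R.eval₂ (aeval (coeffMap ι x)).toRingHom (coeffMap ι y) * coeffMap ι z)
      = (mapCoeff₂ π R).eval₂ (aeval x).toRingHom y * z := by
  have e1 : R.eval₂ (aeval (coeffMap ι x)).toRingHom (coeffMap ι y) * coeffMap ι z
      = ∑ k ∈ Finset.range (R.natDegree + 1), ∑ i ∈ Finset.range ((R.coeff k).natDegree + 1),
          algebraMap ℂ (LaurentSeries ℂ) ((R.coeff k).coeff i) *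
            coeffMap ι (x ^ i * y ^ k * z) := by
    rw [eval₂_eq_sum_range, Finset.sum_mul]
    refine Finset.sum_congr rfl fun k _ => ?_
    rw [AlgHom.toRingHom_eq_coe, RingHom.coe_coe, aeval_eq_sum_range, Finset.sum_mul,
      Finset.sum_mul]
    refine Finset.sum_congr rfl fun i _ => ?_
    rw [Algebra.smul_def, map_mul, map_mul, map_pow, map_pow]
    ring
  rw [e1, mapCoeff₂, eval₂_finsetSum, Finset.sum_mul, projSeries_sum]
  refine Finset.sum_congr rfl fun k _ => ?_
  rw [eval₂_monomial, map_sum, Finset.sum_mul, Finset.sum_mul, projSeries_sum]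
  refine Finset.sum_congr rfl fun i _ => ?_
  rw [AlgHom.toRingHom_eq_coe, RingHom.coe_coe, aeval_monomial, projSeries_const_mul ι π hπ]
  ring

/-- For `c ≠ 0` an `L`-linear map `ℂ → L` with `c ↦ 1`. -/
theorem exists_proj (ι : L →+* ℂ) (c : ℂ) (hc : c ≠ 0) :
    ∃ π : ℂ →+ L, (∀ (a : L) (w : ℂ), π (ι a * w) = a * π w) ∧ π c = 1 := by
  letI := ι.toAlgebra
  obtain ⟨g, hg⟩ := LinearMap.exists_leftInverse_of_injective (LinearMap.toSpanSingleton L ℂ c)
    (LinearMap.ker_eq_bot.mpr fun a b hab => by
      have : ι a * c = ι b * c := hab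
      exact ι.injective (mul_right_cancel₀ hc this))
  refine ⟨g.toAddMonoidHom, fun a w => ?_, ?_⟩
  · have : g (a • w) = a • g w := map_smul g a w
    exact this
  · have := LinearMap.congr_fun hg 1
    simpa using this

variable (L) in
/-- `j` over `L`. -/
def serJ : LaurentSeries L := coeffEmb L jq

variable (L) in
/-- `j(q^d)` over `L`. -/
def serJd (d : ℕ) [NeZero d] : LaurentSeries L := coeffEmb L (qExpand ℚ d jq)

theorem coeffMap_serJd (ι : L →+* ℂ) (d : ℕ) [NeZero d] :
    coeffMap ι (serJd L d) = qExpand ℂ d (jqModC ℂ) := by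
  rw [serJd, coeffEmb, coeffMap_coeffMap, coeffMap_qExpand, ← jqModC_rat, coeffMap_jqModC]

theorem coeffMap_serJ (ι : L →+* ℂ) : coeffMap ι (serJ L) = jqModC ℂ := by
  rw [serJ, coeffEmb, coeffMap_coeffMap, ← jqModC_rat, coeffMap_jqModC]

theorem coeffMap_eval₂ (ι : L →+* ℂ) (R : Polynomial (Polynomial L)) (x y : LaurentSeries L) :
    coeffMap ι (R.eval₂ (aeval x).toRingHom y)
      = (R.map (mapRingHom ι)).eval₂ (aeval (coeffMap ι x)).toRingHom (coeffMap ι y) := by
  rw [hom_eval₂, eval₂_map]
  congr 1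
  refine Polynomial.ringHom_ext (fun a => ?_) ?_
  · simp [algebraMap_laurentSeries_eq_single]
  · simp

variable (N : ℕ) [NeZero N]

theorem eq_zero_of_relation_over (ι : L →+* ℂ) (R : Polynomial (Polynomial L))
    (hdeg : R.natDegree < dedekindPsi N)
    (hR : R.eval₂ (aeval (serJ L)).toRingHom (serJd L N) = 0) : R = 0 := by
  have h := congrArg (coeffMap ι) hR
  rw [coeffMap_eval₂, coeffMap_serJ, coeffMap_serJd, map_zero] at h
  exact (Polynomial.map_eq_zero_iff (Polynomial.map_injective _ ι.injective)).mp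
    (eq_zero_of_relation_complex N _ (natDegree_map_le.trans_lt hdeg) h)

theorem exists_monic_relation_over (ι : L →+* ℂ) :
    ∃ R : Polynomial (Polynomial L), R.Monic ∧ R.natDegree = dedekindPsi N ∧
      R.eval₂ (aeval (serJ L)).toRingHom (serJd L N) = 0 := by
  obtain ⟨π, hπ, h1⟩ := exists_proj ι 1 one_ne_zero
  obtain ⟨R, hm, hd, hR⟩ := exists_monic_relation_complex N
  refine ⟨mapCoeff₂ π R, mapCoeff₂_monic π h1 hm, ?_, ?_⟩
  · refine le_antisymm (hd ▸ natDegree_mapCoeff₂_le π R) (le_natDegree_of_ne_zero ?_)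
    intro h
    have := coeff_mapCoeff₂ π R (dedekindPsi N) 0
    rw [h, coeff_zero, ← hd, hm.coeff_natDegree, coeff_one_zero, h1] at this
    exact zero_ne_one this
  · have h := projSeries_eval₂ ι π hπ R (serJ L) (serJd L N) 1
    rw [coeffMap_serJ, coeffMap_serJd, hR, zero_mul, projSeries_zero, mul_one] at h
    exact h.symm

theorem exists_interp_over (ι : L →+* ℂ) (d : ℕ) [NeZero d] (hd : d ∣ N) :
    ∃ R S : Polynomial (Polynomial L), S.eval₂ (aeval (serJ L)).toRingHom (serJd L N) ≠ 0 ∧
      R.eval₂ (aeval (serJ L)).toRingHom (serJd L N)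
        = S.eval₂ (aeval (serJ L)).toRingHom (serJd L N) * serJd L d := by
  obtain ⟨R, S, hS0, hSd, -, h⟩ := exists_interp_complex N d hd
  obtain ⟨k, hk⟩ : ∃ k, S.coeff k ≠ 0 := by
    by_contra hall
    push Not at hall
    exact hS0 (Polynomial.ext fun k => by simp [hall])
  obtain ⟨i, hi⟩ : ∃ i, (S.coeff k).coeff i ≠ 0 := by
    by_contra hall
    push Not at hall
    exact hk (Polynomial.ext fun i => by simp [hall])
  obtain ⟨π, hπ, h1⟩ := exists_proj ι _ hi
  refine ⟨mapCoeff₂ π R, mapCoeff₂ π S, fun h0 => ?_, ?_⟩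
  · have := eq_zero_of_relation_over N ι _ ((natDegree_mapCoeff₂_le π S).trans_lt hSd) h0
    have h2 := coeff_mapCoeff₂ π S k i
    rw [this, coeff_zero, coeff_zero, h1] at h2
    exact zero_ne_one h2
  · have hl := projSeries_eval₂ ι π hπ R (serJ L) (serJd L N) 1
    have hr := projSeries_eval₂ ι π hπ S (serJ L) (serJd L N) (serJd L d)
    rw [coeffMap_serJ, coeffMap_serJd, map_one, mul_one, mul_one] at hl
    rw [coeffMap_serJ, coeffMap_serJd, coeffMap_serJd, ← h, hl] at hr
    exact hr

end Descent

section Field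

variable {L : Type*} [Field L] [Algebra ℚ L] (N : ℕ) [NeZero N] (ι : L →+* ℂ)

theorem eval₂_mem {S : Set (LaurentSeries L)} {x y : LaurentSeries L}
    (hx : x ∈ IntermediateField.adjoin L S) (hy : y ∈ IntermediateField.adjoin L S)
    (R : Polynomial (Polynomial L)) :
    R.eval₂ (aeval x).toRingHom y ∈ IntermediateField.adjoin L S := by
  induction R using Polynomial.induction_on' with
  | add p q hp hq =>
    rw [eval₂_add]
    exact add_mem hp hq
  | monomial n c =>
    rw [eval₂_monomial]
    refine mul_mem ?_ (pow_mem hy n)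
    exact (Algebra.adjoin_le (S := (IntermediateField.adjoin L S).toSubalgebra)
      (Set.singleton_subset_iff.mpr hx) :) (aeval_mem_adjoin_singleton L x)

include ι in
/-- `L(j(q^d) : d ∣ N) = L(j, j(q^N))`. -/
theorem FL_eq_adjoin :
    FL N L = IntermediateField.adjoin L ({serJ L, serJd L N} : Set (LaurentSeries L)) := by
  apply le_antisymm
  · rw [FL, laurentBaseChange, IntermediateField.adjoin_le_iff]
    rintro _ ⟨w, hw, rfl⟩
    induction hw using IntermediateField.adjoin_induction with
    | mem v hv =>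
      obtain ⟨d, _, hd, rfl⟩ := hv
      obtain ⟨R, S, hS, hRS⟩ := exists_interp_over N ι d hd
      have hx : serJ L ∈ IntermediateField.adjoin L ({serJ L, serJd L N} : Set (LaurentSeries L)) :=
        subset_adjoin L _ (Set.mem_insert _ _)
      have hy : serJd L N ∈
          IntermediateField.adjoin L ({serJ L, serJd L N} : Set (LaurentSeries L)) :=
        subset_adjoin L _ (Set.mem_insert_of_mem _ rfl)
      have : serJd L d = R.eval₂ (aeval (serJ L)).toRingHom (serJd L N)
          / S.eval₂ (aeval (serJ L)).toRingHom (serJd L N) := by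
        rw [hRS, mul_div_cancel_left₀ _ hS]
      show serJd L d ∈ _
      rw [this]
      exact div_mem (eval₂_mem hx hy R) (eval₂_mem hx hy S)
    | algebraMap c =>
      show coeffEmb L (algebraMap ℚ (LaurentSeries ℚ) c) ∈ _
      rw [algebraMap_laurentSeries_eq_single, coeffEmb, coeffMap_single,
        ← algebraMap_laurentSeries_eq_single]
      exact IntermediateField.algebraMap_mem _ _
    | add x y _ _ hx hy =>
      show coeffEmb L (x + y) ∈ _
      rw [map_add]; exact add_mem hx hy
    | inv x _ hx =>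
      show coeffEmb L x⁻¹ ∈ _
      rw [map_inv₀]; exact inv_mem hx
    | mul x y _ _ hx hy =>
      show coeffEmb L (x * y) ∈ _
      rw [map_mul]; exact mul_mem hx hy
  · rw [IntermediateField.adjoin_le_iff]
    rintro x (rfl | rfl)
    · exact (jL N L).2
    · exact (jdL N L dvd_rfl).2

theorem coe_eval₂_FL (R : Polynomial (Polynomial L)) :
    ((R.eval₂ (aeval (jL N L)).toRingHom (jdL N L dvd_rfl) : FL N L) : LaurentSeries L)
      = R.eval₂ (aeval (serJ L)).toRingHom (serJd L N) := by
  show (FL N L).val.toRingHom _ = _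
  rw [hom_eval₂]
  congr 1
  refine Polynomial.ringHom_ext (fun a => ?_) ?_
  · simp
  · simp [jL, serJ]

include ι in
theorem eval₂_jL_eq_zero {R : Polynomial (Polynomial L)} (hdeg : R.natDegree < dedekindPsi N)
    (hR : R.eval₂ (aeval (jL N L)).toRingHom (jdL N L dvd_rfl) = 0) : R = 0 :=
  eq_zero_of_relation_over N ι R hdeg (by rw [← coe_eval₂_FL, hR]; rfl)

include ι in
theorem adjoin_jdL_eq_top :
    IntermediateField.adjoin L⟮jL N L⟯ ({jdL N L dvd_rfl} : Set (FL N L)) = ⊤ := by
  apply IntermediateField.restrictScalars_injective L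
  rw [IntermediateField.restrictScalars_top, IntermediateField.adjoin_simple_adjoin_simple]
  apply IntermediateField.map_injective (FL N L).val
  rw [IntermediateField.adjoin_map, ← AlgHom.fieldRange_eq_map, IntermediateField.fieldRange_val,
    Set.image_pair]
  exact (FL_eq_adjoin N ι).symm

include ι in
theorem natDegree_minpoly_jdL :
    IsIntegral L⟮jL N L⟯ (jdL N L (dvd_refl N)) ∧
      (minpoly L⟮jL N L⟯ (jdL N L (dvd_refl N))).natDegree = dedekindPsi N := by
  classical
  set K := L⟮jL N L⟯
  set y : FL N L := jdL N L (dvd_refl N)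
  obtain ⟨Φ, hΦm, hΦd, hΦ⟩ := exists_monic_relation_over N ι
  let gj : K := AdjoinSimple.gen L (jL N L)
  have hcomp : (algebraMap K (FL N L)).comp (aeval gj : Polynomial L →ₐ[L] K).toRingHom
      = (aeval (jL N L)).toRingHom := by
    refine Polynomial.ringHom_ext (fun a => ?_) ?_
    · simp [← IsScalarTower.algebraMap_apply]
    · simp [gj, K]
  have hy0 : Φ.eval₂ (aeval (jL N L)).toRingHom y = 0 :=
    Subtype.ext (by rw [coe_eval₂_FL]; exact hΦ)
  have hroot : aeval y (Φ.map (aeval gj : Polynomial L →ₐ[L] K).toRingHom) = 0 := by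
    rw [aeval_def, eval₂_map, hcomp, hy0]
  have hint : IsIntegral K y := ⟨_, hΦm.map _, hroot⟩
  refine ⟨hint, le_antisymm ?_ ?_⟩
  · refine (natDegree_le_of_dvd (minpoly.dvd K y hroot) (hΦm.map _).ne_zero).trans ?_
    exact natDegree_map_le.trans hΦd.le
  · by_contra hlt
    push Not at hlt
    set m := minpoly K y with hm
    have hrs : ∀ k, ∃ r s : Polynomial L, aeval (jL N L) s ≠ 0 ∧
        (algebraMap K (FL N L) (m.coeff k)) * aeval (jL N L) s = aeval (jL N L) r := by
      intro k
      obtain ⟨r, s, hrs⟩ := (IntermediateField.mem_adjoin_simple_iff L _).mp (m.coeff k).2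
      by_cases hs : aeval (jL N L) s = 0
      · refine ⟨0, 1, by simp, ?_⟩
        have : algebraMap K (FL N L) (m.coeff k) = 0 := by
          show ((m.coeff k : K) : FL N L) = 0
          rw [hrs, hs, div_zero]
        simp [this]
      · refine ⟨r, s, hs, ?_⟩
        show ((m.coeff k : K) : FL N L) * _ = _
        rw [hrs, div_mul_cancel₀ _ hs]
    choose r s hs0 hrs using hrs
    let R : Polynomial (Polynomial L) := ∑ k ∈ Finset.range (m.natDegree + 1),
      monomial k (r k * ∏ l ∈ (Finset.range (m.natDegree + 1)).erase k, s l)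
    have hRdeg : R.natDegree < dedekindPsi N := by
      refine lt_of_le_of_lt (natDegree_sum_le_of_forall_le _ _ (n := m.natDegree) fun k hk => ?_) hlt
      refine (natDegree_monomial_le _).trans ?_
      rw [Finset.mem_range] at hk
      omega
    have hReval : R.eval₂ (aeval (jL N L)).toRingHom y
        = (∏ l ∈ Finset.range (m.natDegree + 1), aeval (jL N L) (s l)) * aeval y m := by
      rw [eval₂_finsetSum, aeval_eq_sum_range, Finset.mul_sum]
      refine Finset.sum_congr rfl fun k hk => ?_
      rw [eval₂_monomial, ← Finset.mul_prod_erase _ _ hk, AlgHom.toRingHom_eq_coe, RingHom.coe_coe,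
        map_mul, map_prod, ← hrs, Algebra.smul_def]
      ring
    rw [hm, minpoly.aeval, mul_zero] at hReval
    have hR0 := eval₂_jL_eq_zero N ι hRdeg hReval
    have hr : r m.natDegree = 0 := by
      have hc : R.coeff m.natDegree =
          r m.natDegree * ∏ l ∈ (Finset.range (m.natDegree + 1)).erase m.natDegree, s l := by
        simp [R, finsetSum_coeff, coeff_monomial]
      rw [hR0, coeff_zero] at hc
      refine (mul_eq_zero.mp hc.symm).resolve_right ?_
      exact Finset.prod_ne_zero_iff.mpr fun l _ h => hs0 l (by rw [h, map_zero])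
    have h1 := hrs m.natDegree
    rw [hr, map_zero, (minpoly.monic hint).coeff_natDegree, map_one, one_mul] at h1
    exact hs0 _ h1

include ι in
/-- `[L(j(q^d) : d ∣ N) : L(j)] = ψ(N)`. -/
theorem finrank_FL : Module.finrank L⟮jL N L⟯ (FL N L) = dedekindPsi N := by
  obtain ⟨hint, hdeg⟩ := natDegree_minpoly_jdL N ι
  rw [← IntermediateField.finrank_top', ← adjoin_jdL_eq_top N ι,
    IntermediateField.adjoin.finrank hint, hdeg]

include ι in
theorem finrank_FL_index : Module.finrank L⟮jL N L⟯ (FL N L) = (Gamma0 N).index := by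
  rw [finrank_FL N ι, index_Gamma0]

include ι in
theorem finiteDimensional_FL : FiniteDimensional L⟮jL N L⟯ (FL N L) :=
  Module.finite_of_finrank_pos (by
    rw [finrank_FL_index N ι]
    exact Nat.pos_of_ne_zero Subgroup.FiniteIndex.index_ne_zero)

include ι in
theorem transcendental_jL : Transcendental L (jL N L) := by
  rw [transcendental_iff]
  intro p hp
  have hpos : 0 < dedekindPsi N := by
    rw [← index_Gamma0]
    exact Nat.pos_of_ne_zero Subgroup.FiniteIndex.index_ne_zero
  have h := eval₂_jL_eq_zero N ι (R := Polynomial.C p) (by rw [natDegree_C]; exact hpos)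
    (by rw [eval₂_C]; exact hp)
  exact C_eq_zero.mp h

theorem sigma_jdL_apply (g : SL(2, ℤ)) :
    sigmaCoset N ι (g : SL(2, ℤ) ⧸ Gamma0 N) (jdL N L (dvd_refl N))
      = algebraMap Hol Mero (g • jHol N) := by
  rw [sigmaCoset_mk, sigma_jdL]

theorem sigmaCoset_injective : Function.Injective (sigmaCoset N ι (L := L)) := by
  intro p q h
  refine conjAt_jLevel_injective N ?_
  induction p using QuotientGroup.induction_on with
  | H g => induction q using QuotientGroup.induction_on with
    | H g' =>
      have h1 := congrArg (fun σ : FL N L →+* Mero => σ (jdL N L (dvd_refl N))) h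
      simp only [sigma_jdL_apply] at h1
      have h2 : g • jHol N = g' • jHol N := IsFractionRing.injective Hol Mero h1
      funext z
      simp only [(isModFun_jLevel N dvd_rfl).conjAt_mk]
      exact congrFun (congrArg Subtype.val h2) z

end Field

section Rational

theorem coeffEmb_rat (x : LaurentSeries ℚ) : coeffEmb ℚ x = x := by
  ext n
  simp

/-- Generation of the level `N` function field by `j` and `j(q^N)`. -/
theorem functionFieldGeneration (N : ℕ) [NeZero N] : FunctionFieldGeneration N := by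
  intro d hd hne
  haveI := hne
  have h := (FL_eq_adjoin (L := ℚ) N (algebraMap ℚ ℂ)).le (jdL N ℚ hd).2
  simpa [jdL, serJ, serJd, coeffEmb_rat] using h

end Rational

end Fermat.Agent.Modular

end
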