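import Mathlib.RingTheory.IntegralClosure.IntegrallyClosed
import Fermat.Prelude.Thm_ModularCurve_coeff_jqModC_pow_self
import Fermat.Prelude.Thm_ModularCurve_coeff_jqModC_pow_of_lt
import Fermat.Agent.Modular.Degree

/-!
# The modular polynomial has integral coefficients
-/

set_option autoImplicit false

noncomputable section

open Polynomial UpperHalfPlane CongruenceSubgroup ModularCurve
open scoped MatrixGroups

namespace Fermat.Agent.Modular

/-- Laurent series with algebraic integer coefficients. -/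
def intSeries : Subring (LaurentSeries ℂ) where
  carrier := {x | ∀ n, IsIntegral ℤ (x.coeff n)}
  one_mem' n := by
    rw [HahnSeries.coeff_one]
    split_ifs
    · exact isIntegral_one
    · exact isIntegral_zero
  zero_mem' n := by simpa using (isIntegral_zero : IsIntegral ℤ (0 : ℂ))
  add_mem' hx hy n := by simpa using (hx n).add (hy n)
  neg_mem' hx n := by simpa using (hx n).neg
  mul_mem' hx hy n := by
    rw [HahnSeries.coeff_mul]
    exact IsIntegral.sum _ fun ij _ => (hx ij.1).mul (hy ij.2)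

theorem jqModC_mem_intSeries : jqModC ℂ ∈ intSeries := fun n => by
  rw [jqModC_eq_map_intCast, HahnSeries.map_coeff]
  exact isIntegral_algebraMap

theorem qExpand_mem_intSeries {x : LaurentSeries ℂ} (hx : x ∈ intSeries) (d : ℕ) [NeZero d] :
    qExpand ℂ d x ∈ intSeries := fun n => by
  by_cases hn : (d : ℤ) ∣ n
  · obtain ⟨m, rfl⟩ := hn
    rw [qExpand_coeff_mul]
    exact hx m
  · rw [qExpand_coeff_of_not_dvd _ _ hn]
    exact isIntegral_zero

theorem twistSeries_mem_intSeries {x : LaurentSeries ℂ} (hx : x ∈ intSeries) (c : ℂˣ) {d : ℕ}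
    (hd : 0 < d) (hc : (c : ℂ) ^ d = 1) : twistSeries c x ∈ intSeries := fun n => by
  rw [twistSeries_coeff]
  refine IsIntegral.mul (IsIntegral.of_pow hd ?_) (hx n)
  have hcd : c ^ d = 1 := Units.ext (by simpa using hc)
  rw [← Units.val_pow_eq_pow_val, ← zpow_natCast, ← zpow_mul, mul_comm, zpow_mul, zpow_natCast,
    hcd, one_zpow, Units.val_one]
  exact isIntegral_one

/-- Functions whose expansion in `exp (2πiz/h)` has algebraic integer coefficients. -/
def intQ (h : ℝ) : Subring (ℍ → ℂ) where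
  carrier := {f | ∃ x ∈ intSeries, HasQExp h f x}
  one_mem' := ⟨1, intSeries.one_mem, HasQExp.one h⟩
  zero_mem' := ⟨0, intSeries.zero_mem, HasQExp.zero h⟩
  add_mem' := by
    rintro f g ⟨x, hx, hf⟩ ⟨y, hy, hg⟩
    exact ⟨x + y, intSeries.add_mem hx hy, hf.add hg⟩
  neg_mem' := by
    rintro f ⟨x, hx, hf⟩
    exact ⟨-x, intSeries.neg_mem hx, hf.neg⟩
  mul_mem' := by
    rintro f g ⟨x, hx, hf⟩ ⟨y, hy, hg⟩
    exact ⟨x * y, intSeries.mul_mem hx hy, hf.mul hg⟩

variable (N : ℕ) [NeZero N]

theorem conjAt_jLevel_mem_intQ (q : SL(2, ℤ) ⧸ Gamma0 N) :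
    conjAt (jLevel N) q ∈ intQ (N : ℝ) := by
  induction q using QuotientGroup.induction_on with
  | H g =>
    obtain ⟨⟨d, b⟩, ha, hd, hx, -, hxj⟩ := exists_affine N g
    have hdN : d ∣ N := (mem_primTriples.mp hx).1
    haveI := hd
    haveI := ha
    have h1 := (hasQExp_kleinJ.comp_affineH (N / d) (b : ℤ) d).dilate_period
      (Nat.cast_ne_zero.mpr (NeZero.ne d)) (N / d)
    have hper : (d : ℝ) * ((N / d : ℕ) : ℝ) = N := by
      exact_mod_cast Nat.mul_div_cancel' hdN
    rw [hper] at h1
    refine ⟨_, qExpand_mem_intSeries (qExpand_mem_intSeries (twistSeries_mem_intSeries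
      jqModC_mem_intSeries _ (Nat.pos_of_ne_zero (NeZero.ne d)) ?_) _) _, h1.congr fun z => ?_⟩
    · rw [Units.val_mk0, Function.Periodic.qParam, ← Complex.exp_nat_mul, Complex.exp_eq_one_iff]
      refine ⟨b, ?_⟩
      have : (d : ℂ) ≠ 0 := Nat.cast_ne_zero.mpr (NeZero.ne d)
      push_cast
      field_simp
    · rw [(isModFun_jLevel N dvd_rfl).conjAt_mk, jLevel, hxj]

theorem coeff_aeval_jqModC_of_lt {p : Polynomial ℂ} {m : ℕ} (h : p.natDegree < m) :
    (aeval (jqModC ℂ) p).coeff (-(m : ℤ)) = 0 := by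
  rw [aeval_eq_sum_range, HahnSeries.coeff_sum]
  refine Finset.sum_eq_zero fun i hi => ?_
  rw [Finset.mem_range] at hi
  rw [Algebra.smul_def, algebraMap_laurentSeries_eq_single, HahnSeries.coeff_single_zero_mul,
    coeff_jqModC_pow_of_lt ℂ (b := i) (by omega), mul_zero]

/-- If `p(j)` has algebraic integer coefficients, so has `p`. -/
theorem isIntegral_coeff_of_aeval_mem (p : Polynomial ℂ) (h : aeval (jqModC ℂ) p ∈ intSeries) :
    ∀ i, IsIntegral ℤ (p.coeff i) := by
  induction hn : p.natDegree using Nat.strong_induction_on generalizing p with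
  | _ n ih =>
    have hlead : IsIntegral ℤ p.leadingCoeff := by
      have h1 := h (-(n : ℤ))
      rw [← eraseLead_add_C_mul_X_pow p, hn, map_add, HahnSeries.coeff_add, map_mul, map_pow,
        aeval_C, aeval_X, algebraMap_laurentSeries_eq_single, HahnSeries.coeff_single_zero_mul,
        coeff_jqModC_pow_self, mul_one] at h1
      by_cases hn0 : n = 0
      · have he : p.eraseLead = 0 :=
          (eraseLead_natDegree_lt_or_eraseLead_eq_zero p).resolve_left (by omega)
        simpa [he] using h1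
      · rw [coeff_aeval_jqModC_of_lt (lt_of_le_of_lt p.eraseLead_natDegree_le (by omega)),
          zero_add] at h1
        exact h1
    have herase : aeval (jqModC ℂ) p.eraseLead ∈ intSeries := by
      have e : p.eraseLead = p - Polynomial.C p.leadingCoeff * Polynomial.X ^ n := by
        rw [eq_sub_iff_add_eq, ← hn, eraseLead_add_C_mul_X_pow]
      rw [e, map_sub, map_mul, map_pow, aeval_C, aeval_X]
      refine intSeries.sub_mem h (intSeries.mul_mem ?_ (intSeries.pow_mem jqModC_mem_intSeries n))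
      intro k
      rw [algebraMap_laurentSeries_eq_single, HahnSeries.coeff_single]
      split_ifs
      · exact hlead
      · exact isIntegral_zero
    intro i
    rcases lt_trichotomy i n with hi | rfl | hi
    · have hi' := eraseLead_coeff_of_ne (f := p) i (by omega)
      rw [← hi']
      rcases eraseLead_natDegree_lt_or_eraseLead_eq_zero p with hlt | h0
      · exact ih p.eraseLead.natDegree (hn ▸ hlt) p.eraseLead herase rfl i
      · rw [h0, coeff_zero]; exact isIntegral_zero
    · rw [← hn]; exact hlead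
    · rw [coeff_eq_zero_of_natDegree_lt (by omega)]
      exact isIntegral_zero

theorem conjPoly_coeff_mem_intSeries (R : Polynomial (Polynomial ℂ))
    (hR : letI := cosetFintype N
      ∀ z, R.map (evalRingHom (kleinJ z))
        = ∏ q : SL(2, ℤ) ⧸ Gamma0 N, (X - C (conjAt (jLevel N) q z))) (k : ℕ) :
    aeval (jqModC ℂ) (R.coeff k) ∈ intSeries := by
  classical
  letI := cosetFintype N
  let P : Polynomial (intQ (N : ℝ)) :=
    ∏ q : SL(2, ℤ) ⧸ Gamma0 N, (X - C ⟨conjAt (jLevel N) q, conjAt_jLevel_mem_intQ N q⟩)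
  have hfun : (fun z => (R.coeff k).eval (kleinJ z)) = ((P.coeff k : intQ (N : ℝ)) : ℍ → ℂ) := by
    funext z
    have h1 := congrArg (fun Q => Q.coeff k) (hR z)
    simp only [coeff_map, coe_evalRingHom] at h1
    have h2 : P.map ((Pi.evalRingHom (fun _ : ℍ => ℂ) z).comp (intQ (N : ℝ)).subtype)
        = ∏ q : SL(2, ℤ) ⧸ Gamma0 N, (X - C (conjAt (jLevel N) q z)) := by
      simp [P, Polynomial.map_prod]
    rw [h1, ← h2, coeff_map]
    rfl
  obtain ⟨x, hx, hxe⟩ := (P.coeff k).2
  rw [← hfun] at hxe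
  have h3 := (hasQExp_eval_kleinJ (R.coeff k)).dilate_period one_ne_zero N
  rw [one_mul] at h3
  have h4 := hxe.unique h3 (by exact_mod_cast Nat.pos_of_ne_zero (NeZero.ne N))
  intro n
  rw [← qExpand_coeff_mul N, ← h4]
  exact hx _

/-- The coefficients of the conjugate polynomial are rational integers. -/
theorem conjPoly_mem_lifts (R : Polynomial (Polynomial ℂ)) (hm : R.Monic)
    (hd : R.natDegree = dedekindPsi N)
    (hR : letI := cosetFintype N
      ∀ z, R.map (evalRingHom (kleinJ z))
        = ∏ q : SL(2, ℤ) ⧸ Gamma0 N, (X - C (conjAt (jLevel N) q z))) :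
    R ∈ lifts (mapRingHom (Int.castRingHom ℂ)) := by
  classical
  letI := cosetFintype N
  have hrel : R.eval₂ (aeval (jqModC ℂ)).toRingHom (qExpand ℂ N (jqModC ℂ)) = 0 := by
    refine (relation_iff R N).mpr fun z => ?_
    rw [← map_evalRingHom_eval, hR, Polynomial.eval_prod]
    exact Finset.prod_eq_zero
      (i := (QuotientGroup.mk 1 : SL(2, ℤ) ⧸ Gamma0 N)) (Finset.mem_univ _)
      (by simp [(isModFun_jLevel N dvd_rfl).conjAt_one])
  obtain ⟨Φ, hΦm, hΦd, hΦ⟩ := exists_monic_relation_over (L := ℚ) N (algebraMap ℚ ℂ)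
  have hΦC : R = Φ.map (mapRingHom (algebraMap ℚ ℂ)) := by
    have hinj := Polynomial.map_injective (algebraMap ℚ ℂ) (algebraMap ℚ ℂ).injective
    have hdeg : (Φ.map (mapRingHom (algebraMap ℚ ℂ))).natDegree = dedekindPsi N := by
      rw [natDegree_map_eq_of_injective hinj, hΦd]
    refine sub_eq_zero.mp (eq_zero_of_relation_complex N _ ?_ ?_)
    · rcases eq_or_ne (R - Φ.map (mapRingHom (algebraMap ℚ ℂ))) 0 with h0 | h0
      · rw [h0, natDegree_zero, ← index_Gamma0]
        exact Nat.pos_of_ne_zero Subgroup.FiniteIndex.index_ne_zero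
      · refine lt_of_le_of_ne ((natDegree_sub_le _ _).trans (by rw [hd, hdeg, max_self])) fun he => ?_
        have hc := Polynomial.leadingCoeff_ne_zero.mpr h0
        rw [leadingCoeff, he, coeff_sub, ← hd, hm.coeff_natDegree, hd, ← hdeg,
          (hΦm.map _).coeff_natDegree, sub_self] at hc
        exact hc rfl
    · rw [eval₂_sub, hrel, ← coeffMap_serJd (algebraMap ℚ ℂ) N, ← coeffMap_serJ (algebraMap ℚ ℂ),
        ← coeffMap_eval₂, hΦ, map_zero, sub_zero]
  rw [lifts_iff_coeff_lifts]
  intro k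
  have hk : R.coeff k ∈ lifts (Int.castRingHom ℂ) := by
    rw [lifts_iff_coeff_lifts]
    intro i
    have hi := isIntegral_coeff_of_aeval_mem _ (conjPoly_coeff_mem_intSeries N R hR k) i
    rw [hΦC, coeff_map, coe_mapRingHom, coeff_map] at hi ⊢
    rw [show algebraMap ℚ ℂ = (IsScalarTower.toAlgHom ℤ ℚ ℂ).toRingHom from rfl] at hi
    obtain ⟨a, ha⟩ := IsIntegrallyClosed.isIntegral_iff.mp
      ((isIntegral_algHom_iff (IsScalarTower.toAlgHom ℤ ℚ ℂ) (algebraMap ℚ ℂ).injective).mp hi)
    exact ⟨a, by rw [← ha]; simp⟩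
  rw [mem_lifts] at hk
  exact hk

/-- The modular polynomial of level `N`, with integral coefficients. -/
theorem exists_modularPolynomial :
    ∃ Φ : Polynomial (Polynomial ℤ), Φ.Monic ∧ Φ.natDegree = dedekindPsi N ∧
      (letI := cosetFintype N
       ∀ z, (Φ.map (mapRingHom (Int.castRingHom ℂ))).map (evalRingHom (kleinJ z))
        = ∏ q : SL(2, ℤ) ⧸ Gamma0 N, (X - C (conjAt (jLevel N) q z))) ∧
      Φ.eval₂ evalAtJ (jqN N) = 0 := by
  classical
  letI := cosetFintype N
  obtain ⟨R, hm, hd, hR⟩ := exists_conjPoly (isModFun_jLevel (N := N) N dvd_rfl)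
  obtain ⟨Φ, hΦ, hΦdeg, hΦm⟩ := lifts_and_degree_eq_and_monic (conjPoly_mem_lifts N R hm hd hR) hm
  have hnd : Φ.natDegree = dedekindPsi N := by rw [natDegree_eq_of_degree_eq hΦdeg, hd]
  refine ⟨Φ, hΦm, hnd, fun z => by rw [hΦ]; exact hR z, ?_⟩
  have hrel : R.eval₂ (aeval (jqModC ℂ)).toRingHom (qExpand ℂ N (jqModC ℂ)) = 0 := by
    refine (relation_iff R N).mpr fun z => ?_
    rw [← map_evalRingHom_eval, hR, Polynomial.eval_prod]
    exact Finset.prod_eq_zero
      (i := (QuotientGroup.mk 1 : SL(2, ℤ) ⧸ Gamma0 N)) (Finset.mem_univ _)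
      (by simp [(isModFun_jLevel N dvd_rfl).conjAt_one])
  refine (coeffMap (algebraMap ℚ ℂ)).injective ?_
  rw [map_zero, hom_eval₂, ← hrel, ← hΦ, eval₂_map]
  congr 1
  · refine Polynomial.ringHom_ext (fun a => ?_) ?_
    · simp [evalAtJ]
    · simp only [RingHom.comp_apply, evalAtJ_X, coe_mapRingHom, Polynomial.map_X,
        AlgHom.toRingHom_eq_coe, RingHom.coe_coe, aeval_X]
      exact coeffEmb_jq
  · exact coeffEmb_qExpand_jq N

/-- `ModularPolynomialData N` exists for every `N`. -/
def modularPolynomialData : ModularPolynomialData N where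
  Φ := (exists_modularPolynomial N).choose
  monic := (exists_modularPolynomial N).choose_spec.1
  natDegree_eq := (exists_modularPolynomial N).choose_spec.2.1
  eval_eq_zero := (exists_modularPolynomial N).choose_spec.2.2.2

/-- Any relation between `j` and `j(q^N)` over `L` is a multiple of a monic relation of
degree `ψ(N)`. -/
theorem dvd_of_relation {L : Type*} [Field L] [Algebra ℚ L] (ι : L →+* ℂ)
    {Φ R : Polynomial (Polynomial L)} (hm : Φ.Monic) (hd : Φ.natDegree = dedekindPsi N)
    (hΦ : Φ.eval₂ (aeval (serJ L)).toRingHom (serJd L N) = 0)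
    (hR : R.eval₂ (aeval (serJ L)).toRingHom (serJd L N) = 0) : Φ ∣ R := by
  have hne : Φ ≠ 1 := by
    intro h
    rw [h, eval₂_one] at hΦ
    exact one_ne_zero hΦ
  rw [← modByMonic_eq_zero_iff_dvd hm]
  refine eq_zero_of_relation_over N ι _ (hd ▸ natDegree_modByMonic_lt R hm hne) ?_
  have h := congrArg (fun P : Polynomial (Polynomial L) =>
    P.eval₂ (aeval (serJ L)).toRingHom (serJd L N)) (modByMonic_add_div R Φ)
  simp only [eval₂_add, eval₂_mul, hΦ, zero_mul, add_zero, hR] at h
  exact h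

end Fermat.Agent.Modular

end
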