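import Mathlib.NumberTheory.ModularForms.Derivative
import Mathlib.NumberTheory.ModularForms.LevelOne.GradedRing
import Mathlib.NumberTheory.Modular
import Mathlib.Analysis.Complex.CauchyIntegral

/-!
# The order of vanishing of `j - j₀`

`E₄` and `E₆` have only simple zeros, and `j' = c E₄² E₆ / Δ` with `c ≠ 0`.
Hence `j - j τ` vanishes at `τ` to order `3` at zeros of `E₄`, `2` at zeros of `E₆`,
`1` elsewhere.
-/

set_option autoImplicit false

noncomputable section

open UpperHalfPlane hiding I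
open Complex Filter Topology ModularForm EisensteinSeries
open scoped MatrixGroups Manifold Real ModularForm

namespace Fermat.Agent.Modular

local notation "D" => Derivative.normalizedDerivOfComplex

theorem analyticAt_comp_ofComplex {f : ℍ → ℂ} (hf : MDiff f) (τ : ℍ) :
    AnalyticAt ℂ (f ∘ ofComplex) τ :=
  (UpperHalfPlane.mdifferentiable_iff.mp hf).analyticAt
    (isOpen_upperHalfPlaneSet.mem_nhds τ.im_pos)

theorem mdiff_form {k : ℤ} (f : ModularForm 𝒮ℒ k) : MDiff (⇑f) := f.holo'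

theorem mdiff_discriminant : MDiff discriminant := CuspForm.discriminant.holo'

theorem slash_form {k : ℤ} (f : ModularForm 𝒮ℒ k) (γ : SL(2, ℤ)) : (⇑f) ∣[k] γ = ⇑f :=
  f.slash_action_eq' _ ⟨γ, rfl⟩

/-- `D f` tends to zero at infinity for a bounded periodic holomorphic `f`. -/
theorem isZeroAtImInfty_D {f : ℍ → ℂ} (hper : Function.Periodic (f ∘ ofComplex) (1 : ℂ))
    (hf : MDiff f) (hbd : IsBoundedAtImInfty f) : IsZeroAtImInfty (D f) := by
  have hper' : Function.Periodic (f ∘ ofComplex) ((1 : ℝ) : ℂ) := by simpa using hper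
  set g := Function.Periodic.cuspFunction 1 (f ∘ ofComplex) with hg
  have hfg : ∀ z : ℂ, (f ∘ ofComplex) z = g (Function.Periodic.qParam 1 z) :=
    fun z => (Function.Periodic.eq_cuspFunction one_ne_zero hper' z).symm
  have han : AnalyticAt ℂ g 0 :=
    UpperHalfPlane.analyticAt_cuspFunction_zero one_pos hper' hf hbd
  have hqd : ∀ z : ℂ, HasDerivAt (Function.Periodic.qParam (1 : ℝ))
      (2 * π * I * Function.Periodic.qParam 1 z) z := by
    intro z
    show HasDerivAt (fun w : ℂ => cexp (2 * π * I * w / ((1 : ℝ) : ℂ))) _ z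
    simpa [Function.Periodic.qParam, mul_comm] using
      ((hasDerivAt_id z).const_mul (2 * π * I)).cexp
  have hdiff : ∀ᶠ τ in atImInfty, D f τ =
      Function.Periodic.qParam 1 (τ : ℂ) * deriv g (Function.Periodic.qParam 1 (τ : ℂ)) := by
    have h0 : Tendsto (fun τ : ℍ => Function.Periodic.qParam 1 (τ : ℂ)) atImInfty (𝓝 0) :=
      UpperHalfPlane.qParam_tendsto_atImInfty one_pos
    filter_upwards [h0.eventually han.eventually_analyticAt] with τ hτ
    have : HasDerivAt (f ∘ ofComplex)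
        (deriv g (Function.Periodic.qParam 1 (τ : ℂ)) *
          (2 * π * I * Function.Periodic.qParam 1 (τ : ℂ))) (τ : ℂ) :=
      (hτ.differentiableAt.hasDerivAt.comp (τ : ℂ) (hqd τ)).congr_of_eventuallyEq
        (Eventually.of_forall fun z => hfg z)
    have h2 : (2 * π * I : ℂ) ≠ 0 := by simp [Real.pi_ne_zero]
    rw [Derivative.normalizedDerivOfComplex, this.deriv]
    field_simp
  refine Tendsto.congr' (EventuallyEq.symm hdiff) ?_
  have h0 : Tendsto (fun τ : ℍ => Function.Periodic.qParam 1 (τ : ℂ)) atImInfty (𝓝 0) :=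
    UpperHalfPlane.qParam_tendsto_atImInfty one_pos
  simpa using h0.mul ((han.deriv.continuousAt.tendsto).comp h0)

/-- The Serre derivative, as a map between level one forms. -/
def serreForm {k m : ℤ} (hm : m = k + 2) (f : ModularForm 𝒮ℒ k) : ModularForm 𝒮ℒ m where
  toFun := Derivative.serreDerivative k f
  slash_action_eq' A hA := by
    obtain ⟨γ, rfl⟩ := hA
    subst hm
    exact Derivative.serreDerivative_slash_invariant (mdiff_form f) (slash_form f γ)
  holo' := Derivative.serreDerivative_mdifferentiable _ (mdiff_form f)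
  bdd_at_cusps' {c} hc := by
    subst hm
    rw [Subgroup.IsArithmetic.isCusp_iff_isCusp_SL2Z] at hc
    rw [OnePoint.isBoundedAt_iff_forall_SL2Z hc]
    intro γ _
    rw [Derivative.serreDerivative_slash_invariant (mdiff_form f) (slash_form f γ)]
    have hbd : IsBoundedAtImInfty f := ModularFormClass.bdd_at_infty f
    have hper := SlashInvariantFormClass.periodic_comp_ofComplex (h := 1) f
      (by exact one_mem_strictPeriods_SL)
    have h1 : IsBoundedAtImInfty (D f) :=
      (isZeroAtImInfty_D (by simpa using hper) (mdiff_form f) hbd).isBoundedAtImInfty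
    have h2 : IsBoundedAtImInfty (fun z : ℍ => (k : ℂ) * 12⁻¹ * E2 z * f z) :=
      ((const_boundedAtFilter atImInfty ((k : ℂ) * 12⁻¹)).mul
        EisensteinSeries.isBoundedAtImInfty_E2).mul hbd
    exact h1.sub h2

theorem serreForm_apply {k m : ℤ} (hm : m = k + 2) (f : ModularForm 𝒮ℒ k) (z : ℍ) :
    serreForm hm f z = D f z - k * 12⁻¹ * E2 z * f z := rfl

theorem levelOne_weight_eight_rank_one : Module.rank ℂ (ModularForm 𝒮ℒ 8) = 1 := by
  have := ModularForm.dimension_level_one 8 ⟨4, rfl⟩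
  simpa [Nat.ModEq] using this

/-- Ramanujan: `D E₄ = E₂E₄/3 + a E₆`. -/
theorem exists_D_E4 : ∃ a : ℂ, ∀ z : ℍ, D E₄ z = E2 z * E₄ z / 3 + a * E₆ z := by
  obtain ⟨a, ha⟩ := (finrank_eq_one_iff_of_nonzero' E₆ (E_ne_zero _ ⟨3, rfl⟩)).mp
    (Module.rank_eq_one_iff_finrank_eq_one.mp levelOne_weight_six_rank_one)
    (serreForm (m := 6) (by norm_num) E₄)
  refine ⟨a, fun z => ?_⟩
  have h := congrArg (fun F : ModularForm 𝒮ℒ 6 => F z) ha
  simp only [serreForm_apply, FunLike.coe_smul, Pi.smul_apply, smul_eq_mul] at h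
  push_cast at h
  linear_combination -h

/-- Ramanujan: `D E₆ = E₂E₆/2 + b E₄²`. -/
theorem exists_D_E6 : ∃ b : ℂ, ∀ z : ℍ, D E₆ z = E2 z * E₆ z / 2 + b * E₄ z ^ 2 := by
  have hne : (E₄.pow 2).mcast (by norm_num : ((2 : ℕ) : ℤ) * 4 = 8) ≠ 0 := by
    intro h
    obtain ⟨z, hz⟩ := DFunLike.ne_iff.mp (E_ne_zero (by norm_num : 3 ≤ 4) ⟨2, rfl⟩)
    have := congrArg (fun F : ModularForm 𝒮ℒ 8 => F z) h
    simp only [coe_mcast, coe_pow, Pi.pow_apply, zero_apply] at this
    exact hz (by simpa using this)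
  obtain ⟨b, hb⟩ := (finrank_eq_one_iff_of_nonzero' _ hne).mp
    (Module.rank_eq_one_iff_finrank_eq_one.mp levelOne_weight_eight_rank_one)
    (serreForm (m := 8) (by norm_num) E₆)
  refine ⟨b, fun z => ?_⟩
  have h := congrArg (fun F : ModularForm 𝒮ℒ 8 => F z) hb
  simp only [serreForm_apply, FunLike.coe_smul, Pi.smul_apply, smul_eq_mul, coe_mcast, coe_pow,
    Pi.pow_apply] at h
  push_cast at h
  linear_combination -h

theorem D_discriminant (z : ℍ) : D discriminant z = E2 z * discriminant z := by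
  have hev : (discriminant ∘ ofComplex) =ᶠ[𝓝 (z : ℂ)] fun w => ModularForm.eta w ^ 24 := by
    filter_upwards [isOpen_upperHalfPlaneSet.mem_nhds z.im_pos] with w hw
    simp [discriminant, ofComplex_apply_of_im_pos hw]
  have hd := differentiableAt_eta_of_mem_upperHalfPlaneSet z.im_pos
  have hlog := logDeriv_eta_eq_E2 z
  rw [logDeriv_apply, div_eq_iff (eta_ne_zero z.im_pos)] at hlog
  rw [Derivative.normalizedDerivOfComplex, hev.deriv_eq, deriv_fun_pow hd, hlog, discriminant]
  simp only [Nat.cast_ofNat]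
  field_simp [Real.pi_ne_zero]
  ring

/-- The Eisenstein series do not vanish simultaneously. -/
theorem E6_ne_zero_of_E4_eq_zero {z : ℍ} (h : E₄ z = 0) : E₆ z ≠ 0 := fun h' =>
  discriminant_ne_zero z (by rw [discriminant_eq_E₄_cube_sub_E₆_sq, h, h']; ring)

theorem E4_ne_zero_of_E6_eq_zero {z : ℍ} (h : E₆ z = 0) : E₄ z ≠ 0 := fun h' =>
  E6_ne_zero_of_E4_eq_zero h' h

theorem analyticOrderAt_ne_top {k : ℤ} (f : ModularForm 𝒮ℒ k) (hf : f ≠ 0) (z : ℍ) :
    analyticOrderAt (f ∘ ofComplex) z ≠ ⊤ := by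
  intro htop
  apply hf
  have han : AnalyticOnNhd ℂ (f ∘ ofComplex) upperHalfPlaneSet := fun w hw =>
    analyticAt_comp_ofComplex (mdiff_form f) ⟨w, hw⟩
  have := han.eqOn_zero_of_preconnected_of_eventuallyEq_zero
    (convex_halfSpace_im_gt 0).isPreconnected z.im_pos
    (analyticOrderAt_eq_top.mp htop)
  ext w
  simpa using this w.im_pos

/-- If `f' = g f` near a zero of `f`, then `f` is identically zero. -/
theorem deriv_comp_ne_mul {k : ℤ} (f : ModularForm 𝒮ℒ k) (hf : f ≠ 0) {g : ℂ → ℂ} {z : ℍ}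
    (hz : f z = 0) (hg : AnalyticAt ℂ g z)
    (heq : deriv (f ∘ ofComplex) =ᶠ[𝓝 (z : ℂ)] g * (f ∘ ofComplex)) : False := by
  have han := analyticAt_comp_ofComplex (mdiff_form f) z
  have h1 : analyticOrderAt (deriv (f ∘ ofComplex)) (z : ℂ) + 1
      = analyticOrderAt (f ∘ ofComplex) z := by
    rw [han.analyticOrderAt_deriv_add_one]
    simp [hz, Function.comp_def]
  rw [analyticOrderAt_congr heq, analyticOrderAt_mul hg han] at h1
  have hne := analyticOrderAt_ne_top f hf z
  generalize analyticOrderAt (f ∘ ofComplex) (z : ℂ) = n at h1 hne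
  generalize analyticOrderAt g (z : ℂ) = m at h1
  lift n to ℕ using hne
  induction m using ENat.recTopCoe with
  | top => simp at h1
  | coe m => norm_cast at h1; omega

theorem deriv_eq_D {f : ℍ → ℂ} (z : ℍ) : deriv (f ∘ ofComplex) z = 2 * π * I * D f z := by
  have : (2 * π * I : ℂ) ≠ 0 := by simp [Real.pi_ne_zero]
  rw [Derivative.normalizedDerivOfComplex]
  field_simp

/-- Every zero of `E₄` is simple. -/
theorem D_E4_ne_zero {z : ℍ} (hz : E₄ z = 0) : D E₄ z ≠ 0 := by
  obtain ⟨a, ha⟩ := exists_D_E4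
  rw [ha, hz]
  simp only [mul_zero, zero_div, zero_add]
  refine mul_ne_zero (fun h0 => ?_) (E6_ne_zero_of_E4_eq_zero hz)
  refine deriv_comp_ne_mul E₄ (E_ne_zero _ ⟨2, rfl⟩)
    (g := fun w => 2 * π * I * ((E2 ∘ ofComplex) w / 3)) hz
    (analyticAt_const.mul ((analyticAt_comp_ofComplex E2_mdifferentiable z).div analyticAt_const
      (by norm_num))) ?_
  filter_upwards [isOpen_upperHalfPlaneSet.mem_nhds z.im_pos] with w hw
  have := deriv_eq_D (f := E₄) ⟨w, hw⟩
  rw [ha, h0] at this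
  simp only [Pi.mul_apply, Function.comp_apply, ofComplex_apply_of_im_pos hw]
  rw [this]
  ring

/-- Every zero of `E₆` is simple. -/
theorem D_E6_ne_zero {z : ℍ} (hz : E₆ z = 0) : D E₆ z ≠ 0 := by
  obtain ⟨b, hb⟩ := exists_D_E6
  rw [hb, hz]
  simp only [mul_zero, zero_div, zero_add]
  refine mul_ne_zero (fun h0 => ?_) (pow_ne_zero _ (E4_ne_zero_of_E6_eq_zero hz))
  refine deriv_comp_ne_mul E₆ (E_ne_zero _ ⟨3, rfl⟩)
    (g := fun w => 2 * π * I * ((E2 ∘ ofComplex) w / 2)) hz
    (analyticAt_const.mul ((analyticAt_comp_ofComplex E2_mdifferentiable z).div analyticAt_const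
      (by norm_num))) ?_
  filter_upwards [isOpen_upperHalfPlaneSet.mem_nhds z.im_pos] with w hw
  have := deriv_eq_D (f := E₆) ⟨w, hw⟩
  rw [hb, h0] at this
  simp only [Pi.mul_apply, Function.comp_apply, ofComplex_apply_of_im_pos hw]
  rw [this]
  ring

theorem analyticOrderAt_E4 {z : ℍ} (hz : E₄ z = 0) : analyticOrderAt (E₄ ∘ ofComplex) z = 1 := by
  refine (analyticAt_comp_ofComplex (mdiff_form E₄) z).analyticOrderAt_eq_one_of_zero_deriv_ne_zero
    (by simp [hz]) ?_
  rw [deriv_eq_D]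
  exact mul_ne_zero (by simp [Real.pi_ne_zero]) (D_E4_ne_zero hz)

theorem analyticOrderAt_E6 {z : ℍ} (hz : E₆ z = 0) : analyticOrderAt (E₆ ∘ ofComplex) z = 1 := by
  refine (analyticAt_comp_ofComplex (mdiff_form E₆) z).analyticOrderAt_eq_one_of_zero_deriv_ne_zero
    (by simp [hz]) ?_
  rw [deriv_eq_D]
  exact mul_ne_zero (by simp [Real.pi_ne_zero]) (D_E6_ne_zero hz)

theorem exists_E4_eq_zero : ∃ z : ℍ, E₄ z = 0 := by
  let ρ : ℍ := ⟨⟨-1 / 2, Real.sqrt 3 / 2⟩, by simp⟩
  refine ⟨ρ, ?_⟩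
  have hρ : (ρ : ℂ) ^ 2 + ρ + 1 = 0 := by
    have h3 : Real.sqrt 3 ^ 2 = 3 := Real.sq_sqrt (by norm_num)
    apply Complex.ext <;> simp [ρ, pow_two] <;> nlinarith
  have hfix : (ModularGroup.S * ModularGroup.T) • ρ = ρ := by
    apply UpperHalfPlane.ext
    rw [mul_smul, UpperHalfPlane.modular_T_smul, UpperHalfPlane.modular_S_smul]
    have hne : (1 + (ρ : ℂ)) ≠ 0 := by
      intro h
      have := congrArg Complex.im h
      simp [ρ] at this
    simp only [coe_vadd]
    push_cast
    field_simp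
    linear_combination -hρ
  have hmem : ((ModularGroup.S * ModularGroup.T : SL(2, ℤ)) : GL (Fin 2) ℝ) ∈ 𝒮ℒ := ⟨_, rfl⟩
  have h := SlashInvariantForm.slash_action_eqn'' E₄ hmem ρ
  have hd : denom ((ModularGroup.S * ModularGroup.T : SL(2, ℤ)) : GL (Fin 2) ℝ) ρ
      = (ρ : ℂ) + 1 := by
    simp [UpperHalfPlane.denom, ModularGroup.coe_S, ModularGroup.coe_T, Matrix.mul_apply,
      Fin.sum_univ_two]
  rw [show (((ModularGroup.S * ModularGroup.T : SL(2, ℤ)) : GL (Fin 2) ℝ) • ρ) = ρ from hfix,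
    hd] at h
  have h4 : ((ρ : ℂ) + 1) ^ (4 : ℤ) = ρ ^ 2 := by
    norm_cast
    linear_combination ((ρ : ℂ) ^ 2 + 3 * ρ + 1) * hρ
  norm_num at h h4
  rcases eq_or_ne (E₄ ρ) 0 with h0 | h0
  · exact h0
  · exfalso
    have : (ρ : ℂ) ^ 2 = 1 := by
      rw [← h4]
      field_simp at h
      linear_combination -h
    have : (ρ : ℂ) = -2 := by linear_combination hρ - this
    have := congrArg Complex.im this
    simp [ρ] at this

/-- `D` of `j = E₄³/Δ` is a nonzero multiple of `E₄²E₆/Δ`. -/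
theorem exists_D_j : ∃ c : ℂ, c ≠ 0 ∧
    ∀ z : ℍ, D (fun τ => E₄ τ ^ 3 / discriminant τ) z = c * (E₄ z ^ 2 * E₆ z / discriminant z) := by
  obtain ⟨a, ha⟩ := exists_D_E4
  have ha0 : a ≠ 0 := by
    intro h0
    obtain ⟨z, hz⟩ := exists_E4_eq_zero
    exact D_E4_ne_zero hz (by rw [ha, hz, h0]; ring)
  refine ⟨3 * a, by simpa using ha0, fun z => ?_⟩
  have hE := (UpperHalfPlane.mdifferentiableAt_iff.mp (mdiff_form E₄ z)).hasDerivAt
  have hΔ := (UpperHalfPlane.mdifferentiableAt_iff.mp (mdiff_discriminant z)).hasDerivAt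
  have := (hE.fun_pow 3).fun_div hΔ (by simpa using discriminant_ne_zero z)
  have hcomp : ((fun τ => E₄ τ ^ 3 / discriminant τ) ∘ ofComplex) = fun w =>
      (E₄ ∘ ofComplex) w ^ 3 / (discriminant ∘ ofComplex) w := rfl
  rw [Derivative.normalizedDerivOfComplex, hcomp, this.deriv]
  have e1 := deriv_eq_D (f := E₄) z
  have e2 := deriv_eq_D (f := discriminant) z
  rw [ha] at e1
  rw [D_discriminant z] at e2
  rw [e1, e2]
  simp only [Function.comp_apply, ofComplex_apply]
  field_simp [discriminant_ne_zero z, Real.pi_ne_zero]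
  ring

/-- The local degree of `j` at `z`: `3` at zeros of `E₄`, `2` at zeros of `E₆`, else `1`. -/
def jDegree (z : ℍ) : ℕ := if E₄ z = 0 then 3 else if E₆ z = 0 then 2 else 1

theorem mdiff_j : MDiff (fun τ => E₄ τ ^ 3 / discriminant τ) := by
  rw [UpperHalfPlane.mdifferentiable_iff]
  exact ((UpperHalfPlane.mdifferentiable_iff.mp (mdiff_form E₄)).pow 3).div
    (UpperHalfPlane.mdifferentiable_iff.mp mdiff_discriminant)
    fun w hw => by simpa using discriminant_ne_zero (ofComplex w)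

theorem analyticOrderAt_j_sub (z : ℍ) :
    analyticOrderAt (fun w : ℂ => E₄ (ofComplex w) ^ 3 / discriminant (ofComplex w)
      - E₄ z ^ 3 / discriminant z) z = jDegree z := by
  have han := analyticAt_comp_ofComplex mdiff_j z
  have h1 := han.analyticOrderAt_deriv_add_one
  simp only [Function.comp_apply, ofComplex_apply] at h1
  rw [← h1]
  obtain ⟨c, hc, hD⟩ := exists_D_j
  have aE4 := analyticAt_comp_ofComplex (mdiff_form E₄) z
  have aE6 := analyticAt_comp_ofComplex (mdiff_form E₆) z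
  have aΔ : AnalyticAt ℂ (fun w => 2 * π * I * c / discriminant (ofComplex w)) (z : ℂ) :=
    analyticAt_const.div (analyticAt_comp_ofComplex mdiff_discriminant z)
      (by simpa using discriminant_ne_zero z)
  have hev : deriv ((fun τ => E₄ τ ^ 3 / discriminant τ) ∘ ofComplex) =ᶠ[𝓝 (z : ℂ)]
      (fun w => 2 * π * I * c / discriminant (ofComplex w)) *
        ((E₄ ∘ ofComplex) ^ 2 * (E₆ ∘ ofComplex)) := by
    filter_upwards [isOpen_upperHalfPlaneSet.mem_nhds z.im_pos] with w hw
    have := deriv_eq_D (f := fun τ => E₄ τ ^ 3 / discriminant τ) ⟨w, hw⟩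
    rw [hD] at this
    simp only [Pi.mul_apply, Pi.pow_apply, Function.comp_apply, ofComplex_apply_of_im_pos hw]
    rw [this]
    ring
  have hu : analyticOrderAt (fun w => 2 * π * I * c / discriminant (ofComplex w)) (z : ℂ) = 0 := by
    rw [aΔ.analyticOrderAt_eq_zero]
    simp [hc, discriminant_ne_zero z, Real.pi_ne_zero]
  rw [analyticOrderAt_congr hev, analyticOrderAt_mul aΔ ((aE4.pow 2).mul aE6), hu,
    analyticOrderAt_mul (aE4.pow 2) aE6, analyticOrderAt_pow aE4]
  by_cases h4 : E₄ z = 0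
  · rw [analyticOrderAt_E4 h4, aE6.analyticOrderAt_eq_zero.mpr
      (by simpa using E6_ne_zero_of_E4_eq_zero h4)]
    simp [jDegree, h4]; rfl
  · rw [aE4.analyticOrderAt_eq_zero.mpr (by simpa using h4)]
    by_cases h6 : E₆ z = 0
    · rw [analyticOrderAt_E6 h6]
      simp [jDegree, h4, h6]; rfl
    · rw [aE6.analyticOrderAt_eq_zero.mpr (by simpa using h6)]
      simp [jDegree, h4, h6]

end Fermat.Agent.Modular

end
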