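import Fermat.Agent.Modular.EllipticPlaces
import Fermat.Agent.Modular.Degree

/-!
# Places of `FL N L` above finite values of `j`
-/

set_option autoImplicit false

noncomputable section

open CongruenceSubgroup AlgebraicCurve Fermat.Agent.Curve
open scoped MatrixGroups IntermediateField UpperHalfPlane

namespace Fermat.Agent.Modular

variable {N : ℕ} [NeZero N] {L : Type*} [Field L] [Algebra ℚ L]

omit [NeZero N] in
theorem kleinJHol_eq : kleinJHol = jHol 1 := by
  refine Subtype.ext (funext fun z => ?_)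
  show kleinJ z = kleinJ (mulH 1 z)
  congr 1
  ext
  simp

theorem translate_sigma (ι : L →+* ℂ) (g : SL(2, ℤ)) (f : FL N L) :
    translate g (sigma N ι 1 f) = sigma N ι g f := by
  rw [sigma_apply, sigma_apply, map_one]; rfl

theorem sigma_one_algebraMap (ι : L →+* ℂ) (a : L) :
    sigma N ι 1 (algebraMap L (FL N L) a) = algebraMap ℂ Mero (ι a) := by
  rw [← sigmaCoset_mk, sigmaCoset_algebraMap]

theorem sigma_one_jL (ι : L →+* ℂ) :
    sigma N ι 1 (jL N L) = algebraMap Hol Mero kleinJHol := by
  rw [← sigmaCoset_mk, sigmaCoset_jL, kleinJHol_eq]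

theorem translate_sigma_one_of_mem (ι : L →+* ℂ) {γ : SL(2, ℤ)} (hγ : γ ∈ Gamma0 N) (f : FL N L) :
    translate γ (sigma N ι 1 f) = sigma N ι 1 f := by
  rw [translate_sigma]
  conv_lhs => rw [← one_mul γ, sigma_mul_right N ι hγ]

theorem inv_mul_mem_of_sigma_eq (ι : L →+* ℂ) {g h : SL(2, ℤ)}
    (hgh : ∀ f : FL N L, translate g (sigma N ι 1 f) = translate h (sigma N ι 1 f)) :
    g⁻¹ * h ∈ Gamma0 N := by
  have e := hgh (jdL N L dvd_rfl)
  rw [translate_sigma, translate_sigma, sigma_jdL, sigma_jdL] at e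
  have e' := IsFractionRing.injective Hol Mero e
  rw [← QuotientGroup.eq]
  refine conjAt_jLevel_injective N (funext fun z => ?_)
  simp only [(isModFun_jLevel N dvd_rfl).conjAt_mk]
  exact congrArg (fun F : Hol => (F : ℍ → ℂ) z) e'

variable [IsAlgClosed L] [CharZero L] (ι : L →+* ℂ) [IsFunctionField1 L (FL N L)]

include ι

theorem three_mul_natCard_placesFL_zero :
    3 * Nat.card {P : Place L (FL N L) // 0 < P.ord (jL N L)}
      = ModularCurve.dedekindPsi N + 2 * ModularCurve.nuThree N :=
  three_mul_natCard_places_zero ι (sigma N ι 1) (sigma_one_algebraMap ι) (transcendental_jL N ι)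
    (sigma_one_jL ι) (fun _ hγ f => translate_sigma_one_of_mem ι hγ f)
    (fun _ _ h => inv_mul_mem_of_sigma_eq ι h) (finrank_FL N ι)

theorem two_mul_natCard_placesFL_1728 :
    2 * Nat.card {P : Place L (FL N L) // 0 < P.ord (jL N L - algebraMap L (FL N L) 1728)}
      = ModularCurve.dedekindPsi N + ModularCurve.nuTwo N :=
  two_mul_natCard_places_1728 ι (sigma N ι 1) (sigma_one_algebraMap ι) (transcendental_jL N ι)
    (sigma_one_jL ι) (fun _ hγ f => translate_sigma_one_of_mem ι hγ f)
    (fun _ _ h => inv_mul_mem_of_sigma_eq ι h) (finrank_FL N ι)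

theorem natCard_placesFL_generic {c : L} (h0 : c ≠ 0) (h1 : c ≠ 1728) :
    Nat.card {P : Place L (FL N L) // 0 < P.ord (jL N L - algebraMap L (FL N L) c)}
      = ModularCurve.dedekindPsi N :=
  natCard_places_generic ι (sigma N ι 1) (sigma_one_algebraMap ι) (transcendental_jL N ι)
    (sigma_one_jL ι) (fun _ hγ f => translate_sigma_one_of_mem ι hγ f)
    (fun _ _ h => inv_mul_mem_of_sigma_eq ι h) (finrank_FL N ι) h0 h1

end Fermat.Agent.Modular

end
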