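/-
Orbits of `T` on `SL(2, ℤ) ⧸ Γ₀(N)`: their number is `cuspCount N`.
-/
import Mathlib.NumberTheory.ModularForms.CongruenceSubgroups
import Mathlib.GroupTheory.GroupAction.Quotient
import Mathlib.Data.ZMod.Units
import Mathlib.Analysis.Complex.UpperHalfPlane.Basic
import Mathlib.NumberTheory.Modular
import Fermat.Prelude.Def_ModularCurve_GenusNumerics

set_option autoImplicit false

namespace Fermat.Agent.Modular

open Matrix.SpecialLinearGroup
open scoped MatrixGroups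

/-- Left cosets of `Γ₀(N)` in `SL(2, ℤ)`. -/
abbrev Gamma0Coset (N : ℕ) : Type := SL(2, ℤ) ⧸ CongruenceSubgroup.Gamma0 N

/-- The cusps of `Γ₀(N)`, as the orbits of the translation `T` on the cosets. -/
abbrev CuspOrbit (N : ℕ) : Type :=
  Quotient (MulAction.orbitRel (Subgroup.zpowers ModularGroup.T) (Gamma0Coset N))

lemma gamma0Coset_mk_eq_iff (N : ℕ) (g h : SL(2, ℤ)) :
    (QuotientGroup.mk g : Gamma0Coset N) = QuotientGroup.mk h ↔
      (N : ℤ) ∣ g 0 0 * h 1 0 - g 1 0 * h 0 0 := by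
  rw [QuotientGroup.eq, CongruenceSubgroup.Gamma0_mem, ← ZMod.intCast_zmod_eq_zero_iff_dvd]
  have : (g⁻¹ * h) 1 0 = g 0 0 * h 1 0 - g 1 0 * h 0 0 := by
    simp [Matrix.SpecialLinearGroup.coe_mul, Matrix.SpecialLinearGroup.coe_inv,
      Matrix.adjugate_fin_two, Matrix.mul_apply, Fin.sum_univ_two]
    ring
  rw [this]

lemma T_zpow_mul_entry_zero_zero (k : ℤ) (g : SL(2, ℤ)) :
    (ModularGroup.T ^ k * g) 0 0 = g 0 0 + k * g 1 0 := by
  simp [ModularGroup.coe_T_zpow, Matrix.mul_apply, Fin.sum_univ_two]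

lemma T_zpow_mul_entry_one_zero (k : ℤ) (g : SL(2, ℤ)) :
    (ModularGroup.T ^ k * g) 1 0 = g 1 0 := by
  simp

lemma cuspOrbit_mk_eq_iff (N : ℕ) (g h : SL(2, ℤ)) :
    (Quotient.mk'' (QuotientGroup.mk g : Gamma0Coset N) : CuspOrbit N) =
        Quotient.mk'' (QuotientGroup.mk h : Gamma0Coset N) ↔
      ∃ k : ℤ, (N : ℤ) ∣ (g 0 0 + k * g 1 0) * h 1 0 - g 1 0 * h 0 0 := by
  rw [eq_comm, Quotient.eq'', MulAction.orbitRel_apply, MulAction.mem_orbit_iff]
  constructor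
  · rintro ⟨⟨x, hx⟩, hk⟩
    obtain ⟨k, rfl⟩ := Subgroup.mem_zpowers_iff.mp hx
    refine ⟨k, ?_⟩
    change (QuotientGroup.mk (ModularGroup.T ^ k * g) : Gamma0Coset N) = _ at hk
    rw [gamma0Coset_mk_eq_iff,
      T_zpow_mul_entry_zero_zero, T_zpow_mul_entry_one_zero] at hk
    exact hk
  · rintro ⟨k, hk⟩
    refine ⟨⟨ModularGroup.T ^ k, Subgroup.mem_zpowers_iff.mpr ⟨k, rfl⟩⟩, ?_⟩
    change (QuotientGroup.mk (ModularGroup.T ^ k * g) : Gamma0Coset N) = _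
    rw [gamma0Coset_mk_eq_iff, T_zpow_mul_entry_zero_zero, T_zpow_mul_entry_one_zero]
    exact hk

/-- `T ^ N` acts trivially on the cosets of `Γ₀(N)`. -/
lemma T_zpow_level_smul (N : ℕ) (x : Gamma0Coset N) : ModularGroup.T ^ (N : ℤ) • x = x := by
  induction x using QuotientGroup.induction_on with
  | _ g =>
    change (QuotientGroup.mk (ModularGroup.T ^ (N : ℤ) * g) : Gamma0Coset N) = _
    rw [gamma0Coset_mk_eq_iff, T_zpow_mul_entry_zero_zero, T_zpow_mul_entry_one_zero]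
    exact ⟨g 1 0 * g 1 0, by ring⟩

/-- The width of the cusp of a coset divides the level. -/
lemma minimalPeriod_T_dvd_level (N : ℕ) (x : Gamma0Coset N) :
    Function.minimalPeriod (ModularGroup.T • ·) x ∣ N :=
  MulAction.zpow_smul_eq_iff_minimalPeriod_dvd.mp (T_zpow_level_smul N x) |> Int.natCast_dvd_natCast.mp

lemma isCoprime_first_col (g : SL(2, ℤ)) : IsCoprime (g 0 0) (g 1 0) := by
  refine ⟨g 1 1, -(g 0 1), ?_⟩
  have h := g.det_coe
  rw [Matrix.det_fin_two] at h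
  linarith

/-- The divisor of `N` attached to a cusp. -/
def cuspDivisor (N : ℕ) (g : SL(2, ℤ)) : ℕ := Int.gcd (g 1 0) N

lemma cuspDivisor_dvd (N : ℕ) (g : SL(2, ℤ)) : cuspDivisor N g ∣ N :=
  Int.natCast_dvd_natCast.mp (Int.gcd_dvd_right _ _)

lemma cuspDivisor_pos (N : ℕ) [NeZero N] (g : SL(2, ℤ)) : 0 < cuspDivisor N g :=
  Int.gcd_pos_of_ne_zero_right _ (by exact_mod_cast NeZero.ne N)

lemma cuspOrbit_mk_eq_iff_invariant (N : ℕ) [NeZero N] (g h : SL(2, ℤ)) :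
    (Quotient.mk'' (QuotientGroup.mk g : Gamma0Coset N) : CuspOrbit N) =
        Quotient.mk'' (QuotientGroup.mk h : Gamma0Coset N) ↔
      cuspDivisor N g = cuspDivisor N h ∧
        (Nat.gcd (cuspDivisor N g) (N / cuspDivisor N g) : ℤ) ∣
          g 0 0 * (h 1 0 / (cuspDivisor N g : ℤ)) - (g 1 0 / (cuspDivisor N g : ℤ)) * h 0 0 := by
  rw [cuspOrbit_mk_eq_iff]
  set d := cuspDivisor N g with hd
  have hd0 : (d : ℤ) ≠ 0 := by
    have := cuspDivisor_pos N g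
    omega
  have hdN : (d : ℤ) ∣ N := Int.natCast_dvd_natCast.mpr (cuspDivisor_dvd N g)
  have hdc : (d : ℤ) ∣ g 1 0 := Int.gcd_dvd_left _ _
  have hMd : (d : ℤ) * ((N / d : ℕ) : ℤ) = N := by
    exact_mod_cast Nat.mul_div_cancel' (cuspDivisor_dvd N g)
  constructor
  · rintro ⟨k, hk⟩
    have h1 : (d : ℤ) ∣ h 1 0 := by
      have : (d : ℤ) ∣ g 0 0 * h 1 0 := by
        have h2 : g 0 0 * h 1 0 = ((g 0 0 + k * g 1 0) * h 1 0 - g 1 0 * h 0 0)
            + g 1 0 * (h 0 0 - k * h 1 0) := by ring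
        rw [h2]
        exact dvd_add (hdN.trans hk) (hdc.mul_right _)
      exact ((isCoprime_first_col g).of_isCoprime_of_dvd_right hdc).symm.dvd_of_dvd_mul_left this
    have h2 : (cuspDivisor N h : ℤ) ∣ g 1 0 := by
      have hc' : (cuspDivisor N h : ℤ) ∣ h 1 0 := Int.gcd_dvd_left _ _
      have hN' : (cuspDivisor N h : ℤ) ∣ N := Int.gcd_dvd_right _ _
      have : (cuspDivisor N h : ℤ) ∣ h 0 0 * g 1 0 := by
        have h3 : h 0 0 * g 1 0 = (g 0 0 + k * g 1 0) * h 1 0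
            - ((g 0 0 + k * g 1 0) * h 1 0 - g 1 0 * h 0 0) := by ring
        rw [h3]
        exact dvd_sub (hc'.mul_left _) (hN'.trans hk)
      exact ((isCoprime_first_col h).of_isCoprime_of_dvd_right hc').symm.dvd_of_dvd_mul_left this
    have heq : d = cuspDivisor N h :=
      Nat.dvd_antisymm
        (Int.natCast_dvd_natCast.mp (Int.dvd_coe_gcd h1 hdN))
        (Int.natCast_dvd_natCast.mp (Int.dvd_coe_gcd h2 (Int.gcd_dvd_right _ _)))
    refine ⟨heq, ?_⟩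
    obtain ⟨u, hu⟩ := hdc
    obtain ⟨u', hu'⟩ := h1
    rw [hu, hu'] at hk ⊢
    rw [Int.mul_ediv_cancel_left _ hd0, Int.mul_ediv_cancel_left _ hd0]
    have h3 : ((N / d : ℕ) : ℤ) ∣ (g 0 0 + k * (d * u)) * u' - u * h 0 0 := by
      refine (mul_dvd_mul_iff_left hd0).mp ?_
      rw [hMd]
      refine hk.trans (dvd_of_eq ?_)
      ring
    have hg1 : (Nat.gcd d (N / d) : ℤ) ∣ ((N / d : ℕ) : ℤ) :=
      Int.natCast_dvd_natCast.mpr (Nat.gcd_dvd_right _ _)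
    have hg2 : (Nat.gcd d (N / d) : ℤ) ∣ (d : ℤ) :=
      Int.natCast_dvd_natCast.mpr (Nat.gcd_dvd_left _ _)
    have h4 : g 0 0 * u' - u * h 0 0 =
        ((g 0 0 + k * (d * u)) * u' - u * h 0 0) - (d : ℤ) * (k * u * u') := by ring
    rw [h4]
    exact dvd_sub (hg1.trans h3) (hg2.mul_right _)
  · rintro ⟨heq, hdiv⟩
    have hdc' : (d : ℤ) ∣ h 1 0 := by rw [heq]; exact Int.gcd_dvd_left _ _
    obtain ⟨u, hu⟩ := hdc
    obtain ⟨u', hu'⟩ := hdc'
    rw [hu, hu', Int.mul_ediv_cancel_left _ hd0, Int.mul_ediv_cancel_left _ hd0] at hdiv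
    have hcop : ∀ (c v : ℤ), c = d * v → Int.gcd c N = d → IsCoprime v ((N / d : ℕ) : ℤ) := by
      intro c v hc hgcd
      rw [Int.isCoprime_iff_gcd_eq_one]
      rw [hc, ← hMd, Int.gcd_mul_left, Int.natAbs_natCast] at hgcd
      exact Nat.eq_of_mul_eq_mul_left (cuspDivisor_pos N g) (by rw [← hd, mul_one]; exact hgcd)
    obtain ⟨v, w, hvw⟩ := (hcop _ _ hu hd.symm).mul_left (hcop _ _ hu' heq.symm)
    obtain ⟨m, hm⟩ := hdiv
    have hbez := Nat.gcd_eq_gcd_ab d (N / d)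
    refine ⟨-(Nat.gcdA d (N / d)) * m * v, ?_⟩
    rw [hu, hu', ← hMd]
    refine ⟨Nat.gcdB d (N / d) * m + d * Nat.gcdA d (N / d) * m * w, ?_⟩
    linear_combination (d : ℤ) * hm + (d : ℤ) * m * hbez
      - ((d : ℤ) ^ 2 * Nat.gcdA d (N / d) * m) * hvw

lemma exists_coprime_lift (N d : ℕ) [NeZero N] (hd : d ∣ N)
    (x : (ZMod (Nat.gcd d (N / d)))ˣ) :
    ∃ g : SL(2, ℤ), g 1 0 = (d : ℤ) ∧
      (((g 0 0 : ℤ)) : ZMod (Nat.gcd d (N / d))) = (x : ZMod (Nat.gcd d (N / d))) := by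
  have : NeZero d := ⟨fun h => NeZero.ne N (Nat.eq_zero_of_zero_dvd (h ▸ hd))⟩
  obtain ⟨y, hy⟩ := ZMod.unitsMap_surjective (Nat.gcd_dvd_left d (N / d)) x
  set a : ℕ := (y : ZMod d).val with ha
  have hcop : Nat.gcd a d = 1 := ZMod.val_coe_unit_coprime y
  have hb := Nat.gcd_eq_gcd_ab a d
  rw [hcop] at hb
  refine ⟨⟨!![(a : ℤ), -(Nat.gcdB a d); (d : ℤ), Nat.gcdA a d], ?_⟩, by simp, ?_⟩
  · rw [Matrix.det_fin_two_of]
    push_cast at hb
    linarith
  · rw [← hy]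
    show ((((a : ℕ) : ℤ)) : ZMod (Nat.gcd d (N / d))) = _
    rw [Int.cast_natCast, ha, ZMod.natCast_val, ZMod.unitsMap_def, Units.coe_map]
    rfl

/-- The number of cusps of `Γ₀(N)` is `cuspCount N`. -/
theorem natCard_cuspOrbit (N : ℕ) [NeZero N] :
    Nat.card (CuspOrbit N) = ModularCurve.cuspCount N := by
  classical
  choose rep hrep₁ hrep₂ using fun p : (Σ d : {d // d ∈ N.divisors},
      (ZMod (Nat.gcd (d : ℕ) (N / (d : ℕ))))ˣ) =>
    exists_coprime_lift N (p.1 : ℕ) (Nat.dvd_of_mem_divisors p.1.2) p.2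
  let F : (Σ d : {d // d ∈ N.divisors}, (ZMod (Nat.gcd (d : ℕ) (N / (d : ℕ))))ˣ) → CuspOrbit N :=
    fun p => Quotient.mk'' (QuotientGroup.mk (rep p))
  have hdiv : ∀ p, cuspDivisor N (rep p) = (p.1 : ℕ) := fun p => by
    rw [cuspDivisor, hrep₁]
    exact_mod_cast Nat.gcd_eq_left (Nat.dvd_of_mem_divisors p.1.2)
  have hne : ∀ d : {d // d ∈ N.divisors}, ((d : ℕ) : ℤ) ≠ 0 := fun d => by
    exact_mod_cast (Nat.pos_of_mem_divisors d.2).ne'
  have hinj : Function.Injective F := by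
    intro p q hpq
    obtain ⟨h1, h2⟩ := (cuspOrbit_mk_eq_iff_invariant N _ _).mp hpq
    rw [hdiv, hdiv] at h1
    obtain ⟨d, x⟩ := p
    obtain ⟨d', x'⟩ := q
    obtain rfl : d = d' := Subtype.ext h1
    rw [hdiv, hrep₁, hrep₁, Int.ediv_self (hne d), mul_one, one_mul,
      ← ZMod.intCast_eq_intCast_iff_dvd_sub, hrep₂, hrep₂] at h2
    exact congrArg (Sigma.mk d) (Units.ext h2.symm)
  have hsurj : Function.Surjective F := by
    intro o
    induction o using Quotient.inductionOn' with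
    | h X =>
    induction X using QuotientGroup.induction_on with
    | _ g =>
    set d : {d // d ∈ N.divisors} :=
      ⟨cuspDivisor N g, Nat.mem_divisors.mpr ⟨cuspDivisor_dvd N g, NeZero.ne N⟩⟩ with hd
    have hdc : (cuspDivisor N g : ℤ) ∣ g 1 0 := Int.gcd_dvd_left _ _
    obtain ⟨u, hu⟩ := hdc
    set G := Nat.gcd (d : ℕ) (N / (d : ℕ)) with hG
    have ha : IsUnit ((g 0 0 : ℤ) : ZMod G) := by
      rw [ZMod.coe_int_isUnit_iff_isCoprime]
      refine (((isCoprime_first_col g).of_isCoprime_of_dvd_right ?_)).symm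
      exact (Int.natCast_dvd_natCast.mpr (Nat.gcd_dvd_left _ _)).trans ⟨u, hu⟩
    have hu' : IsUnit ((u : ℤ) : ZMod G) := by
      rw [ZMod.coe_int_isUnit_iff_isCoprime]
      refine (IsCoprime.of_isCoprime_of_dvd_right ?_ (Int.natCast_dvd_natCast.mpr
        (Nat.gcd_dvd_right (d : ℕ) (N / (d : ℕ))))).symm
      rw [Int.isCoprime_iff_gcd_eq_one]
      have hmul : (cuspDivisor N g : ℤ) * ((N / cuspDivisor N g : ℕ) : ℤ) = N := by
        exact_mod_cast Nat.mul_div_cancel' (cuspDivisor_dvd N g)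
      refine Nat.eq_of_mul_eq_mul_left (cuspDivisor_pos N g) ?_
      rw [mul_one]
      conv_rhs => rw [cuspDivisor, hu, ← hmul, Int.gcd_mul_left, Int.natAbs_natCast]
    refine ⟨⟨d, ha.unit * hu'.unit⁻¹⟩, ?_⟩
    refine (cuspOrbit_mk_eq_iff_invariant N _ _).mpr ⟨hdiv _, ?_⟩
    rw [hdiv, hrep₁, Int.ediv_self (hne d), one_mul, hu,
      Int.mul_ediv_cancel_left _ (hne d), ← ZMod.intCast_eq_intCast_iff_dvd_sub, Int.cast_mul,
      hrep₂]
    simp [mul_assoc]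
  rw [← Nat.card_eq_of_bijective F ⟨hinj, hsurj⟩, Nat.card_sigma, ModularCurve.cuspCount,
    ← Finset.sum_coe_sort N.divisors (fun d => Nat.totient (Nat.gcd d (N / d)))]
  refine Finset.sum_congr rfl fun d _ => ?_
  have : NeZero (Nat.gcd (d : ℕ) (N / (d : ℕ))) :=
    ⟨(Nat.gcd_pos_of_pos_left _ (Nat.pos_of_mem_divisors d.2)).ne'⟩
  rw [Nat.card_eq_fintype_card, ZMod.card_units_eq_totient]

instance finite_cuspOrbit (N : ℕ) [NeZero N] : Finite (CuspOrbit N) :=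
  Quotient.finite _

end Fermat.Agent.Modular
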