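import Mathlib.NumberTheory.ModularForms.CongruenceSubgroups
import Mathlib.GroupTheory.GroupAction.Quotient
import Fermat.Prelude.Def_ModularCurve_GenusNumerics

/-!
# Elliptic fixed points on the cosets of `Γ₀(N)`

The cosets `h Γ₀(N)` fixed by `S` (resp. `S T`) correspond to the roots of `x² + 1`
(resp. `x² + x + 1`) in `ZMod N`, via `h ↦ h₀₀ / h₁₀`.
-/

set_option autoImplicit false

noncomputable section

open scoped MatrixGroups
open CongruenceSubgroup ModularGroup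

namespace Fermat.Agent.Modular

variable {N : ℕ}

/-- Membership in `Γ₀(N)` of a conjugate `h⁻¹ g h`, in coordinates. -/
theorem conj_mem_Gamma0_iff (g h : SL(2, ℤ)) :
    h⁻¹ * g * h ∈ Gamma0 N ↔
      ((g 1 0 * h 0 0 ^ 2 + (g 1 1 - g 0 0) * h 0 0 * h 1 0 - g 0 1 * h 1 0 ^ 2 : ℤ) : ZMod N)
        = 0 := by
  rw [Gamma0_mem]
  have : (h⁻¹ * g * h) 1 0 =
      g 1 0 * h 0 0 ^ 2 + (g 1 1 - g 0 0) * h 0 0 * h 1 0 - g 0 1 * h 1 0 ^ 2 := by
    simp [Matrix.SpecialLinearGroup.coe_inv, Matrix.adjugate_fin_two, Matrix.mul_apply,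
      Matrix.vecMul, dotProduct, Fin.sum_univ_two]
    ring
  rw [this]

theorem smul_coset_eq_iff (g h : SL(2, ℤ)) :
    g • (h : SL(2, ℤ) ⧸ Gamma0 N) = (h : SL(2, ℤ) ⧸ Gamma0 N) ↔ h⁻¹ * g * h ∈ Gamma0 N := by
  rw [MulAction.Quotient.smul_coe, eq_comm, QuotientGroup.eq, mul_assoc, smul_eq_mul]

/-- If `P(a,c) = s a² + t a c + u c²` vanishes at the first column of a determinant one matrix,
with `s` a unit, then the lower entry `c` is a unit. -/
theorem isUnit_of_quadratic {R : Type*} [CommRing R] {a b c d s t u : R} (hdet : a * d - b * c = 1)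
    (hs : IsUnit s) (h : s * a ^ 2 + t * a * c + u * c ^ 2 = 0) : IsUnit c := by
  obtain ⟨s, rfl⟩ := hs
  have h2 : a ^ 2 = c * ((↑s⁻¹ : R) * -(t * a + u * c)) := by
    linear_combination (↑s⁻¹ : R) * h - a ^ 2 * s.inv_mul
  refine IsUnit.of_mul_eq_one (((↑s⁻¹ : R) * -(t * a + u * c)) * d ^ 2 - b * (a * d + 1)) ?_
  linear_combination -d ^ 2 * h2 + (a * d + 1) * hdet

/-- The first column of a matrix, as a point of the affine line when the lower entry is a unit. -/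
def cosetSlope (h : SL(2, ℤ)) : ZMod N := (h 0 0 : ZMod N) * Ring.inverse (h 1 0 : ZMod N)

theorem cosetSlope_mul_of_mem (h γ : SL(2, ℤ)) (hγ : γ ∈ Gamma0 N)
    (hu : IsUnit (h 1 0 : ZMod N)) :
    IsUnit ((h * γ) 1 0 : ZMod N) ∧ (cosetSlope (h * γ) : ZMod N) = cosetSlope h := by
  rw [Gamma0_mem] at hγ
  have hdet : (γ 0 0 : ZMod N) * (γ 1 1 : ZMod N) = 1 := by
    have := congrArg (Int.cast : ℤ → ZMod N)
      ((Matrix.det_fin_two (γ : Matrix (Fin 2) (Fin 2) ℤ)).symm.trans γ.det_coe)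
    simpa [hγ] using this
  have h00 : ((h * γ) 0 0 : ZMod N) = (h 0 0 : ZMod N) * (γ 0 0 : ZMod N) := by
    simp [Matrix.mul_apply, Fin.sum_univ_two, hγ]
  have h10 : ((h * γ) 1 0 : ZMod N) = (h 1 0 : ZMod N) * (γ 0 0 : ZMod N) := by
    simp [Matrix.mul_apply, Fin.sum_univ_two, hγ]
  have hγu : IsUnit (γ 0 0 : ZMod N) := IsUnit.of_mul_eq_one _ hdet
  refine ⟨h10 ▸ hu.mul hγu, ?_⟩
  simp only [cosetSlope, h00, h10]
  rw [Ring.mul_inverse_rev]
  calc (h 0 0 : ZMod N) * (γ 0 0 : ZMod N) *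
        (Ring.inverse (γ 0 0 : ZMod N) * Ring.inverse (h 1 0 : ZMod N))
      = (h 0 0 : ZMod N) * ((γ 0 0 : ZMod N) * Ring.inverse (γ 0 0 : ZMod N)) *
        Ring.inverse (h 1 0 : ZMod N) := by ring
    _ = _ := by rw [Ring.mul_inverse_cancel _ hγu, mul_one]

/-- Two cosets with unit lower entries and the same slope are equal. -/
theorem coset_eq_of_cosetSlope_eq (h h' : SL(2, ℤ)) (hu : IsUnit (h 1 0 : ZMod N))
    (hu' : IsUnit (h' 1 0 : ZMod N)) (he : (cosetSlope h : ZMod N) = cosetSlope h') :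
    (h : SL(2, ℤ) ⧸ Gamma0 N) = (h' : SL(2, ℤ) ⧸ Gamma0 N) := by
  rw [QuotientGroup.eq, Gamma0_mem]
  have : (h⁻¹ * h') 1 0 = h 0 0 * h' 1 0 - h 1 0 * h' 0 0 := by
    simp [Matrix.SpecialLinearGroup.coe_inv, Matrix.adjugate_fin_two, Matrix.mul_apply,
      Fin.sum_univ_two]
    ring
  rw [this]
  simp only [cosetSlope] at he
  have e1 := Ring.mul_inverse_cancel _ hu
  have e2 := Ring.mul_inverse_cancel _ hu'
  push_cast
  linear_combination (h 1 0 : ZMod N) * (h' 1 0 : ZMod N) * he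
    - (h 0 0 : ZMod N) * (h' 1 0 : ZMod N) * e1 + (h' 0 0 : ZMod N) * (h 1 0 : ZMod N) * e2

/-- Fixed cosets of an element with unit lower-left entry. -/
theorem natCard_fixed_coset (g : SL(2, ℤ)) (hg : IsUnit (g 1 0 : ZMod N)) :
    Nat.card {q : SL(2, ℤ) ⧸ Gamma0 N // g • q = q} =
      Nat.card {x : ZMod N // (g 1 0 : ZMod N) * x ^ 2
        + ((g 1 1 : ZMod N) - (g 0 0 : ZMod N)) * x - (g 0 1 : ZMod N) = 0} := by
  classical
  have key : ∀ h : SL(2, ℤ), g • (h : SL(2, ℤ) ⧸ Gamma0 N) = (h : SL(2, ℤ) ⧸ Gamma0 N) →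
      IsUnit (h 1 0 : ZMod N) ∧ (g 1 0 : ZMod N) * (cosetSlope h : ZMod N) ^ 2
        + ((g 1 1 : ZMod N) - (g 0 0 : ZMod N)) * (cosetSlope h : ZMod N)
        - (g 0 1 : ZMod N) = 0 := by
    intro h hh
    rw [smul_coset_eq_iff, conj_mem_Gamma0_iff] at hh
    push_cast at hh
    have hdet : (h 0 0 : ZMod N) * (h 1 1 : ZMod N) - (h 0 1 : ZMod N) * (h 1 0 : ZMod N) = 1 := by
      have := congrArg (Int.cast : ℤ → ZMod N)
        ((Matrix.det_fin_two (h : Matrix (Fin 2) (Fin 2) ℤ)).symm.trans h.det_coe)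
      simpa using this
    have hu : IsUnit (h 1 0 : ZMod N) := isUnit_of_quadratic hdet hg
      (t := (g 1 1 : ZMod N) - (g 0 0 : ZMod N)) (u := -(g 0 1 : ZMod N))
      (by linear_combination hh)
    have e1 := Ring.mul_inverse_cancel _ hu
    refine ⟨hu, ?_⟩
    simp only [cosetSlope]
    linear_combination Ring.inverse (h 1 0 : ZMod N) ^ 2 * hh
      - ((g 1 1 : ZMod N) - (g 0 0 : ZMod N)) * (h 0 0 : ZMod N) *
        Ring.inverse (h 1 0 : ZMod N) * e1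
      + (g 0 1 : ZMod N) * ((h 1 0 : ZMod N) * Ring.inverse (h 1 0 : ZMod N) + 1) * e1
  let f : {q : SL(2, ℤ) ⧸ Gamma0 N // g • q = q} → {x : ZMod N // (g 1 0 : ZMod N) * x ^ 2
        + ((g 1 1 : ZMod N) - (g 0 0 : ZMod N)) * x - (g 0 1 : ZMod N) = 0} :=
    fun q => ⟨cosetSlope q.1.out, (key q.1.out (by rw [QuotientGroup.out_eq']; exact q.2)).2⟩
  refine Nat.card_eq_of_bijective f ⟨?_, ?_⟩
  · intro q q' hqq'
    have h1 := key q.1.out (by rw [QuotientGroup.out_eq']; exact q.2)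
    have h2 := key q'.1.out (by rw [QuotientGroup.out_eq']; exact q'.2)
    have := coset_eq_of_cosetSlope_eq _ _ h1.1 h2.1 (congrArg Subtype.val hqq')
    rw [QuotientGroup.out_eq', QuotientGroup.out_eq'] at this
    exact Subtype.ext this
  · rintro ⟨x, hx⟩
    obtain ⟨m, rfl⟩ := ZMod.intCast_surjective x
    let h : SL(2, ℤ) := ⟨!![m, -1; 1, 0], by simp [Matrix.det_fin_two]⟩
    have hfix : g • (h : SL(2, ℤ) ⧸ Gamma0 N) = (h : SL(2, ℤ) ⧸ Gamma0 N) := by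
      rw [smul_coset_eq_iff, conj_mem_Gamma0_iff]
      simp [h]
      linear_combination hx
    refine ⟨⟨_, hfix⟩, Subtype.ext ?_⟩
    obtain ⟨γ, hγ⟩ := QuotientGroup.mk_out_eq_mul (Gamma0 N) h
    simp only [f, hγ]
    rw [(cosetSlope_mul_of_mem h _ γ.2 (by simp [h])).2]
    simp [cosetSlope, h]

/-- `S` fixes exactly `ν₂(N)` cosets of `Γ₀(N)`. -/
theorem natCard_fixed_S (N : ℕ) :
    Nat.card {q : SL(2, ℤ) ⧸ Gamma0 N // S • q = q} = ModularCurve.nuTwo N := by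
  rw [natCard_fixed_coset S (by simp [coe_S]), ModularCurve.nuTwo]
  simp [coe_S]

/-- `S T` fixes exactly `ν₃(N)` cosets of `Γ₀(N)`. -/
theorem natCard_fixed_S_mul_T (N : ℕ) :
    Nat.card {q : SL(2, ℤ) ⧸ Gamma0 N // (S * T) • q = q} = ModularCurve.nuThree N := by
  rw [natCard_fixed_coset (S * T) (by simp [coe_S, coe_T]), ModularCurve.nuThree]
  simp [coe_S, coe_T]

end Fermat.Agent.Modular

end
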