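import Mathlib.NumberTheory.ModularForms.CongruenceSubgroups
import Mathlib.NumberTheory.ArithmeticFunction.Moebius
import Mathlib.GroupTheory.Index
import Fermat.Prelude.Def_ModularCurve_X0

/-!
# The index of `Γ₀(N)` in `SL(2, ℤ)` is `ψ(N)`

Cosets of `Γ₀(N)` correspond to primitive upper triangular matrices `!![a, b; 0, d]` with
`a * d = N`, `0 ≤ b < d`.
-/

set_option autoImplicit false

noncomputable section

open Matrix CongruenceSubgroup Finset ArithmeticFunction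
open scoped MatrixGroups

namespace Fermat.Agent.Modular

local notation "M₂" => Matrix (Fin 2) (Fin 2) ℤ

/-- The primitive triples `(d, b)`, standing for `!![N / d, b; 0, d]`. -/
def primTriples (N : ℕ) : Finset (ℕ × ℕ) :=
  (N.divisors ×ˢ Finset.range (N + 1)).filter
    fun x => x.2 < x.1 ∧ Nat.gcd (Nat.gcd (N / x.1) x.1) x.2 = 1

theorem mem_primTriples {N : ℕ} [NeZero N] {d b : ℕ} :
    (d, b) ∈ primTriples N ↔ d ∣ N ∧ b < d ∧ Nat.gcd (Nat.gcd (N / d) d) b = 1 := by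
  simp only [primTriples, mem_filter, mem_product, Nat.mem_divisors, mem_range]
  constructor
  · rintro ⟨⟨⟨h, -⟩, -⟩, h', h''⟩
    exact ⟨h, h', h''⟩
  · rintro ⟨h, h', h''⟩
    have := Nat.le_of_dvd (Nat.pos_of_ne_zero (NeZero.ne N)) h
    exact ⟨⟨⟨h, NeZero.ne N⟩, by omega⟩, h', h''⟩

/-- The matrix of a triple. -/
def tripleMat (N : ℕ) (x : ℕ × ℕ) : M₂ := !![((N / x.1 : ℕ) : ℤ), (x.2 : ℤ); 0, (x.1 : ℤ)]

/-- `diag(N, 1)`. -/
def levelMat (N : ℕ) : M₂ := !![(N : ℤ), 0; 0, 1]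

/-- `x` is the Hermite normal form of `diag(N,1) * g⁻¹`. -/
def IsTripleOf (N : ℕ) (g : SL(2, ℤ)) (x : ℕ × ℕ) : Prop :=
  ∃ δ : SL(2, ℤ), (δ : M₂) * tripleMat N x = levelMat N * ((g⁻¹ : SL(2, ℤ)) : M₂)

section Counting

theorem sum_moebius_divisors (n : ℕ) (hn : n ≠ 0) :
    ∑ e ∈ n.divisors, moebius e = if n = 1 then 1 else 0 := by
  have h := congrArg (fun f : ArithmeticFunction ℤ => f n) moebius_mul_coe_zeta
  simp only [coe_mul_zeta_apply, ArithmeticFunction.one_apply] at h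
  exact h

/-- The number of `b < d` prime to a divisor `g` of `d`. -/
theorem card_range_coprime (d g : ℕ) (hg : g ∣ d) (hg0 : g ≠ 0) :
    (((Finset.range d).filter fun b => Nat.gcd g b = 1).card : ℤ)
      = ∑ e ∈ g.divisors, moebius e * ((d / e : ℕ) : ℤ) := by
  have h1 : ∀ b : ℕ, (if Nat.gcd g b = 1 then (1 : ℤ) else 0)
      = ∑ e ∈ g.divisors, if e ∣ b then moebius e else 0 := by
    intro b
    rw [← sum_moebius_divisors (Nat.gcd g b) (fun h => hg0 (Nat.gcd_eq_zero_iff.mp h).1),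
      ← Finset.sum_filter]
    congr 1
    ext e
    simp only [Nat.mem_divisors, mem_filter, Nat.dvd_gcd_iff]
    constructor
    · rintro ⟨⟨h, h'⟩, -⟩
      exact ⟨⟨h, hg0⟩, h'⟩
    · rintro ⟨⟨h, -⟩, h'⟩
      exact ⟨⟨h, h'⟩, fun hz => hg0 (Nat.gcd_eq_zero_iff.mp hz).1⟩
  rw [Finset.card_filter]
  simp only [Nat.cast_sum, Nat.cast_ite, Nat.cast_one, Nat.cast_zero]
  rw [Finset.sum_congr rfl fun b _ => h1 b, Finset.sum_comm]
  refine Finset.sum_congr rfl fun e he => ?_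
  have hed : e ∣ d := (Nat.dvd_of_mem_divisors he).trans hg
  have he0 : 0 < e := Nat.pos_of_mem_divisors he
  rw [← Finset.sum_filter, Finset.sum_const, nsmul_eq_mul, mul_comm]
  congr 2
  obtain ⟨m, rfl⟩ := hed
  rw [Nat.mul_div_cancel_left m he0]
  have : (Finset.range (e * m)).filter (fun b => e ∣ b)
      = (Finset.range m).image (fun c => e * c) := by
    ext b
    simp only [mem_filter, mem_range, mem_image]
    constructor
    · rintro ⟨hb, c, rfl⟩
      exact ⟨c, Nat.lt_of_mul_lt_mul_left hb, rfl⟩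
    · rintro ⟨c, hc, rfl⟩
      exact ⟨Nat.mul_lt_mul_of_pos_left hc he0, dvd_mul_right e c⟩
  rw [this, Finset.card_image_of_injective _ fun c c' h => Nat.eq_of_mul_eq_mul_left he0 h,
    Finset.card_range]

theorem dvd_of_sq_dvd_sq_mul {e s t : ℕ} (he : e ≠ 0) (ht : Squarefree t)
    (h : e ^ 2 ∣ s ^ 2 * t) : e ∣ s := by
  obtain ⟨e', s', hcop, hee, hss⟩ :=
    Nat.exists_coprime e s
  have hg : 0 < Nat.gcd e s := Nat.gcd_pos_of_pos_left _ (Nat.pos_of_ne_zero he)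
  have h' : e' ^ 2 ∣ s' ^ 2 * t := by
    refine Nat.dvd_of_mul_dvd_mul_left (pow_pos hg 2) ?_
    calc Nat.gcd e s ^ 2 * e' ^ 2 = e ^ 2 := by rw [← mul_pow, mul_comm, ← hee]
      _ ∣ s ^ 2 * t := h
      _ = Nat.gcd e s ^ 2 * (s' ^ 2 * t) := by
          rw [← mul_assoc, ← mul_pow, mul_comm (Nat.gcd e s) s', ← hss]
  have h'' : e' ^ 2 ∣ t := (Nat.Coprime.pow 2 2 hcop).dvd_of_dvd_mul_left h'
  have he' : e' = 1 := Nat.isUnit_iff.mp (ht e' (by rwa [sq] at h''))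
  rw [hee, he', one_mul]
  exact Nat.gcd_dvd_right e s

theorem sum_moebius_sq_dvd (k : ℕ) (hk : k ≠ 0) :
    ∑ e ∈ k.divisors.filter (fun e => e ^ 2 ∣ k), moebius e
      = if Squarefree k then 1 else 0 := by
  obtain ⟨t, s, hst, ht⟩ := Nat.sq_mul_squarefree k
  have hs : s ≠ 0 := by
    rintro rfl
    exact hk (by simpa using hst.symm)
  have hset : k.divisors.filter (fun e => e ^ 2 ∣ k) = s.divisors := by
    ext e
    simp only [mem_filter, Nat.mem_divisors]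
    constructor
    · rintro ⟨⟨hek, -⟩, he2⟩
      refine ⟨dvd_of_sq_dvd_sq_mul ?_ ht (hst.symm ▸ he2), hs⟩
      rintro rfl
      exact hk (by simpa using hek)
    · rintro ⟨hes, -⟩
      have : e ^ 2 ∣ k := hst ▸ (pow_dvd_pow_of_dvd hes 2).trans (dvd_mul_right _ t)
      exact ⟨⟨(dvd_pow_self e two_ne_zero).trans this, hk⟩, this⟩
  rw [hset, sum_moebius_divisors s hs]
  by_cases h1 : s = 1
  · rw [if_pos h1, if_pos]
    subst h1
    simpa [← hst] using ht
  · rw [if_neg h1, if_neg]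
    intro hsq
    exact h1 (Nat.isUnit_iff.mp (hsq s ⟨t, by rw [← hst, sq]⟩))

theorem card_primTriples (N : ℕ) [NeZero N] :
    (primTriples N).card = ModularCurve.dedekindPsi N := by
  have hN : N ≠ 0 := NeZero.ne N
  have hstep : ((primTriples N).card : ℤ)
      = ∑ d ∈ N.divisors, ∑ e ∈ (Nat.gcd (N / d) d).divisors,
          moebius e * ((d / e : ℕ) : ℤ) := by
    rw [primTriples, Finset.card_filter, Finset.sum_product]
    simp only [Nat.cast_sum, Nat.cast_ite, Nat.cast_one, Nat.cast_zero]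
    refine Finset.sum_congr rfl fun d hd => ?_
    have hd0 : 0 < d := Nat.pos_of_mem_divisors hd
    have hdN : d ≤ N := Nat.divisor_le hd
    rw [← card_range_coprime d _ (Nat.gcd_dvd_right _ _) (Nat.gcd_pos_of_pos_right _ hd0).ne',
      Finset.card_filter]
    simp only [Nat.cast_sum, Nat.cast_ite, Nat.cast_one, Nat.cast_zero]
    rw [← Finset.sum_subset (Finset.range_mono (show d ≤ N + 1 by omega))]
    · refine Finset.sum_congr rfl fun b hb => ?_
      simp [Finset.mem_range.mp hb]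
    · intro b _ hb
      rw [if_neg]
      simp only [Finset.mem_range, not_lt] at hb
      omega
  have hpsi : (ModularCurve.dedekindPsi N : ℤ)
      = ∑ k ∈ N.divisors, ((N / k : ℕ) : ℤ) * if Squarefree k then 1 else 0 := by
    rw [ModularCurve.dedekindPsi, Finset.sum_filter]
    simp only [Nat.cast_sum, Nat.cast_ite, Nat.cast_one, Nat.cast_zero]
    exact Finset.sum_congr rfl fun k _ => by split_ifs <;> simp
  have : ((primTriples N).card : ℤ) = (ModularCurve.dedekindPsi N : ℤ) := by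
    rw [hstep, hpsi]
    have hk : ∀ k ∈ N.divisors, ((N / k : ℕ) : ℤ) * (if Squarefree k then 1 else 0)
        = ∑ e ∈ k.divisors.filter (fun e => e ^ 2 ∣ k), moebius e * ((N / k : ℕ) : ℤ) := by
      intro k hk
      rw [← Finset.sum_mul, sum_moebius_sq_dvd k (Nat.pos_of_mem_divisors hk).ne', mul_comm]
    rw [Finset.sum_congr rfl hk, Finset.sum_sigma', Finset.sum_sigma']
    -- `(d, e) ↦ (e * (N / d), e)`, inverse `(k, e) ↦ (e * (N / k), e)`
    refine Finset.sum_nbij' (fun x => ⟨x.2 * (N / x.1), x.2⟩) (fun x => ⟨x.2 * (N / x.1), x.2⟩)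
      ?_ ?_ ?_ ?_ ?_
    · rintro ⟨d, e⟩ hx
      simp only [mem_sigma, Nat.mem_divisors, mem_filter, Nat.dvd_gcd_iff] at hx ⊢
      obtain ⟨⟨hd, -⟩, ⟨hea, hed⟩, hg⟩ := hx
      obtain ⟨m, rfl⟩ := hed
      obtain ⟨a, rfl⟩ := hd
      have hm0 : e * m ≠ 0 := left_ne_zero_of_mul hN
      rw [Nat.mul_div_cancel_left a (Nat.pos_of_ne_zero hm0)] at hea ⊢
      have hk : e * a ∣ e * m * a := ⟨m, by ring⟩
      have hk0 : e * a ≠ 0 := mul_ne_zero (left_ne_zero_of_mul hm0) (right_ne_zero_of_mul hN)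
      exact ⟨⟨hk, hN⟩, ⟨dvd_mul_right e a, hk0⟩, by rw [sq]; exact mul_dvd_mul_left e hea⟩
    · rintro ⟨k, e⟩ hx
      simp only [mem_sigma, Nat.mem_divisors, mem_filter, Nat.dvd_gcd_iff] at hx ⊢
      obtain ⟨⟨hk, -⟩, ⟨hek, hk0⟩, he2⟩ := hx
      obtain ⟨l, rfl⟩ := hk
      have he0 : e ≠ 0 := by
        rintro rfl
        exact hk0 (by simpa using hek)
      rw [Nat.mul_div_cancel_left l (Nat.pos_of_ne_zero hk0)]
      obtain ⟨a, rfl⟩ := hek
      have hd : e * l ∣ e * a * l := ⟨a, by ring⟩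
      have hdiv : e * a * l / (e * l) = a := by
        rw [show e * a * l = e * l * a by ring,
          Nat.mul_div_cancel_left a (Nat.pos_of_ne_zero
            (mul_ne_zero he0 (right_ne_zero_of_mul hN)))]
      have hea : e ∣ a := by
        rw [sq] at he2
        exact Nat.dvd_of_mul_dvd_mul_left (Nat.pos_of_ne_zero he0) he2
      rw [hdiv]
      exact ⟨⟨hd, hN⟩, ⟨hea, dvd_mul_right e l⟩, fun h => right_ne_zero_of_mul hk0
        (Nat.gcd_eq_zero_iff.mp h).1⟩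
    · rintro ⟨d, e⟩ hx
      simp only [mem_sigma, Nat.mem_divisors, Nat.dvd_gcd_iff] at hx
      obtain ⟨⟨hd, -⟩, ⟨-, hed⟩, -⟩ := hx
      obtain ⟨m, rfl⟩ := hed
      obtain ⟨a, rfl⟩ := hd
      have hm0 : e * m ≠ 0 := left_ne_zero_of_mul hN
      have hea0 : e * a ≠ 0 := mul_ne_zero (left_ne_zero_of_mul hm0) (right_ne_zero_of_mul hN)
      simp only [Nat.mul_div_cancel_left a (Nat.pos_of_ne_zero hm0)]
      rw [show e * m * a = e * a * m by ring, Nat.mul_div_cancel_left m (Nat.pos_of_ne_zero hea0)]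
    · rintro ⟨k, e⟩ hx
      simp only [mem_sigma, Nat.mem_divisors, mem_filter] at hx
      obtain ⟨⟨hk, -⟩, ⟨hek, hk0⟩, -⟩ := hx
      obtain ⟨l, rfl⟩ := hk
      obtain ⟨a, rfl⟩ := hek
      have hel0 : e * l ≠ 0 := mul_ne_zero (left_ne_zero_of_mul hk0) (right_ne_zero_of_mul hN)
      simp only [Nat.mul_div_cancel_left l (Nat.pos_of_ne_zero hk0)]
      rw [show e * a * l = e * l * a by ring, Nat.mul_div_cancel_left a (Nat.pos_of_ne_zero hel0)]
    · rintro ⟨d, e⟩ hx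
      simp only [mem_sigma, Nat.mem_divisors, Nat.dvd_gcd_iff] at hx
      obtain ⟨⟨hd, -⟩, ⟨-, hed⟩, -⟩ := hx
      obtain ⟨m, rfl⟩ := hed
      obtain ⟨a, rfl⟩ := hd
      have hm0 : e * m ≠ 0 := left_ne_zero_of_mul hN
      have hea0 : e * a ≠ 0 := mul_ne_zero (left_ne_zero_of_mul hm0) (right_ne_zero_of_mul hN)
      simp only [Nat.mul_div_cancel_left a (Nat.pos_of_ne_zero hm0)]
      rw [Nat.mul_div_cancel_left m (Nat.pos_of_ne_zero (left_ne_zero_of_mul hm0)),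
        show e * m * a = e * a * m by ring, Nat.mul_div_cancel_left m (Nat.pos_of_ne_zero hea0)]
  exact_mod_cast this

end Counting

section Cosets

variable {N : ℕ} [NeZero N]

theorem levelMat_mul {N : ℕ} (A : M₂) :
    levelMat N * A = !![(N : ℤ) * A 0 0, (N : ℤ) * A 0 1; A 1 0, A 1 1] := by
  rw [Matrix.eta_fin_two A, levelMat, Matrix.mul_fin_two]
  simp

theorem levelMat_mul_comm {N : ℕ} (h δ : SL(2, ℤ))
    (hh : levelMat N * (h : M₂) = (δ : M₂) * levelMat N) : h ∈ Gamma0 N := by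
  have h10 := congrFun (congrFun hh 1) 0
  simp [levelMat, Matrix.mul_apply, Fin.sum_univ_two] at h10
  rw [Gamma0_mem, h10]
  simp

theorem exists_conj_levelMat {h : SL(2, ℤ)} (hh : h ∈ Gamma0 N) :
    ∃ δ : SL(2, ℤ), levelMat N * (h : M₂) = (δ : M₂) * levelMat N := by
  rw [Gamma0_mem, ZMod.intCast_zmod_eq_zero_iff_dvd] at hh
  obtain ⟨c, hc⟩ := hh
  have hdet := h.det_coe
  rw [Matrix.det_fin_two, hc] at hdet
  refine ⟨⟨!![h 0 0, (N : ℤ) * h 0 1; c, h 1 1], ?_⟩, ?_⟩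
  · rw [Matrix.det_fin_two_of]
    linarith
  · ext i j
    fin_cases i <;> fin_cases j <;> simp [levelMat, Matrix.mul_apply, Fin.sum_univ_two, hc] <;> ring

theorem isTripleOf_mul {g h : SL(2, ℤ)} {x : ℕ × ℕ} (hg : IsTripleOf N g x)
    (hh : h ∈ Gamma0 N) : IsTripleOf N (g * h) x := by
  obtain ⟨δ, hδ⟩ := hg
  obtain ⟨ε, hε⟩ := exists_conj_levelMat ((Gamma0 N).inv_mem hh)
  refine ⟨ε * δ, ?_⟩
  rw [_root_.mul_inv_rev, Matrix.SpecialLinearGroup.coe_mul, Matrix.SpecialLinearGroup.coe_mul,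
    ← Matrix.mul_assoc, hε, Matrix.mul_assoc, Matrix.mul_assoc, hδ]

theorem mem_Gamma0_of_isTripleOf {g g' : SL(2, ℤ)} {x : ℕ × ℕ} (hg : IsTripleOf N g x)
    (hg' : IsTripleOf N g' x) : g⁻¹ * g' ∈ Gamma0 N := by
  obtain ⟨δ, hδ⟩ := hg
  obtain ⟨δ', hδ'⟩ := hg'
  refine levelMat_mul_comm _ (δ * δ'⁻¹) ?_
  have h1 : tripleMat N x
      = ((δ'⁻¹ : SL(2, ℤ)) : M₂) * (levelMat N * ((g'⁻¹ : SL(2, ℤ)) : M₂)) := by
    rw [← hδ', ← Matrix.mul_assoc, ← Matrix.SpecialLinearGroup.coe_mul, inv_mul_cancel,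
      Matrix.SpecialLinearGroup.coe_one, Matrix.one_mul]
  rw [Matrix.SpecialLinearGroup.coe_mul, ← Matrix.mul_assoc, ← hδ, h1,
    Matrix.SpecialLinearGroup.coe_mul]
  simp only [Matrix.mul_assoc, ← Matrix.SpecialLinearGroup.coe_mul, inv_mul_cancel,
    Matrix.SpecialLinearGroup.coe_one, Matrix.mul_one]
  rw [Matrix.SpecialLinearGroup.coe_mul, Matrix.mul_assoc]

theorem isTripleOf_unique {g : SL(2, ℤ)} {x y : ℕ × ℕ} (hx : x ∈ primTriples N)
    (hy : y ∈ primTriples N) (h : IsTripleOf N g x) (h' : IsTripleOf N g y) : x = y := by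
  obtain ⟨d, b⟩ := x
  obtain ⟨d', b'⟩ := y
  rw [mem_primTriples] at hx hy
  obtain ⟨δ, hδ⟩ := h
  obtain ⟨δ', hδ'⟩ := h'
  have he : ((δ'⁻¹ * δ : SL(2, ℤ)) : M₂) * tripleMat N (d, b) = tripleMat N (d', b') := by
    rw [Matrix.SpecialLinearGroup.coe_mul, Matrix.mul_assoc, hδ, ← hδ', ← Matrix.mul_assoc,
      ← Matrix.SpecialLinearGroup.coe_mul, inv_mul_cancel,
      Matrix.SpecialLinearGroup.coe_one, Matrix.one_mul]
  generalize hε : δ'⁻¹ * δ = ε at he
  have ha : 0 < N / d := Nat.div_pos (Nat.le_of_dvd (Nat.pos_of_ne_zero (NeZero.ne N)) hx.1)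
    (by omega)
  have e00 := congrFun (congrFun he 0) 0
  have e01 := congrFun (congrFun he 0) 1
  have e10 := congrFun (congrFun he 1) 0
  have e11 := congrFun (congrFun he 1) 1
  simp only [tripleMat, Matrix.mul_apply, Fin.sum_univ_two, Matrix.of_apply, Matrix.cons_val',
    Matrix.cons_val_zero, Matrix.cons_val_one, Matrix.cons_val_fin_one, mul_zero,
    add_zero] at e00 e01 e10 e11
  have hc : ε 1 0 = 0 := by
    rcases mul_eq_zero.mp e10 with h0 | h0
    · exact h0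
    · simp only [Nat.cast_eq_zero] at h0
      omega
  have hdet := ε.det_coe
  rw [Matrix.det_fin_two, hc, mul_zero, sub_zero] at hdet
  have h00 : ε 0 0 = 1 := by
    have hnn : 0 ≤ ε 0 0 := by
      by_contra hneg
      have : ε 0 0 * ((N / d : ℕ) : ℤ) < 0 :=
        mul_neg_of_neg_of_pos (not_le.mp hneg) (by exact_mod_cast ha)
      rw [e00] at this
      simp only [Int.natCast_nonneg, not_lt_of_ge] at this
    exact Int.eq_one_of_mul_eq_one_right hnn hdet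
  have h11 : ε 1 1 = 1 := by rw [h00, one_mul] at hdet; exact hdet
  rw [hc, h11, zero_mul, zero_add, one_mul] at e11
  have hdd : d = d' := by exact_mod_cast e11
  subst hdd
  rw [h00, one_mul] at e01
  have hb : b = b' := by
    have h1 : (0 : ℤ) ≤ b := Int.natCast_nonneg b
    have h1' : (0 : ℤ) ≤ b' := Int.natCast_nonneg b'
    have h2 : (b : ℤ) < d := by exact_mod_cast hx.2.1
    have h2' : (b' : ℤ) < d := by exact_mod_cast hy.2.1
    have hlt : -1 < ε 0 1 ∧ ε 0 1 < 1 := by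
      constructor <;> nlinarith
    have h01 : ε 0 1 = 0 := by omega
    rw [h01, zero_mul, add_zero] at e01
    exact_mod_cast e01
  rw [hb]

theorem exists_isTripleOf (g : SL(2, ℤ)) : ∃ x ∈ primTriples N, IsTripleOf N g x := by
  obtain ⟨γ, rfl⟩ : ∃ γ : SL(2, ℤ), g = γ⁻¹ := ⟨g⁻¹, (inv_inv g).symm⟩
  have hN : 0 < N := Nat.pos_of_ne_zero (NeZero.ne N)
  have hγdet := γ.det_coe
  rw [Matrix.det_fin_two] at hγdet
  have hrs : IsCoprime (γ 1 0) (γ 1 1) := ⟨-γ 0 1, γ 0 0, by linarith⟩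
  set a : ℕ := Int.gcd (N : ℤ) (γ 1 0) with ha
  have ha0 : 0 < a := Int.gcd_pos_of_ne_zero_left _ (by exact_mod_cast hN.ne')
  have haN : a ∣ N := by exact_mod_cast Int.gcd_dvd_left (N : ℤ) (γ 1 0)
  obtain ⟨d, hd⟩ := haN
  have hd0 : 0 < d := by
    rcases Nat.eq_zero_or_pos d with rfl | h
    · simp at hd; omega
    · exact h
  have hdiv : N / d = a := by rw [hd, Nat.mul_div_cancel _ hd0]
  obtain ⟨r', hr'⟩ : (a : ℤ) ∣ γ 1 0 := Int.gcd_dvd_right _ _
  -- `x * N * p + y * r = a`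
  obtain ⟨u, v, huv⟩ : ∃ u v : ℤ, u * ((N : ℤ) * γ 0 0) + v * γ 1 0 = a := by
    have h1 : (a : ℤ) = (N : ℤ) * Int.gcdA N (γ 1 0) + γ 1 0 * Int.gcdB N (γ 1 0) :=
      Int.gcd_eq_gcd_ab _ _
    refine ⟨Int.gcdA N (γ 1 0) * γ 1 1,
      Int.gcdB N (γ 1 0) - Int.gcdA N (γ 1 0) * γ 0 1 * (N : ℤ), ?_⟩
    rw [h1]
    linear_combination (Int.gcdA (N : ℤ) (γ 1 0) * (N : ℤ)) * hγdet
  set b₀ : ℤ := u * ((N : ℤ) * γ 0 1) + v * γ 1 1 with hb₀
  -- reduce `b₀` modulo `d`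
  set b : ℕ := (b₀ % (d : ℤ)).toNat with hb
  have hbeq : (b : ℤ) = b₀ - (d : ℤ) * (b₀ / (d : ℤ)) := by
    rw [hb, Int.toNat_of_nonneg (Int.emod_nonneg _ (by exact_mod_cast hd0.ne')),
      Int.emod_def]
  have hblt : b < d := by
    have := Int.emod_lt_of_pos b₀ (show (0 : ℤ) < d by exact_mod_cast hd0)
    omega
  have hNd : (N : ℤ) = a * d := by exact_mod_cast hd
  -- the row operation: `E * (diag(N,1) γ) = tripleMat`
  have hEdet : (!![u - b₀ / (d : ℤ) * (-r'), v - b₀ / (d : ℤ) * ((d : ℤ) * γ 0 0);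
      -r', (d : ℤ) * γ 0 0] : M₂).det = 1 := by
    rw [Matrix.det_fin_two_of]
    have : (a : ℤ) * (u * ((d : ℤ) * γ 0 0) + v * r') = a * 1 := by
      rw [mul_one]
      conv_rhs => rw [← huv]
      rw [hNd, hr']
      ring
    have := mul_left_cancel₀ (by exact_mod_cast ha0.ne') this
    linarith
  let E : SL(2, ℤ) := ⟨_, hEdet⟩
  have hE : (E : M₂) * (levelMat N * (γ : M₂)) = tripleMat N (d, b) := by
    rw [levelMat_mul]
    simp only [E, tripleMat, hdiv, Matrix.mul_fin_two]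
    ext i j
    fin_cases i <;> fin_cases j <;> simp
    · rw [← huv, hNd, hr']
      ring
    · rw [hbeq]
      generalize b₀ / (d : ℤ) = qq
      rw [hb₀, hNd]
      rw [hr'] at hγdet
      linear_combination (-qq * (d : ℤ)) * hγdet
    · rw [hNd, hr']
      ring
    · rw [hNd]
      rw [hr'] at hγdet
      linear_combination (d : ℤ) * hγdet
  have hEinv : ((E⁻¹ : SL(2, ℤ)) : M₂) * tripleMat N (d, b) = levelMat N * (γ : M₂) := by
    rw [← hE, ← Matrix.mul_assoc, ← Matrix.SpecialLinearGroup.coe_mul, inv_mul_cancel,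
      Matrix.SpecialLinearGroup.coe_one, Matrix.one_mul]
  refine ⟨(d, b), mem_primTriples.mpr ⟨⟨a, by rw [hd, mul_comm]⟩, hblt, ?_⟩, E⁻¹, ?_⟩
  · -- primitivity
    rw [hdiv]
    set e := Nat.gcd (Nat.gcd a d) b
    have hea : e ∣ a := (Nat.gcd_dvd_left _ _).trans (Nat.gcd_dvd_left _ _)
    have hed : e ∣ d := (Nat.gcd_dvd_left _ _).trans (Nat.gcd_dvd_right _ _)
    have heb : e ∣ b := Nat.gcd_dvd_right _ _
    have key : ∀ i j, (e : ℤ) ∣ tripleMat N (d, b) i j := by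
      intro i j
      fin_cases i <;> fin_cases j <;>
        simp [tripleMat, hdiv, Int.natCast_dvd_natCast, hea, hed, heb]
    have key' : ∀ i j, (e : ℤ) ∣ (levelMat N * (γ : M₂)) i j := by
      intro i j
      rw [← hEinv, Matrix.mul_apply]
      exact Finset.dvd_sum fun k _ => dvd_mul_of_dvd_right (key k j) _
    have h10 := key' 1 0
    have h11 := key' 1 1
    simp [levelMat, Matrix.mul_apply, Fin.sum_univ_two] at h10 h11
    have hu : IsUnit (e : ℤ) := hrs.isUnit_of_dvd' h10 h11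
    exact_mod_cast Int.isUnit_iff_natAbs_eq.mp hu
  · rw [inv_inv]
    exact hEinv

theorem exists_coprime_add_mul {a b d : ℕ} (ha : a ≠ 0)
    (h : Nat.gcd (Nat.gcd a d) b = 1) : ∃ t : ℕ, Nat.Coprime a (b + t * d) := by
  refine ⟨∏ p ∈ a.primeFactors.filter (fun p => ¬ p ∣ b), p, ?_⟩
  refine Nat.coprime_of_dvd fun p hp hpa hpb => ?_
  by_cases hb : p ∣ b
  · have hpd : ¬ p ∣ d := fun hd =>
      hp.one_lt.ne' (Nat.dvd_one.mp (h ▸ Nat.dvd_gcd (Nat.dvd_gcd hpa hd) hb))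
    have hpt : p ∣ (∏ q ∈ a.primeFactors.filter (fun q => ¬ q ∣ b), q) * d :=
      (Nat.dvd_add_right hb).mp hpb
    rcases hp.dvd_mul.mp hpt with ht | hd
    · obtain ⟨q, hq, hpq⟩ := (Prime.dvd_finsetProd_iff hp.prime _).mp ht
      rw [mem_filter, Nat.mem_primeFactors] at hq
      exact hq.2 (((Nat.prime_dvd_prime_iff_eq hp hq.1.1).mp hpq) ▸ hb)
    · exact hpd hd
  · have : p ∣ (∏ q ∈ a.primeFactors.filter (fun q => ¬ q ∣ b), q) * d :=
      dvd_mul_of_dvd_left (Finset.dvd_prod_of_mem (fun q => q)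
        (mem_filter.mpr ⟨Nat.mem_primeFactors.mpr ⟨hp, hpa, ha⟩, hb⟩)) _
    exact hb ((Nat.dvd_add_left this).mp hpb)

theorem exists_coset_of_triple {x : ℕ × ℕ} (hx : x ∈ primTriples N) :
    ∃ g : SL(2, ℤ), IsTripleOf N g x := by
  obtain ⟨d, b⟩ := x
  rw [mem_primTriples] at hx
  obtain ⟨hd, hb, hg⟩ := hx
  have hN : 0 < N := Nat.pos_of_ne_zero (NeZero.ne N)
  have ha : N / d ≠ 0 := (Nat.div_pos (Nat.le_of_dvd hN hd) (by omega)).ne'
  have had : ((N / d : ℕ) : ℤ) * d = N := by exact_mod_cast Nat.div_mul_cancel hd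
  obtain ⟨t, ht⟩ := exists_coprime_add_mul ha hg
  obtain ⟨u, v, huv⟩ : IsCoprime ((N / d : ℕ) : ℤ) (((b + t * d : ℕ)) : ℤ) :=
    Nat.isCoprime_iff_coprime.mpr ht
  rw [Nat.cast_add, Nat.cast_mul] at huv
  set a : ℤ := ((N / d : ℕ) : ℤ)
  have hL : (!![(d : ℤ) * v, (d : ℤ) * v * t - 1; (1 : ℤ), (t : ℤ)] : M₂).det = 1 := by
    rw [Matrix.det_fin_two_of]; ring
  let L : SL(2, ℤ) := ⟨_, hL⟩
  have hR : (!![(b : ℤ) + t * d, u; -a, v] : M₂).det = 1 := by
    rw [Matrix.det_fin_two_of]; linarith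
  let R : SL(2, ℤ) := ⟨_, hR⟩
  have hLR : (L : M₂) * tripleMat N (d, b) * (R : M₂) = levelMat N := by
    have htm : tripleMat N (d, b) = !![a, (b : ℤ); 0, (d : ℤ)] := rfl
    rw [htm]
    ext i j
    fin_cases i <;> fin_cases j <;>
      simp [L, R, levelMat, Matrix.mul_apply, Fin.sum_univ_two]
    · linear_combination had
    · linear_combination ((d : ℤ) * v) * huv
    · linear_combination (0 : ℤ) * huv
    · linear_combination huv
  refine ⟨R, L, ?_⟩
  rw [← hLR, Matrix.mul_assoc _ (R : M₂), ← Matrix.SpecialLinearGroup.coe_mul, mul_inv_cancel,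
    Matrix.SpecialLinearGroup.coe_one, Matrix.mul_one]

/-- A representative with given triple. -/
theorem exists_tripleMap : ∃ φ : (SL(2, ℤ) ⧸ Gamma0 N) → {x // x ∈ primTriples N},
    Function.Bijective φ ∧ ∀ g : SL(2, ℤ), IsTripleOf N g (φ (QuotientGroup.mk g) : ℕ × ℕ) := by
  classical
  choose f hf hf' using exists_isTripleOf (N := N)
  have hwd : ∀ g h : SL(2, ℤ), QuotientGroup.leftRel (Gamma0 N) g h → f g = f h := by
    intro g h hgh
    rw [QuotientGroup.leftRel_apply] at hgh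
    have h1 := isTripleOf_mul (hf' g) hgh
    rw [mul_inv_cancel_left] at h1
    exact isTripleOf_unique (hf g) (hf h) h1 (hf' h)
  let φ : (SL(2, ℤ) ⧸ Gamma0 N) → {x // x ∈ primTriples N} :=
    Quotient.lift (fun g => (⟨f g, hf g⟩ : {x // x ∈ primTriples N}))
      fun g h hgh => Subtype.ext (hwd g h hgh)
  refine ⟨φ, ⟨?_, ?_⟩, fun g => hf' g⟩
  · rintro ⟨g⟩ ⟨h⟩ hgh
    have : f g = f h := congrArg Subtype.val hgh
    exact QuotientGroup.eq.mpr (mem_Gamma0_of_isTripleOf (hf' g) (this ▸ hf' h))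
  · rintro ⟨x, hx⟩
    obtain ⟨g, hg⟩ := exists_coset_of_triple hx
    exact ⟨QuotientGroup.mk g, Subtype.ext (isTripleOf_unique (hf g) hx (hf' g) hg)⟩

/-- The triple attached to a coset. -/
def cosetTriple (q : SL(2, ℤ) ⧸ Gamma0 N) : ℕ × ℕ :=
  ((exists_tripleMap (N := N)).choose q : ℕ × ℕ)

theorem cosetTriple_mem (q : SL(2, ℤ) ⧸ Gamma0 N) : cosetTriple q ∈ primTriples N :=
  ((exists_tripleMap (N := N)).choose q).2

theorem cosetTriple_injective : Function.Injective (cosetTriple (N := N)) :=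
  fun _ _ h => (exists_tripleMap (N := N)).choose_spec.1.1 (Subtype.ext h)

theorem isTripleOf_cosetTriple (g : SL(2, ℤ)) :
    IsTripleOf N g (cosetTriple (QuotientGroup.mk g : SL(2, ℤ) ⧸ Gamma0 N)) :=
  (exists_tripleMap (N := N)).choose_spec.2 g

theorem index_Gamma0 (N : ℕ) [NeZero N] :
    (Gamma0 N).index = ModularCurve.dedekindPsi N := by
  obtain ⟨φ, hφ, -⟩ := exists_tripleMap (N := N)
  rw [Subgroup.index_eq_card, Nat.card_eq_of_bijective φ hφ, Nat.card_eq_fintype_card,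
    Fintype.card_coe, card_primTriples]

end Cosets

end Fermat.Agent.Modular

end
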