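/-
Expansions at infinity of the translates `τ ↦ f (d (g⁻¹ • τ))` of a level one function `f`.
-/
import Fermat.Agent.Modular.QExp
import Fermat.Agent.Modular.Index
import Mathlib.Analysis.Complex.UpperHalfPlane.MoebiusAction

set_option autoImplicit false

noncomputable section

open Complex
open scoped MatrixGroups UpperHalfPlane

namespace Fermat.Agent.Modular

theorem mulH_smul_eq_of_isTripleOf {d : ℕ} [NeZero d] {g δ : SL(2, ℤ)} {m b : ℕ}
    [NeZero m] [NeZero (d / m)]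
    (hδ : (δ : Matrix (Fin 2) (Fin 2) ℤ) * tripleMat d (m, b) =
      levelMat d * ((g⁻¹ : SL(2, ℤ)) : Matrix (Fin 2) (Fin 2) ℤ)) (τ : ℍ) :
    mulH d (g⁻¹ • τ) = δ • affineH (d / m) b m τ := by
  have e00 := congrFun (congrFun hδ 0) 0
  have e01 := congrFun (congrFun hδ 0) 1
  have e10 := congrFun (congrFun hδ 1) 0
  have e11 := congrFun (congrFun hδ 1) 1
  rw [levelMat_mul] at e00 e01 e10 e11
  simp only [tripleMat, Matrix.mul_apply, Fin.sum_univ_two, Matrix.of_apply, Matrix.cons_val',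
    Matrix.cons_val_zero, Matrix.cons_val_one, Matrix.cons_val_fin_one, mul_zero,
    add_zero] at e00 e01 e10 e11
  have hm : (m : ℂ) ≠ 0 := Nat.cast_ne_zero.mpr (NeZero.ne m)
  refine UpperHalfPlane.ext ?_
  rw [coe_mulH, UpperHalfPlane.coe_specialLinearGroup_apply,
    UpperHalfPlane.coe_specialLinearGroup_apply, coe_affineH]
  simp only [algebraMap_int_eq, eq_intCast, Complex.ofReal_intCast]
  generalize g⁻¹ = γ at *
  generalize d / m = a at *
  have c00 := congrArg (Int.cast : ℤ → ℂ) e00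
  have c01 := congrArg (Int.cast : ℤ → ℂ) e01
  have c10 := congrArg (Int.cast : ℤ → ℂ) e10
  have c11 := congrArg (Int.cast : ℤ → ℂ) e11
  push_cast at c00 c01 c10 c11 ⊢
  rw [← mul_div_assoc, mul_add, ← mul_assoc, ← c00, ← c01, ← c10, ← c11]
  field_simp
  ring

/-- A level one function with a `q`-expansion has an expansion in `exp (2πiτ/N)` after any
translation and dilation by a divisor of `N`. -/
theorem exists_hasQExp_translate {f : ℍ → ℂ} {x : LaurentSeries ℂ}
    (hinv : ∀ (γ : SL(2, ℤ)) (τ : ℍ), f (γ • τ) = f τ) (hf : HasQExp 1 f x)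
    (g : SL(2, ℤ)) {d N : ℕ} [NeZero d] [NeZero N] (hd : d ∣ N) :
    ∃ y, HasQExp (N : ℝ) (fun τ => f (mulH d (g⁻¹ • τ))) y := by
  obtain ⟨⟨m, b⟩, hx, δ, hδ⟩ := exists_isTripleOf (N := d) g
  rw [mem_primTriples] at hx
  have : NeZero m := ⟨fun h => by rw [h] at hx; omega⟩
  have : NeZero (d / m) :=
    ⟨(Nat.div_pos (Nat.le_of_dvd (Nat.pos_of_ne_zero (NeZero.ne d)) hx.1)
      (Nat.pos_of_ne_zero (NeZero.ne m))).ne'⟩
  obtain ⟨k, hk⟩ := hx.1.trans hd
  have : NeZero k := ⟨fun h => NeZero.ne N (by simp [hk, h])⟩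
  have h1 : HasQExp (m : ℝ) (fun τ => f (mulH d (g⁻¹ • τ))) _ :=
    (hf.comp_affineH (d / m) (b : ℤ) m).congr fun τ => by
      rw [mulH_smul_eq_of_isTripleOf hδ, hinv]
  have h2 := h1.dilate_period (Nat.cast_ne_zero.mpr (NeZero.ne m)) k
  rw [show ((m : ℝ) * (k : ℝ)) = (N : ℝ) by rw [hk]; push_cast; ring] at h2
  exact ⟨_, h2⟩

end Fermat.Agent.Modular
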