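/-
Holomorphic functions with an expansion in `exp (2πiτ/N)`, and the twist by translations.
-/
import Fermat.Agent.Modular.QExp
import Fermat.Agent.Modular.Hol
import Mathlib.RingTheory.HahnSeries.Valuation
import Mathlib.RingTheory.RootsOfUnity.Complex
import Mathlib.NumberTheory.Modular

set_option autoImplicit false

noncomputable section

open Complex
open scoped MatrixGroups UpperHalfPlane Real

namespace Fermat.Agent.Modular

local notation "𝕢" => Function.Periodic.qParam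

variable (N : ℕ) [NeZero N]

/-- Holomorphic functions with an expansion in `exp (2πiτ/N)`. -/
def HolExp : Subalgebra ℂ Hol where
  carrier := {F | ∃ x, HasQExp (N : ℝ) (F : ℍ → ℂ) x}
  mul_mem' := fun ⟨x, hx⟩ ⟨y, hy⟩ => ⟨x * y, hx.mul hy⟩
  add_mem' := fun ⟨x, hx⟩ ⟨y, hy⟩ => ⟨x + y, hx.add hy⟩
  algebraMap_mem' c := ⟨algebraMap ℂ (LaurentSeries ℂ) c, HasQExp.const_algebraMap _ c⟩

theorem mem_holExp {F : Hol} : F ∈ HolExp N ↔ ∃ x, HasQExp (N : ℝ) (F : ℍ → ℂ) x := Iff.rfl

theorem natCast_real_pos : (0 : ℝ) < (N : ℝ) := Nat.cast_pos.mpr (Nat.pos_of_ne_zero (NeZero.ne N))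

/-- The expansion in `exp (2πiτ/N)`. -/
def qSeries : HolExp N →ₐ[ℂ] LaurentSeries ℂ where
  toFun F := F.2.choose
  map_one' := (1 : HolExp N).2.choose_spec.unique (HasQExp.one _) (natCast_real_pos N)
  map_mul' F G := (F * G).2.choose_spec.unique (F.2.choose_spec.mul G.2.choose_spec)
    (natCast_real_pos N)
  map_zero' := (0 : HolExp N).2.choose_spec.unique (HasQExp.zero _) (natCast_real_pos N)
  map_add' F G := (F + G).2.choose_spec.unique (F.2.choose_spec.add G.2.choose_spec)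
    (natCast_real_pos N)
  commutes' c := (algebraMap ℂ (HolExp N) c).2.choose_spec.unique
    (HasQExp.const_algebraMap _ c) (natCast_real_pos N)

theorem hasQExp_qSeries (F : HolExp N) : HasQExp (N : ℝ) (((F : Hol) : ℍ → ℂ)) (qSeries N F) :=
  F.2.choose_spec

theorem qSeries_eq {F : HolExp N} {x : LaurentSeries ℂ}
    (hx : HasQExp (N : ℝ) (((F : Hol) : ℍ → ℂ)) x) : qSeries N F = x :=
  (hasQExp_qSeries N F).unique hx (natCast_real_pos N)

theorem qSeries_injective : Function.Injective (qSeries N) := fun F G h => by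
  refine Subtype.ext (Subtype.ext ?_)
  exact (hasQExp_qSeries N F).eq (h ▸ hasQExp_qSeries N G)

/-- `exp (2πik/N)`. -/
def cuspRoot (k : ℤ) : ℂˣ :=
  Units.mk0 (𝕢 (N : ℝ) (k : ℂ)) (Function.Periodic.qParam_ne_zero _)

theorem qParam_T_zpow_smul (k : ℤ) (τ : ℍ) :
    𝕢 (N : ℝ) (ModularGroup.T ^ k • τ : ℍ) = (cuspRoot N k : ℂ) * 𝕢 (N : ℝ) τ := by
  rw [cuspRoot, Units.val_mk0, ModularGroup.coe_T_zpow_smul_eq, Function.Periodic.qParam,
    Function.Periodic.qParam, Function.Periodic.qParam, ← Complex.exp_add]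
  congr 1
  ring

/-- Translation by `T ^ k` twists the expansion. -/
theorem hasQExp_comp_T {f : ℍ → ℂ} {x : LaurentSeries ℂ} (hf : HasQExp (N : ℝ) f x) (k : ℤ) :
    HasQExp (N : ℝ) (fun τ => f (ModularGroup.T ^ k • τ)) (twistSeries (cuspRoot N k) x) := by
  have h := hf.comp_of_qParam_eq (h' := (N : ℝ)) (fun τ => ModularGroup.T ^ k • τ) 1 (cuspRoot N k)
    (fun τ => by rw [qParam_T_zpow_smul, pow_one])
  rw [ModularCurve.qExpand_one_apply] at h
  exact h

theorem T_zpow_smul_mem_holExp {F : Hol} (hF : F ∈ HolExp N) (k : ℤ) :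
    ModularGroup.T ^ k • F ∈ HolExp N := by
  obtain ⟨x, hx⟩ := hF
  refine ⟨twistSeries (cuspRoot N (-k)) x, ?_⟩
  exact (hasQExp_comp_T N hx (-k)).congr fun τ => by rw [smul_hol_apply, ← zpow_neg]

theorem qSeries_T_zpow_smul (F : HolExp N) (k : ℤ) :
    qSeries N ⟨ModularGroup.T ^ k • (F : Hol), T_zpow_smul_mem_holExp N F.2 k⟩ =
      twistSeries (cuspRoot N (-k)) (qSeries N F) :=
  qSeries_eq N ((hasQExp_comp_T N (hasQExp_qSeries N F) (-k)).congr fun τ => by
    rw [smul_hol_apply, ← zpow_neg])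

theorem addVal_twistSeries (c : ℂˣ) (x : LaurentSeries ℂ) :
    HahnSeries.addVal ℤ ℂ (twistSeries c x) = HahnSeries.addVal ℤ ℂ x := by
  rw [HahnSeries.addVal_apply, HahnSeries.addVal_apply]
  rcases eq_or_ne x 0 with rfl | hx
  · simp
  have hne : twistSeries c x ≠ 0 := fun h => hx ((map_eq_zero (twistSeries c)).mp h)
  rw [← HahnSeries.order_eq_orderTop_of_ne_zero hne,
    ← HahnSeries.order_eq_orderTop_of_ne_zero hx, WithTop.coe_eq_coe]
  refine le_antisymm (HahnSeries.order_le_of_coeff_ne_zero ?_)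
    (HahnSeries.order_le_of_coeff_ne_zero ?_)
  · rw [twistSeries_coeff]
    exact mul_ne_zero (Units.ne_zero _) (HahnSeries.coeff_order_eq_zero.not.mpr hx)
  · have h := HahnSeries.coeff_order_eq_zero.not.mpr hne
    rw [twistSeries_coeff] at h
    exact right_ne_zero_of_mul h

theorem cuspRoot_zpow_eq_one_iff (k m : ℤ) :
    ((cuspRoot N k ^ m : ℂˣ) : ℂ) = 1 ↔ (N : ℤ) ∣ k * m := by
  have hN : (N : ℂ) ≠ 0 := Nat.cast_ne_zero.mpr (NeZero.ne N)
  rw [Units.val_zpow_eq_zpow_val, cuspRoot, Units.val_mk0, Function.Periodic.qParam,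
    ← Complex.exp_int_mul, Complex.exp_eq_one_iff]
  push_cast
  constructor
  · rintro ⟨n, hn⟩
    refine ⟨n, ?_⟩
    field_simp at hn
    exact_mod_cast show ((k : ℂ) * m) = (N : ℂ) * n by linear_combination hn
  · rintro ⟨n, hn⟩
    refine ⟨n, ?_⟩
    have : (k : ℂ) * m = (N : ℂ) * n := by exact_mod_cast hn
    field_simp
    linear_combination this

/-- A series fixed by the twist by `exp (2πik/N)` has valuation `m` with `N ∣ k m`. -/
theorem dvd_mul_of_twistSeries_eq {k m : ℤ} {x : LaurentSeries ℂ}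
    (hx : twistSeries (cuspRoot N k) x = x) (hm : HahnSeries.addVal ℤ ℂ x = (m : WithTop ℤ)) :
    (N : ℤ) ∣ k * m := by
  rw [HahnSeries.addVal_apply] at hm
  have hne : x ≠ 0 := fun h => by simp [h] at hm
  rw [← HahnSeries.order_eq_orderTop_of_ne_zero hne, WithTop.coe_eq_coe] at hm
  have hc := congrArg (fun z : LaurentSeries ℂ => z.coeff m) hx
  simp only [twistSeries_coeff] at hc
  have hxm : x.coeff m ≠ 0 := hm ▸ HahnSeries.coeff_order_eq_zero.not.mpr hne
  exact (cuspRoot_zpow_eq_one_iff N k m).mp ((mul_eq_right₀ hxm).mp hc)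

end Fermat.Agent.Modular
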