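/-
Places of a function field above a point `y = 0`, described by a full set of embeddings into a
valued field.

Given `n = [F : K(y)]` pairwise distinct embeddings `σ i : F → Ω` agreeing on `K(y)` into a field
with a valuation `v`, grouped into classes on which `v ∘ σ i` is constant, and such that the value
group of `v ∘ σ i` is small enough (`v(y) ∣ w · v(σ i f)` with `w` the size of the class), the
places where `y` vanishes correspond to the classes and have ramification index `w`.
-/
import Mathlib.FieldTheory.PrimitiveElement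
import Mathlib.FieldTheory.IsAlgClosed.AlgebraicClosure
import Mathlib.RingTheory.Valuation.Basic
import Fermat.Prelude.Def_AlgebraicCurve_DivisorClassGroup

set_option autoImplicit false

noncomputable section

namespace Fermat.Agent.Modular

open AlgebraicCurve Polynomial
open scoped IntermediateField

variable {K F Ω : Type*} [Field K] [Field F] [Algebra K F] [Field Ω]

section Order

variable (P : Place K F)

lemma placeOrd_nonneg_iff {f : F} (hf : f ≠ 0) : 0 ≤ P.ord f ↔ f ∈ P.toValuationSubring := by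
  obtain ⟨π, hπ⟩ := IsDiscreteValuationRing.exists_irreducible P.toValuationSubring
  obtain ⟨u, hu⟩ := P.exists_unit_mul_zpow hf hπ
  constructor
  · intro h
    obtain ⟨n, hn⟩ := Int.eq_ofNat_of_zero_le h
    rw [hu, hn, zpow_natCast]
    exact (((u : P.toValuationSubring) * π ^ n : P.toValuationSubring)).2
  · intro h
    have : P.ord f = P.ord ((⟨f, h⟩ : P.toValuationSubring) : F) := rfl
    obtain ⟨n, u', hu'⟩ := IsDiscreteValuationRing.eq_unit_mul_pow_irreducible
      (x := (⟨f, h⟩ : P.toValuationSubring)) (by simpa [Subtype.ext_iff] using hf) hπ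
    rw [this, hu']
    push_cast
    rw [← zpow_natCast, P.ord_unit_smul_zpow u' hπ]
    exact Int.natCast_nonneg n

lemma placeOrd_algebraMap (a : K) : P.ord (algebraMap K F a) = 0 := by
  rcases eq_or_ne a 0 with rfl | ha
  · simp
  · have h1 : (algebraMap K P.toValuationSubring a) ≠ 0 := by
      simp [ha]
    have hu : IsUnit (algebraMap K P.toValuationSubring a) :=
      (Ne.isUnit ha).map (algebraMap K P.toValuationSubring)
    simpa using P.ord_coe_unit hu.unit

end Order

section Pullback

variable (v : AddValuation Ω (WithTop ℤ)) (σ : F →+* Ω)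

/-- The valuation subring of `F` pulled back along an embedding. -/
def pullbackValuationSubring : ValuationSubring F where
  carrier := {f | 0 ≤ v (σ f)}
  mul_mem' {a b} ha hb := by
    simp only [Set.mem_ofPred_eq, map_mul, AddValuation.map_mul] at ha hb ⊢
    exact add_nonneg ha hb
  one_mem' := by simp
  add_mem' {a b} ha hb := by
    simp only [Set.mem_ofPred_eq, map_add] at ha hb ⊢
    exact le_trans (le_min ha hb) (AddValuation.map_add v _ _)
  zero_mem' := by simp
  neg_mem' {a} ha := by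
    simpa only [Set.mem_ofPred_eq, map_neg, AddValuation.map_neg] using ha
  mem_or_inv_mem' a := by
    rcases eq_or_ne a 0 with rfl | ha
    · simp
    have h : v (σ a) ≠ ⊤ := (AddValuation.ne_top_iff v).mpr (by simpa using ha)
    obtain ⟨m, hm⟩ := WithTop.ne_top_iff_exists.mp h
    rcases le_total 0 m with h0 | h0
    · exact Or.inl (by simpa [← hm] using h0)
    · refine Or.inr ?_
      simp only [Set.mem_ofPred_eq, map_inv₀, AddValuation.map_inv, ← hm,
        ← WithTop.LinearOrderedAddCommGroup.coe_neg]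
      exact_mod_cast neg_nonneg.mpr h0

lemma mem_pullbackValuationSubring {f : F} :
    f ∈ pullbackValuationSubring v σ ↔ 0 ≤ v (σ f) := Iff.rfl

lemma isPrincipalIdealRing_pullbackValuationSubring :
    IsPrincipalIdealRing (pullbackValuationSubring v σ) := by
  refine ⟨fun I => ?_⟩
  by_cases hI : I = ⊥
  · subst hI; exact bot_isPrincipal
  classical
  obtain ⟨a₀, ha₀, ha₀'⟩ := Submodule.exists_mem_ne_zero_of_ne_bot hI
  let p : ℕ → Prop := fun n => ∃ a ∈ I, v (σ (a : F)) = ((n : ℤ) : WithTop ℤ)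
  have val : ∀ a : pullbackValuationSubring v σ, a ≠ 0 →
      ∃ n : ℕ, v (σ (a : F)) = ((n : ℤ) : WithTop ℤ) := by
    intro a ha
    have h : v (σ (a : F)) ≠ ⊤ :=
      (AddValuation.ne_top_iff v).mpr fun h =>
        ha (Subtype.ext (σ.injective (h.trans (map_zero σ).symm)))
    obtain ⟨m, hm⟩ := WithTop.ne_top_iff_exists.mp h
    have h0 : 0 ≤ m := by
      have := a.2
      rw [mem_pullbackValuationSubring, ← hm] at this
      exact_mod_cast this
    exact ⟨m.toNat, by rw [Int.toNat_of_nonneg h0, hm]⟩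
  have hp : ∃ n, p n := by
    obtain ⟨n, hn⟩ := val a₀ ha₀'
    exact ⟨n, a₀, ha₀, hn⟩
  obtain ⟨a, haI, ha⟩ := Nat.find_spec hp
  refine ⟨⟨a, le_antisymm (fun b hb => ?_) ((Ideal.span_singleton_le_iff_mem _).mpr haI)⟩⟩
  rcases eq_or_ne b 0 with rfl | hb0
  · exact Submodule.zero_mem _
  obtain ⟨n, hn⟩ := val b hb0
  have hle : Nat.find hp ≤ n := Nat.find_min' hp ⟨b, hb, hn⟩
  have haF : (a : F) ≠ 0 := by
    intro h
    rw [h, map_zero, AddValuation.map_zero] at ha
    exact WithTop.top_ne_coe ha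
  have hmem : (b : F) / (a : F) ∈ pullbackValuationSubring v σ := by
    rw [mem_pullbackValuationSubring, div_eq_mul_inv, map_mul, map_inv₀,
      AddValuation.map_mul, AddValuation.map_inv, hn, ha,
      ← WithTop.LinearOrderedAddCommGroup.coe_neg, ← WithTop.coe_add]
    exact WithTop.coe_nonneg.mpr (by omega)
  refine Ideal.mem_span_singleton.mpr ⟨⟨_, hmem⟩, ?_⟩
  refine Subtype.ext ?_
  show (b : F) = (a : F) * ((b : F) / (a : F))
  rw [mul_div_cancel₀ _ haF]

/-- The place pulled back along an embedding into a valued field. -/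
def placeOfEmbedding (hK : ∀ a : K, algebraMap K F a ∈ pullbackValuationSubring v σ)
    (hne : pullbackValuationSubring v σ ≠ ⊤) : Place K F where
  toValuationSubring := pullbackValuationSubring v σ
  algebraMap_mem' := hK
  ne_top' := hne
  isPrincipalIdealRing' := isPrincipalIdealRing_pullbackValuationSubring v σ

lemma mem_placeOfEmbedding (hK : ∀ a : K, algebraMap K F a ∈ pullbackValuationSubring v σ)
    (hne : pullbackValuationSubring v σ ≠ ⊤) {f : F} :
    f ∈ (placeOfEmbedding v σ hK hne).toValuationSubring ↔ 0 ≤ v (σ f) := Iff.rfl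

end Pullback

section Coefficients

variable (y : F)

lemma placeOrd_aeval (P : Place K F) (hP : 0 < P.ord y) {p : K[X]} (hp : p ≠ 0) :
    aeval y p ≠ 0 ∧ P.ord (aeval y p) = (p.natTrailingDegree : ℤ) * P.ord y := by
  have hy : y ≠ 0 := fun h => by simp [h] at hP
  obtain ⟨q, hpq⟩ : X ^ p.natTrailingDegree ∣ p :=
    X_pow_dvd_iff.mpr fun d hd => coeff_eq_zero_of_lt_natTrailingDegree hd
  set k := p.natTrailingDegree with hk
  have hq0 : q.coeff 0 ≠ 0 := by
    have := trailingCoeff_nonzero_iff_nonzero.mpr hp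
    rw [trailingCoeff, ← hk, hpq] at this
    simpa [coeff_X_pow_mul'] using this
  obtain ⟨r, hr⟩ : X ∣ q - C (q.coeff 0) := X_dvd_iff.mpr (by simp)
  have hyP : y ∈ P.toValuationSubring := (placeOrd_nonneg_iff P hy).mp hP.le
  have hmax : (⟨y, hyP⟩ : P.toValuationSubring) ∈ IsLocalRing.maximalIdeal _ := by
    rw [IsLocalRing.mem_maximalIdeal, mem_nonunits_iff]
    intro hu
    have := P.ord_coe_unit hu.unit
    simp only [IsUnit.unit_spec] at this
    omega
  have hqu : IsUnit (aeval (⟨y, hyP⟩ : P.toValuationSubring) q) := by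
    rw [← sub_add_cancel q (C (q.coeff 0)), hr, map_add, map_mul, aeval_X, aeval_C]
    by_contra hnu
    have h1 : (⟨y, hyP⟩ : P.toValuationSubring) * aeval (⟨y, hyP⟩ : P.toValuationSubring) r +
        algebraMap K _ (q.coeff 0) ∈ IsLocalRing.maximalIdeal _ := hnu
    have h2 := Ideal.sub_mem _ h1 (Ideal.mul_mem_right
      (aeval (⟨y, hyP⟩ : P.toValuationSubring) r) _ hmax)
    rw [add_sub_cancel_left] at h2
    exact h2 ((Ne.isUnit hq0).map (algebraMap K P.toValuationSubring))
  have hcoe : ((aeval (⟨y, hyP⟩ : P.toValuationSubring) q : P.toValuationSubring) : F)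
      = aeval y q :=
    (aeval_algHom_apply (IsScalarTower.toAlgHom K P.toValuationSubring F)
      (⟨y, hyP⟩ : P.toValuationSubring) q).symm
  have hne : aeval y q ≠ 0 := by
    rw [← hcoe]
    exact fun h => hqu.ne_zero (Subtype.ext h)
  have hord : P.ord (aeval y q) = 0 := by
    rw [← hcoe, ← hqu.unit_spec]
    exact P.ord_coe_unit _
  have hev : aeval y p = y ^ (k : ℤ) * aeval y q := by
    conv_lhs => rw [hpq]
    simp [zpow_natCast]
  rw [hev]
  refine ⟨mul_ne_zero (zpow_ne_zero _ hy) hne, ?_⟩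
  rw [P.ord_mul (zpow_ne_zero _ hy) hne, P.ord_zpow, hord, add_zero]

/-- Two places centred at `y = 0` agree in sign on `K(y)`. -/
lemma placeOrd_nonneg_of_mem_adjoin (P Q : Place K F) (hP : 0 < P.ord y) (hQ : 0 < Q.ord y)
    {c : F} (hc : c ∈ K⟮y⟯) (h : 0 ≤ Q.ord c) : 0 ≤ P.ord c := by
  obtain ⟨r, s, rfl⟩ := (IntermediateField.mem_adjoin_simple_iff K c).mp hc
  rcases eq_or_ne r 0 with rfl | hr
  · simp
  rcases eq_or_ne s 0 with rfl | hs
  · simp
  obtain ⟨hr1, hr2⟩ := placeOrd_aeval y Q hQ hr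
  obtain ⟨hs1, hs2⟩ := placeOrd_aeval y Q hQ hs
  obtain ⟨hr1', hr2'⟩ := placeOrd_aeval y P hP hr
  obtain ⟨hs1', hs2'⟩ := placeOrd_aeval y P hP hs
  rw [div_eq_mul_inv, P.ord_mul hr1' (inv_ne_zero hs1'), P.ord_inv, hr2', hs2']
  rw [div_eq_mul_inv, Q.ord_mul hr1 (inv_ne_zero hs1), Q.ord_inv, hr2, hs2] at h
  have hrs : (0 : ℤ) ≤ (r.natTrailingDegree : ℤ) - (s.natTrailingDegree : ℤ) := by
    by_contra hneg
    have := mul_neg_of_neg_of_pos (not_le.mp hneg) hQ
    linarith
  have := mul_nonneg hrs hP.le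
  linarith

end Coefficients

section Main

lemma injective_of_sum_le {Q S : Type*} [Fintype Q] [Fintype S] (ψ : Q → S)
    (hψ : Function.Surjective ψ) (g : S → ℤ) (hg : ∀ s, 0 < g s)
    (hle : ∑ q, g (ψ q) ≤ ∑ s, g s) : Function.Injective ψ := by
  classical
  intro a b hab
  by_contra hne
  let r := Function.surjInv hψ
  have h : ∑ s, g s = ∑ q ∈ Finset.univ.image r, g (ψ q) := by
    rw [Finset.sum_image fun x _ y _ h => Function.injective_surjInv hψ h]
    exact Finset.sum_congr rfl fun s _ => by rw [Function.surjInv_eq hψ]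
  obtain ⟨c, hc⟩ : ∃ c : Q, c ∉ Finset.univ.image r := by
    by_contra hall
    push Not at hall
    obtain ⟨s, -, hs⟩ := Finset.mem_image.mp (hall a)
    obtain ⟨t, -, ht⟩ := Finset.mem_image.mp (hall b)
    refine hne ?_
    rw [← hs, ← ht]
    congr 1
    rw [← hs, ← ht, Function.surjInv_eq hψ, Function.surjInv_eq hψ] at hab
    exact hab
  have := Finset.sum_lt_sum_of_subset (f := fun q => g (ψ q))
    (Finset.subset_univ (Finset.univ.image r)) (Finset.mem_univ c) hc (hg _)
    (fun q _ _ => (hg _).le)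
  linarith

variable {ι : Type*} [Fintype ι]

/-- All conjugates of `f` over `K(y)` are among the `σ i f`. -/
lemma minpoly_map_lifts {E : Type*} [Field E] [Algebra E F] [FiniteDimensional E F]
    [Algebra.IsSeparable E F] (σ : ι → F →+* Ω) (hinj : Function.Injective σ)
    (hcard : Fintype.card ι = Module.finrank E F)
    (hagree : ∀ i j (c : E), σ i (algebraMap E F c) = σ j (algebraMap E F c))
    (i₀ : ι) (O : Subring Ω) (f : F) (hf : ∀ i, σ i f ∈ O) (n : ℕ) :
    σ i₀ (algebraMap E F ((minpoly E f).coeff n)) ∈ O := by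
  classical
  let τ : E →+* Ω := (σ i₀).comp (algebraMap E F)
  let _ : Algebra E Ω := τ.toAlgebra
  let A := AlgebraicClosure Ω
  let φ : ι → F →ₐ[E] A := fun i =>
    { (algebraMap Ω A).comp (σ i) with
      commutes' := fun c => by
        show algebraMap Ω A (σ i (algebraMap E F c)) = algebraMap E A c
        rw [hagree i i₀, IsScalarTower.algebraMap_apply E Ω A]
        rfl }
  have hφinj : Function.Injective φ := by
    intro i j h
    refine hinj (RingHom.ext fun x => (algebraMap Ω A).injective ?_)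
    exact DFunLike.congr_fun h x
  have hφbij : Function.Bijective φ :=
    (Fintype.bijective_iff_injective_and_card φ).mpr ⟨hφinj, by rw [AlgHom.card, hcard]⟩
  have hroot : ∀ r ∈ ((minpoly E f).map (algebraMap E A)).roots,
      r ∈ Set.range (fun x : O => algebraMap Ω A (x : Ω)) := by
    intro r hr
    have hr' : r ∈ (minpoly E f).rootSet A := by
      rw [Polynomial.rootSet, Polynomial.aroots_def]
      simpa using hr
    rw [← (Algebra.IsAlgebraic.range_eval_eq_rootSet_minpoly (F := E) (A := A) f)] at hr'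
    obtain ⟨ψ, rfl⟩ := hr'
    obtain ⟨i, rfl⟩ := hφbij.2 ψ
    exact ⟨⟨σ i f, hf i⟩, rfl⟩
  let g : O →+* A := (algebraMap Ω A).comp O.subtype
  have hmonic : ((minpoly E f).map (algebraMap E A)).Monic :=
    (minpoly.monic (Algebra.IsIntegral.isIntegral f)).map _
  have hprod := Polynomial.prod_multiset_X_sub_C_of_monic_of_roots_card_eq hmonic
    ((IsAlgClosed.splits _).natDegree_eq_card_roots).symm
  have hlift : (minpoly E f).map (algebraMap E A) ∈ Polynomial.lifts g := by
    rw [← hprod]
    refine multiset_prod_mem _ fun q hq => ?_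
    obtain ⟨r, hr, rfl⟩ := Multiset.mem_map.mp hq
    obtain ⟨x, rfl⟩ := hroot r hr
    exact ⟨X - C x, by simp [g]⟩
  obtain ⟨x, hx⟩ := (Polynomial.lifts_iff_coeff_lifts _).mp hlift n
  rw [Polynomial.coeff_map, IsScalarTower.algebraMap_apply E Ω A] at hx
  have hx' : (x : Ω) = τ ((minpoly E f).coeff n) := (algebraMap Ω A).injective hx
  show τ _ ∈ O
  rw [← hx']
  exact x.2

/-- Places where `y` vanishes correspond to classes of embeddings, and `ord y` is the class size.

`happrox` is weak approximation and `hsum` is the degree of the zero divisor of `y`. -/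
theorem exists_equiv_places_of_embeddings {Q : Type*} [Fintype Q]
    (v : AddValuation Ω (WithTop ℤ)) (π : ι → Q) (hπ : Function.Surjective π)
    (y : F) [FiniteDimensional K⟮y⟯ F] [Algebra.IsSeparable K⟮y⟯ F]
    (σ : ι → F →+* Ω) (hinj : Function.Injective σ)
    (hcard : Fintype.card ι = Module.finrank K⟮y⟯ F)
    (hσK : ∀ i j (a : K), σ i (algebraMap K F a) = σ j (algebraMap K F a))
    (hσy : ∀ i j, σ i y = σ j y)
    (htriv : ∀ i (a : K), a ≠ 0 → v (σ i (algebraMap K F a)) = 0)
    (e : ℤ) (he : 0 < e) (hvy : ∀ i, v (σ i y) = e)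
    (horb : ∀ i j, π i = π j → ∀ f, v (σ i f) = v (σ j f))
    (hdiv : ∀ i f (m : ℤ), v (σ i f) = m → e ∣ (Nat.card {j // π j = π i} : ℤ) * m)
    (happrox : ∀ (S : Finset (Place K F)) (P : Place K F), P ∉ S →
      ∃ f : F, P.ord f < 0 ∧ ∀ P' ∈ S, 0 ≤ P'.ord f)
    (hsum : ∃ S : Finset (Place K F), (∀ P, P ∈ S ↔ 0 < P.ord y) ∧
      ∑ P ∈ S, P.ord y = (Module.finrank K⟮y⟯ F : ℤ)) :
    ∃ Φ : Q ≃ {P : Place K F // 0 < P.ord y},
      (∀ q, (Φ q).1.ord y = (Nat.card {i // π i = q} : ℤ)) ∧
      ∀ i f, f ∈ (Φ (π i)).1.toValuationSubring ↔ 0 ≤ v (σ i f) := by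
  classical
  have hy : y ≠ 0 := by
    rintro rfl
    obtain ⟨i⟩ : Nonempty ι := Fintype.card_pos_iff.mp (hcard ▸ Module.finrank_pos)
    simpa using hvy i
  have htop : ∀ i, y⁻¹ ∉ pullbackValuationSubring v (σ i) := by
    intro i h
    rw [mem_pullbackValuationSubring, map_inv₀, AddValuation.map_inv, hvy,
      ← WithTop.LinearOrderedAddCommGroup.coe_neg] at h
    have := WithTop.coe_nonneg.mp h
    omega
  have hK : ∀ i (a : K), algebraMap K F a ∈ pullbackValuationSubring v (σ i) := fun i a => by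
    rcases eq_or_ne a 0 with rfl | ha
    · rw [map_zero]; exact zero_mem _
    · rw [mem_pullbackValuationSubring, htriv i a ha]
  obtain ⟨pl, hpl⟩ : ∃ pl : ι → Place K F, ∀ i,
      (pl i).toValuationSubring = pullbackValuationSubring v (σ i) :=
    ⟨fun i => placeOfEmbedding v (σ i) (hK i)
      (fun h => htop i (h ▸ ValuationSubring.mem_top _)), fun _ => rfl⟩
  have hmem : ∀ i f, f ∈ (pl i).toValuationSubring ↔ 0 ≤ v (σ i f) := fun i f => by
    rw [hpl]; rfl
  have hpos : ∀ i, 0 < (pl i).ord y := by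
    intro i
    have h1 : ¬ 0 ≤ (pl i).ord y⁻¹ := fun h =>
      htop i (hpl i ▸ (placeOrd_nonneg_iff _ (inv_ne_zero hy)).mp h)
    rw [Place.ord_inv] at h1
    omega
  -- the value of `v ∘ σ i` is a multiple of the normalised order
  have hscale : ∀ i, ∃ m : ℤ, ∀ f : F, f ≠ 0 → v (σ i f) = ((m * (pl i).ord f : ℤ) : WithTop ℤ) := by
    intro i
    obtain ⟨ϖ, hϖ⟩ := IsDiscreteValuationRing.exists_irreducible (pl i).toValuationSubring
    have hϖ0 : (ϖ : F) ≠ 0 := fun h => hϖ.ne_zero (Subtype.ext h)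
    obtain ⟨m, hm⟩ := WithTop.ne_top_iff_exists.mp
      ((AddValuation.ne_top_iff v).mpr (show σ i (ϖ : F) ≠ 0 by simpa using hϖ0))
    have hu0 : ∀ u : (pl i).toValuationSubringˣ,
        v (σ i ((u : (pl i).toValuationSubring) : F)) = 0 := by
      intro u
      have h1 := (hmem i _).mp (u : (pl i).toValuationSubring).2
      have h2 := (hmem i _).mp ((u⁻¹ : (pl i).toValuationSubringˣ) : (pl i).toValuationSubring).2
      have hmul : v (σ i ((u : (pl i).toValuationSubring) : F)) +
          v (σ i (((u⁻¹ : (pl i).toValuationSubringˣ) : (pl i).toValuationSubring) : F)) = 0 := by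
        rw [← AddValuation.map_mul, ← map_mul,
          show ((u : (pl i).toValuationSubring) : F) *
            (((u⁻¹ : (pl i).toValuationSubringˣ) : (pl i).toValuationSubring) : F) = 1 from
            congrArg Subtype.val u.mul_inv, map_one, AddValuation.map_one]
      exact le_antisymm (hmul ▸ le_add_of_nonneg_right h2) h1
    have hpow : ∀ k : ℤ, v (σ i ((ϖ : F) ^ k)) = ((m * k : ℤ) : WithTop ℤ) := by
      intro k
      induction k using Int.induction_on with
      | zero => simp
      | succ n ih =>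
        rw [zpow_add_one₀ hϖ0, map_mul, AddValuation.map_mul, ih, ← hm, ← WithTop.coe_add]
        congr 1
        ring
      | pred n ih =>
        rw [zpow_sub_one₀ hϖ0, map_mul, AddValuation.map_mul, map_inv₀, AddValuation.map_inv,
          ih, ← hm, ← WithTop.LinearOrderedAddCommGroup.coe_neg, ← WithTop.coe_add]
        congr 1
        ring
    refine ⟨m, fun f hf => ?_⟩
    obtain ⟨u, hu⟩ := (pl i).exists_unit_mul_zpow hf hϖ
    conv_lhs => rw [hu]
    rw [map_mul, AddValuation.map_mul, hu0, hpow, zero_add]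
  -- ramification is at most the class size
  let w : Q → ℕ := fun q => Nat.card {i // π i = q}
  have hle : ∀ i, (pl i).ord y ≤ (w (π i) : ℤ) := by
    intro i
    obtain ⟨m, hm⟩ := hscale i
    have hey : m * (pl i).ord y = e :=
      WithTop.coe_injective ((hm y hy).symm.trans (hvy i))
    have hm0 : m ≠ 0 := fun h => by simp [h] at hey; omega
    obtain ⟨ϖ, hϖ⟩ := IsDiscreteValuationRing.exists_irreducible (pl i).toValuationSubring
    have hϖ0 : (ϖ : F) ≠ 0 := fun h => hϖ.ne_zero (Subtype.ext h)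
    have := hdiv i ϖ m (by rw [hm _ hϖ0, (pl i).ord_coe_irreducible hϖ, mul_one])
    rw [← hey, mul_comm (Nat.card {j // π j = π i} : ℤ) m] at this
    refine Int.le_of_dvd ?_ ((mul_dvd_mul_iff_left hm0).mp this)
    have : Nonempty {j // π j = π i} := ⟨⟨i, rfl⟩⟩
    exact_mod_cast Nat.card_pos
  have hagree : ∀ i j (c : K⟮y⟯), σ i (c : F) = σ j (c : F) := by
    intro i j c
    obtain ⟨r, s, hrs⟩ := (IntermediateField.mem_adjoin_simple_iff K (c : F)).mp c.2
    have hev : ∀ p : K[X], σ i (aeval y p) = σ j (aeval y p) := by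
      intro p
      rw [aeval_def, hom_eval₂, hom_eval₂, hσy i j]
      congr 1
      exact RingHom.ext (hσK i j)
    rw [hrs, map_div₀, map_div₀, hev r, hev s]
  obtain ⟨i₀⟩ : Nonempty ι := Fintype.card_pos_iff.mp (hcard ▸ Module.finrank_pos)
  -- every zero of `y` is one of the `pl i`
  have hsurj : ∀ P : Place K F, 0 < P.ord y → ∃ i, pl i = P := by
    intro P hP
    by_contra hne
    push Not at hne
    obtain ⟨f, hfP, hfi⟩ := happrox (Finset.univ.image pl) P (by simpa using hne)
    have hf0 : f ≠ 0 := fun h => by simp [h] at hfP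
    let O : Subring Ω :=
      (pullbackValuationSubring v (RingHom.id Ω)).toSubring
    have hcoef : ∀ k, algebraMap K⟮y⟯ F ((minpoly K⟮y⟯ f).coeff k) ∈ P.toValuationSubring := by
      intro k
      set c : F := algebraMap K⟮y⟯ F ((minpoly K⟮y⟯ f).coeff k) with hc
      have h1 : σ i₀ c ∈ O := minpoly_map_lifts σ hinj hcard hagree i₀ O f
        (fun i => (hmem i f).mp ((placeOrd_nonneg_iff _ hf0).mp
          (hfi _ (Finset.mem_image_of_mem pl (Finset.mem_univ i))))) k
      rcases eq_or_ne c 0 with h0 | h0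
      · rw [h0]; exact zero_mem _
      refine (placeOrd_nonneg_iff P h0).mp (placeOrd_nonneg_of_mem_adjoin y P (pl i₀) hP (hpos i₀)
        ((minpoly K⟮y⟯ f).coeff k).2 ((placeOrd_nonneg_iff _ h0).mpr ((hmem i₀ c).mpr h1)))
    have hint : IsIntegral P.toValuationSubring f := by
      have hl : (minpoly K⟮y⟯ f).map (algebraMap K⟮y⟯ F) ∈
          Polynomial.lifts (algebraMap P.toValuationSubring F) := by
        rw [Polynomial.lifts_iff_coeff_lifts]
        intro k
        rw [coeff_map]
        exact ⟨⟨_, hcoef k⟩, rfl⟩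
      obtain ⟨q, hq, -, hqm⟩ := Polynomial.lifts_and_degree_eq_and_monic hl
        ((minpoly.monic (Algebra.IsIntegral.isIntegral f)).map _)
      refine ⟨q, hqm, ?_⟩
      rw [eval₂_eq_eval_map, hq, ← eval₂_eq_eval_map, ← aeval_def, minpoly.aeval]
    obtain ⟨z, hz⟩ := (IsIntegrallyClosed.isIntegral_iff (K := F)).mp hint
    have : f ∈ P.toValuationSubring := hz ▸ z.2
    have := (placeOrd_nonneg_iff P hf0).mpr this
    omega
  -- counting
  have hplorb : ∀ i j, π i = π j → pl i = pl j := fun i j h =>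
    Place.ext (SetLike.ext fun f => by rw [hmem, hmem, horb i j h f])
  let ψ : Q → {P : Place K F // 0 < P.ord y} := fun q =>
    ⟨pl (Function.surjInv hπ q), hpos _⟩
  have hψπ : ∀ i, (ψ (π i)).1 = pl i := fun i =>
    hplorb _ _ (Function.surjInv_eq hπ _)
  have hψs : Function.Surjective ψ := by
    rintro ⟨P, hP⟩
    obtain ⟨i, rfl⟩ := hsurj P hP
    exact ⟨π i, Subtype.ext (hψπ i)⟩
  obtain ⟨S, hS, hSsum⟩ := hsum
  let _ : Fintype {P : Place K F // 0 < P.ord y} := Fintype.subtype S hS
  have htot : ∑ P : {P : Place K F // 0 < P.ord y}, P.1.ord y = ∑ q, (w q : ℤ) := by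
    rw [← Finset.sum_subtype S hS (fun P => P.ord y), hSsum, ← hcard, ← Nat.cast_sum]
    congr 1
    rw [← Fintype.card_congr (Equiv.sigmaFiberEquiv π), Fintype.card_sigma]
    exact Finset.sum_congr rfl fun q _ => Nat.card_eq_fintype_card.symm
  have hleq : ∀ q, (ψ q).1.ord y ≤ (w q : ℤ) := by
    intro q
    have h := hle (Function.surjInv hπ q)
    rwa [Function.surjInv_eq hπ q] at h
  have hψi : Function.Injective ψ := injective_of_sum_le ψ hψs (fun P => P.1.ord y)
    (fun P => P.2) (htot ▸ Finset.sum_le_sum fun q _ => hleq q)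
  have heq : ∀ q, (ψ q).1.ord y = (w q : ℤ) := by
    have h1 : ∑ q, (ψ q).1.ord y = ∑ q, (w q : ℤ) := by
      rw [← htot]
      exact Fintype.sum_bijective ψ ⟨hψi, hψs⟩ _ _ fun _ => rfl
    exact fun q => (Finset.sum_eq_sum_iff_of_le fun q _ => hleq q).mp h1 q (Finset.mem_univ q)
  refine ⟨Equiv.ofBijective ψ ⟨hψi, hψs⟩, heq, fun i f => ?_⟩
  show f ∈ (ψ (π i)).1.toValuationSubring ↔ _
  rw [hψπ]
  exact hmem i f

end Main

end Fermat.Agent.Modular
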