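/-
`exists_equiv_places_of_embeddings` for function fields of one variable over an algebraically
closed field of characteristic zero.
-/
import Fermat.Agent.Modular.PlacesOfEmbeddings
import Fermat.Agent.Curve.Approximation
import Fermat.Agent.Curve.Degree

set_option autoImplicit false

noncomputable section

namespace Fermat.Agent.Modular

open AlgebraicCurve Fermat.Agent.Curve
open scoped IntermediateField

variable {K F Ω : Type*} [Field K] [Field F] [Algebra K F] [Field Ω]

/-- Places of a function field at which `y` vanishes, from a full set of embeddings. -/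
theorem exists_equiv_places_above [IsAlgClosed K] [CharZero K] [IsFunctionField1 K F]
    {ι : Type*} [Fintype ι] {Q : Type*} [Fintype Q]
    (v : AddValuation Ω (WithTop ℤ)) (π : ι → Q) (hπ : Function.Surjective π)
    (y : F) (hyt : Transcendental K y)
    (σ : ι → F →+* Ω) (hinj : Function.Injective σ)
    (hcard : Fintype.card ι = Module.finrank K⟮y⟯ F)
    (hσK : ∀ i j (a : K), σ i (algebraMap K F a) = σ j (algebraMap K F a))
    (hσy : ∀ i j, σ i y = σ j y)
    (htriv : ∀ i (a : K), a ≠ 0 → v (σ i (algebraMap K F a)) = 0)
    (e : ℤ) (he : 0 < e) (hvy : ∀ i, v (σ i y) = e)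
    (horb : ∀ i j, π i = π j → ∀ f, v (σ i f) = v (σ j f))
    (hdiv : ∀ i f (m : ℤ), v (σ i f) = m → e ∣ (Nat.card {j // π j = π i} : ℤ) * m) :
    ∃ Φ : Q ≃ {P : Place K F // 0 < P.ord y},
      (∀ q, (Φ q).1.ord y = (Nat.card {i // π i = q} : ℤ)) ∧
      ∀ i f, f ∈ (Φ (π i)).1.toValuationSubring ↔ 0 ≤ v (σ i f) := by
  classical
  have := finiteDimensional_adjoin hyt
  have : CharZero F := charZero_of_injective_algebraMap (algebraMap K F).injective
  refine exists_equiv_places_of_embeddings v π hπ y σ hinj hcard hσK hσy htriv e he hvy horb hdiv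
    (fun S P hP => ?_) ?_
  · obtain ⟨f, -, hf⟩ := exists_forall_ord_eq (insert P S) (fun w => if w = P then -1 else 0)
    refine ⟨f, by simp [hf P (Finset.mem_insert_self P S)], fun w hw => ?_⟩
    have hne : w ≠ P := fun h => hP (h ▸ hw)
    simp [hf w (Finset.mem_insert_of_mem hw), hne]
  · have hyi : Transcendental K y⁻¹ := fun h => hyt (by simpa using h.inv)
    have hfield : K⟮y⁻¹⟯ = K⟮y⟯ := by
      refine le_antisymm ?_ ?_
      · exact IntermediateField.adjoin_simple_le_iff.mpr
          (inv_mem (IntermediateField.mem_adjoin_simple_self K y))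
      · exact IntermediateField.adjoin_simple_le_iff.mpr
          (by simpa using inv_mem (IntermediateField.mem_adjoin_simple_self K y⁻¹))
    refine ⟨(poleDivisor (K := K) y⁻¹).support, fun P => ?_, ?_⟩
    · rw [Finsupp.mem_support_iff, poleDivisor_apply, Place.ord_inv]
      omega
    · have h := degree_poleDivisor hyi
      rw [hfield] at h
      rw [← h, Divisor.degree, Finsupp.liftAddHom_apply, Finsupp.sum]
      refine Finset.sum_congr rfl fun P hP => ?_
      rw [Finsupp.mem_support_iff, poleDivisor_apply, Place.ord_inv] at hP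
      simp only [AddMonoidHom.coe_mulRight, deg_eq_one, Nat.cast_one, mul_one, poleDivisor_apply,
        Place.ord_inv]
      omega

end Fermat.Agent.Modular
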