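/-
The places above `j = ∞` of the function field of `X₀(N)` correspond to the cusps.

The function field enters through an evaluation homomorphism `Λ : F →+* Mero` whose image is
`Γ₀(N)`-invariant and whose generators evaluate to the functions `τ ↦ j(d τ)`, `d ∣ N`.
-/
import Fermat.Agent.Modular.CuspSeries
import Fermat.Agent.Modular.Eval
import Fermat.Agent.Modular.CuspExpansion
import Fermat.Agent.Modular.CuspCount
import Fermat.Agent.Modular.JFun
import Fermat.Agent.Modular.PlacesAbove
import Fermat.Prelude.Thm_ModularCurve_coeff_jqModC_neg_one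
import Fermat.Prelude.Thm_ModularCurve_coeff_jqModC_pow_of_lt

set_option autoImplicit false

noncomputable section

open scoped MatrixGroups UpperHalfPlane IntermediateField
open AlgebraicCurve Fermat.Agent.Curve

namespace Fermat.Agent.Modular

variable (N : ℕ) [NeZero N]

/-- The fraction field of `HolExp N` inside `Mero`. -/
def expIntoMero : FractionRing (HolExp N) →+* Mero :=
  IsFractionRing.lift (A := HolExp N)
    (g := (algebraMap Hol Mero).comp (HolExp N).val.toRingHom)
    ((IsFractionRing.injective Hol Mero).comp Subtype.coe_injective)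

/-- The expansion of a quotient of functions with expansions. -/
def expIntoSeries : FractionRing (HolExp N) →+* LaurentSeries ℂ :=
  IsFractionRing.lift (A := HolExp N) (g := (qSeries N).toRingHom) (qSeries_injective N)

omit [NeZero N] in
theorem expIntoMero_algebraMap (F₀ : HolExp N) :
    expIntoMero N (algebraMap (HolExp N) _ F₀) = algebraMap Hol Mero (F₀ : Hol) :=
  IsFractionRing.lift_algebraMap _ _

theorem expIntoSeries_algebraMap (F₀ : HolExp N) :
    expIntoSeries N (algebraMap (HolExp N) _ F₀) = qSeries N F₀ :=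
  IsFractionRing.lift_algebraMap _ _

/-- The expansion, on the meromorphic functions that have one. -/
def meroSeries : (expIntoMero N).fieldRange →+* LaurentSeries ℂ :=
  (expIntoSeries N).comp (expIntoMero N).rangeRestrictFieldEquiv.symm.toRingHom

theorem meroSeries_injective : Function.Injective (meroSeries N) := RingHom.injective _

theorem meroSeries_mk {F₀ : Hol} (hF : F₀ ∈ HolExp N) (h) :
    meroSeries N ⟨algebraMap Hol Mero F₀, h⟩ = qSeries N ⟨F₀, hF⟩ := by
  have : (expIntoMero N).rangeRestrictFieldEquiv.symm ⟨algebraMap Hol Mero F₀, h⟩ =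
      algebraMap (HolExp N) _ (⟨F₀, hF⟩ : HolExp N) := by
    apply (expIntoMero N).injective
    rw [RingHom.rangeRestrictFieldEquiv_apply_symm_apply, expIntoMero_algebraMap]
  show expIntoSeries N _ = _
  exact (congrArg (expIntoSeries N) this).trans (expIntoSeries_algebraMap N _)

theorem smul_jHol_mem (g : SL(2, ℤ)) {d : ℕ} [NeZero d] (hd : d ∣ N) :
    g • jHol d ∈ HolExp N := by
  obtain ⟨y, hy⟩ := exists_hasQExp_translate kleinJ_smul hasQExp_kleinJ g hd
  exact ⟨y, hy.congr fun τ => by rw [smul_hol_apply, jHol_apply]⟩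

theorem qSeries_jHol_one (h : jHol 1 ∈ HolExp N) :
    qSeries N ⟨jHol 1, h⟩ = ModularCurve.qExpand ℂ N (ModularCurve.jqModC ℂ) := by
  refine qSeries_eq N ?_
  have h1 := (hasQExp_kleinJ_mulH 1).dilate_period one_ne_zero N
  rw [one_mul, ModularCurve.qExpand_one_apply] at h1
  exact h1.congr fun τ => rfl

theorem addVal_qExpand_jqModC :
    HahnSeries.addVal ℤ ℂ (ModularCurve.qExpand ℂ N (ModularCurve.jqModC ℂ)) =
      ((-(N : ℤ) : ℤ) : WithTop ℤ) := by
  rw [HahnSeries.addVal_apply]
  have h1 : (ModularCurve.qExpand ℂ N (ModularCurve.jqModC ℂ)).coeff ((N : ℤ) * -1) ≠ 0 := by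
    rw [ModularCurve.qExpand_coeff_mul, ModularCurve.coeff_jqModC_neg_one]
    exact one_ne_zero
  have hne : ModularCurve.qExpand ℂ N (ModularCurve.jqModC ℂ) ≠ 0 := fun h => h1 (by simp [h])
  rw [← HahnSeries.order_eq_orderTop_of_ne_zero hne, WithTop.coe_eq_coe]
  refine le_antisymm (by simpa using HahnSeries.order_le_of_coeff_ne_zero h1) ?_
  by_contra hlt
  have hc := HahnSeries.coeff_order_eq_zero.not.mpr hne
  obtain ⟨m, hm⟩ : (N : ℤ) ∣ (ModularCurve.qExpand ℂ N (ModularCurve.jqModC ℂ)).order := by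
    by_contra hnd
    exact hc (ModularCurve.qExpand_coeff_of_not_dvd _ _ hnd)
  rw [hm, ModularCurve.qExpand_coeff_mul] at hc
  have hm1 : m < -1 := by
    rw [hm] at hlt
    have hN : (0 : ℤ) < N := by exact_mod_cast Nat.pos_of_ne_zero (NeZero.ne N)
    by_contra hge
    exact hlt (by nlinarith)
  exact hc (by simpa using ModularCurve.coeff_jqModC_pow_of_lt ℂ (b := 1) (m := m) (by simpa using hm1))

section Places

variable {L F : Type*} [Field L] [Field F] [Algebra L F]

/-- The expansions of the conjugates, with the coset of `g` giving `f ↦ f ∘ g⁻¹`. -/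
theorem exists_cusp_embeddings (ι : L →+* ℂ) (Λ : F →+* Mero)
    (hconst : ∀ a : L, Λ (algebraMap L F a) = algebraMap ℂ Mero (ι a))
    (hinv : ∀ γ ∈ CongruenceSubgroup.Gamma0 N, ∀ f : F, translate γ (Λ f) = Λ f)
    (S : Set F) (hgen : IntermediateField.adjoin L S = ⊤)
    (hS : ∀ s ∈ S, ∃ (d : ℕ) (_ : NeZero d), d ∣ N ∧ Λ s = algebraMap Hol Mero (jHol d)) :
    ∃ σ : Gamma0Coset N → F →+* LaurentSeries ℂ,
      (∀ g h : SL(2, ℤ), σ (QuotientGroup.mk g) = σ (QuotientGroup.mk h) →
        ∀ f : F, translate g (Λ f) = translate h (Λ f)) ∧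
      (∀ (g : SL(2, ℤ)) (f : F), ∃ a b : HolExp N, b ≠ 0 ∧
        translate g (Λ f) * algebraMap Hol Mero (b : Hol) = algebraMap Hol Mero (a : Hol) ∧
        σ (QuotientGroup.mk g) f * qSeries N b = qSeries N a) ∧
      (∀ (g : SL(2, ℤ)) (f : F) (F₀ : Hol) (hF : F₀ ∈ HolExp N),
        translate g (Λ f) = algebraMap Hol Mero F₀ → σ (QuotientGroup.mk g) f = qSeries N ⟨F₀, hF⟩) ∧
      ∀ (k : ℤ) (q : Gamma0Coset N) (f : F),
        σ (ModularGroup.T ^ k • q) f = twistSeries (cuspRoot N (-k)) (σ q f) := by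
  classical
  -- every translate of a value of `Λ` has an expansion
  have hS' : ∀ s ∈ S, ∀ g : SL(2, ℤ), ∃ F₀ ∈ HolExp N,
      translate g (Λ s) = algebraMap Hol Mero F₀ := by
    intro s hs g
    obtain ⟨d, hd0, hdN, hd⟩ := hS s hs
    exact ⟨g • jHol d, smul_jHol_mem N g hdN, by rw [hd, translate_algebraMap]⟩
  have hconst' : ∀ (a : L) (g : SL(2, ℤ)), translate g (Λ (algebraMap L F a)) =
      algebraMap Hol Mero (algebraMap ℂ Hol (ι a)) := by
    intro a g
    rw [hconst, translate_const, IsScalarTower.algebraMap_apply ℂ Hol Mero]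
  have hmem : ∀ (g : SL(2, ℤ)) (f : F),
      ((translate g).toRingHom.comp Λ) f ∈ (expIntoMero N).fieldRange := by
    intro g f
    have hf : f ∈ IntermediateField.adjoin L S := hgen ▸ IntermediateField.mem_top
    have hle : IntermediateField.adjoin L S ≤
        (Subfield.toIntermediateField (K := L)
          ((expIntoMero N).fieldRange.comap ((translate g).toRingHom.comp Λ))
          (fun a => ⟨algebraMap (HolExp N) _ (algebraMap ℂ (HolExp N) (ι a)), by
             rw [expIntoMero_algebraMap]
             exact (hconst' a g).symm⟩)) := by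
      rw [IntermediateField.adjoin_le_iff]
      intro s hs
      obtain ⟨F₀, hF₀, h⟩ := hS' s hs g
      exact ⟨algebraMap (HolExp N) _ ⟨F₀, hF₀⟩, by rw [expIntoMero_algebraMap]; exact h.symm⟩
    exact hle hf
  let σ₀ : SL(2, ℤ) → F →+* LaurentSeries ℂ := fun g =>
    (meroSeries N).comp (((translate g).toRingHom.comp Λ).codRestrict _ (hmem g))
  have hval : ∀ (g : SL(2, ℤ)) (f : F) (F₀ : Hol) (hF : F₀ ∈ HolExp N),
      translate g (Λ f) = algebraMap Hol Mero F₀ → σ₀ g f = qSeries N ⟨F₀, hF⟩ := by
    intro g f F₀ hF h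
    show meroSeries N ⟨translate g (Λ f), _⟩ = _
    have he : (⟨translate g (Λ f), hmem g f⟩ : (expIntoMero N).fieldRange) =
        ⟨algebraMap Hol Mero F₀, h ▸ hmem g f⟩ := Subtype.ext h
    exact (congrArg (meroSeries N) he).trans (meroSeries_mk N hF _)
  have hwd : ∀ g h : SL(2, ℤ), (QuotientGroup.mk g : Gamma0Coset N) = QuotientGroup.mk h →
      σ₀ g = σ₀ h := by
    intro g h he
    obtain ⟨γ, hγ, rfl⟩ : ∃ γ ∈ CongruenceSubgroup.Gamma0 N, h = g * γ :=
      ⟨g⁻¹ * h, QuotientGroup.eq.mp he, by group⟩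
    refine RingHom.ext fun f => congrArg (meroSeries N) (Subtype.ext ?_)
    show translate g (Λ f) = translate (g * γ) (Λ f)
    rw [translate_mul, hinv γ hγ]
  refine ⟨Quotient.lift σ₀ fun g h he => hwd g h (Quotient.sound he), ?_, ?_, hval, ?_⟩
  · intro g h he f
    exact congrArg Subtype.val (meroSeries_injective N (RingHom.congr_fun he f))
  · intro g f
    obtain ⟨z, hz⟩ := hmem g f
    obtain ⟨a, b, hb, rfl⟩ := IsFractionRing.div_surjective (A := HolExp N) z
    have hb0 : b ≠ 0 := nonZeroDivisors.ne_zero hb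
    have hb' : algebraMap (HolExp N) (FractionRing (HolExp N)) b ≠ 0 := fun h =>
      hb0 (IsFractionRing.injective (HolExp N) _ (h.trans (map_zero _).symm))
    have hbm : algebraMap Hol Mero (b : Hol) ≠ 0 := by
      rw [← expIntoMero_algebraMap]
      exact fun h => hb' ((map_eq_zero (expIntoMero N)).mp h)
    have hbs : qSeries N b ≠ 0 := fun h =>
      hb0 (qSeries_injective N (h.trans (map_zero _).symm))
    refine ⟨a, b, hb0, ?_, ?_⟩
    · change expIntoMero N _ = translate g (Λ f) at hz
      rw [← hz, map_div₀, expIntoMero_algebraMap, expIntoMero_algebraMap, div_mul_cancel₀ _ hbm]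
    · show meroSeries N ⟨translate g (Λ f), hmem g f⟩ * qSeries N b = qSeries N a
      have he : (⟨translate g (Λ f), hmem g f⟩ : (expIntoMero N).fieldRange) =
          (expIntoMero N).rangeRestrictFieldEquiv
            (algebraMap (HolExp N) _ a / algebraMap (HolExp N) _ b) := Subtype.ext hz.symm
      rw [he]
      show expIntoSeries N ((expIntoMero N).rangeRestrictFieldEquiv.symm
        ((expIntoMero N).rangeRestrictFieldEquiv _)) * _ = _
      rw [RingEquiv.symm_apply_apply, map_div₀, expIntoSeries_algebraMap,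
        expIntoSeries_algebraMap, div_mul_cancel₀ _ hbs]
  · intro k q f
    induction q using QuotientGroup.induction_on with
    | _ g =>
    show σ₀ (ModularGroup.T ^ k * g) f = twistSeries (cuspRoot N (-k)) (σ₀ g f)
    have key : ∀ (x : F) (F₀ : Hol) (hF : F₀ ∈ HolExp N), translate g (Λ x) = algebraMap Hol Mero F₀ →
        σ₀ (ModularGroup.T ^ k * g) x = twistSeries (cuspRoot N (-k)) (σ₀ g x) := by
      intro x F₀ hF h
      rw [hval g x F₀ hF h,
        hval (ModularGroup.T ^ k * g) x _ (T_zpow_smul_mem_holExp N hF k)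
          (by rw [translate_mul, h, translate_algebraMap])]
      exact qSeries_T_zpow_smul N ⟨F₀, hF⟩ k
    have hle : IntermediateField.adjoin L S ≤
        (Subfield.toIntermediateField (K := L)
          ((σ₀ (ModularGroup.T ^ k * g)).eqLocusField
            ((twistSeries (cuspRoot N (-k))).comp (σ₀ g)))
          (fun a => key _ _ ((HolExp N).algebraMap_mem (ι a)) (hconst' a g))) := by
      rw [IntermediateField.adjoin_le_iff]
      intro s hs
      obtain ⟨F₀, hF₀, h⟩ := hS' s hs g
      exact key s F₀ hF₀ h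
    exact hle (hgen ▸ IntermediateField.mem_top (x := f))

omit [NeZero N] in
/-- The orbit of a coset under `T`, as the fibre of the cusp map. -/
theorem T_zpow_card_fibre_smul (q : Gamma0Coset N) :
    ModularGroup.T ^ (Nat.card {p : Gamma0Coset N //
      (Quotient.mk'' p : CuspOrbit N) = Quotient.mk'' q} : ℤ) • q = q := by
  have h : Nat.card {p : Gamma0Coset N // (Quotient.mk'' p : CuspOrbit N) = Quotient.mk'' q} =
      Function.minimalPeriod (ModularGroup.T • ·) q := by
    rw [Nat.card_congr (Equiv.subtypeEquivRight (q := (· ∈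
      MulAction.orbit (Subgroup.zpowers ModularGroup.T) q)) fun p => by
        rw [Quotient.eq'', MulAction.orbitRel_apply])]
    rw [← Nat.card_zmod (Function.minimalPeriod (ModularGroup.T • ·) q)]
    exact Nat.card_congr (MulAction.orbitZPowersEquiv ModularGroup.T q)
  rw [h, MulAction.zpow_smul_eq_iff_minimalPeriod_dvd]

/-- Places above `j = ∞` correspond to cusps, the ramification index being the width. -/
theorem exists_equiv_cuspPlaces [IsAlgClosed L] [CharZero L] [IsFunctionField1 L F]
    (ι : L →+* ℂ) (Λ : F →+* Mero)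
    (hconst : ∀ a : L, Λ (algebraMap L F a) = algebraMap ℂ Mero (ι a))
    (hinv : ∀ γ ∈ CongruenceSubgroup.Gamma0 N, ∀ f : F, translate γ (Λ f) = Λ f)
    (S : Set F) (hgen : IntermediateField.adjoin L S = ⊤)
    (hS : ∀ s ∈ S, ∃ (d : ℕ) (_ : NeZero d), d ∣ N ∧ Λ s = algebraMap Hol Mero (jHol d))
    (hinj : ∀ g h : SL(2, ℤ), (∀ f : F, translate g (Λ f) = translate h (Λ f)) →
      (QuotientGroup.mk g : Gamma0Coset N) = QuotientGroup.mk h)
    (j : F) (hj : Λ j = algebraMap Hol Mero (jHol 1)) (hjt : Transcendental L j)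
    (hdeg : Module.finrank L⟮j⟯ F = Nat.card (Gamma0Coset N)) :
    ∃ Φ : CuspOrbit N ≃ {P : Place L F // P.ord j < 0}, ∀ o : CuspOrbit N,
      (Φ o).1.ord j = -(Nat.card {q : Gamma0Coset N // (Quotient.mk'' q : CuspOrbit N) = o} : ℤ) := by
  classical
  obtain ⟨σ, hσeq, -, hσ, hσT⟩ := exists_cusp_embeddings N ι Λ hconst hinv S hgen hS
  have hσinj : Function.Injective σ := by
    intro p q he
    induction p using QuotientGroup.induction_on with
    | _ g =>
    induction q using QuotientGroup.induction_on with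
    | _ h => exact hinj g h (hσeq g h he)
  have : Fintype (Gamma0Coset N) := Fintype.ofFinite _
  have : Fintype (CuspOrbit N) := Fintype.ofFinite _
  have hyt : Transcendental L j⁻¹ := fun h => hjt (by simpa using h.inv)
  have hfield : L⟮j⁻¹⟯ = L⟮j⟯ := by
    refine le_antisymm ?_ ?_
    · exact IntermediateField.adjoin_simple_le_iff.mpr
        (inv_mem (IntermediateField.mem_adjoin_simple_self L j))
    · exact IntermediateField.adjoin_simple_le_iff.mpr
        (by simpa using inv_mem (IntermediateField.mem_adjoin_simple_self L j⁻¹))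
  have h1 : jHol 1 ∈ HolExp N := by
    simpa using smul_jHol_mem N 1 (one_dvd N)
  have hσj : ∀ q, σ q j = ModularCurve.qExpand ℂ N (ModularCurve.jqModC ℂ) := by
    intro q
    induction q using QuotientGroup.induction_on with
    | _ g =>
      rw [hσ g j (jHol 1) h1 (by rw [hj, translate_algebraMap, smul_jHol_one]), qSeries_jHol_one]
  have hσc : ∀ q (a : L), σ q (algebraMap L F a) = algebraMap ℂ (LaurentSeries ℂ) (ι a) := by
    intro q a
    induction q using QuotientGroup.induction_on with
    | _ g =>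
      rw [hσ g _ _ ((HolExp N).algebraMap_mem (ι a))
        (by rw [hconst, translate_const, IsScalarTower.algebraMap_apply ℂ Hol Mero])]
      exact (qSeries N).commutes (ι a)
  have hcard : Fintype.card (Gamma0Coset N) = Module.finrank L⟮j⁻¹⟯ F := by
    rw [hfield, hdeg, Nat.card_eq_fintype_card]
  obtain ⟨Φ, hΦ, -⟩ := exists_equiv_places_above (HahnSeries.addVal ℤ ℂ)
    (fun q => (Quotient.mk'' q : CuspOrbit N)) Quotient.mk''_surjective j⁻¹ hyt σ hσinj hcard
    (fun p q a => by rw [hσc, hσc]) (fun p q => by rw [map_inv₀, map_inv₀, hσj, hσj])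
    (fun q a ha => by
      rw [hσc, ModularCurve.algebraMap_laurentSeries_eq_single, HahnSeries.addVal_apply,
        HahnSeries.orderTop_single (by simpa using ha)]
      rfl)
    (N : ℤ) (by exact_mod_cast Nat.pos_of_ne_zero (NeZero.ne N))
    (fun q => by
      rw [map_inv₀, AddValuation.map_inv, hσj, addVal_qExpand_jqModC,
        ← WithTop.LinearOrderedAddCommGroup.coe_neg, neg_neg])
    (fun p q hpq f => by
      rw [Quotient.eq'', MulAction.orbitRel_apply] at hpq
      obtain ⟨⟨x, hx⟩, rfl⟩ := hpq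
      obtain ⟨k, rfl⟩ := Subgroup.mem_zpowers_iff.mp hx
      show HahnSeries.addVal ℤ ℂ (σ (ModularGroup.T ^ k • q) f) = _
      rw [hσT, addVal_twistSeries])
    (fun q f m hm => by
      have h := hσT (Nat.card {p : Gamma0Coset N //
        (Quotient.mk'' p : CuspOrbit N) = Quotient.mk'' q} : ℤ) q f
      rw [T_zpow_card_fibre_smul] at h
      have := dvd_mul_of_twistSeries_eq N h.symm hm
      rwa [neg_mul, dvd_neg] at this)
  have hiff : ∀ P : Place L F, 0 < P.ord j⁻¹ ↔ P.ord j < 0 := fun P => by
    rw [Place.ord_inv]; omega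
  refine ⟨Φ.trans (Equiv.subtypeEquivRight hiff), fun o => ?_⟩
  have := hΦ o
  rw [Place.ord_inv] at this
  show (Φ o).1.ord j = _
  omega

/-- The number of places above `j = ∞` is `cuspCount N`. -/
theorem natCard_places_above_infinity [IsAlgClosed L] [CharZero L] [IsFunctionField1 L F]
    (ι : L →+* ℂ) (Λ : F →+* Mero)
    (hconst : ∀ a : L, Λ (algebraMap L F a) = algebraMap ℂ Mero (ι a))
    (hinv : ∀ γ ∈ CongruenceSubgroup.Gamma0 N, ∀ f : F, translate γ (Λ f) = Λ f)
    (S : Set F) (hgen : IntermediateField.adjoin L S = ⊤)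
    (hS : ∀ s ∈ S, ∃ (d : ℕ) (_ : NeZero d), d ∣ N ∧ Λ s = algebraMap Hol Mero (jHol d))
    (hinj : ∀ g h : SL(2, ℤ), (∀ f : F, translate g (Λ f) = translate h (Λ f)) →
      (QuotientGroup.mk g : Gamma0Coset N) = QuotientGroup.mk h)
    (j : F) (hj : Λ j = algebraMap Hol Mero (jHol 1)) (hjt : Transcendental L j)
    (hdeg : Module.finrank L⟮j⟯ F = Nat.card (Gamma0Coset N)) :
    Nat.card {P : Place L F // P.ord j < 0} = ModularCurve.cuspCount N := by
  obtain ⟨Φ, -⟩ := exists_equiv_cuspPlaces N ι Λ hconst hinv S hgen hS hinj j hj hjt hdeg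
  rw [← Nat.card_congr Φ, natCard_cuspOrbit]

end Places

end Fermat.Agent.Modular
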