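import Fermat.Agent.Modular.DiffLemmas
import Fermat.Prelude.Def_AlgebraicCurve_DivisorClassGroup
import Mathlib.RingTheory.Kaehler.Basic
import Mathlib.NumberTheory.ModularForms.SlashActions

/-!
# Regular differentials give weight two cusp forms

For a function field `F / L` with an embedding `σ : F →+* Mero` over `ι : L →+* ℂ`, the map
`r dx ↦ σ(r) σ(x)'` sends a differential, regular at every place, to a holomorphic function on `ℍ`,
`Γ₀(N)`-invariant in weight `2` and vanishing at all cusps.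
-/

set_option autoImplicit false
set_option linter.style.haveILetI false

noncomputable section

open UpperHalfPlane hiding I
open Filter KaehlerDifferential AlgebraicCurve WithZero
open scoped Manifold MatrixGroups ModularForm Topology

namespace Fermat.Agent.Modular

/-- `d / dτ` on holomorphic functions on `ℍ`. -/
def holDeriv : Derivation ℂ Hol Hol :=
  Derivation.mk'
    { toFun := fun F => ⟨fun τ => deriv ((F : ℍ → ℂ) ∘ ofComplex) τ, by
        rw [mem_hol, UpperHalfPlane.mdifferentiable_iff]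
        exact ((UpperHalfPlane.mdifferentiable_iff.mp F.2).deriv isOpen_upperHalfPlaneSet).congr
          fun z hz => by simp [ofComplex_apply_of_im_pos hz]⟩
      map_add' := fun F G => by
        ext τ
        exact deriv_add (Hol.analyticAt F τ).differentiableAt (Hol.analyticAt G τ).differentiableAt
      map_smul' := fun c F => by
        ext τ
        exact deriv_const_smul c (Hol.analyticAt F τ).differentiableAt }
    fun F G => by
      ext τ
      refine (deriv_mul (Hol.analyticAt F τ).differentiableAt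
        (Hol.analyticAt G τ).differentiableAt).trans ?_
      simp only [LinearMap.coe_mk, AddHom.coe_mk, Function.comp_apply, ofComplex_apply,
        smul_eq_mul, Subalgebra.coe_add, Subalgebra.coe_mul, Pi.add_apply, Pi.mul_apply]
      ring

@[simp]
theorem holDeriv_apply (F : Hol) (τ : ℍ) :
    (holDeriv F).1 τ = deriv ((F : ℍ → ℂ) ∘ ofComplex) τ := rfl

/-- `d / dτ` on meromorphic functions. -/
def meroDeriv (φ : Mero) : Mero := derivationFraction (A := Hol) holDeriv φ

theorem meroDeriv_algebraMap (F : Hol) :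
    meroDeriv (algebraMap Hol Mero F) = algebraMap Hol Mero (holDeriv F) :=
  derivationFraction_algebraMap _ F

theorem meroDeriv_add (φ ψ : Mero) : meroDeriv (φ + ψ) = meroDeriv φ + meroDeriv ψ :=
  derivationFraction_add _ φ ψ

theorem meroDeriv_mul (φ ψ : Mero) :
    meroDeriv (φ * ψ) = φ * meroDeriv ψ + ψ * meroDeriv φ :=
  derivationFraction_mul _ φ ψ

theorem meroDeriv_const (c : ℂ) : meroDeriv (algebraMap ℂ Mero c) = 0 := by
  rw [IsScalarTower.algebraMap_apply ℂ Hol Mero, meroDeriv_algebraMap, Derivation.map_algebraMap,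
    map_zero]

theorem meroDeriv_div (a b : Hol) (hb : b ≠ 0) :
    meroDeriv (algebraMap Hol Mero a / algebraMap Hol Mero b) =
      algebraMap Hol Mero (holDeriv a * b - a * holDeriv b) / algebraMap Hol Mero (b * b) := by
  have hb' : algebraMap Hol Mero b ≠ 0 := by simpa using hb
  rw [eq_div_iff (by simpa using hb), map_mul, ← derivationFraction_div holDeriv a b hb, meroDeriv]
  ring

theorem translate_div (g : SL(2, ℤ)) (a b : Hol) :
    translate g (algebraMap Hol Mero a / algebraMap Hol Mero b) =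
      algebraMap Hol Mero (g • a) / algebraMap Hol Mero (g • b) := by
  rw [map_div₀, translate_algebraMap, translate_algebraMap]

/-- The automorphy factor `(c τ + d)⁻²`. -/
def autFactor (g : SL(2, ℤ)) : Hol :=
  ⟨fun τ => ((denom (Matrix.SpecialLinearGroup.mapGL ℝ g : GL (Fin 2) ℝ) τ) ^ 2)⁻¹, by
    rw [mem_hol, UpperHalfPlane.mdifferentiable_iff]
    intro z hz
    have hne := denom_ne_zero (Matrix.SpecialLinearGroup.mapGL ℝ g) ⟨z, hz⟩
    refine DifferentiableWithinAt.congr ?_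
      (f := fun w => ((denom (Matrix.SpecialLinearGroup.mapGL ℝ g : GL (Fin 2) ℝ) w) ^ 2)⁻¹)
      (fun w hw => by simp [ofComplex_apply_of_im_pos hw]) (by simp [ofComplex_apply_of_im_pos hz])
    refine ((DifferentiableAt.pow ?_ 2).inv (pow_ne_zero 2 hne)).differentiableWithinAt
    exact ((differentiableAt_id.const_mul _).add_const _)⟩

theorem autFactor_apply (g : SL(2, ℤ)) (τ : ℍ) :
    (autFactor g).1 τ =
      ((denom (Matrix.SpecialLinearGroup.mapGL ℝ g : GL (Fin 2) ℝ) τ) ^ 2)⁻¹ := rfl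

/-- Chain rule. -/
theorem holDeriv_smul_inv (g : SL(2, ℤ)) (F : Hol) :
    holDeriv (g⁻¹ • F) = g⁻¹ • holDeriv F * autFactor g := by
  ext τ
  set γ : GL (Fin 2) ℝ := Matrix.SpecialLinearGroup.mapGL ℝ g
  have hγ : (γ.val.det : ℝ) = 1 := by
    rw [← Matrix.GeneralLinearGroup.val_det_apply, Matrix.SpecialLinearGroup.det_mapGL]; simp
  have hpos : 0 < γ.val.det := by rw [hγ]; exact one_pos
  have h1 := (hasStrictDerivAt_smul hpos τ).hasDerivAt
  have h2 : HasDerivAt ((F : ℍ → ℂ) ∘ ofComplex) (deriv ((F : ℍ → ℂ) ∘ ofComplex) ↑(γ • τ))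
      ((fun z : ℂ => ((γ • ofComplex z : ℍ) : ℂ)) τ) := by
    simp only [ofComplex_apply]
    exact (Hol.analyticAt F (γ • τ)).differentiableAt.hasDerivAt
  have h3 := h2.comp (τ : ℂ) h1
  have h4 : ((g⁻¹ • F : Hol).1 ∘ ofComplex : ℂ → ℂ) =
      ((F : ℍ → ℂ) ∘ ofComplex) ∘ fun z : ℂ => ((γ • ofComplex z : ℍ) : ℂ) := by
    funext z
    simp [γ]
    rfl
  simp only [holDeriv_apply, h4, h3.deriv, Subalgebra.coe_mul, Pi.mul_apply, smul_hol_apply,
    inv_inv, autFactor_apply, hγ, Complex.ofReal_one, one_div, γ]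
  rfl

/-- Chain rule on `Mero`. -/
theorem meroDeriv_translate_inv (g : SL(2, ℤ)) (φ : Mero) :
    meroDeriv (translate g⁻¹ φ) =
      translate g⁻¹ (meroDeriv φ) * algebraMap Hol Mero (autFactor g) := by
  obtain ⟨a, b, hb, rfl⟩ := IsFractionRing.div_surjective (A := Hol) φ
  have hb0 : b ≠ 0 := nonZeroDivisors.ne_zero hb
  rw [translate_div, meroDeriv_div _ _ ((smul_ne_zero_iff_ne _).mpr hb0), meroDeriv_div _ _ hb0,
    translate_div, holDeriv_smul_inv, holDeriv_smul_inv]
  simp only [smul_mul', smul_sub, map_mul, map_sub]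
  ring

/-- Weight two slash, inside `Mero`. -/
theorem slash_two_eq (g : SL(2, ℤ)) (F : Hol) :
    ((F : ℍ → ℂ) ∣[(2 : ℤ)] g) = ((g⁻¹ • F * autFactor g : Hol) : ℍ → ℂ) := by
  funext τ
  rw [ModularForm.SL_slash_apply]
  simp [autFactor_apply, zpow_neg, UpperHalfPlane.denom]

/-! ### Regularity at points and at infinity -/

theorem ordVal_le_one_iff {z : ℍ} {a b : Hol} (hb : b ≠ 0) :
    ordVal z (algebraMap Hol Mero a / algebraMap Hol Mero b) ≤ 1 ↔
      ∃ g : ℂ → ℂ, AnalyticAt ℂ g z ∧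
        (a : ℍ → ℂ) ∘ ofComplex =ᶠ[𝓝 (z : ℂ)] ((b : ℍ → ℂ) ∘ ofComplex) * g := by
  rcases eq_or_ne a 0 with rfl | ha
  · simp only [map_zero, zero_div, zero_le_one, true_iff]
    exact ⟨0, analyticAt_const, Eventually.of_forall fun w => by simp⟩
  rw [map_div₀, ordVal_algebraMap, ordVal_algebraMap, holVal_apply ha, holVal_apply hb, ← exp_sub,
    ← exp_zero, exp_le_exp]
  have hA := Hol.analyticAt a z
  have hB := Hol.analyticAt b z
  constructor
  · intro h
    obtain ⟨k, hk⟩ : ∃ k, holOrd z a = holOrd z b + k := Nat.exists_eq_add_of_le (by omega)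
    obtain ⟨g₁, hg₁, hg₁0, e₁⟩ := hB.analyticOrderAt_eq_natCast.mp (analyticOrderAt_hol hb)
    obtain ⟨g₂, hg₂, -, e₂⟩ := hA.analyticOrderAt_eq_natCast.mp (analyticOrderAt_hol ha)
    refine ⟨fun w => (w - z) ^ k * (g₂ w / g₁ w),
      ((analyticAt_id.sub analyticAt_const).pow k).mul (hg₂.div hg₁ hg₁0), ?_⟩
    filter_upwards [e₁, e₂, hg₁.continuousAt.eventually_ne hg₁0] with w h₁ h₂ h₃
    simp only [Pi.mul_apply, h₁, h₂, hk, smul_eq_mul, pow_add]
    field_simp
  · rintro ⟨g, hg, he⟩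
    have h1 := analyticOrderAt_congr he
    rw [analyticOrderAt_mul hB hg, analyticOrderAt_hol ha, analyticOrderAt_hol hb] at h1
    have : (holOrd z b : ℕ∞) ≤ holOrd z a := h1 ▸ le_self_add
    rw [Nat.cast_le] at this
    omega

theorem ordVal_meroDeriv_le_one {z : ℍ} {φ : Mero} (h : ordVal z φ ≤ 1) :
    ordVal z (meroDeriv φ) ≤ 1 := by
  obtain ⟨a, b, hb, rfl⟩ := IsFractionRing.div_surjective (A := Hol) φ
  have hb0 : b ≠ 0 := nonZeroDivisors.ne_zero hb
  obtain ⟨g, hg, he⟩ := (ordVal_le_one_iff hb0).mp h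
  rw [meroDeriv_div _ _ hb0, ordVal_le_one_iff (mul_ne_zero hb0 hb0)]
  refine ⟨deriv g, hg.deriv, ?_⟩
  filter_upwards [he, eventually_eventually_nhds.mpr he, hg.eventually_analyticAt,
    isOpen_upperHalfPlaneSet.mem_nhds z.im_pos] with w hw hw' hgw him
  have hB : DifferentiableAt ℂ ((b : ℍ → ℂ) ∘ ofComplex) w :=
    ((Hol.analyticAt b ⟨w, him⟩)).differentiableAt
  have hd : deriv ((a : ℍ → ℂ) ∘ ofComplex) w = deriv (((b : ℍ → ℂ) ∘ ofComplex) * g) w :=
    Filter.EventuallyEq.deriv_eq hw'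
  rw [deriv_mul hB hgw.differentiableAt] at hd
  simp only [Function.comp_apply, Pi.mul_apply, ofComplex_apply_of_im_pos him,
    Subalgebra.coe_sub, Subalgebra.coe_mul, Pi.sub_apply, holDeriv_apply] at hw hd ⊢
  rw [hd, hw]
  ring

theorem exists_algebraMap_eq_of_forall_ordVal_le_one {φ : Mero} (h : ∀ z, ordVal z φ ≤ 1) :
    ∃ F : Hol, algebraMap Hol Mero F = φ := by
  obtain ⟨a, b, hb, rfl⟩ := IsFractionRing.div_surjective (A := Hol) φ
  have hb0 : b ≠ 0 := nonZeroDivisors.ne_zero hb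
  obtain ⟨f, hf, hfab⟩ := exists_mdiff_mul_eq b.2 (fun e => hb0 (Subtype.ext e))
    (fun z => (ordVal_le_one_iff hb0).mp (h z))
  refine ⟨⟨f, hf⟩, ?_⟩
  rw [eq_div_iff (by simpa using hb0), ← map_mul]
  congr 1
  ext τ
  simp [hfab τ, mul_comm]

/-- A meromorphic function has a finite limit at `i∞`. -/
def HasLimitAtInfty (φ : Mero) : Prop :=
  ∃ a b : Hol, (∀ᶠ τ in atImInfty, b.1 τ ≠ 0) ∧
    φ * algebraMap Hol Mero b = algebraMap Hol Mero a ∧
    ∃ l : ℂ, Tendsto (fun τ => a.1 τ / b.1 τ) atImInfty (𝓝 l)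

theorem isZeroAtImInfty_of_mul_meroDeriv {u : Hol} {φ ψ : Mero} (hφ : HasLimitAtInfty φ)
    (hψ : HasLimitAtInfty ψ) (h : algebraMap Hol Mero u = φ * meroDeriv ψ) :
    IsZeroAtImInfty (u : ℍ → ℂ) := by
  obtain ⟨p, r, hr, hφe, L, hL⟩ := hφ
  obtain ⟨c, d, hd, hψe, M, hM⟩ := hψ
  have h2 := congrArg meroDeriv hψe
  rw [meroDeriv_mul, meroDeriv_algebraMap, meroDeriv_algebraMap] at h2
  have h3 : u * r * (d * d) = p * (holDeriv c * d - c * holDeriv d) := by
    apply IsFractionRing.injective Hol Mero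
    simp only [map_mul, map_sub]
    linear_combination algebraMap Hol Mero r * algebraMap Hol Mero d * algebraMap Hol Mero d * h
      + meroDeriv ψ * algebraMap Hol Mero d * algebraMap Hol Mero d * hφe
      + algebraMap Hol Mero p * algebraMap Hol Mero d * h2
      - algebraMap Hol Mero p * algebraMap Hol Mero (holDeriv d) * hψe
  refine isZeroAtImInfty_of_eq_mul_deriv c.2 d.2 hr hd hL hM fun τ => ?_
  have h4 := congrArg (fun F : Hol => F.1 τ) h3
  simp only [Subalgebra.coe_mul, Subalgebra.coe_sub, Pi.mul_apply, Pi.sub_apply,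
    holDeriv_apply] at h4
  linear_combination h4

/-! ### Places from valuations -/

section Place

variable {L F : Type*} [Field L] [Field F] [Algebra L F]

theorem exists_place_of_valuation (v : Valuation F ℤᵐ⁰) (htriv : ∀ c : L, v (algebraMap L F c) ≤ 1)
    (hnt : ∃ x, 1 < v x) :
    ∃ P : Place L F, ∀ x, x ∈ P.toValuationSubring ↔ v x ≤ 1 := by
  refine ⟨⟨v.valuationSubring, htriv, ?_, ?_⟩, fun x => v.mem_valuationSubring_iff x⟩
  · intro htop
    obtain ⟨x, hx⟩ := hnt
    exact not_le.mpr hx ((v.mem_valuationSubring_iff x).mp (htop ▸ ValuationSubring.mem_top x))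
  · refine ⟨fun I => ?_⟩
    by_cases hI : I = ⊥
    · subst hI; exact bot_isPrincipal
    classical
    obtain ⟨y, hy, hy0⟩ := Submodule.exists_mem_ne_zero_of_ne_bot hI
    let P : ℕ → Prop := fun n => ∃ x ∈ I, (x : F) ≠ 0 ∧ v (x : F) = exp (-(n : ℤ))
    have hmem : ∀ x : v.valuationSubring, (x : F) ≠ 0 → ∃ n : ℕ, v (x : F) = exp (-(n : ℤ)) := by
      intro x hx
      have h1 : v (x : F) ≠ 0 := v.ne_zero_iff.mpr hx
      have h2 : v (x : F) ≤ 1 := (v.mem_valuationSubring_iff _).mp x.2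
      rw [← exp_log h1, ← exp_zero, exp_le_exp] at h2
      exact ⟨(-(log (v (x : F)))).toNat, by
        conv_lhs => rw [← exp_log h1]
        congr 1; omega⟩
    have hy0' : (y : F) ≠ 0 := by simpa using hy0
    have hex : ∃ n, P n := ⟨_, y, hy, hy0', (hmem y hy0').choose_spec⟩
    obtain ⟨g, hg, hg0, hgv⟩ := Nat.find_spec hex
    refine ⟨g, le_antisymm (fun x hx => ?_) ((Submodule.span_singleton_le_iff_mem _ _).mpr hg)⟩
    rw [Submodule.mem_span_singleton]
    by_cases hx0 : (x : F) = 0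
    · exact ⟨0, by simp [ZeroMemClass.coe_eq_zero.mp hx0]⟩
    obtain ⟨m, hm⟩ := hmem x hx0
    have hle : Nat.find hex ≤ m := Nat.find_min' hex ⟨x, hx, hx0, hm⟩
    refine ⟨⟨(x : F) / g, ?_⟩, ?_⟩
    · rw [v.mem_valuationSubring_iff, map_div₀, hm, hgv, ← exp_sub, ← exp_zero, exp_le_exp]
      omega
    · apply Subtype.ext
      simp [smul_eq_mul, div_mul_cancel₀ _ hg0]

/-- A differential which is regular at the place `P`. -/
def IsRegularAt (P : Place L F) (ω : Ω[F⁄L]) : Prop :=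
  ∃ f t : F, f ∈ P.toValuationSubring ∧ t ∈ P.toValuationSubring ∧ ω = f • D L F t

theorem exists_smul_D_of_valuation {ω : Ω[F⁄L]} (hω : ∀ P : Place L F, IsRegularAt P ω)
    (hall : ∃ f t : F, ω = f • D L F t)
    (v : Valuation F ℤᵐ⁰) (htriv : ∀ c : L, v (algebraMap L F c) ≤ 1) :
    ∃ f t : F, v f ≤ 1 ∧ v t ≤ 1 ∧ ω = f • D L F t := by
  by_cases hnt : ∃ x, 1 < v x
  · obtain ⟨P, hP⟩ := exists_place_of_valuation v htriv hnt
    obtain ⟨f, t, hf, ht, he⟩ := hω P
    exact ⟨f, t, (hP f).mp hf, (hP t).mp ht, he⟩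
  · push Not at hnt
    obtain ⟨f, t, he⟩ := hall
    exact ⟨f, t, hnt f, hnt t, he⟩

end Place

/-! ### The map on differentials -/

section Map

variable {L F : Type*} [Field L] [Field F] [Algebra L F]
variable (ι : L →+* ℂ) (σ : F →+* Mero)

/-- `σ` is a homomorphism over `ι`. -/
def IsOver : Prop := ∀ c : L, σ (algebraMap L F c) = algebraMap ℂ Mero (ι c)

variable {ι σ}

theorem IsOver.translate_comp (h : IsOver ι σ) (g : SL(2, ℤ)) :
    IsOver ι ((translate g : Mero ≃+* Mero).toRingHom.comp σ) := fun c => by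
  simp [h c]

theorem exists_diffMap (h : IsOver ι σ) :
    ∃ Ψ : Ω[F⁄L] →+ Mero,
      ∀ r x : F, Ψ (r • D L F x) = σ r * meroDeriv (σ x) := by
  letI : Algebra F Mero := σ.toAlgebra
  letI : Algebra L Mero := (σ.comp (algebraMap L F)).toAlgebra
  haveI : IsScalarTower L F Mero := IsScalarTower.of_algebraMap_eq fun _ => rfl
  let d : Derivation L F Mero := Derivation.mk'
    { toFun := fun x => meroDeriv (σ x)
      map_add' := fun x y => by rw [map_add, meroDeriv_add]
      map_smul' := fun c x => by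
        rw [Algebra.smul_def, RingHom.id_apply, Algebra.smul_def, map_mul, meroDeriv_mul, h c,
          meroDeriv_const, mul_zero, add_zero, ← h c]
        rfl }
    (fun a b => by
      simp only [LinearMap.coe_mk, AddHom.coe_mk, map_mul, meroDeriv_mul, Algebra.smul_def]
      rfl)
  refine ⟨d.liftKaehlerDifferential.toAddMonoidHom, fun r x => ?_⟩
  show d.liftKaehlerDifferential (r • D L F x) = _
  rw [map_smul, Derivation.liftKaehlerDifferential_comp_D, Algebra.smul_def]
  rfl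

/-- `r dx ↦ σ(r) σ(x)'`. -/
def diffMap (h : IsOver ι σ) : Ω[F⁄L] →+ Mero := (exists_diffMap h).choose

theorem diffMap_smul_D (h : IsOver ι σ) (r x : F) :
    diffMap h (r • D L F x) = σ r * meroDeriv (σ x) :=
  (exists_diffMap h).choose_spec r x

theorem ordVal_diffMap_le_one (h : IsOver ι σ) {ω : Ω[F⁄L]}
    (hω : ∀ P : Place L F, IsRegularAt P ω) (hall : ∃ f t : F, ω = f • D L F t) (z : ℍ) :
    ordVal z (diffMap h ω) ≤ 1 := by
  have htriv : ∀ c : L, ((ordVal z).comap σ) (algebraMap L F c) ≤ 1 := by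
    intro c
    rw [Valuation.comap_apply, h c, IsScalarTower.algebraMap_apply ℂ Hol Mero, ordVal_algebraMap]
    rcases eq_or_ne (algebraMap ℂ Hol (ι c)) 0 with h0 | h0
    · simp [h0]
    · rw [holVal_apply h0, ← exp_zero, exp_le_exp]; omega
  obtain ⟨f, t, hf, ht, rfl⟩ := exists_smul_D_of_valuation hω hall ((ordVal z).comap σ) htriv
  rw [diffMap_smul_D, map_mul]
  exact mul_le_one' hf (ordVal_meroDeriv_le_one ht)

theorem exists_hol_eq_diffMap (h : IsOver ι σ) {ω : Ω[F⁄L]}
    (hω : ∀ P : Place L F, IsRegularAt P ω) (hall : ∃ f t : F, ω = f • D L F t) :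
    ∃ u : Hol, algebraMap Hol Mero u = diffMap h ω :=
  exists_algebraMap_eq_of_forall_ordVal_le_one (ordVal_diffMap_le_one h hω hall)

/-- The translate of `σ` to the cusp `g • ∞`. -/
abbrev cuspHom (σ : F →+* Mero) (g : SL(2, ℤ)) : F →+* Mero :=
  (translate g⁻¹ : Mero ≃+* Mero).toRingHom.comp σ

/-- Every valuation-integral element has a finite limit at the cusp `g • ∞`, for some discrete
valuation of `F`, trivial on `L`. -/
def HasCuspValuations (L : Type*) {F : Type*} [Field L] [Field F] [Algebra L F]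
    (σ : F →+* Mero) : Prop :=
  ∀ g : SL(2, ℤ), ∃ v : Valuation F ℤᵐ⁰, (∀ c : L, v (algebraMap L F c) ≤ 1) ∧
    ∀ x, v x ≤ 1 → HasLimitAtInfty (cuspHom σ g x)

theorem slash_diffMap (h : IsOver ι σ) {u : Hol} {f t : F}
    (hu : algebraMap Hol Mero u = diffMap h (f • D L F t)) (g : SL(2, ℤ)) :
    algebraMap Hol Mero (g⁻¹ • u * autFactor g) =
      cuspHom σ g f * meroDeriv (cuspHom σ g t) := by
  rw [map_mul, ← translate_algebraMap, hu, diffMap_smul_D, map_mul]
  show _ = translate g⁻¹ (σ f) * meroDeriv (translate g⁻¹ (σ t))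
  rw [meroDeriv_translate_inv]
  ring

theorem exists_cuspForm_eq_diffMap (N : ℕ) [NeZero N] (h : IsOver ι σ)
    (hinv : ∀ g ∈ CongruenceSubgroup.Gamma0 N, ∀ x, translate g (σ x) = σ x)
    (hcusp : HasCuspValuations L σ) {ω : Ω[F⁄L]}
    (hω : ∀ P : Place L F, IsRegularAt P ω) (hall : ∃ f t : F, ω = f • D L F t) :
    ∃ (f : CuspForm (CongruenceSubgroup.Gamma0 N) 2) (u : Hol),
      (f : ℍ → ℂ) = (u : ℍ → ℂ) ∧ algebraMap Hol Mero u = diffMap h ω := by
  obtain ⟨u, hu⟩ := exists_hol_eq_diffMap h hω hall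
  refine ⟨cuspFormOfForall N 2 u.1 u.2 ?_ ?_, u, rfl, hu⟩
  · intro g hg
    obtain ⟨f, t, rfl⟩ := hall
    have h1 := slash_diffMap h hu g
    have hfix : ∀ x, cuspHom σ g x = σ x := fun x => hinv _ (inv_mem hg) x
    rw [hfix, hfix, ← diffMap_smul_D h, ← hu] at h1
    rw [slash_two_eq, IsFractionRing.injective Hol Mero h1]
  · intro g
    obtain ⟨v, hv, hlim⟩ := hcusp g
    obtain ⟨f, t, hf, ht, rfl⟩ := exists_smul_D_of_valuation hω hall v hv
    rw [slash_two_eq]
    exact isZeroAtImInfty_of_mul_meroDeriv (hlim f hf) (hlim t ht) (slash_diffMap h hu g)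

/-- Independent regular differentials give independent cusp forms. -/
theorem exists_linearIndependent_cuspForms (N : ℕ) [NeZero N] (h : IsOver ι σ)
    (hinv : ∀ g ∈ CongruenceSubgroup.Gamma0 N, ∀ x, translate g (σ x) = σ x)
    (hcusp : HasCuspValuations L σ)
    (hind : ∀ (n : ℕ) (r : Fin n → F), LinearIndependent L r →
      LinearIndependent ℂ fun i => σ (r i))
    {η : Ω[F⁄L]} (hη : ∀ ω : Ω[F⁄L], ∃ r : F, ω = r • η)
    (hnc : ∃ x, meroDeriv (σ x) ≠ 0) (hall : ∀ ω : Ω[F⁄L], ∃ f t : F, ω = f • D L F t)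
    {n : ℕ} (ω : Fin n → Ω[F⁄L]) (hli : LinearIndependent L ω)
    (hω : ∀ i P, IsRegularAt P (ω i)) :
    ∃ f : Fin n → CuspForm (CongruenceSubgroup.Gamma0 N) 2, LinearIndependent ℂ f := by
  choose f u hfu hu using fun i => exists_cuspForm_eq_diffMap N h hinv hcusp (hω i) (hall _)
  refine ⟨f, ?_⟩
  choose r hr using fun i => hη (ω i)
  have hsm : ∀ (c : F) (ξ : Ω[F⁄L]), diffMap h (c • ξ) = σ c * diffMap h ξ := by
    intro c ξ
    obtain ⟨a, b, rfl⟩ := hall ξ
    rw [smul_smul, diffMap_smul_D, diffMap_smul_D, map_mul, mul_assoc]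
  have hη0 : diffMap h η ≠ 0 := by
    intro h0
    obtain ⟨x, hx⟩ := hnc
    obtain ⟨c, hc⟩ := hη (D L F x)
    apply hx
    have h1 := diffMap_smul_D h 1 x
    rw [one_smul, map_one, one_mul, hc, hsm, h0, mul_zero] at h1
    exact h1.symm
  have hr' : LinearIndependent L r := by
    rw [Fintype.linearIndependent_iff] at hli ⊢
    intro c hc i
    refine hli c ?_ i
    simp only [hr, ← smul_assoc, ← Finset.sum_smul, hc, zero_smul]
  have hσr := hind n r hr'
  rw [Fintype.linearIndependent_iff] at hσr ⊢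
  intro c hc i
  refine hσr c ?_ i
  have hval : ∑ j, c j • u j = 0 := by
    ext τ
    have := congrArg (fun g : CuspForm (CongruenceSubgroup.Gamma0 N) 2 => (g : ℍ → ℂ) τ) hc
    simpa [← hfu] using this
  have h2 := congrArg (algebraMap Hol Mero) hval
  simp only [map_sum, map_zero, Algebra.smul_def, map_mul, hu, hr, hsm,
    ← IsScalarTower.algebraMap_apply ℂ Hol Mero, ← mul_assoc, ← Finset.sum_mul] at h2
  simpa [Algebra.smul_def] using (mul_eq_zero.mp h2).resolve_right hη0

end Map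

end Fermat.Agent.Modular
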