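/-
The cusps of the function field `FL N L`: places above `j = ∞`, and valuations at the cusps.
-/
import Fermat.Agent.Modular.CuspPlaces
import Fermat.Agent.Modular.DiffToForms

set_option autoImplicit false

noncomputable section

open scoped MatrixGroups UpperHalfPlane IntermediateField
open AlgebraicCurve Fermat.Agent.Curve ModularCurve Filter
open scoped Topology WithZero

namespace Fermat.Agent.Modular

variable (N : ℕ) [NeZero N] (L : Type*) [Field L] [Algebra ℚ L]

/-- The generators `j(q^d)` of `FL N L`. -/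
def jdGens : Set (FL N L) := {x | ∃ (d : ℕ) (_ : NeZero d) (hd : d ∣ N), x = jdL N L hd}

omit [NeZero N] in
theorem adjoin_jdGens : IntermediateField.adjoin L (jdGens N L) = ⊤ := by
  apply IntermediateField.map_injective (FL N L).val
  rw [← AlgHom.fieldRange_eq_map, IntermediateField.fieldRange_val, IntermediateField.adjoin_map]
  refine le_antisymm (IntermediateField.adjoin_le_iff.mpr ?_) (IntermediateField.adjoin_le_iff.mpr ?_)
  · rintro x ⟨y, -, rfl⟩
    exact y.2
  · rintro x ⟨z, hz, rfl⟩
    induction hz using IntermediateField.adjoin_induction with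
    | mem w hw =>
      obtain ⟨d, hd0, hd, rfl⟩ := hw
      exact IntermediateField.subset_adjoin _ _ ⟨jdL N L hd, ⟨d, hd0, hd, rfl⟩, rfl⟩
    | algebraMap c =>
      have h : coeffEmb L (algebraMap ℚ (LaurentSeries ℚ) c) =
          algebraMap L (LaurentSeries L) (algebraMap ℚ L c) := by
        rw [algebraMap_laurentSeries_eq_single, algebraMap_laurentSeries_eq_single, coeffEmb,
          coeffMap_single]
      rw [h]
      exact IntermediateField.algebraMap_mem _ _
    | add x y _ _ hx hy => rw [map_add]; exact add_mem hx hy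
    | inv x _ hx => rw [map_inv₀]; exact inv_mem hx
    | mul x y _ _ hx hy => rw [map_mul]; exact mul_mem hx hy

variable {L} (ι : L →+* ℂ)

/-- The identity embedding of `FL N L` into `Mero`. -/
abbrev evalFL : FL N L →+* Mero := (evalMero N).toRingHom.comp (toFC N ι)

theorem evalFL_algebraMap (a : L) :
    evalFL N ι (algebraMap L (FL N L) a) = algebraMap ℂ Mero (ι a) := by
  show evalMero N (toFC N ι _) = _
  rw [toFC_algebraMap, AlgHom.commutes]

theorem evalFL_jdGens {s : FL N L} (hs : s ∈ jdGens N L) :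
    ∃ (d : ℕ) (_ : NeZero d), d ∣ N ∧ evalFL N ι s = algebraMap Hol Mero (jHol d) := by
  obtain ⟨d, hd0, hd, rfl⟩ := hs
  refine ⟨d, hd0, hd, ?_⟩
  show evalMero N (toFC N ι _) = _
  rw [toFC_jdL, evalMero_jdC]

theorem evalFL_jL : evalFL N ι (jL N L) = algebraMap Hol Mero (jHol 1) := by
  show evalMero N (toFC N ι _) = _
  rw [toFC_jL, evalMero_jdC]

/-- The places of `FL N L` above `j = ∞` are `cuspCount N` in number. -/
theorem natCard_places_infinity_FL [IsAlgClosed L] [IsFunctionField1 L (FL N L)]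
    (hinj : Function.Injective (sigmaCoset N ι)) (hjt : Transcendental L (jL N L))
    (hdeg : Module.finrank L⟮jL N L⟯ (FL N L) =
      Nat.card (SL(2, ℤ) ⧸ CongruenceSubgroup.Gamma0 N)) :
    Nat.card {P : Place L (FL N L) // P.ord (jL N L) < 0} = cuspCount N := by
  have : CharZero L := charZero_of_injective_algebraMap (algebraMap ℚ L).injective
  refine natCard_places_above_infinity N ι (evalFL N ι) (evalFL_algebraMap N ι)
    (fun γ hγ f => translate_evalMero N hγ _) _ (adjoin_jdGens N L)
    (fun s hs => evalFL_jdGens N ι hs) ?_ _ (evalFL_jL N ι) hjt hdeg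
  intro g h he
  exact hinj (RingHom.ext fun f => he f)

theorem hasLimitAtInfty_of_series {φ : Mero} {a b : HolExp N} {x : LaurentSeries ℂ} (hb : b ≠ 0)
    (hφ : φ * algebraMap Hol Mero (b : Hol) = algebraMap Hol Mero (a : Hol))
    (hx : x * qSeries N b = qSeries N a) (hx0 : ∀ n < 0, x.coeff n = 0) :
    HasLimitAtInfty φ := by
  have hy : qSeries N b ≠ 0 := fun h => hb (qSeries_injective N (h.trans (map_zero _).symm))
  set m := (qSeries N b).order
  have hN := natCast_real_pos N
  have hb' := (hasQExp_qSeries N b).tendsto hN (m := m)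
    fun n hn => HahnSeries.coeff_eq_zero_of_lt_order hn
  have hc : (qSeries N b).coeff m ≠ 0 := HahnSeries.coeff_order_eq_zero.not.mpr hy
  have ha' := (hasQExp_qSeries N a).tendsto hN (m := m) (fun n hn => by
    rw [← hx]
    by_contra hne
    have hne' : x * qSeries N b ≠ 0 := fun h => hne (by rw [h]; rfl)
    have hx' : x ≠ 0 := left_ne_zero_of_mul hne'
    have h1 : (x * qSeries N b).order ≤ n := HahnSeries.order_le_of_coeff_ne_zero hne
    rw [HahnSeries.order_mul hx' hy] at h1
    have h2 : 0 ≤ x.order := by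
      by_contra h
      exact HahnSeries.coeff_order_eq_zero.not.mpr hx' (hx0 _ (not_le.mp h))
    omega)
  refine ⟨a, b, ?_, hφ, _, (ha'.div hb' hc).congr' ?_⟩
  · filter_upwards [hb'.eventually_ne hc] with τ hτ
    exact left_ne_zero_of_mul hτ
  · filter_upwards with τ
    have hq : Function.Periodic.qParam (N : ℝ) (τ : ℂ) ^ m ≠ 0 :=
      zpow_ne_zero _ (Function.Periodic.qParam_ne_zero _)
    rw [Pi.div_apply, mul_div_mul_right _ _ (inv_ne_zero hq)]

/-- Evaluations whose generators go to `j(d τ)` have valuations at all cusps. -/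
theorem hasCuspValuations_of_gens {L' F : Type*} [Field L'] [Field F] [Algebra L' F]
    (ι' : L' →+* ℂ) (Λ : F →+* Mero)
    (hconst : ∀ a : L', Λ (algebraMap L' F a) = algebraMap ℂ Mero (ι' a))
    (hinv : ∀ γ ∈ CongruenceSubgroup.Gamma0 N, ∀ f : F, translate γ (Λ f) = Λ f)
    (S : Set F) (hgen : IntermediateField.adjoin L' S = ⊤)
    (hS : ∀ s ∈ S, ∃ (d : ℕ) (_ : NeZero d), d ∣ N ∧ Λ s = algebraMap Hol Mero (jHol d)) :
    HasCuspValuations L' Λ := by
  obtain ⟨σ, -, hfrac, hσ, -⟩ := exists_cusp_embeddings N ι' Λ hconst hinv S hgen hS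
  intro g
  let v : Valuation F ℤᵐ⁰ :=
    (Valued.v : Valuation (LaurentSeries ℂ) ℤᵐ⁰).comap (σ (QuotientGroup.mk g⁻¹))
  have hle : ∀ y : LaurentSeries ℂ, Valued.v y ≤ (1 : ℤᵐ⁰) ↔ ∀ n : ℤ, n < 0 → y.coeff n = 0 := by
    intro y
    have h := LaurentSeries.valuation_le_iff_coeff_lt_eq_zero ℂ (D := 0) (f := y)
    simpa using h
  refine ⟨v, fun c => ?_, fun x hx => ?_⟩
  · rw [Valuation.comap_apply, hσ g⁻¹ _ _ ((HolExp N).algebraMap_mem (ι' c))
      (by rw [hconst, translate_const, IsScalarTower.algebraMap_apply ℂ Hol Mero]), hle]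
    intro n hn
    rw [show qSeries N ⟨algebraMap ℂ Hol (ι' c), _⟩ = algebraMap ℂ (LaurentSeries ℂ) (ι' c) from
      (qSeries N).commutes (ι' c), algebraMap_laurentSeries_eq_single,
      HahnSeries.coeff_single_of_ne hn.ne]
  · obtain ⟨a, b, hb, hφ, hs⟩ := hfrac g⁻¹ x
    exact hasLimitAtInfty_of_series N hb hφ hs ((hle _).mp hx)

theorem hasCuspValuations_evalFL : HasCuspValuations L (evalFL N ι) :=
  hasCuspValuations_of_gens N ι (evalFL N ι) (evalFL_algebraMap N ι)
    (fun γ hγ f => translate_evalMero N hγ _) _ (adjoin_jdGens N L)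
    (fun _ hs => evalFL_jdGens N ι hs)

end Fermat.Agent.Modular
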