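import Fermat.Agent.Curve.Duality
import Mathlib.FieldTheory.Separable

/-!
# The genus from the fibres of a function

For `x` in a function field `F` over an algebraically closed field of characteristic zero, with
`n = [F : K⟮x⟯]`, the divisor of `dx` gives
`2g - 2 = ∑_{c ∈ B} (n - #{x = c}) - n - #{poles of x}`,
where `B` contains every `c` whose fibre has fewer than `n` points.
-/

set_option autoImplicit false
set_option linter.unusedSectionVars false

noncomputable section

open IntermediateField AlgebraicCurve KaehlerDifferential Fermat.Agent.Curve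

namespace Fermat.Agent.Modular

variable {K F : Type*} [Field K] [Field F] [Algebra K F] [IsFunctionField1 K F] [IsAlgClosed K]

theorem sum_poles_ord {x : F} (hx : Transcendental K x) :
    ∑ P ∈ (poleDivisor (K := K) x).support, P.ord x = -(Module.finrank K⟮x⟯ F : ℤ) := by
  have h := degree_poleDivisor hx
  rw [Divisor.degree, Finsupp.liftAddHom_apply, Finsupp.sum] at h
  rw [← h, ← Finset.sum_neg_distrib]
  refine Finset.sum_congr rfl fun P hP => ?_
  rw [Finsupp.mem_support_iff, poleDivisor_apply] at hP
  simp only [AddMonoidHom.coe_mulRight, deg_eq_one, Nat.cast_one, mul_one, poleDivisor_apply]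
  omega

theorem mem_support_poleDivisor {x : F} {P : Place K F} :
    P ∈ (poleDivisor (K := K) x).support ↔ P.ord x < 0 := by
  rw [Finsupp.mem_support_iff, poleDivisor_apply]
  omega

theorem transcendental_sub_algebraMap {x : F} (hx : Transcendental K x) (c : K) :
    Transcendental K (x - algebraMap K F c) := fun h =>
  hx (by simpa using h.add (isAlgebraic_algebraMap c))

theorem adjoin_sub_algebraMap_inv (x : F) (c : K) :
    K⟮(x - algebraMap K F c)⁻¹⟯ = K⟮x⟯ := by
  refine le_antisymm ?_ ?_ <;> rw [adjoin_simple_le_iff]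
  · exact inv_mem (sub_mem (mem_adjoin_simple_self K x) (IntermediateField.algebraMap_mem _ c))
  · simpa using add_mem (inv_mem (mem_adjoin_simple_self K (x - algebraMap K F c)⁻¹))
      (IntermediateField.algebraMap_mem _ c)

/-- The fibre of `x` over `c`, as a finite set. -/
def fibreFinset (x : F) (c : K) : Finset (Place K F) :=
  (poleDivisor (K := K) (x - algebraMap K F c)⁻¹).support

theorem mem_fibreFinset {x : F} {c : K} {P : Place K F} :
    P ∈ fibreFinset x c ↔ 0 < P.ord (x - algebraMap K F c) := by
  rw [fibreFinset, mem_support_poleDivisor, Place.ord_inv]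
  omega

theorem sum_fibre_ord {x : F} (hx : Transcendental K x) (c : K) :
    ∑ P ∈ fibreFinset x c, P.ord (x - algebraMap K F c) = (Module.finrank K⟮x⟯ F : ℤ) := by
  have hi : Transcendental K (x - algebraMap K F c)⁻¹ := fun h =>
    transcendental_sub_algebraMap hx c (by simpa using h.inv)
  have h := sum_poles_ord hi
  rw [adjoin_sub_algebraMap_inv] at h
  simp only [Place.ord_inv, Finset.sum_neg_distrib, neg_inj] at h
  exact h

theorem card_fibreFinset (x : F) (c : K) :
    (fibreFinset x c).card = Nat.card {P : Place K F // 0 < P.ord (x - algebraMap K F c)} := by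
  classical
  rw [← Nat.card_eq_finsetCard]
  exact Nat.card_congr (Equiv.subtypeEquivRight fun P => mem_fibreFinset)

theorem exists_fibre_of_ord_nonneg {x : F} (hx : Transcendental K x) {P : Place K F}
    (hP : 0 ≤ P.ord x) : ∃ c : K, 0 < P.ord (x - algebraMap K F c) := by
  obtain ⟨c, hc | hc⟩ := exists_sub_algebraMap_ord_pos P (mem_of_ord_nonneg P hP)
  · exact absurd hc (fun h => transcendental_sub_algebraMap hx c (h ▸ isAlgebraic_zero))
  · exact ⟨c, hc⟩

theorem fibre_unique {x : F} {P : Place K F} {c c' : K}
    (h : 0 < P.ord (x - algebraMap K F c)) (h' : 0 < P.ord (x - algebraMap K F c')) : c = c' := by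
  by_contra hne
  have hd : algebraMap K F (c' - c) = (x - algebraMap K F c) - (x - algebraMap K F c') := by
    rw [map_sub]; ring
  have h0 : P.ord (algebraMap K F (c' - c)) = 0 := ord_algebraMap P _
  have hne' : algebraMap K F (c' - c) ≠ 0 := by simpa [sub_eq_zero] using Ne.symm hne
  have h1 : OrdGE P 1 (x - algebraMap K F c) := (ordGE_iff P).mpr (Or.inr (by omega))
  have h2 : OrdGE P 1 (x - algebraMap K F c') := (ordGE_iff P).mpr (Or.inr (by omega))
  have h3 : OrdGE P 1 (algebraMap K F (c' - c)) := by
    rw [hd]
    exact (Valuation.map_sub _ _ _).trans (max_le h1 h2)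
  rcases (ordGE_iff P).mp h3 with h4 | h4
  · exact hne' h4
  · omega

variable [CharZero K]

theorem D_ne_zero_of_transcendental {x : F} (hx : Transcendental K x) : D K F x ≠ 0 := by
  have : CharZero F := charZero_of_injective_algebraMap (algebraMap K F).injective
  have := finiteDimensional_adjoin hx
  exact D_ne_zero_of_isSeparable hx

theorem ordDifferential_D_of_pole {x : F} {P : Place K F} (hP : P.ord x < 0) :
    P.ordDifferential (D K F x) = P.ord x - 1 :=
  ordDifferential_D_of_ne_zero P (by simpa using hP.ne)

theorem ordDifferential_D_of_fibre {x : F} {c : K} {P : Place K F}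
    (hP : 0 < P.ord (x - algebraMap K F c)) :
    P.ordDifferential (D K F x) = P.ord (x - algebraMap K F c) - 1 := by
  have hD : D K F x = D K F (x - algebraMap K F c) := by simp
  rw [hD]
  exact ordDifferential_D_of_ne_zero P (by simpa using hP.ne')

/-- The genus from the fibres of `x`. -/
theorem two_mul_genusFF_sub_two_of_fibres {x : F} (hx : Transcendental K x) (B : Finset K)
    (hB : ∀ c ∉ B, Nat.card {P : Place K F // 0 < P.ord (x - algebraMap K F c)}
      = Module.finrank K⟮x⟯ F) :
    2 * (genusFF K F : ℤ) - 2 =
      ∑ c ∈ B, ((Module.finrank K⟮x⟯ F : ℤ)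
          - Nat.card {P : Place K F // 0 < P.ord (x - algebraMap K F c)})
        - Module.finrank K⟮x⟯ F - Nat.card {P : Place K F // P.ord x < 0} := by
  classical
  have hω := D_ne_zero_of_transcendental hx
  set n : ℤ := (Module.finrank K⟮x⟯ F : ℤ) with hn
  rw [← degree_canonicalDivisorOf hω]
  set W := canonicalDivisorOf hω with hW
  have hWv : ∀ P, W P = P.ordDifferential (D K F x) := canonicalDivisorOf_apply hω
  -- outside `B` every point of the fibre is simple
  have hsimple : ∀ c ∉ B, ∀ P : Place K F, 0 < P.ord (x - algebraMap K F c) →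
      P.ord (x - algebraMap K F c) = 1 := by
    intro c hc P hP
    have hcard : ((fibreFinset x c).card : ℤ) = n := by
      rw [card_fibreFinset, hB c hc]
    have hsum := sum_fibre_ord hx c
    have hle : ∀ Q ∈ fibreFinset x c, (1 : ℤ) ≤ Q.ord (x - algebraMap K F c) :=
      fun Q hQ => mem_fibreFinset.mp hQ
    have heq : ∑ Q ∈ fibreFinset x c, (1 : ℤ)
        = ∑ Q ∈ fibreFinset x c, Q.ord (x - algebraMap K F c) := by
      rw [hsum, Finset.sum_const, nsmul_one, hcard]
    exact ((Finset.sum_eq_sum_iff_of_le hle).mp heq P (mem_fibreFinset.mpr hP)).symm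
  let S₀ := B.biUnion (fibreFinset x)
  let Sp := (poleDivisor (K := K) x).support
  have hdisj : Disjoint S₀ Sp := by
    rw [Finset.disjoint_left]
    intro P hP hP'
    obtain ⟨c, -, hc⟩ := Finset.mem_biUnion.mp hP
    rw [mem_fibreFinset] at hc
    rw [mem_support_poleDivisor] at hP'
    have h1 : 0 ≤ P.ord x := by
      have h := add_mem (mem_of_ord_nonneg P hc.le) (P.algebraMap_mem' c)
      rw [sub_add_cancel] at h
      exact ord_nonneg_of_mem P h
    omega
  have hsupp : W.support ⊆ S₀ ∪ Sp := by
    intro P hP
    rw [Finsupp.mem_support_iff, hWv] at hP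
    rcases lt_or_ge (P.ord x) 0 with h | h
    · exact Finset.mem_union_right _ (mem_support_poleDivisor.mpr h)
    · obtain ⟨c, hc⟩ := exists_fibre_of_ord_nonneg hx h
      refine Finset.mem_union_left _ (Finset.mem_biUnion.mpr ⟨c, ?_, mem_fibreFinset.mpr hc⟩)
      by_contra hcB
      exact hP (by rw [ordDifferential_D_of_fibre hc, hsimple c hcB P hc, sub_self])
  have hdeg : Divisor.degree W = ∑ P ∈ S₀ ∪ Sp, W P := by
    rw [Divisor.degree, Finsupp.liftAddHom_apply]
    rw [Finsupp.sum_of_support_subset W hsupp _ (fun _ _ => by simp)]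
    exact Finset.sum_congr rfl fun P _ => by simp [deg_eq_one]
  have hpd : Set.PairwiseDisjoint (↑B : Set K) (fibreFinset (F := F) x) := by
    intro c _ c' _ hne
    rw [Function.onFun, Finset.disjoint_left]
    exact fun P hP hP' => hne (fibre_unique (mem_fibreFinset.mp hP) (mem_fibreFinset.mp hP'))
  rw [hdeg, Finset.sum_union hdisj, Finset.sum_biUnion hpd]
  have hfib : ∀ c ∈ B, ∑ P ∈ fibreFinset x c, W P =
      n - Nat.card {P : Place K F // 0 < P.ord (x - algebraMap K F c)} := by
    intro c _
    rw [Finset.sum_congr rfl fun P hP => (hWv P).trans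
        (ordDifferential_D_of_fibre (mem_fibreFinset.mp hP)),
      Finset.sum_sub_distrib, sum_fibre_ord hx c, Finset.sum_const, nsmul_one, card_fibreFinset]
  have hpol : ∑ P ∈ Sp, W P = -n - Nat.card {P : Place K F // P.ord x < 0} := by
    rw [Finset.sum_congr rfl fun P hP => (hWv P).trans
        (ordDifferential_D_of_pole (mem_support_poleDivisor.mp hP)),
      Finset.sum_sub_distrib, sum_poles_ord hx, Finset.sum_const, nsmul_one,
      ← Nat.card_eq_finsetCard]
    congr 2
    exact Nat.card_congr (Equiv.subtypeEquivRight fun P => mem_support_poleDivisor)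
  rw [Finset.sum_congr rfl hfib, hpol]
  ring

end Fermat.Agent.Modular
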