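import Fermat.Agent.Modular.Degree
import Fermat.Agent.Modular.CuspPlacesFL
import Fermat.Agent.Modular.EllipticFL
import Fermat.Agent.Modular.GenusFromFibres
import Fermat.Prelude.Def_ModularCurve_GenusNumerics

/-!
# The genus of `X₀(N)`

`2g - 2 = ψ/6 - ν₂/2 - 2ν₃/3 - ν∞` for `FL N L`.
-/

noncomputable section

set_option linter.unusedSectionVars false

open scoped MatrixGroups
open CongruenceSubgroup ModularCurve IntermediateField AlgebraicCurve

namespace Fermat.Agent.Modular

variable (N : ℕ) [NeZero N] {L : Type*} [Field L] [Algebra ℚ L] (ι : L →+* ℂ)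

include ι in
theorem isFunctionField1_FL : Curve.IsFunctionField1 L (FL N L) :=
  Curve.IsFunctionField1.of_finite_adjoin (transcendental_jL N ι) (finiteDimensional_FL N ι)

include ι in
theorem genusFF_eq_genusFormula [IsAlgClosed L] :
    (genusFF L (FL N L) : ℚ) = genusFormula N := by
  classical
  have := isFunctionField1_FL N ι
  have : CharZero L := charZero_of_injective_algebraMap (algebraMap ℚ L).injective
  have hjt := transcendental_jL N ι
  have hdeg := finrank_FL N ι
  have hcoset : Nat.card (SL(2, ℤ) ⧸ Gamma0 N) = dedekindPsi N := by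
    rw [← index_Gamma0 N, Subgroup.index_eq_card]
  have hinf := natCard_places_infinity_FL N ι (sigmaCoset_injective N ι) hjt
    (hdeg.trans hcoset.symm)
  have h0 := three_mul_natCard_placesFL_zero (N := N) ι
  have h1728 := two_mul_natCard_placesFL_1728 (N := N) ι
  have hfib := two_mul_genusFF_sub_two_of_fibres hjt ({0, 1728} : Finset L) fun c hc => by
    rw [Finset.mem_insert, Finset.mem_singleton, not_or] at hc
    rw [natCard_placesFL_generic ι hc.1 hc.2, hdeg]
  have hne : (0 : L) ≠ 1728 := (OfNat.ofNat_ne_zero 1728).symm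
  rw [Finset.sum_pair hne, hdeg, hinf] at hfib
  simp only [map_zero, sub_zero] at hfib
  have e0 : (3 : ℚ) * Nat.card {P : Place L (FL N L) // 0 < P.ord (jL N L)}
      = dedekindPsi N + 2 * nuThree N := by exact_mod_cast h0
  have e1 : (2 : ℚ) * Nat.card {P : Place L (FL N L) //
      0 < P.ord (jL N L - algebraMap L (FL N L) 1728)} = dedekindPsi N + nuTwo N := by
    exact_mod_cast h1728
  have ef := congrArg (fun x : ℤ => (x : ℚ)) hfib
  push_cast at ef
  rw [genusFormula]
  linarith

include ι in
theorem genus_eq_genusFormula [IsAlgClosed L] [HasCanonicalDivisor (K := L) (F := FL N L)] :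
    (genus L (FL N L) : ℚ) = genusFormula N := by
  have := isFunctionField1_FL N ι
  rw [Curve.genus_eq_genusFF]
  exact genusFF_eq_genusFormula N ι

end Fermat.Agent.Modular
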