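import Mathlib.Analysis.Complex.OpenMapping
import Mathlib.Analysis.Normed.Module.Connected
import Mathlib.NumberTheory.ModularForms.ProperlyDiscontinuous
import Mathlib.NumberTheory.Modular
import Fermat.Agent.Modular.JFun
import Fermat.Agent.Modular.JOrder

/-!
# `j : SL(2,ℤ)\ℍ → ℂ` is bijective
-/

set_option autoImplicit false

noncomputable section

open Complex Filter Function Set
open UpperHalfPlane hiding I
open scoped Real Topology MatrixGroups

namespace Fermat.Agent.Modular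

local notation "𝕢" => Function.Periodic.qParam

theorem analyticAt_kleinJ (z : ℍ) : AnalyticAt ℂ (kleinJ ∘ ofComplex) (z : ℂ) :=
  analyticAt_comp_ofComplex mdifferentiable_kleinJ z

theorem analyticOrderAt_kleinJ_sub (z : ℍ) :
    analyticOrderAt (fun w : ℂ => kleinJ (ofComplex w) - kleinJ z) z = jDegree z :=
  analyticOrderAt_j_sub z

theorem kleinJ_eq_zero_iff (z : ℍ) : kleinJ z = 0 ↔ ModularForm.E₄ z = 0 := by
  simp [kleinJ, ModularForm.discriminant_ne_zero z]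

theorem kleinJ_sub_1728 (z : ℍ) :
    kleinJ z - 1728 = ModularForm.E₆ z ^ 2 / ModularForm.discriminant z := by
  have h := ModularForm.discriminant_eq_E₄_cube_sub_E₆_sq z
  have hne := ModularForm.discriminant_ne_zero z
  rw [kleinJ, div_sub' hne, h]
  congr 1
  ring

theorem kleinJ_eq_1728_iff (z : ℍ) : kleinJ z = 1728 ↔ ModularForm.E₆ z = 0 := by
  rw [← sub_eq_zero, kleinJ_sub_1728]
  simp [ModularForm.discriminant_ne_zero z]

theorem jDegree_eq_one {z : ℍ} (h0 : kleinJ z ≠ 0) (h1 : kleinJ z ≠ 1728) : jDegree z = 1 := by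
  rw [jDegree, if_neg (mt (kleinJ_eq_zero_iff z).2 h0), if_neg (mt (kleinJ_eq_1728_iff z).2 h1)]

theorem kleinJ_image_mem_nhds (z : ℍ) {U : Set ℍ} (hU : U ∈ 𝓝 z) :
    kleinJ '' U ∈ 𝓝 (kleinJ z) := by
  rcases (analyticAt_kleinJ z).eventually_constant_or_nhds_le_map_nhds with h | h
  · exfalso
    have ht : analyticOrderAt (fun w : ℂ => kleinJ (ofComplex w) - kleinJ z) z = ⊤ := by
      rw [analyticOrderAt_eq_top]
      filter_upwards [h] with w hw
      simp only [comp_apply, ofComplex_apply] at hw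
      rw [hw, sub_self]
    rw [analyticOrderAt_kleinJ_sub] at ht
    exact ENat.natCast_ne_top _ ht
  · have h' : 𝓝 (kleinJ z) ≤ map (kleinJ ∘ ofComplex) (𝓝 (z : ℂ)) := by simpa using h
    refine h' (mem_map.2 ?_)
    have hpre : ofComplex ⁻¹' U ∈ 𝓝 (z : ℂ) :=
      (UpperHalfPlane.contMDiffAt_ofComplex (n := 0) z.im_pos).continuousAt.preimage_mem_nhds
        (by simpa using hU)
    filter_upwards [hpre] with w hw
    exact ⟨_, hw, rfl⟩

/-- Two points of `ℍ` lie in one `SL(2,ℤ)`-orbit. -/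
def orbitMk (z : ℍ) : Quotient (MulAction.orbitRel (𝒮ℒ : Subgroup (GL (Fin 2) ℝ)) ℍ) :=
  Quotient.mk _ z

theorem orbitMk_eq_iff {z w : ℍ} : orbitMk z = orbitMk w ↔ ∃ g : SL(2, ℤ), g • z = w := by
  rw [eq_comm, orbitMk, orbitMk, Quotient.eq, MulAction.orbitRel_apply, MulAction.mem_orbit_iff]
  constructor
  · rintro ⟨⟨-, g, rfl⟩, h⟩
    exact ⟨g, h⟩
  · rintro ⟨g, h⟩
    exact ⟨⟨_, g, rfl⟩, h⟩

theorem continuous_orbitMk : Continuous orbitMk := continuous_quotient_mk'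

theorem orbitMk_smul (g : SL(2, ℤ)) (z : ℍ) : orbitMk (g • z) = orbitMk z :=
  (orbitMk_eq_iff.2 ⟨g, rfl⟩).symm

theorem tendsto_norm_kleinJ : Tendsto (fun τ : ℍ => ‖kleinJ τ‖) atImInfty atTop := by
  have h1 := tendsto_kleinJ_mul_qParam.norm
  have h2 : Tendsto (fun τ : ℍ => ‖𝕢 1 τ‖) atImInfty (𝓝[>] 0) := by
    refine tendsto_nhdsWithin_iff.2 ⟨?_, Eventually.of_forall fun τ => ?_⟩
    · simpa using (UpperHalfPlane.qParam_tendsto_atImInfty one_pos).norm
    · exact norm_pos_iff.2 (Function.Periodic.qParam_ne_zero _)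
  have h3 := h2.inv_tendsto_nhdsGT_zero.atTop_mul_pos (C := ‖(1 : ℂ)‖) (by simp) h1
  refine h3.congr fun τ => ?_
  have : ‖𝕢 1 τ‖ ≠ 0 := norm_ne_zero_iff.2 (Function.Periodic.qParam_ne_zero _)
  simp only [Pi.inv_apply, norm_mul]
  field_simp

theorem exists_im_le_of_norm_kleinJ_le (C : ℝ) :
    ∃ Y : ℝ, ∀ τ : ℍ, ‖kleinJ τ‖ ≤ C → τ.im ≤ Y := by
  obtain ⟨Y, hY⟩ := (UpperHalfPlane.atImInfty_mem _).1 (tendsto_norm_kleinJ.eventually_gt_atTop C)
  refine ⟨Y, fun τ hτ => ?_⟩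
  by_contra h
  exact (hY τ (not_le.1 h).le).not_ge hτ

theorem exists_fd_rep (z : ℍ) :
    ∃ w ∈ ModularGroup.fd, kleinJ w = kleinJ z ∧ orbitMk w = orbitMk z := by
  obtain ⟨g, hg⟩ := ModularGroup.exists_smul_mem_fd z
  exact ⟨_, hg, kleinJ_smul g z, orbitMk_smul g z⟩

/-- A sequence in the fundamental domain on which `j` converges has a convergent subsequence. -/
theorem exists_tendsto_subseq {z : ℕ → ℍ} (hz : ∀ n, z n ∈ ModularGroup.fd) {c : ℂ}
    (hc : Tendsto (fun n => kleinJ (z n)) atTop (𝓝 c)) :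
    ∃ a : ℍ, ∃ φ : ℕ → ℕ, StrictMono φ ∧ Tendsto (z ∘ φ) atTop (𝓝 a) ∧ kleinJ a = c := by
  obtain ⟨C, hC⟩ := hc.norm.bddAbove_range
  obtain ⟨Y, hY⟩ := exists_im_le_of_norm_kleinJ_le C
  have hmem : ∀ n, z n ∈ ModularGroup.truncatedFundamentalDomain Y :=
    fun n => ⟨hz n, hY _ (hC ⟨n, rfl⟩)⟩
  obtain ⟨a, -, φ, hφ, ha⟩ :=
    (ModularGroup.isCompact_truncatedFundamentalDomain Y).tendsto_subseq hmem
  exact ⟨a, φ, hφ, ha, tendsto_nhds_unique ((continuous_kleinJ.tendsto a).comp ha)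
    (hc.comp hφ.tendsto_atTop)⟩

theorem isOpen_range_kleinJ : IsOpen (range kleinJ) :=
  isOpen_iff_mem_nhds.2 fun _ ⟨z, hz⟩ =>
    hz ▸ mem_of_superset (kleinJ_image_mem_nhds z univ_mem) (image_univ ▸ subset_rfl)

theorem isClosed_range_kleinJ : IsClosed (range kleinJ) := by
  refine isClosed_of_closure_subset fun c hc => ?_
  obtain ⟨u, hu, hlim⟩ := mem_closure_iff_seq_limit.1 hc
  choose z hz using hu
  choose w hw hjw _ using fun n => exists_fd_rep (z n)
  obtain ⟨a, -, -, -, ha⟩ := exists_tendsto_subseq hw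
    (hlim.congr fun n => ((hjw n).trans (hz n)).symm)
  exact ⟨a, ha⟩

/-- `j` takes every value. -/
theorem kleinJ_surjective : Surjective kleinJ := range_eq_univ.1 <|
  (IsClopen.eq_univ ⟨isClosed_range_kleinJ, isOpen_range_kleinJ⟩ (range_nonempty _))

theorem kleinJ_injOn_nhds {z : ℍ} (h0 : kleinJ z ≠ 0) (h1 : kleinJ z ≠ 1728) :
    ∃ U ∈ 𝓝 z, InjOn kleinJ U := by
  have han := analyticAt_kleinJ z
  have hord : analyticOrderAt (fun w : ℂ => (kleinJ ∘ ofComplex) w - (kleinJ ∘ ofComplex) z) z = 1 := by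
    simpa [jDegree_eq_one h0 h1] using analyticOrderAt_kleinJ_sub z
  have hd : deriv (kleinJ ∘ ofComplex) (z : ℂ) ≠ 0 := by
    have hadd := han.analyticOrderAt_deriv_add_one
    rw [hord] at hadd
    have h0' : analyticOrderAt (deriv (kleinJ ∘ ofComplex)) (z : ℂ) = 0 := by
      generalize analyticOrderAt (deriv (kleinJ ∘ ofComplex)) (z : ℂ) = e at hadd
      induction e using ENat.recTopCoe with
      | top => exact absurd hadd (by simp)
      | coe n =>
        have : n + 1 = 1 := by exact_mod_cast hadd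
        exact_mod_cast (show n = 0 by omega)
    exact han.deriv.analyticOrderAt_eq_zero.1 h0'
  have hev := han.hasStrictDerivAt.eventually_left_inverse hd
  refine ⟨_, (UpperHalfPlane.continuous_coe.tendsto z).eventually hev, fun a ha b hb hab => ?_⟩
  apply UpperHalfPlane.ext
  simp only [mem_ofPred_eq, comp_apply, ofComplex_apply] at ha hb
  rw [← ha, ← hb, hab]

theorem exists_kleinJ_inj_atImInfty :
    ∃ Y : ℝ, ∀ z w : ℍ, Y ≤ z.im → Y ≤ w.im → kleinJ z = kleinJ w → orbitMk z = orbitMk w := by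
  set P := HasQExp.discFun (ModularCurve.jqModC ℂ) (-1) with hP
  have hm : ∀ n < (-1 : ℤ), (ModularCurve.jqModC ℂ).coeff n = 0 := fun n hn => by
    rw [ModularCurve.jqModC, HahnSeries.coeff_single_mul,
      ModularCurve.ofPowerSeries_coeff_of_neg _ (by omega), mul_zero]
  have han : AnalyticAt ℂ P 0 :=
    (hasQExp_kleinJ.hasFPowerSeriesOnBall_discFun one_pos hm).analyticAt
  have hjP : ∀ τ : ℍ, kleinJ τ = (𝕢 1 τ)⁻¹ * P (𝕢 1 τ) := fun τ => by
    simpa using hasQExp_kleinJ.eq_qParam_mul_discFun hm τ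
  have hP0 : P 0 = 1 := by
    refine tendsto_nhds_unique ((han.continuousAt.tendsto.comp
      (UpperHalfPlane.qParam_tendsto_atImInfty one_pos))) (tendsto_kleinJ_mul_qParam.congr ?_)
    intro τ
    have : 𝕢 1 τ ≠ 0 := Function.Periodic.qParam_ne_zero _
    rw [hjP, comp_apply]
    field_simp
  have hH : HasStrictDerivAt (fun q : ℂ => q / P q) 1 0 := by
    have := (hasStrictDerivAt_id (0 : ℂ)).fun_div han.hasStrictDerivAt (by simp [hP0])
    simpa [hP0] using this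
  have hev := hH.eventually_left_inverse one_ne_zero
  obtain ⟨Y, hY⟩ := (UpperHalfPlane.atImInfty_mem _).1
    ((UpperHalfPlane.qParam_tendsto_atImInfty (h := 1) one_pos).eventually hev)
  refine ⟨Y, fun z w hz hw hj => ?_⟩
  have hzw : 𝕢 1 z / P (𝕢 1 z) = 𝕢 1 w / P (𝕢 1 w) := by
    rw [hjP, hjP] at hj
    simpa [div_eq_mul_inv, mul_comm] using congrArg (·⁻¹) hj
  have hq : 𝕢 1 z = 𝕢 1 w := by
    rw [← hY z hz, ← hY w hw, hzw]
  rw [Function.Periodic.qParam, Function.Periodic.qParam, Complex.exp_eq_exp_iff_exists_int] at hq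
  obtain ⟨n, hn⟩ := hq
  refine orbitMk_eq_iff.2 ⟨ModularGroup.T ^ (-n), ?_⟩
  apply UpperHalfPlane.ext
  rw [UpperHalfPlane.modular_T_zpow_smul]
  simp only [UpperHalfPlane.coe_vadd, Int.cast_neg, Complex.ofReal_neg, Complex.ofReal_intCast]
  simp only [Complex.ofReal_one, div_one] at hn
  have h2 : (2 * (π : ℂ) * I) ≠ 0 := Complex.two_pi_I_ne_zero
  apply mul_left_cancel₀ h2
  linear_combination hn

/-- Values of `j` with two inequivalent preimages. -/
def badValues : Set ℂ := {c | ∃ z w : ℍ, kleinJ z = c ∧ kleinJ w = c ∧ orbitMk z ≠ orbitMk w}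

theorem isOpen_badValues : IsOpen badValues := by
  refine isOpen_iff_mem_nhds.2 ?_
  rintro c ⟨z, w, hz, hw, hne⟩
  obtain ⟨O₁, O₂, hO₁, hO₂, hz₁, hw₂, hd⟩ := t2_separation hne
  have n₁ := kleinJ_image_mem_nhds z ((hO₁.preimage continuous_orbitMk).mem_nhds hz₁)
  have n₂ := kleinJ_image_mem_nhds w ((hO₂.preimage continuous_orbitMk).mem_nhds hw₂)
  rw [hz] at n₁
  rw [hw] at n₂
  filter_upwards [n₁, n₂]
  rintro c' ⟨a, ha, rfl⟩ ⟨b, hb, hba⟩
  exact ⟨a, b, rfl, hba, fun e => disjoint_left.1 hd ha (e ▸ hb)⟩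

theorem mem_badValues_of_mem_closure {c : ℂ} (hc : c ∈ closure badValues) (h0 : c ≠ 0)
    (h1 : c ≠ 1728) : c ∈ badValues := by
  obtain ⟨u, hu, hlim⟩ := mem_closure_iff_seq_limit.1 hc
  have hu' : ∀ n, ∃ z w : ℍ, z ∈ ModularGroup.fd ∧ w ∈ ModularGroup.fd ∧ kleinJ z = u n ∧
      kleinJ w = u n ∧ orbitMk z ≠ orbitMk w := by
    intro n
    obtain ⟨z, w, hz, hw, hne⟩ := hu n
    obtain ⟨z', hz', ez, oz⟩ := exists_fd_rep z
    obtain ⟨w', hw', ew, ow⟩ := exists_fd_rep w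
    exact ⟨z', w', hz', hw', ez.trans hz, ew.trans hw, by rwa [oz, ow]⟩
  choose z w hzfd hwfd hz hw hne using hu'
  obtain ⟨a, φ, hφ, ha, hja⟩ := exists_tendsto_subseq hzfd (hlim.congr fun n => (hz n).symm)
  obtain ⟨b, ψ, hψ, hb, hjb⟩ := exists_tendsto_subseq (fun n => hwfd (φ n))
    ((hlim.comp hφ.tendsto_atTop).congr fun n => (hw (φ n)).symm)
  refine ⟨a, b, hja, hjb, fun hab => ?_⟩
  obtain ⟨g, hg⟩ := orbitMk_eq_iff.1 hab
  obtain ⟨U, hU, hinj⟩ := kleinJ_injOn_nhds (z := b) (hjb ▸ h0) (hjb ▸ h1)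
  have hga : Tendsto (fun n => g • z (φ (ψ n))) atTop (𝓝 b) :=
    hg ▸ (((continuous_const_smul (Matrix.SpecialLinearGroup.mapGL ℝ g)).tendsto a).comp
      (ha.comp hψ.tendsto_atTop))
  obtain ⟨n, hn₁, hn₂⟩ := ((hga.eventually_mem hU).and (hb.eventually_mem hU)).exists
  refine hne (φ (ψ n)) ?_
  have : g • z (φ (ψ n)) = w (φ (ψ n)) :=
    hinj hn₁ hn₂ (by rw [kleinJ_smul, hz, hw])
  rw [← orbitMk_smul g, this]

theorem exists_not_mem_badValues : ∃ c : ℂ, c ≠ 0 ∧ c ≠ 1728 ∧ c ∉ badValues := by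
  obtain ⟨Y, hY⟩ := exists_kleinJ_inj_atImInfty
  obtain ⟨M, hM⟩ := (ModularGroup.isCompact_truncatedFundamentalDomain Y).exists_bound_of_continuousOn
    continuous_kleinJ.continuousOn
  set r : ℝ := max M 1728 + 1
  have hr : 1728 < r := (le_max_right M 1728).trans_lt (lt_add_one _)
  refine ⟨r, ?_, ?_, ?_⟩
  · exact Complex.ofReal_ne_zero.2 (by linarith)
  · exact_mod_cast hr.ne'
  rintro ⟨z, w, hz, hw, hne⟩
  obtain ⟨z', hz', ez, oz⟩ := exists_fd_rep z
  obtain ⟨w', hw', ew, ow⟩ := exists_fd_rep w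
  have key : ∀ τ : ℍ, τ ∈ ModularGroup.fd → kleinJ τ = r → Y ≤ τ.im := by
    intro τ hτ hj
    by_contra h
    have := hM τ ⟨hτ, (not_le.1 h).le⟩
    rw [hj, Complex.norm_real, Real.norm_eq_abs, abs_of_pos (by linarith)] at this
    linarith [le_max_left M 1728]
  refine hne (oz.symm.trans ((hY z' w' (key z' hz' (ez.trans hz)) (key w' hw' (ew.trans hw))
    ((ez.trans hz).trans (ew.trans hw).symm)).trans ow))

theorem badValues_eq_empty : badValues = ∅ := by
  set D : Set ℂ := ({0, 1728} : Set ℂ)ᶜ with hD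
  have hfin : ({0, 1728} : Set ℂ).Finite := (Set.finite_singleton _).insert _
  have hpre : IsPreconnected D :=
    (hfin.countable.isConnected_compl_of_one_lt_rank
      (by rw [Complex.rank_real_complex]; exact Cardinal.one_lt_two)).isPreconnected
  obtain ⟨c₀, hc0, hc1, hc⟩ := exists_not_mem_badValues
  have hVD : D ∩ badValues = ∅ := by
    by_contra hne
    obtain ⟨c, hcD, hcV⟩ := nonempty_iff_ne_empty.2 hne
    have hsub : D ⊆ badValues ∪ (closure badValues)ᶜ := by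
      intro x hx
      by_cases hxc : x ∈ closure badValues
      · simp only [hD, mem_compl_iff, mem_insert_iff, mem_singleton_iff, not_or] at hx
        exact Or.inl (mem_badValues_of_mem_closure hxc hx.1 hx.2)
      · exact Or.inr hxc
    have hc₀D : c₀ ∈ D := by simp [hD, hc0, hc1]
    obtain ⟨x, -, hxV, hxC⟩ := hpre badValues (closure badValues)ᶜ isOpen_badValues
      isClosed_closure.isOpen_compl hsub ⟨c, hcD, hcV⟩
      ⟨c₀, hc₀D, (hsub hc₀D).resolve_left hc⟩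
    exact hxC (subset_closure hxV)
  by_contra hne
  obtain ⟨c, hc⟩ := nonempty_iff_ne_empty.2 hne
  have hdense : Dense D := Set.Countable.dense_compl ℂ hfin.countable
  obtain ⟨x, hxV, hxD⟩ := hdense.inter_open_nonempty _ isOpen_badValues ⟨c, hc⟩
  exact (Set.eq_empty_iff_forall_notMem.1 hVD x) ⟨hxD, hxV⟩

/-- `j z = j w` exactly for `SL(2,ℤ)`-equivalent points. -/
theorem kleinJ_eq_iff (z w : ℍ) : kleinJ z = kleinJ w ↔ ∃ g : SL(2, ℤ), g • z = w := by
  refine ⟨fun h => ?_, fun ⟨g, hg⟩ => hg ▸ (kleinJ_smul g z).symm⟩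
  by_contra hne
  have : kleinJ z ∈ badValues := ⟨z, w, rfl, h.symm, fun e => hne (orbitMk_eq_iff.1 e)⟩
  rw [badValues_eq_empty] at this
  exact this

/-- The zeros of `E₄` form one orbit. -/
theorem exists_smul_eq_of_E4_eq_zero {z w : ℍ} (hz : ModularForm.E₄ z = 0)
    (hw : ModularForm.E₄ w = 0) : ∃ g : SL(2, ℤ), g • z = w :=
  (kleinJ_eq_iff z w).1 (((kleinJ_eq_zero_iff z).2 hz).trans ((kleinJ_eq_zero_iff w).2 hw).symm)

/-- The zeros of `E₆` form one orbit. -/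
theorem exists_smul_eq_of_E6_eq_zero {z w : ℍ} (hz : ModularForm.E₆ z = 0)
    (hw : ModularForm.E₆ w = 0) : ∃ g : SL(2, ℤ), g • z = w :=
  (kleinJ_eq_iff z w).1
    (((kleinJ_eq_1728_iff z).2 hz).trans ((kleinJ_eq_1728_iff w).2 hw).symm)

end Fermat.Agent.Modular
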