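import Fermat.Agent.Modular.Hol
import Fermat.Agent.Modular.DiffToForms
import Fermat.Agent.Modular.JFun
import Mathlib.NumberTheory.Modular
import Mathlib.NumberTheory.ModularForms.CongruenceSubgroups

/-!
# Clearing the poles of a modular function

A `Γ₀(N)`-invariant meromorphic function of finite order at every cusp becomes, after
multiplication by a nonzero polynomial in `j`, a holomorphic function which has a `q`-expansion at
every cusp.
-/

set_option autoImplicit false

noncomputable section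

open UpperHalfPlane hiding I
open Filter Function WithZero CongruenceSubgroup
open scoped Manifold MatrixGroups ModularForm Topology Modular

namespace Fermat.Agent.Modular

/-- `j`, as a holomorphic function. -/
def holJ : Hol := ⟨kleinJ, mdifferentiable_kleinJ⟩

@[simp]
theorem holJ_apply (τ : ℍ) : holJ.1 τ = kleinJ τ := rfl

theorem smul_holJ (g : SL(2, ℤ)) : g • holJ = holJ := by
  ext τ
  exact kleinJ_smul g⁻¹ τ

/-- Polynomial in `j` with prescribed roots. -/
def jPoly (S : Finset ℂ) (m : ℕ) : Polynomial ℂ :=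
  (∏ c ∈ S, (Polynomial.X - Polynomial.C c)) ^ m

theorem jPoly_ne_zero (S : Finset ℂ) (m : ℕ) : jPoly S m ≠ 0 :=
  pow_ne_zero _ (Finset.prod_ne_zero_iff.mpr fun c _ => Polynomial.X_sub_C_ne_zero c)

theorem smul_aeval_holJ (g : SL(2, ℤ)) (P : Polynomial ℂ) :
    g • Polynomial.aeval holJ P = Polynomial.aeval holJ P := by
  induction P using Polynomial.induction_on' with
  | add p q hp hq => rw [map_add, smul_add, hp, hq]
  | monomial n a =>
    simp only [Polynomial.aeval_monomial, smul_mul', smul_pow', smul_algebraMap_hol, smul_holJ]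

theorem exists_hasQExp_aeval_holJ (N : ℕ) [NeZero N] (P : Polynomial ℂ) :
    ∃ x, HasQExp (N : ℝ) (Polynomial.aeval holJ P : Hol).1 x := by
  induction P using Polynomial.induction_on' with
  | add p q hp hq =>
    obtain ⟨x, hx⟩ := hp
    obtain ⟨y, hy⟩ := hq
    exact ⟨x + y, by simpa using hx.add hy⟩
  | monomial n a =>
    have h1 := (hasQExp_kleinJ.dilate_period one_ne_zero N)
    rw [one_mul] at h1
    exact ⟨_, ((HasQExp.const (N : ℝ) a).mul (h1.pow n)).congr fun τ => by
      simp [Polynomial.aeval_monomial]⟩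

/-- `φ` has finite order at every cusp, measured in `exp (2πiτ/N)`. -/
def HasFiniteOrderAtCusps (N : ℕ) (φ : Mero) : Prop :=
  ∀ g : SL(2, ℤ), ∃ a b : Hol, (∀ᶠ τ in atImInfty, b.1 τ ≠ 0) ∧
    translate g φ * algebraMap Hol Mero b = algebraMap Hol Mero a ∧
    ∃ m : ℕ, IsBoundedAtImInfty fun τ : ℍ =>
      Function.Periodic.qParam (N : ℝ) τ ^ m * (a.1 τ / b.1 τ)

theorem ordVal_le_one_of_ne_zero {z : ℍ} {φ : Mero} {a b : Hol} (hb : b.1 z ≠ 0)
    (h : φ * algebraMap Hol Mero b = algebraMap Hol Mero a) : ordVal z φ ≤ 1 := by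
  have hb0 : b ≠ 0 := fun e => hb (by simp [e])
  have hφ : φ = algebraMap Hol Mero a / algebraMap Hol Mero b :=
    (eq_div_iff (by simpa using hb0)).mpr h
  rw [hφ, ordVal_le_one_iff hb0]
  refine ⟨((a : ℍ → ℂ) ∘ ofComplex) / ((b : ℍ → ℂ) ∘ ofComplex),
    (Hol.analyticAt a z).div (Hol.analyticAt b z) (by simpa using hb), ?_⟩
  filter_upwards [(Hol.analyticAt b z).continuousAt.eventually_ne (by simpa using hb)] with w hw
  simp only [Pi.mul_apply, Pi.div_apply]
  exact (mul_div_cancel₀ _ hw).symm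

/-- The zeros of a nonzero holomorphic function in a compact subset of `ℍ` are finite. -/
theorem finite_zeros_of_isCompact {b : Hol} (hb : b ≠ 0) {K : Set ℍ} (hK : IsCompact K) :
    {z ∈ K | b.1 z = 0}.Finite := by
  have hcl : IsClosed {z : ℍ | b.1 z = 0} := isClosed_eq b.2.continuous continuous_const
  refine (hK.inter_right hcl).finite ?_
  refine isDiscrete_iff_forall_mem_exists_isOpen.mpr fun z _ => ?_
  have h := eventually_ne_zero_nhdsNE b.2 (fun e => hb (Subtype.ext e)) z
  rw [eventually_nhdsWithin_iff] at h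
  obtain ⟨U, hU, hUo, hzU⟩ := mem_nhds_iff.mp h
  refine ⟨((↑) : ℍ → ℂ) ⁻¹' U, hUo.preimage UpperHalfPlane.continuous_coe,
    Set.Subset.antisymm (fun w hw => ?_) (Set.singleton_subset_iff.mpr ⟨hzU, by assumption⟩)⟩
  obtain ⟨hwU, -, hw0⟩ := hw
  by_contra hne
  simp only [Set.mem_singleton_iff] at hne
  exact hU hwU (fun e => hne (UpperHalfPlane.ext e)) (by simpa using hw0)

variable {N : ℕ} [NeZero N]

/-- The poles of an invariant function of finite order at the cusps meet finitely many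
`SL₂(ℤ)`-orbits, with bounded order. -/
theorem exists_pole_bound {φ : Mero} (hinv : ∀ g ∈ Gamma0 N, translate g φ = φ)
    (hcusp : HasFiniteOrderAtCusps N φ) :
    ∃ (S : Finset ℂ) (m : ℕ), ∀ z : ℍ, 1 < ordVal z φ →
      kleinJ z ∈ S ∧ ordVal z φ ≤ exp (m : ℤ) := by
  classical
  have : Fintype (SL(2, ℤ) ⧸ Gamma0 N) := Fintype.ofFinite _
  choose a b hb hab m hm using hcusp
  have hY : ∀ g : SL(2, ℤ), ∃ Y : ℝ, ∀ z : ℍ, Y ≤ z.im → (b g).1 z ≠ 0 := fun g =>
    (UpperHalfPlane.atImInfty_mem _).mp (hb g)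
  choose Y hY' using hY
  let rep : SL(2, ℤ) ⧸ Gamma0 N → SL(2, ℤ) := fun q => q.out
  have hb0 : ∀ g, b g ≠ 0 := fun g e => hY' g ⟨⟨0, max (Y g) 1⟩, by simp⟩
    (le_max_left _ _) (by simp [e])
  let K : (SL(2, ℤ) ⧸ Gamma0 N) → Set ℍ := fun q =>
    {z ∈ ModularGroup.truncatedFundamentalDomain (Y (rep q)) | (b (rep q)).1 z = 0}
  have hfin : (⋃ q, (fun z => ((rep q)⁻¹ • z : ℍ)) '' K q).Finite :=
    Set.finite_iUnion fun q => (finite_zeros_of_isCompact (hb0 _)
      (ModularGroup.isCompact_truncatedFundamentalDomain _)).image _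
  refine ⟨hfin.toFinset.image kleinJ,
    hfin.toFinset.sup fun s => (log (ordVal s φ)).toNat, fun z hz => ?_⟩
  obtain ⟨γ, hγ⟩ := ModularGroup.exists_smul_mem_fd z
  -- write the pole as a translate of a pole in the fundamental domain
  let q : SL(2, ℤ) ⧸ Gamma0 N := QuotientGroup.mk γ
  obtain ⟨δ, hδ, hq⟩ : ∃ δ ∈ Gamma0 N, q.out = γ * δ := by
    obtain ⟨⟨δ, hδ⟩, h⟩ := QuotientGroup.mk_out_eq_mul (Gamma0 N) γ
    exact ⟨δ, hδ, h⟩
  have hs : (rep q)⁻¹ • (γ • z) = δ⁻¹ • z := by
    rw [show (rep q)⁻¹ = δ⁻¹ * γ⁻¹ by simp only [rep, hq, mul_inv_rev], mul_smul, inv_smul_smul]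
  have hpole : (rep q)⁻¹ • (γ • z) ∈ ⋃ q, (fun z => ((rep q)⁻¹ • z : ℍ)) '' K q := by
    have h1 : 1 < ordVal (γ • z) (translate (rep q) φ) := by
      rw [ordVal_translate, hs, ← ordVal_translate, hinv _ hδ]
      exact hz
    have h2 : (b (rep q)).1 (γ • z) = 0 := by
      by_contra hne
      exact not_le.mpr h1 (ordVal_le_one_of_ne_zero hne (hab _))
    refine Set.mem_iUnion.mpr ⟨q, γ • z, ⟨⟨hγ, ?_⟩, h2⟩, rfl⟩
    by_contra hY2
    exact hY' _ _ (not_le.mp hY2).le h2
  rw [hs] at hpole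
  have hj : kleinJ (δ⁻¹ • z) = kleinJ z := kleinJ_smul _ _
  have ho : ordVal (δ⁻¹ • z) φ = ordVal z φ := by rw [← ordVal_translate, hinv _ hδ]
  refine ⟨Finset.mem_image.mpr ⟨_, hfin.mem_toFinset.mpr hpole, hj⟩, ?_⟩
  have hne : ordVal z φ ≠ 0 := fun e => by simp [e] at hz
  conv_lhs => rw [← exp_log hne]
  rw [exp_le_exp]
  have := Finset.le_sup (f := fun s => (log (ordVal s φ)).toNat) (hfin.mem_toFinset.mpr hpole)
  rw [ho] at this
  omega

omit [NeZero N] in
theorem translate_eq_self_of_T_pow {φ : Mero} (hinv : ∀ g ∈ Gamma0 N, translate g φ = φ)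
    (g : SL(2, ℤ)) : translate (ModularGroup.T ^ (N : ℤ)) (translate g φ) = translate g φ := by
  have h : g⁻¹ * ModularGroup.T ^ (N : ℤ) * g ∈ Gamma0 N := by
    have hT : (ModularGroup.T ^ (N : ℤ)) ∈ CongruenceSubgroup.Gamma N :=
      ModularGroup_T_pow_mem_Gamma N N dvd_rfl
    exact (Gamma0_mem.mpr (by
      have := (CongruenceSubgroup.Gamma_normal N).conj_mem _ hT g⁻¹
      rw [inv_inv, CongruenceSubgroup.Gamma_mem] at this
      exact this.2.2.1))
  rw [← translate_mul, show ModularGroup.T ^ (N : ℤ) * g = g * (g⁻¹ * ModularGroup.T ^ (N : ℤ) * g)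
    by group, translate_mul, hinv _ h]

/-- Clearing the poles: the main statement. -/
theorem exists_mul_jPoly_eq {φ : Mero} (hinv : ∀ g ∈ Gamma0 N, translate g φ = φ)
    (hcusp : HasFiniteOrderAtCusps N φ) :
    ∃ (P : Polynomial ℂ) (G : Hol), P ≠ 0 ∧ (∀ g ∈ Gamma0 N, g • G = G) ∧
      (∀ g : SL(2, ℤ), ∃ x, HasQExp (N : ℝ) (g • G : Hol).1 x) ∧
      φ * algebraMap Hol Mero (Polynomial.aeval holJ P) = algebraMap Hol Mero G := by
  classical
  obtain ⟨S, m, hS⟩ := exists_pole_bound hinv hcusp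
  set P := jPoly S m with hP
  set J := Polynomial.aeval holJ P with hJ
  have hle : ∀ z, ordVal z (φ * algebraMap Hol Mero J) ≤ 1 := by
    intro z
    rw [map_mul]
    have hJ1 : ∀ F : Hol, ordVal z (algebraMap Hol Mero F) ≤ 1 := fun F => by
      rcases eq_or_ne F 0 with rfl | hF
      · simp
      · rw [ordVal_algebraMap, holVal_apply hF, ← exp_zero, exp_le_exp]; omega
    by_cases hz : ordVal z φ ≤ 1
    · exact mul_le_one' hz (hJ1 _)
    obtain ⟨hmem, hbd⟩ := hS z (not_le.mp hz)
    have hone : ordVal z (algebraMap Hol Mero J) ≤ exp (-(m : ℤ)) := by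
      have hfac : ∀ c ∈ S, ordVal z (algebraMap Hol Mero (holJ - algebraMap ℂ Hol c)) ≤ 1 :=
        fun c _ => hJ1 _
      have hroot : ordVal z (algebraMap Hol Mero (holJ - algebraMap ℂ Hol (kleinJ z))) ≤
          exp (-1 : ℤ) := by
        rcases eq_or_ne (holJ - algebraMap ℂ Hol (kleinJ z)) 0 with e | e
        · simp [e]
        · rw [ordVal_algebraMap, holVal_apply e, exp_le_exp]
          have : holOrd z (holJ - algebraMap ℂ Hol (kleinJ z)) ≠ 0 := by
            intro h0
            have h1 := analyticOrderAt_hol (z := z) e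
            rw [h0, Nat.cast_zero, analyticOrderAt_eq_zero] at h1
            rcases h1 with h1 | h1
            · exact h1 (Hol.analyticAt _ z)
            · exact h1 (by simp)
          omega
      simp only [hJ, hP, jPoly, map_pow, map_prod, map_sub, Polynomial.aeval_X, Polynomial.aeval_C]
      calc (∏ c ∈ S, ordVal z (algebraMap Hol Mero holJ -
            algebraMap Hol Mero (algebraMap ℂ Hol c))) ^ m
          ≤ (exp (-1 : ℤ)) ^ m := by
            refine pow_le_pow_left' ?_ m
            rw [← Finset.mul_prod_erase S _ hmem]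
            refine (mul_le_mul' (by rw [← map_sub]; exact hroot)
              (Finset.prod_le_one' fun c hc => ?_)).trans_eq (mul_one _)
            rw [← map_sub]; exact hfac c (Finset.mem_of_mem_erase hc)
        _ = exp (-(m : ℤ)) := by rw [← exp_nsmul]; simp
    calc ordVal z φ * ordVal z (algebraMap Hol Mero J) ≤ exp (m : ℤ) * exp (-(m : ℤ)) :=
          mul_le_mul' hbd hone
      _ = 1 := by rw [← exp_add, add_neg_cancel, exp_zero]
  obtain ⟨G, hG⟩ := exists_algebraMap_eq_of_forall_ordVal_le_one hle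
  have htr : ∀ g, translate g (algebraMap Hol Mero G) =
      translate g φ * algebraMap Hol Mero J := fun g => by
    rw [hG, map_mul, translate_algebraMap, hJ, smul_aeval_holJ]
  refine ⟨P, G, jPoly_ne_zero S m, fun g hg => ?_, fun g => ?_, hG.symm⟩
  · apply IsFractionRing.injective Hol Mero
    rw [← translate_algebraMap, htr, hinv g hg, hG]
  -- expansion at each cusp
  obtain ⟨a, b, hb, hab, k, hk⟩ := hcusp g
  obtain ⟨x, hx⟩ := exists_hasQExp_aeval_holJ N P
  have hN : (0 : ℝ) < N := Nat.cast_pos.mpr (NeZero.pos N)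
  have hGab : (g • G) * b = a * J := by
    apply IsFractionRing.injective Hol Mero
    rw [map_mul, map_mul, ← translate_algebraMap, htr, ← hab]
    ring
  have hfix : ModularGroup.T ^ (N : ℤ) • (g • G) = g • G := by
    apply IsFractionRing.injective Hol Mero
    rw [← translate_algebraMap, ← translate_algebraMap, htr, map_mul, translate_algebraMap _ J, hJ,
      smul_aeval_holJ, translate_eq_self_of_T_pow hinv]
  have hper : Periodic ((g • G : Hol).1 ∘ ofComplex) (N : ℝ) := by
    intro w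
    by_cases hw : 0 < w.im
    · have hw' : 0 < (w + (N : ℝ)).im := by simpa using hw
      simp only [comp_apply, ofComplex_apply_of_im_pos hw, ofComplex_apply_of_im_pos hw']
      have := congrArg (fun F : Hol => F.1 ⟨w + (N : ℝ), hw'⟩) hfix
      simp only [smul_hol_apply] at this ⊢
      have e : (ModularGroup.T ^ (N : ℤ))⁻¹ • (⟨w + (N : ℝ), hw'⟩ : ℍ) = ⟨w, hw⟩ := by
        rw [← zpow_neg, modular_T_zpow_smul]
        refine UpperHalfPlane.ext ?_
        simp [UpperHalfPlane.coe_vadd]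
      rw [← this, e]
    · simp only [comp_apply, ofComplex_apply_of_im_nonpos (not_lt.mp hw),
        ofComplex_apply_of_im_nonpos (show (w + (N : ℝ)).im ≤ 0 by simpa using hw)]
  obtain ⟨M, hM⟩ : ∃ M : ℕ, IsBoundedAtImInfty fun τ : ℍ =>
      Function.Periodic.qParam (N : ℝ) τ ^ M * J.1 τ := by
    obtain ⟨M, hMle⟩ : ∃ M : ℕ, -x.order ≤ M := ⟨(-x.order).toNat, Int.self_le_toNat _⟩
    have ht := hx.tendsto hN (m := -(M : ℤ))
      fun n hn => HahnSeries.coeff_eq_zero_of_lt_order (by omega)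
    refine ⟨M, (ht.congr fun τ => ?_).isBigO_one ℝ⟩
    rw [zpow_neg, inv_inv, zpow_natCast, mul_comm]
  have hbd : IsBoundedAtImInfty fun τ : ℍ =>
      Function.Periodic.qParam (N : ℝ) τ ^ ((k + M : ℕ) : ℤ) * (g • G : Hol).1 τ := by
    refine Asymptotics.IsBigO.congr' (hk.mul hM) ?_ EventuallyEq.rfl
    filter_upwards [hb] with τ hτ
    have h1 := congrArg (fun F : Hol => F.1 τ) hGab
    simp only [Subalgebra.coe_mul, Pi.mul_apply] at h1 ⊢
    rw [zpow_natCast, pow_add]
    field_simp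
    linear_combination (Function.Periodic.qParam (N : ℝ) τ ^ k *
      Function.Periodic.qParam (N : ℝ) τ ^ M) * (-h1)
  obtain ⟨z, hz, -⟩ := HasQExp.exists_of_isBoundedAtImInfty_mul hN hper (g • G).2 _ hbd
  exact ⟨z, hz⟩

end Fermat.Agent.Modular
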