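import Fermat.Agent.Modular.PoleClearing
import Fermat.Agent.Modular.Conjugates
import Fermat.Agent.Modular.Eval

/-!
# GAGA for `X₀(N)`

A `Γ₀(N)`-invariant meromorphic function on `ℍ` of finite order at every cusp is the evaluation
of an element of `ℂ(j(q^d) : d ∣ N)`.
-/

set_option autoImplicit false

noncomputable section

open UpperHalfPlane hiding I
open Filter Function CongruenceSubgroup Asymptotics
open scoped Manifold MatrixGroups Topology Real

namespace Fermat.Agent.Modular

/-- A function with an expansion in `exp (2πiτ/N)` grows at most exponentially. -/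
theorem mem_grow_of_hasQExp {N : ℕ} [NeZero N] {f : ℍ → ℂ} {x : LaurentSeries ℂ}
    (hx : HasQExp (N : ℝ) f x) : f ∈ Grow := by
  have hN : (0 : ℝ) < N := Nat.cast_pos.mpr (NeZero.pos N)
  obtain ⟨M, hM⟩ : ∃ M : ℕ, -x.order ≤ M := ⟨(-x.order).toNat, Int.self_le_toNat _⟩
  have ht := hx.tendsto hN (m := -(M : ℤ))
    fun n hn => HahnSeries.coeff_eq_zero_of_lt_order (by omega)
  refine ⟨hx.mdifferentiable hN, M, ?_⟩
  have h1 : (fun τ : ℍ => f τ * Function.Periodic.qParam (N : ℝ) τ ^ M)
      =O[atImInfty] fun _ => (1 : ℝ) := (ht.congr fun τ => by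
    rw [zpow_neg, inv_inv, zpow_natCast]).isBigO_one ℝ
  have h2 : (fun τ : ℍ => (Function.Periodic.qParam (N : ℝ) τ ^ M)⁻¹)
      =O[atImInfty] fun τ : ℍ => Real.exp (2 * π * M * τ.im) := by
    refine IsBigO.of_bound 1 (Eventually.of_forall fun τ => ?_)
    rw [one_mul, norm_inv, norm_pow, Function.Periodic.norm_qParam,
      Real.norm_of_nonneg (Real.exp_pos _).le, ← Real.exp_nat_mul, ← Real.exp_neg, Real.exp_le_exp,
      UpperHalfPlane.coe_im]
    have h1 : (1 : ℝ) ≤ N := by exact_mod_cast NeZero.pos N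
    have h2 : τ.im / N ≤ τ.im := div_le_self τ.im_pos.le h1
    have h3 : -((M : ℝ) * (-2 * π * τ.im / N)) = 2 * π * M * (τ.im / N) := by ring
    rw [h3]
    gcongr
  refine ((h1.mul h2).congr_left fun τ => ?_).congr_right fun τ => one_mul _
  exact mul_inv_cancel_right₀ (pow_ne_zero _ (Function.Periodic.qParam_ne_zero _)) _

/-- An invariant holomorphic function with expansions at all cusps is a modular function in the
sense of `IsModFun`. -/
theorem isModFun_of_hol {N : ℕ} [NeZero N] {G : Hol} (hinv : ∀ g ∈ Gamma0 N, g • G = G)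
    (hexp : ∀ g : SL(2, ℤ), ∃ x, HasQExp (N : ℝ) (g • G : Hol).1 x) : IsModFun N G.1 := by
  refine ⟨fun g hg z => ?_, fun g => ?_⟩
  · have h := congrArg (fun F : Hol => F.1 z) (hinv g⁻¹ (inv_mem hg))
    simpa using h
  · obtain ⟨x, hx⟩ := hexp g⁻¹
    exact mem_grow_of_hasQExp (hx.congr fun τ => by rw [smul_hol_apply, inv_inv])

/-- The element `j(q^d)` evaluates to `jHol d`; polynomials in `j`, `j(q^N)` are in the image. -/
theorem exists_evalMero_eq_of_interp {N : ℕ} [NeZero N] (R : Polynomial (Polynomial ℂ)) (H : Hol)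
    (hH : ∀ z, R.evalEval (kleinJ z) ((jHol N).1 z) = H.1 z) :
    ∃ x : FC N, evalMero N x = algebraMap Hol Mero H := by
  let ev : Polynomial (Polynomial ℂ) →+* Hol :=
    Polynomial.eval₂RingHom (Polynomial.aeval holJ).toRingHom (jHol N)
  let evF : Polynomial (Polynomial ℂ) →+* FC N :=
    Polynomial.eval₂RingHom (Polynomial.aeval (jdC N (one_dvd N))).toRingHom (jdC N dvd_rfl)
  have hJ : jHol 1 = holJ := Subtype.ext (funext fun z => by
    rw [jHol_apply, holJ_apply]; exact congrArg kleinJ (UpperHalfPlane.ext (by simp)))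
  have hev : ev R = H := by
    refine Subtype.ext (funext fun z => ?_)
    let pr : Hol →+* ℂ := (Pi.evalRingHom (fun _ : ℍ => ℂ) z).comp Hol.val.toRingHom
    show pr (ev R) = pr H
    have hh : pr.comp ev = Polynomial.eval₂RingHom (Polynomial.evalRingHom (kleinJ z))
        ((jHol N).1 z) := by
      refine Polynomial.ringHom_ext' (Polynomial.ringHom_ext' (RingHom.ext fun c => ?_) ?_) ?_
      · simp [pr, ev]
      · simp [pr, ev]
      · simp [pr, ev]
    rw [← RingHom.comp_apply, hh, Polynomial.coe_eval₂RingHom]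
    rw [Polynomial.eval₂_evalRingHom]
    exact hH z
  have hhom : (evalMero N).toRingHom.comp evF = (algebraMap Hol Mero).comp ev := by
    refine Polynomial.ringHom_ext' (Polynomial.ringHom_ext' (RingHom.ext fun c => ?_) ?_) ?_
    · simp [evF, ev, ← IsScalarTower.algebraMap_apply]
    · simp [evF, ev, evalMero_jdC, hJ]
    · simp [evF, ev, evalMero_jdC]
  exact ⟨evF R, (RingHom.congr_fun hhom R).trans (congrArg (algebraMap Hol Mero) hev)⟩

/-- GAGA: invariant meromorphic functions of finite order at the cusps are modular functions. -/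
theorem exists_evalMero_eq {N : ℕ} [NeZero N] {φ : Mero}
    (hinv : ∀ g ∈ Gamma0 N, translate g φ = φ) (hcusp : HasFiniteOrderAtCusps N φ) :
    ∃ x : FC N, evalMero N x = φ := by
  classical
  obtain ⟨P, G, hP, hGinv, hGexp, hG⟩ := exists_mul_jPoly_eq hinv hcusp
  have hF : IsModFun N (jLevel N) := isModFun_jLevel N dvd_rfl
  have hGm : IsModFun N G.1 := isModFun_of_hol hGinv hGexp
  have h1m : IsModFun N (1 : Hol).1 := isModFun_of_hol (fun g _ => smul_one g) fun g =>
    ⟨1, by simpa using HasQExp.one (N : ℝ)⟩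
  let s : Finset (SL(2, ℤ) ⧸ Gamma0 N) :=
    ({QuotientGroup.mk 1}ᶜ : Set (SL(2, ℤ) ⧸ Gamma0 N)).toFinite.toFinset
  let D : ℍ → ℂ := fun z => ∏ q ∈ s, (jLevel N z - conjAt (jLevel N) q z)
  have hterm : ∀ q : SL(2, ℤ) ⧸ Gamma0 N, MDiff (jLevel N - conjAt (jLevel N) q) := fun q =>
    ((jHol N).2 : MDiff (jLevel N)).sub (hF.2 (Quotient.out q)⁻¹).1
  have hDmd : MDiff D := by
    have h : (∏ q ∈ s, (jLevel N - conjAt (jLevel N) q)) ∈ Hol :=
      Subalgebra.prod_mem Hol fun q _ => hterm q
    have hD : D = ∏ q ∈ s, (jLevel N - conjAt (jLevel N) q) := by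
      funext z; simp [D, Finset.prod_apply]
    exact hD ▸ h
  have hD0 : (⟨D, hDmd⟩ : Hol) ≠ 0 := by
    intro h
    have h' : (∏ q ∈ s, (jLevel N - conjAt (jLevel N) q)) = 0 := by
      funext z
      simpa [D, Finset.prod_apply] using congrFun (congrArg Subtype.val h) z
    obtain ⟨q, hq, hq0⟩ := (UpperHalfPlane.prod_eq_zero_iff fun q _ => hterm q).mp h'
    have hinj := conjAt_jLevel_injective N (a₁ := QuotientGroup.mk 1) (a₂ := q)
      (funext fun z => by show conjAt (jLevel N) _ z = conjAt (jLevel N) q z; rw [hF.conjAt_one]; exact congrFun (sub_eq_zero.mp hq0) z)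
    exact absurd hinj.symm (by simpa [s] using hq)
  obtain ⟨R, -, hR⟩ := exists_interp hF hGm
  obtain ⟨R', -, hR'⟩ := exists_interp hF h1m
  let DH : Hol := ⟨D, hDmd⟩
  obtain ⟨x, hx⟩ := exists_evalMero_eq_of_interp (N := N) R (G * DH) fun z => hR z
  obtain ⟨y, hy⟩ := exists_evalMero_eq_of_interp (N := N) R' ⟨D, hDmd⟩ fun z => by
    simpa [D, s] using! hR' z
  refine ⟨x / (y * Polynomial.aeval (jdC N (one_dvd N)) P), ?_⟩
  have hJ : evalMero N (Polynomial.aeval (jdC N (one_dvd N)) P) =
      algebraMap Hol Mero (Polynomial.aeval holJ P) := by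
    rw [← Polynomial.aeval_algHom_apply, evalMero_jdC,
      show jHol 1 = holJ from Subtype.ext (funext fun z => by
        rw [jHol_apply, holJ_apply]; exact congrArg kleinJ (UpperHalfPlane.ext (by simp))),
      Polynomial.aeval_algebraMap_apply]
  have hJ0 : Polynomial.aeval holJ P ≠ 0 := by
    intro h
    refine hP (eq_zero_of_eval_kleinJ fun z => ?_)
    have := congrFun (congrArg Subtype.val h) z
    let pr : Hol →ₐ[ℂ] ℂ := (Pi.evalAlgHom ℂ (fun _ : ℍ => ℂ) z).comp Hol.val
    have h2 : pr (Polynomial.aeval holJ P) = 0 := by simp [h]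
    rw [← Polynomial.aeval_algHom_apply] at h2
    simpa [pr] using h2
  rw [map_div₀, map_mul, hx, hy, hJ, map_mul, ← hG]
  have hD' : algebraMap Hol Mero ⟨D, hDmd⟩ ≠ 0 :=
    (map_ne_zero_iff _ (IsFractionRing.injective Hol Mero)).mpr hD0
  have hJ' : algebraMap Hol Mero (Polynomial.aeval holJ P) ≠ 0 :=
    (map_ne_zero_iff _ (IsFractionRing.injective Hol Mero)).mpr hJ0
  field_simp
  rfl

end Fermat.Agent.Modular
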