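import Fermat.Agent.Curve.Basic
import Fermat.Agent.Modular.Degree

/-!
# `[ℂ(j(q^d) : d ∣ N) : ℂ(j)] = ψ(N)` for `FC N`
-/

set_option autoImplicit false

noncomputable section

open ModularCurve IntermediateField CongruenceSubgroup
open scoped IntermediateField

namespace Fermat.Agent.Modular

variable (N : ℕ) [NeZero N]

theorem FL_complex_eq_FC : FL N ℂ = FC N := by
  apply le_antisymm
  · intro x hx
    have := coeffMap_mem_FC N (RingHom.id ℂ) hx
    simpa using this
  · rw [FC, modularFunctionFieldFullC, IntermediateField.adjoin_le_iff]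
    rintro _ ⟨d, _, hd, rfl⟩
    have hmem := (jdL N ℂ hd).2
    simp only [jdL, coeffEmb_qExpand_jq] at hmem
    exact hmem

/-- The identification of `FL N ℂ` with `FC N`. -/
def equivFC : FL N ℂ ≃ₐ[ℂ] FC N := IntermediateField.equivOfEq (FL_complex_eq_FC N)

theorem equivFC_jdL {d : ℕ} [NeZero d] (hd : d ∣ N) : equivFC N (jdL N ℂ hd) = jdC N hd :=
  Subtype.ext (coeffEmb_qExpand_jq d)

theorem equivFC_jL : equivFC N (jL N ℂ) = jdC N (one_dvd N) := by
  rw [← equivFC_jdL N (one_dvd N)]
  congr 1
  exact Subtype.ext (congrArg (coeffEmb ℂ) (qExpand_one_apply jq).symm)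

/-- `finrank` over a simple subfield is invariant under isomorphisms. -/
theorem finrank_adjoin_equiv {K F F' : Type*} [Field K] [Field F] [Field F'] [Algebra K F]
    [Algebra K F'] (e : F ≃ₐ[K] F') (x : F) :
    Module.finrank K⟮e x⟯ F' = Module.finrank K⟮x⟯ F := by
  have hmap : (K⟮x⟯).map e.toAlgHom = K⟮e x⟯ := by
    rw [IntermediateField.adjoin_map, Set.image_singleton]
    rfl
  exact (Algebra.finrank_eq_of_equiv_equiv
    (((K⟮x⟯).equivMap e.toAlgHom).trans (IntermediateField.equivOfEq hmap)).toRingEquiv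
    e.toRingEquiv (RingHom.ext fun _ => rfl)).symm

theorem finrank_FC : Module.finrank ℂ⟮jdC N (one_dvd N)⟯ (FC N) = dedekindPsi N := by
  rw [← equivFC_jL, finrank_adjoin_equiv, finrank_FL N (RingHom.id ℂ)]

theorem finiteDimensional_FC : FiniteDimensional ℂ⟮jdC N (one_dvd N)⟯ (FC N) :=
  Module.finite_of_finrank_pos (by
    rw [finrank_FC N, ← index_Gamma0 N]
    exact Nat.pos_of_ne_zero Subgroup.FiniteIndex.index_ne_zero)

theorem transcendental_jdC_one : Transcendental ℂ (jdC N (one_dvd N)) := by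
  intro h
  refine transcendental_jL N (RingHom.id ℂ) ?_
  rw [← equivFC_jL] at h
  exact (isAlgebraic_algHom_iff (equivFC N).toAlgHom (equivFC N).injective).mp h

theorem adjoin_jdC_pair :
    IntermediateField.adjoin ℂ ({jdC N (one_dvd N), jdC N (dvd_refl N)} : Set (FC N)) = ⊤ := by
  apply IntermediateField.map_injective (FC N).val
  rw [IntermediateField.adjoin_map, ← AlgHom.fieldRange_eq_map, IntermediateField.fieldRange_val,
    Set.image_pair]
  have h1 : (FC N).val (jdC N (one_dvd N)) = serJ ℂ := by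
    simp [jdC, serJ, coeffEmb_jq, qExpand_one_apply]
  have h2 : (FC N).val (jdC N (dvd_refl N)) = serJd ℂ N := by
    simp [jdC, serJd, coeffEmb_qExpand_jq]
  rw [h1, h2]
  exact (FL_eq_adjoin N (RingHom.id ℂ)).symm.trans (FL_complex_eq_FC N)

theorem isFunctionField1_FC : Fermat.Agent.Curve.IsFunctionField1 ℂ (FC N) :=
  Fermat.Agent.Curve.IsFunctionField1.of_finite_adjoin (transcendental_jdC_one N) (finiteDimensional_FC N)

end Fermat.Agent.Modular

end
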