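import Fermat.Agent.Modular.DiffToForms
import Fermat.Agent.Modular.Eval
import Fermat.Agent.Modular.CuspSeries
import Fermat.Agent.Modular.CuspExpansion
import Fermat.Agent.Curve.Canonical

/-!
# Regular differentials of the function field of `X₀(N)` give weight two cusp forms

`finrank_regularDifferentials_le` : the regular differentials of `FL N L` have dimension at most
`dim S₂(Γ₀(N))`.
-/

set_option autoImplicit false
set_option linter.unusedSectionVars false
set_option linter.style.haveILetI false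

noncomputable section

open UpperHalfPlane hiding I
open Filter CongruenceSubgroup AlgebraicCurve KaehlerDifferential WithZero
open scoped Manifold MatrixGroups Topology

namespace Fermat.Agent.Modular

variable (N : ℕ) [NeZero N]

/-- Every translate of `evalHol` has an expansion in `exp (2πiτ/N)`. -/
theorem smul_evalHol_mem_holExp (g : SL(2, ℤ)) (x : RC N) : g • evalHol N x ∈ HolExp N := by
  obtain ⟨x, hx⟩ := x
  induction hx using Algebra.adjoin_induction with
  | mem y hy =>
    obtain ⟨d, hd0, hd, rfl⟩ := hy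
    rw [show (⟨_, _⟩ : RC N) = ⟨_, mem_RC N hd⟩ from rfl, evalHol_gen N hd]
    obtain ⟨z, hz⟩ := exists_hasQExp_translate kleinJ_smul hasQExp_kleinJ g hd
    exact ⟨z, hz.congr fun τ => rfl⟩
  | algebraMap c =>
    rw [show (⟨_, _⟩ : RC N) = algebraMap ℂ (RC N) c from rfl, AlgHom.commutes,
      smul_algebraMap_hol]
    exact Subalgebra.algebraMap_mem _ c
  | add a b ha hb iha ihb =>
    rw [show (⟨a + b, _⟩ : RC N) = ⟨a, ha⟩ + ⟨b, hb⟩ from rfl, map_add, smul_add]
    exact add_mem iha ihb
  | mul a b ha hb iha ihb =>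
    rw [show (⟨a * b, _⟩ : RC N) = ⟨a, ha⟩ * ⟨b, hb⟩ from rfl, map_mul, smul_mul']
    exact mul_mem iha ihb

/-- The expansion at the cusp `g⁻¹ • ∞` on `ℂ[j(q^d)]`. -/
def cuspEval (g : SL(2, ℤ)) : RC N →+* LaurentSeries ℂ :=
  (qSeries N).toRingHom.comp
    (((MulSemiringAction.toRingHom SL(2, ℤ) Hol g).comp (evalHol N).toRingHom).codRestrict
      (HolExp N).toSubring (fun x => smul_evalHol_mem_holExp N g x))

theorem cuspEval_apply (g : SL(2, ℤ)) (x : RC N) :
    cuspEval N g x = qSeries N ⟨g • evalHol N x, smul_evalHol_mem_holExp N g x⟩ := rfl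

theorem cuspEval_injective (g : SL(2, ℤ)) : Function.Injective (cuspEval N g) := by
  intro x y h
  rw [cuspEval_apply, cuspEval_apply] at h
  have := congrArg Subtype.val (qSeries_injective N h)
  exact evalHol_injective N (smul_left_cancel g this)

/-- The expansion at the cusp, on `ℂ(j(q^d))`. -/
def cuspEvalField (g : SL(2, ℤ)) : FC N →+* LaurentSeries ℂ :=
  IsFractionRing.lift (A := RC N) (cuspEval_injective N g)

theorem cuspEvalField_algebraMap (g : SL(2, ℤ)) (x : RC N) :
    cuspEvalField N g (algebraMap (RC N) (FC N) x) = cuspEval N g x :=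
  IsFractionRing.lift_algebraMap _ _

/-- A series with nonnegative valuation gives a function with a limit at `i∞`. -/
theorem hasLimitAtInfty_of_valued {φ : Mero} {A B : Hol} {X Y : LaurentSeries ℂ}
    (hA : HasQExp (N : ℝ) A.1 X) (hB : HasQExp (N : ℝ) B.1 Y) (hY : Y ≠ 0)
    (hφ : φ * algebraMap Hol Mero B = algebraMap Hol Mero A)
    (hv : Valued.v (X / Y) ≤ (1 : ℤᵐ⁰)) : HasLimitAtInfty φ := by
  have hN : (0 : ℝ) < N := Nat.cast_pos.mpr (NeZero.pos N)
  have hvY : Valued.v Y ≠ (0 : ℤᵐ⁰) := (Valuation.ne_zero_iff _).mpr hY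
  rw [map_div₀, div_le_one₀ (zero_lt_iff.mpr hvY)] at hv
  have hY' : ∀ n < Y.order, Y.coeff n = 0 := fun n hn => HahnSeries.coeff_eq_zero_of_lt_order hn
  have hX' : ∀ n < Y.order, X.coeff n = 0 :=
    (LaurentSeries.valuation_le_iff_coeff_lt_eq_zero ℂ).mp
      (hv.trans ((LaurentSeries.valuation_le_iff_coeff_lt_eq_zero ℂ).mpr hY'))
  have hc := HahnSeries.coeff_order_eq_zero.not.mpr hY
  have hBt := hB.tendsto hN hY'
  have hne : ∀ᶠ τ in atImInfty, B.1 τ ≠ 0 :=
    (hBt.eventually_ne hc).mono fun τ h => left_ne_zero_of_mul h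
  refine ⟨A, B, hne, hφ, _, ((hA.tendsto hN hX').div hBt hc).congr fun τ => ?_⟩
  have hq : Function.Periodic.qParam (N : ℝ) τ ≠ 0 := Function.Periodic.qParam_ne_zero _
  simp only [Pi.div_apply]
  rw [mul_div_mul_right _ _ (inv_ne_zero (zpow_ne_zero _ hq))]

theorem hasLimitAtInfty_translate {g : SL(2, ℤ)} {f : FC N}
    (hf : Valued.v (cuspEvalField N g f) ≤ (1 : ℤᵐ⁰)) :
    HasLimitAtInfty (translate g (evalMero N f)) := by
  obtain ⟨a, b, hb, rfl⟩ := IsFractionRing.div_surjective (A := RC N) f
  have hb0 : b ≠ 0 := nonZeroDivisors.ne_zero hb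
  rw [map_div₀, cuspEvalField_algebraMap, cuspEvalField_algebraMap] at hf
  refine hasLimitAtInfty_of_valued N (A := g • evalHol N a) (B := g • evalHol N b)
    (hasQExp_qSeries N _) (hasQExp_qSeries N _)
    ((map_ne_zero_iff _ (cuspEval_injective N g)).mpr hb0) ?_ hf
  rw [map_div₀, evalMero_algebraMap, evalMero_algebraMap, translate_div, div_mul_cancel₀]
  rw [map_ne_zero_iff _ (IsFractionRing.injective Hol Mero), smul_ne_zero_iff_ne]
  exact (map_ne_zero_iff _ (evalHol_injective N)).mpr hb0

section Differentials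

variable {L : Type*} [Field L] [Algebra ℚ L] (ι : L →+* ℂ)

/-- `f ↦ f(z)`. -/
abbrev evalL : FL N L →+* Mero := (evalMero N).toRingHom.comp (toFC N ι)

theorem isOver_evalL : IsOver ι (evalL N ι) := fun c => by
  show evalMero N (toFC N ι _) = _
  rw [toFC_algebraMap, AlgHom.commutes]

theorem hasCuspValuations_evalL : HasCuspValuations L (evalL N ι) := by
  intro g
  refine ⟨(Valued.v : Valuation (LaurentSeries ℂ) ℤᵐ⁰).comap
    ((cuspEvalField N g⁻¹).comp (toFC N ι)), fun c => ?_, fun x hx => ?_⟩
  · rw [Valuation.comap_apply, RingHom.comp_apply, toFC_algebraMap,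
      IsScalarTower.algebraMap_apply ℂ (RC N) (FC N), cuspEvalField_algebraMap, cuspEval_apply,
      ← exp_zero, ← neg_zero, LaurentSeries.valuation_le_iff_coeff_lt_eq_zero]
    intro n hn
    have h : qSeries N ⟨g⁻¹ • evalHol N (algebraMap ℂ (RC N) (ι c)),
        smul_evalHol_mem_holExp N _ _⟩ = algebraMap ℂ (LaurentSeries ℂ) (ι c) := by
      refine qSeries_eq N ((HasQExp.const_algebraMap _ (ι c)).congr fun τ => ?_)
      show ι c = (g⁻¹ • evalHol N (algebraMap ℂ (RC N) (ι c))).1 τ
      rw [AlgHom.commutes, smul_algebraMap_hol]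
      rfl
    rw [h, ModularCurve.algebraMap_laurentSeries_eq_single, HahnSeries.coeff_single_of_ne hn.ne]
  · exact hasLimitAtInfty_translate N hx

theorem linearIndependent_evalL (n : ℕ) (r : Fin n → FL N L) (hr : LinearIndependent L r) :
    LinearIndependent ℂ fun i => evalL N ι (r i) := by
  have h1 : LinearIndependent L fun i k => (r i : LaurentSeries L).coeff k := by
    rw [Fintype.linearIndependent_iff] at hr ⊢
    intro c hc i
    refine hr c (Subtype.ext ?_) i
    rw [ZeroMemClass.coe_zero, AddSubmonoidClass.coe_finsetSum]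
    ext k
    have := congr_fun hc k
    simpa [Algebra.smul_def, ModularCurve.algebraMap_laurentSeries_eq_single, HahnSeries.coeff_sum,
      HahnSeries.coeff_single_zero_mul] using this
  have h2 := linearIndependent_coeff_map ι _ h1
  have h3 : LinearIndependent ℂ fun i => toFC N ι (r i) := by
    rw [Fintype.linearIndependent_iff] at h2 ⊢
    intro c hc i
    refine h2 c ?_ i
    funext k
    have := congrArg (fun x : FC N => (x : LaurentSeries ℂ).coeff k) hc
    simpa [Algebra.smul_def, ModularCurve.algebraMap_laurentSeries_eq_single, HahnSeries.coeff_sum,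
      HahnSeries.coeff_single_zero_mul] using this
  exact h3.map' (evalMero N).toLinearMap
    (LinearMap.ker_eq_bot.mpr (evalMero N).toRingHom.injective)

end Differentials

theorem exists_kleinJ_ne : ∃ τ : ℍ, kleinJ τ ≠ kleinJ UpperHalfPlane.I := by
  by_contra h
  simp only [not_exists, not_not] at h
  have h2 : Tendsto (fun τ : ℍ => kleinJ τ * Function.Periodic.qParam 1 τ) atImInfty (𝓝 0) := by
    simp only [h]
    simpa using (UpperHalfPlane.qParam_tendsto_atImInfty one_pos).const_mul
      (kleinJ UpperHalfPlane.I)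
  exact zero_ne_one (tendsto_nhds_unique h2 tendsto_kleinJ_mul_qParam)

theorem mulH_one (τ : ℍ) : mulH 1 τ = τ := UpperHalfPlane.ext (by rw [coe_mulH]; simp)

theorem holDeriv_jHol_one_ne_zero : holDeriv (jHol 1) ≠ 0 := by
  intro h
  obtain ⟨τ, hτ⟩ := exists_kleinJ_ne
  apply hτ
  have hd : Set.EqOn (deriv ((jHol 1).1 ∘ ofComplex)) 0 upperHalfPlaneSet := fun z hz => by
    have := congrArg (fun F : Hol => F.1 ⟨z, hz⟩) h
    rw [holDeriv_apply] at this
    exact this
  have := isOpen_upperHalfPlaneSet.is_const_of_deriv_eq_zero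
    (convex_halfSpace_im_gt 0).isPreconnected
    (UpperHalfPlane.mdifferentiable_iff.mp (jHol 1).2) hd τ.im_pos UpperHalfPlane.I.im_pos
  simp only [Function.comp_apply, ofComplex_apply, jHol_apply, mulH_one] at this
  exact this

section Abstract

variable {L F : Type*} [Field L] [Field F] [Algebra L F] [IsAlgClosed L] [Curve.IsFunctionField1 L F]
variable {ι : L →+* ℂ} {σ : F →+* Mero}

theorem isRegularAt_of_regular {ω : Ω[F⁄L]}
    (hω : ω ∈ Curve.regularDifferentials L F) (P : Place L F) : IsRegularAt P ω := by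
  have hfg := Curve.differentials_fg_of_isCurveOver P
  obtain ⟨t, ht⟩ := Curve.place_exists_ord_one P
  obtain ⟨f, rfl⟩ := Curve.exists_smul_D_eq hfg ht ω
  refine ⟨f, t, (Curve.place_mem_iff P).mpr (Or.inr ?_),
    (Curve.place_mem_iff P).mpr (Or.inr (by omega)), rfl⟩
  rw [← Curve.ordDifferential_smul_D hfg ht f]
  exact Curve.mem_regularDifferentials_iff.mp hω P

theorem finrank_regularDifferentials_le_of_hom
    [FiniteDimensional ℂ (CuspForm (Gamma0 N) 2)] (h : IsOver ι σ)
    (hinv : ∀ g ∈ Gamma0 N, ∀ x, translate g (σ x) = σ x)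
    (hcusp : HasCuspValuations L σ)
    (hind : ∀ (n : ℕ) (r : Fin n → F), LinearIndependent L r →
      LinearIndependent ℂ fun i => σ (r i))
    (hnc : ∃ x, meroDeriv (σ x) ≠ 0) :
    Module.finrank L (Curve.regularDifferentials L F) ≤
      Module.finrank ℂ (CuspForm (Gamma0 N) 2) := by
  by_cases hfin : Module.Finite L (Curve.regularDifferentials L F)
  · obtain ⟨x, hx⟩ := Curve.exists_isSeparatingElement_of_isFunctionField1 L F
    have hη : ∀ ξ : Ω[F⁄L], ∃ r : F, ξ = r • D L F x := fun ξ => by
      obtain ⟨a, ha⟩ := hx.exists_eq_smul_D ξ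
      exact ⟨a, ha.symm⟩
    let b := Module.finBasis L (Curve.regularDifferentials L F)
    obtain ⟨f, hf⟩ := exists_linearIndependent_cuspForms N h hinv hcusp hind hη hnc
      (fun ξ => ⟨_, x, (hη ξ).choose_spec⟩) (fun i => (b i).1)
      (b.linearIndependent.map' (Curve.regularDifferentials L F).subtype
        (LinearMap.ker_eq_bot.mpr Subtype.coe_injective))
      (fun i P => isRegularAt_of_regular (b i).2 P)
    simpa using hf.fintype_card_le_finrank
  · rw [Module.finrank_of_not_finite hfin]
    exact Nat.zero_le _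

end Abstract

set_option synthInstance.maxHeartbeats 100000 in
set_option maxHeartbeats 1000000 in
/-- The space of regular differentials of `FL N L` is no bigger than `S₂(Γ₀(N))`. -/
theorem finrank_regularDifferentials_le {L : Type*} [Field L] [Algebra ℚ L] [IsAlgClosed L]
    (ι : L →+* ℂ) [Curve.IsFunctionField1 L (FL N L)]
    [FiniteDimensional ℂ (CuspForm (Gamma0 N) 2)] :
    Module.finrank L (Curve.regularDifferentials L (FL N L)) ≤
      Module.finrank ℂ (CuspForm (Gamma0 N) 2) := by
  refine finrank_regularDifferentials_le_of_hom N (isOver_evalL N ι)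
    (fun g hg f => translate_evalMero N hg _) (hasCuspValuations_evalL N ι)
    (linearIndependent_evalL N ι) ⟨jL N L, ?_⟩
  show meroDeriv (evalMero N (toFC N ι (jL N L))) ≠ 0
  rw [toFC_jL, evalMero_jdC, meroDeriv_algebraMap]
  exact (map_ne_zero_iff _ (IsFractionRing.injective Hol Mero)).mpr holDeriv_jHol_one_ne_zero

end Fermat.Agent.Modular
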