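import Fermat.Agent.Modular.EllipticOrd
import Fermat.Agent.Modular.JValues
import Fermat.Agent.Modular.PlacesAbove

/-!
# The places above a finite value of `j`

For a function field `F` over `K` with an evaluation embedding `ev : F → Mero` which is invariant
under `Γ₀(N)` and sends `j` to Klein's function, the places where `j - c` vanishes correspond to
the orbits of the stabiliser of a point `z` with `j(z) = c` on the cosets of `Γ₀(N)`.
-/

set_option autoImplicit false

noncomputable section

open UpperHalfPlane hiding I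
open Complex CongruenceSubgroup AlgebraicCurve Fermat.Agent.Curve
open scoped MatrixGroups IntermediateField Manifold

namespace Fermat.Agent.Modular

/-- `ordPt z` as an additive valuation. -/
def addOrd (z : ℍ) : AddValuation Mero (WithTop ℤ) :=
  open scoped Classical in
  AddValuation.of (fun φ => if φ = 0 then ⊤ else ((ordPt z φ : ℤ) : WithTop ℤ))
    (if_pos rfl)
    (by simp [ordPt])
    (fun φ ψ => by
      rcases eq_or_ne φ 0 with rfl | hφ
      · simp; exact le_of_eq (by rw [show (0 : Mero) + ψ = ψ from zero_add ψ])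
      rcases eq_or_ne ψ 0 with rfl | hψ
      · simp; exact le_of_eq (by rw [show φ + (0 : Mero) = φ from add_zero φ])
      rcases eq_or_ne (φ + ψ) 0 with h | h
      · simp [h]
      simp only [if_neg hφ, if_neg hψ, if_neg h, min_le_iff, WithTop.coe_le_coe]
      have key := (ordVal z).map_add φ ψ
      have hne : ∀ {χ : Mero}, χ ≠ 0 → ordVal z χ ≠ 0 := fun hχ => (Valuation.ne_zero_iff _).mpr hχ
      simp only [le_max_iff] at key
      simp only [ordPt, neg_le_neg_iff]
      exact key.imp (fun e => (WithZero.log_le_log (hne h) (hne hφ)).mpr e)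
        (fun e => (WithZero.log_le_log (hne h) (hne hψ)).mpr e))
    (fun φ ψ => by
      rcases eq_or_ne φ 0 with rfl | hφ
      · simp
      rcases eq_or_ne ψ 0 with rfl | hψ
      · simp
      simp [hφ, hψ, ordPt_mul])

theorem addOrd_apply (z : ℍ) {φ : Mero} (hφ : φ ≠ 0) :
    addOrd z φ = ((ordPt z φ : ℤ) : WithTop ℤ) := if_neg hφ

theorem ordPt_eq_of_addOrd {z : ℍ} {φ : Mero} {m : ℤ}
    (h : addOrd z φ = (m : WithTop ℤ)) : φ ≠ 0 ∧ ordPt z φ = m := by
  rcases eq_or_ne φ 0 with rfl | hφ
  · rw [AddValuation.map_zero] at h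
    exact absurd h WithTop.top_ne_coe
  · exact ⟨hφ, WithTop.coe_injective ((addOrd_apply z hφ).symm.trans h)⟩

theorem addOrd_translate (g : SL(2, ℤ)) (z : ℍ) (φ : Mero) :
    addOrd z (translate g φ) = addOrd (g⁻¹ • z) φ := by
  rcases eq_or_ne φ 0 with rfl | hφ
  · simp
  rw [addOrd_apply _ (by simpa using hφ), addOrd_apply _ hφ, ordPt_translate]

/-- Klein's function, as a holomorphic function. -/
def kleinJHol : Hol := ⟨kleinJ, mdifferentiable_kleinJ⟩

theorem kleinJHol_sub_const (c : ℂ) (w : ℍ) :
    ((kleinJHol - algebraMap ℂ Hol c : Hol) : ℍ → ℂ) w = kleinJ w - c := rfl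

theorem kleinJHol_sub_const_ne_zero (c : ℂ) : kleinJHol - algebraMap ℂ Hol c ≠ 0 := by
  intro h
  obtain ⟨w, hw⟩ := kleinJ_surjective (c + 1)
  have := congrArg (fun F : Hol => (F : ℍ → ℂ) w) h
  simp only [kleinJHol_sub_const, hw] at this
  simp at this

theorem holOrd_kleinJHol_sub (z : ℍ) :
    holOrd z (kleinJHol - algebraMap ℂ Hol (kleinJ z)) = jDegree z := by
  have h := analyticOrderAt_hol (z := z) (kleinJHol_sub_const_ne_zero (kleinJ z))
  rw [show (((kleinJHol - algebraMap ℂ Hol (kleinJ z) : Hol) : ℍ → ℂ) ∘ ofComplex)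
      = fun w : ℂ => kleinJ (ofComplex w) - kleinJ z from funext fun w => rfl,
    analyticOrderAt_kleinJ_sub] at h
  exact_mod_cast h.symm

theorem translate_kleinJHol (g : SL(2, ℤ)) :
    translate g (algebraMap Hol Mero kleinJHol) = algebraMap Hol Mero kleinJHol := by
  rw [translate_algebraMap]
  exact congrArg (algebraMap Hol Mero) (Subtype.ext (funext fun w => kleinJ_smul g⁻¹ w))

theorem addOrd_const (z : ℍ) {c : ℂ} (hc : c ≠ 0) : addOrd z (algebraMap ℂ Mero c) = 0 := by
  have h : algebraMap ℂ Hol c ≠ 0 := fun h0 =>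
    hc (congrFun (congrArg Subtype.val h0) UpperHalfPlane.I)
  have h' : algebraMap Hol Mero (algebraMap ℂ Hol c) ≠ 0 := fun h0 =>
    h (IsFractionRing.injective Hol Mero (h0.trans (map_zero _).symm))
  rw [IsScalarTower.algebraMap_apply ℂ Hol Mero, addOrd_apply _ h', ordPt_algebraMap h]
  have : holOrd z (algebraMap ℂ Hol c) = 0 := by
    rw [holOrd, analyticOrderNatAt, (Hol.analyticAt _ z).analyticOrderAt_eq_zero.mpr]
    · rfl
    · show c ≠ 0
      exact hc
  rw [this]; rfl

theorem adjoin_sub_algebraMap {K F : Type*} [Field K] [Field F] [Algebra K F] (j : F) (c : K) :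
    K⟮j - algebraMap K F c⟯ = K⟮j⟯ := by
  refine le_antisymm ?_ ?_ <;> rw [IntermediateField.adjoin_simple_le_iff]
  · exact sub_mem (IntermediateField.mem_adjoin_simple_self K j) (IntermediateField.algebraMap_mem _ c)
  · simpa using add_mem (IntermediateField.mem_adjoin_simple_self K (j - algebraMap K F c))
      (IntermediateField.algebraMap_mem _ c)

variable {N : ℕ} [NeZero N] {K F : Type*} [Field K] [IsAlgClosed K] [CharZero K] [Field F]
  [Algebra K F] [IsFunctionField1 K F]

/-- Places above `j = c`, from the stabiliser orbits of a point with `j = c`. -/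
theorem natCard_places_eq_stabOrbit (ι : K →+* ℂ) (ev : F →+* Mero)
    (hevK : ∀ a, ev (algebraMap K F a) = algebraMap ℂ Mero (ι a)) {j : F} (hjt : Transcendental K j)
    (hj : ev j = algebraMap Hol Mero kleinJHol)
    (hinv : ∀ γ ∈ Gamma0 N, ∀ f, translate γ (ev f) = ev f)
    (hdist : ∀ g h : SL(2, ℤ), (∀ f, translate g (ev f) = translate h (ev f)) → g⁻¹ * h ∈ Gamma0 N)
    (hdeg : Module.finrank K⟮j⟯ F = ModularCurve.dedekindPsi N)
    {c : K} {z : ℍ} (hz : kleinJ z = ι c)
    (hdiv : ∀ (q : SL(2, ℤ) ⧸ Gamma0 N) (φ : Mero), φ ≠ 0 →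
      (∀ γ : SL(2, ℤ), γ • q = q → translate γ φ = φ) →
      (jDegree z : ℤ) ∣ (Nat.card {q' // stabClass N z q' = stabClass N z q} : ℤ) * ordPt z φ) :
    Nat.card {P : Place K F // 0 < P.ord (j - algebraMap K F c)} = Nat.card (StabOrbit N z) := by
  classical
  let _ : Fintype (SL(2, ℤ) ⧸ Gamma0 N) := Fintype.ofFinite _
  let _ : Fintype (StabOrbit N z) := Fintype.ofFinite _
  let σ : SL(2, ℤ) ⧸ Gamma0 N → F →+* Mero := fun q => (translate q.out).toRingHom.comp ev
  have hσ : ∀ (g : SL(2, ℤ)) (f : F), σ (g : SL(2, ℤ) ⧸ Gamma0 N) f = translate g (ev f) := by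
    intro g f
    obtain ⟨γ, hγ⟩ := QuotientGroup.mk_out_eq_mul (Gamma0 N) g
    show translate _ (ev f) = _
    rw [hγ, translate_mul, hinv _ γ.2]
  have hσm : ∀ (γ : SL(2, ℤ)) q f, translate γ (σ q f) = σ (γ • q) f := by
    intro γ q f
    induction q using QuotientGroup.induction_on with
    | H g => rw [MulAction.Quotient.smul_coe, smul_eq_mul, hσ, hσ, translate_mul]
  set y := j - algebraMap K F c with hy
  have hyt : Transcendental K y := fun h => hjt (by
    have := h.add (isAlgebraic_algebraMap c)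
    simpa [hy] using this)
  have hevy : ev y = algebraMap Hol Mero (kleinJHol - algebraMap ℂ Hol (kleinJ z)) := by
    rw [hy, map_sub, map_sub, hj, hevK, hz, ← IsScalarTower.algebraMap_apply]
  have hσy : ∀ q, σ q y = ev y := by
    intro q
    show translate _ (ev y) = ev y
    rw [hevy, map_sub, map_sub, translate_kleinJHol, ← IsScalarTower.algebraMap_apply, translate_const]
  obtain ⟨Φ, -, -⟩ := exists_equiv_places_above (addOrd z) (stabClass N z)
    (stabClass_surjective N z) y hyt σ
    (fun q q' h => by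
      induction q using QuotientGroup.induction_on with
      | H g =>
        induction q' using QuotientGroup.induction_on with
        | H g' =>
          rw [QuotientGroup.eq]
          exact hdist g g' fun f => by rw [← hσ, ← hσ, h])
    (by rw [← Nat.card_eq_fintype_card, hy, adjoin_sub_algebraMap j c, hdeg, ← index_Gamma0 N]
        rfl)
    (fun q q' a => by
      show translate _ (ev _) = translate _ (ev _)
      rw [hevK, translate_const, translate_const])
    (fun q q' => by rw [hσy, hσy])
    (fun q a ha => by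
      show addOrd z (translate _ (ev _)) = 0
      rw [hevK, translate_const]
      exact addOrd_const z (by simpa using ha))
    (jDegree z : ℤ) (by unfold jDegree; split_ifs <;> norm_num)
    (fun q => by
      rw [hσy, hevy, addOrd_apply _ (fun h0 => kleinJHol_sub_const_ne_zero (kleinJ z) (IsFractionRing.injective Hol Mero (h0.trans (map_zero _).symm))),
        ordPt_algebraMap (kleinJHol_sub_const_ne_zero _), holOrd_kleinJHol_sub])
    (fun q q' h f => by
      obtain ⟨γ, hγ, rfl⟩ := (stabClass_eq_iff N z q q').1 h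
      rw [← hσm, addOrd_translate, inv_smul_eq_iff.mpr hγ.symm])
    (fun q f m h => by
      obtain ⟨hne, rfl⟩ := ordPt_eq_of_addOrd h
      exact hdiv q _ hne fun γ hγ => by rw [hσm, hγ])
  exact (Nat.card_congr Φ).symm

variable (ι : K →+* ℂ) (ev : F →+* Mero)
  (hevK : ∀ a, ev (algebraMap K F a) = algebraMap ℂ Mero (ι a)) {j : F} (hjt : Transcendental K j)
  (hj : ev j = algebraMap Hol Mero kleinJHol)
  (hinv : ∀ γ ∈ Gamma0 N, ∀ f, translate γ (ev f) = ev f)
  (hdist : ∀ g h : SL(2, ℤ), (∀ f, translate g (ev f) = translate h (ev f)) → g⁻¹ * h ∈ Gamma0 N)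
  (hdeg : Module.finrank K⟮j⟯ F = ModularCurve.dedekindPsi N)

include hevK hjt hj hinv hdist hdeg

/-- Above `j = 0`. -/
theorem three_mul_natCard_places_zero :
    3 * Nat.card {P : Place K F // 0 < P.ord j}
      = ModularCurve.dedekindPsi N + 2 * ModularCurve.nuThree N := by
  have hz : kleinJ pointRho = ι 0 := by rw [map_zero, kleinJ_eq_zero_iff]; exact E4_pointRho
  have h := natCard_places_eq_stabOrbit ι ev hevK hjt hj hinv hdist hdeg hz ?_
  · rw [map_zero, sub_zero] at h
    rw [h, natCard_stabOrbit_pointRho]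
  intro q φ hφ hfix
  rw [jDegree_pointRho]
  by_cases hq : (ModularGroup.S * ModularGroup.T) • q = q
  · exact Dvd.dvd.mul_left (three_dvd_ordPt_pointRho hφ (hfix _ hq)) _
  · rw [natCard_stabClass_pointRho hq]
    exact dvd_mul_right _ _

/-- Above `j = 1728`. -/
theorem two_mul_natCard_places_1728 :
    2 * Nat.card {P : Place K F // 0 < P.ord (j - algebraMap K F 1728)}
      = ModularCurve.dedekindPsi N + ModularCurve.nuTwo N := by
  have hz : kleinJ UpperHalfPlane.I = ι 1728 := by
    rw [map_ofNat, kleinJ_eq_1728_iff]; exact E6_I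
  rw [natCard_places_eq_stabOrbit ι ev hevK hjt hj hinv hdist hdeg hz ?_, natCard_stabOrbit_I]
  intro q φ hφ hfix
  rw [jDegree_I]
  by_cases hq : ModularGroup.S • q = q
  · exact Dvd.dvd.mul_left (two_dvd_ordPt_I hφ (hfix _ hq)) _
  · rw [natCard_stabClass_I hq]
    exact dvd_mul_right _ _

/-- Above the other values. -/
theorem natCard_places_generic {c : K} (h0 : c ≠ 0) (h1 : c ≠ 1728) :
    Nat.card {P : Place K F // 0 < P.ord (j - algebraMap K F c)} = ModularCurve.dedekindPsi N := by
  obtain ⟨z, hz⟩ := kleinJ_surjective (ι c)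
  have hj0 : kleinJ z ≠ 0 := by rw [hz]; simpa using h0
  have hj1 : kleinJ z ≠ 1728 := by
    rw [hz, ← map_ofNat ι 1728]; exact fun h => h1 (ι.injective h)
  rw [natCard_places_eq_stabOrbit ι ev hevK hjt hj hinv hdist hdeg hz ?_,
    natCard_stabOrbit_generic N (mt (kleinJ_eq_zero_iff z).2 hj0) (mt (kleinJ_eq_1728_iff z).2 hj1)]
  intro q φ hφ hfix
  rw [jDegree_eq_one hj0 hj1]
  exact one_dvd _

end Fermat.Agent.Modular

end
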