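import Mathlib.Analysis.Complex.UpperHalfPlane.Manifold
import Mathlib.Analysis.Complex.UpperHalfPlane.FunctionsBoundedAtInfty
import Mathlib.Analysis.Complex.Liouville
import Mathlib.NumberTheory.ModularForms.Basic
import Mathlib.NumberTheory.ModularForms.Cusps
import Mathlib.NumberTheory.ModularForms.CongruenceSubgroups
import Mathlib.RingTheory.Derivation.Basic
import Mathlib.RingTheory.Localization.FractionRing
import Mathlib.RingTheory.LaurentSeries
import Mathlib.Algebra.TrivSqZeroExt.Basic
import Fermat.Agent.Modular.Hol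

/-!
# Generic lemmas for turning differentials of the modular function field into cusp forms

* `derivative_tendsto_zero`, `isZeroAtImInfty_of_eq_mul_deriv` : the vanishing at the cusp;
* `exists_mdiff_mul_eq` : gluing local analytic quotients on the upper half plane;
* `fractionDerivation` : extension of a derivation of a domain to its field of fractions;
* `linearIndependent_coeff_map` : series with coefficients in a subfield, independence over `ℂ`.
-/

set_option autoImplicit false

noncomputable section

open UpperHalfPlane Filter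
open scoped Manifold MatrixGroups ModularForm Topology

namespace Fermat.Agent.Modular

section AtInfinity

/-- If a function on a half plane `Im z > A` is holomorphic and tends to a limit at `i∞`, its
derivative tends to zero at `i∞`. -/
theorem derivative_tendsto_zero {w : ℍ → ℂ} {L : ℂ}
    (hd : ∀ᶠ τ : ℍ in atImInfty, DifferentiableAt ℂ (w ∘ ofComplex) (τ : ℂ))
    (hL : Tendsto w atImInfty (𝓝 L)) :
    Tendsto (fun τ : ℍ => deriv (w ∘ ofComplex) τ) atImInfty (𝓝 0) := by
  rw [Metric.tendsto_nhds]
  intro ε hε
  obtain ⟨A, hA⟩ := (UpperHalfPlane.atImInfty_mem _).mp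
    (hd.and ((Metric.tendsto_nhds.mp hL) (ε / 2) (half_pos hε)))
  refine (UpperHalfPlane.atImInfty_mem _).mpr ⟨max A 0 + 2, fun τ hτ => ?_⟩
  have hball : ∀ z ∈ Metric.closedBall (τ : ℂ) 1, max A 0 + 1 ≤ z.im := by
    intro z hz
    have h1 : |((τ : ℂ) - z).im| ≤ 1 := by
      refine le_trans (Complex.abs_im_le_norm _) ?_
      rwa [← dist_eq_norm, dist_comm, ← Metric.mem_closedBall]
    have h2 := (abs_le.mp h1).2
    simp only [Complex.sub_im, UpperHalfPlane.coe_im] at h2
    linarith
  have hpt : ∀ z ∈ Metric.closedBall (τ : ℂ) 1,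
      DifferentiableAt ℂ (w ∘ ofComplex) z ∧ ‖(w ∘ ofComplex) z - L‖ ≤ ε / 2 := by
    intro z hz
    have him := hball z hz
    have hpos : 0 < z.im := lt_of_lt_of_le (by positivity) him
    have h := hA ⟨z, hpos⟩ (le_trans (le_max_left A 0) (by simp only [UpperHalfPlane.im]; linarith))
    refine ⟨by simpa using h.1, ?_⟩
    have h2 := h.2
    rw [dist_eq_norm] at h2
    simpa [ofComplex_apply_of_im_pos hpos] using h2.le
  have key : ‖deriv (fun z => (w ∘ ofComplex) z - L) (τ : ℂ)‖ ≤ ε / 2 / 1 := by
    refine Complex.norm_deriv_le_of_forall_mem_sphere_norm_le one_pos ?_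
      (fun z hz => (hpt z (Metric.sphere_subset_closedBall hz)).2)
    refine DifferentiableOn.diffContOnCl fun z hz => ?_
    rw [closure_ball (τ : ℂ) one_ne_zero] at hz
    exact ((hpt z hz).1.sub_const L).differentiableWithinAt
  rw [deriv_sub_const, div_one] at key
  simp only [Set.mem_ofPred_eq, dist_zero_right]
  exact lt_of_le_of_lt key (half_lt_self hε)

/-- The vanishing at `i∞` of `u`, where `u R D² = P (C'D - CD')` and both `P / R` and `C / D` have
finite limits at `i∞`. -/
theorem isZeroAtImInfty_of_eq_mul_deriv {u P R C D : ℍ → ℂ} {L M : ℂ}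
    (hC : MDiff C) (hD : MDiff D)
    (hR0 : ∀ᶠ τ in atImInfty, R τ ≠ 0) (hD0 : ∀ᶠ τ in atImInfty, D τ ≠ 0)
    (hPR : Tendsto (fun τ => P τ / R τ) atImInfty (𝓝 L))
    (hCD : Tendsto (fun τ => C τ / D τ) atImInfty (𝓝 M))
    (h : ∀ τ : ℍ, u τ * R τ * D τ ^ 2 =
      P τ * (deriv (C ∘ ofComplex) (τ : ℂ) * D τ - C τ * deriv (D ∘ ofComplex) (τ : ℂ))) :
    IsZeroAtImInfty u := by
  have hd : ∀ᶠ τ : ℍ in atImInfty,
      DifferentiableAt ℂ ((fun τ => C τ / D τ) ∘ ofComplex) (τ : ℂ) ∧
        deriv ((fun τ => C τ / D τ) ∘ ofComplex) (τ : ℂ) =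
          (deriv (C ∘ ofComplex) (τ : ℂ) * D τ - C τ * deriv (D ∘ ofComplex) (τ : ℂ)) / D τ ^ 2 := by
    filter_upwards [hD0] with τ hτ
    have h1 := (UpperHalfPlane.mdifferentiableAt_iff.mp (hC τ))
    have h2 := (UpperHalfPlane.mdifferentiableAt_iff.mp (hD τ))
    have h3 : (D ∘ ofComplex) (τ : ℂ) ≠ 0 := by simpa using hτ
    refine ⟨h1.div h2 h3, ?_⟩
    show deriv ((C ∘ ofComplex) / (D ∘ ofComplex)) (τ : ℂ) = _
    rw [deriv_div h1 h2 h3]
    simp
  have hderiv := derivative_tendsto_zero (hd.mono fun _ h => h.1) hCD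
  have := hPR.mul hderiv
  rw [mul_zero] at this
  refine this.congr' ?_
  filter_upwards [hd, hR0, hD0] with τ h1 hR hD'
  rw [h1.2]
  field_simp
  linear_combination -(h τ)

end AtInfinity

section Glue

/-- A holomorphic function on `ℍ` which is not identically zero has isolated zeros. -/
theorem eventually_ne_zero_nhdsNE {b : ℍ → ℂ} (hb : MDiff b) (hb0 : b ≠ 0) (τ : ℍ) :
    ∀ᶠ z in 𝓝[≠] (τ : ℂ), (b ∘ ofComplex) z ≠ 0 := by
  rcases (Hol.analyticAt ⟨b, hb⟩ τ).eventually_eq_zero_or_eventually_ne_zero with h | h
  · exfalso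
    apply hb0
    have han : AnalyticOnNhd ℂ (b ∘ ofComplex) upperHalfPlaneSet :=
      (UpperHalfPlane.mdifferentiable_iff.mp hb).analyticOnNhd isOpen_upperHalfPlaneSet
    have hconn : IsPreconnected upperHalfPlaneSet :=
      (convex_halfSpace_im_gt 0).isPreconnected
    have h0 := han.eqOn_zero_of_preconnected_of_eventuallyEq_zero hconn τ.im_pos h
    funext σ
    simpa using h0 σ.im_pos
  · exact h

/-- Two functions on `ℍ`, continuous and equal where a nonzero holomorphic function does not
vanish, are equal. -/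
theorem eq_of_eq_off_zeros {b f g : ℍ → ℂ} (hb : MDiff b) (hb0 : b ≠ 0)
    (hf : Continuous f) (hg : Continuous g) (h : ∀ τ, b τ ≠ 0 → f τ = g τ) : f = g := by
  funext τ
  have hcont : ∀ k : ℍ → ℂ, Continuous k → Tendsto (k ∘ ofComplex) (𝓝[≠] (τ : ℂ)) (𝓝 (k τ)) := by
    intro k hk
    have h1 : Tendsto ofComplex (𝓝 (τ : ℂ)) (𝓝 τ) := by
      have := (contMDiffAt_ofComplex (n := 1) τ.im_pos).continuousAt
      rwa [ContinuousAt, ofComplex_apply] at this
    exact ((hk.tendsto τ).comp h1).mono_left nhdsWithin_le_nhds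
  refine tendsto_nhds_unique ((hcont f hf).congr' ?_) (hcont g hg)
  filter_upwards [eventually_ne_zero_nhdsNE hb hb0 τ] with z hz
  exact h _ hz

/-- If locally at every point `a = b g` with `g` analytic, then `a = b f` with `f` holomorphic. -/
theorem exists_mdiff_mul_eq {a b : ℍ → ℂ} (hb : MDiff b) (hb0 : b ≠ 0)
    (h : ∀ τ : ℍ, ∃ g : ℂ → ℂ, AnalyticAt ℂ g τ ∧
      (a ∘ ofComplex) =ᶠ[𝓝 (τ : ℂ)] (b ∘ ofComplex) * g) :
    ∃ f : ℍ → ℂ, MDiff f ∧ ∀ τ, a τ = b τ * f τ := by
  choose g hg hag using h
  refine ⟨fun τ => g τ τ, fun τ₀ => ?_, fun τ => ?_⟩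
  · rw [UpperHalfPlane.mdifferentiableAt_iff]
    refine (hg τ₀).differentiableAt.congr_of_eventuallyEq ?_
    have h1 : ∀ᶠ z in 𝓝[≠] (τ₀ : ℂ), (b ∘ ofComplex) z ≠ 0 ∧ 0 < z.im ∧
        (a ∘ ofComplex) z = (b ∘ ofComplex) z * g τ₀ z := by
      refine (eventually_ne_zero_nhdsNE hb hb0 τ₀).and (Eventually.and ?_ ?_)
      · exact eventually_nhdsWithin_of_eventually_nhds
          (isOpen_upperHalfPlaneSet.mem_nhds τ₀.im_pos)
      · exact eventually_nhdsWithin_of_eventually_nhds (hag τ₀)
    rw [eventually_nhdsWithin_iff] at h1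
    filter_upwards [h1] with z hz
    by_cases hzτ : z = τ₀
    · simp [hzτ]
    · obtain ⟨hbz, him, heq⟩ := hz hzτ
      have h2 := (hag ⟨z, him⟩).self_of_nhds
      simp only [Function.comp_apply, Pi.mul_apply, ofComplex_apply_of_im_pos him] at h2 heq hbz ⊢
      exact mul_left_cancel₀ hbz (h2.symm.trans heq)
  · have := (hag τ).self_of_nhds
    simpa using this

end Glue

section CuspForms

/-- Constructor for weight `k` cusp forms on `Γ₀(N)` from the conditions on `SL₂(ℤ)`-translates. -/
def cuspFormOfForall (N : ℕ) [NeZero N] (k : ℤ) (f : ℍ → ℂ) (hf : MDiff f)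
    (hinv : ∀ γ ∈ CongruenceSubgroup.Gamma0 N, f ∣[k] γ = f)
    (hzero : ∀ γ : SL(2, ℤ), IsZeroAtImInfty (f ∣[k] γ)) :
    CuspForm (CongruenceSubgroup.Gamma0 N) k where
  toFun := f
  slash_action_eq' γ hγ := by
    obtain ⟨γ₀, hγ₀, rfl⟩ := Subgroup.mem_map.mp hγ
    exact hinv γ₀ hγ₀
  holo' := hf
  zero_at_cusps' {c} hc := by
    rw [Subgroup.IsArithmetic.isCusp_iff_isCusp_SL2Z] at hc
    rw [OnePoint.isZeroAt_iff_forall_SL2Z hc]
    exact fun γ _ => hzero γ

@[simp]
theorem cuspFormOfForall_apply (N : ℕ) [NeZero N] (k : ℤ) (f : ℍ → ℂ) (hf : MDiff f)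
    (hinv : ∀ γ ∈ CongruenceSubgroup.Gamma0 N, f ∣[k] γ = f)
    (hzero : ∀ γ : SL(2, ℤ), IsZeroAtImInfty (f ∣[k] γ)) (τ : ℍ) :
    cuspFormOfForall N k f hf hinv hzero τ = f τ := rfl

end CuspForms

section FractionDerivation

variable {A : Type*} [CommRing A] [IsDomain A] {K : Type*} [Field K] [Algebra A K]
  [IsFractionRing A K]

/-- The ring homomorphism to dual numbers attached to a derivation. -/
def derivationDualHom {R : Type*} [CommRing R] [Algebra R A] (d : Derivation R A A) :
    A →+* TrivSqZeroExt K K where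
  toFun a := TrivSqZeroExt.inl (algebraMap A K a) + TrivSqZeroExt.inr (algebraMap A K (d a))
  map_one' := TrivSqZeroExt.ext (by simp) (by simp)
  map_mul' a b := TrivSqZeroExt.ext (by simp) (by
    simp only [TrivSqZeroExt.snd_add, TrivSqZeroExt.snd_inl, TrivSqZeroExt.snd_inr, zero_add,
      TrivSqZeroExt.snd_mul, TrivSqZeroExt.fst_add, TrivSqZeroExt.fst_inl, TrivSqZeroExt.fst_inr,
      add_zero, Derivation.leibniz, smul_eq_mul, map_add, map_mul, MulOpposite.smul_eq_mul_unop,
      MulOpposite.unop_op]
    ring)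
  map_zero' := TrivSqZeroExt.ext (by simp) (by simp)
  map_add' a b := TrivSqZeroExt.ext (by simp) (by simp)

theorem derivationDualHom_isUnit {R : Type*} [CommRing R] [Algebra R A] (d : Derivation R A A)
    (y : nonZeroDivisors A) : IsUnit (derivationDualHom (K := K) d y) := by
  rw [TrivSqZeroExt.isUnit_iff_isUnit_fst]
  simp [derivationDualHom]

/-- The extension of a derivation to the field of fractions, as a plain function. -/
def derivationFraction {R : Type*} [CommRing R] [Algebra R A] (d : Derivation R A A) (x : K) : K :=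
  (IsLocalization.lift (M := nonZeroDivisors A) (derivationDualHom_isUnit (K := K) d) x).snd

theorem derivationFraction_lift_fst {R : Type*} [CommRing R] [Algebra R A] (d : Derivation R A A)
    (x : K) :
    (IsLocalization.lift (M := nonZeroDivisors A) (derivationDualHom_isUnit (K := K) d) x).fst
      = x := by
  have : (TrivSqZeroExt.fstHom K K K).toRingHom.comp
      (IsLocalization.lift (M := nonZeroDivisors A) (derivationDualHom_isUnit (K := K) d))
        = RingHom.id K := by
    refine IsLocalization.ringHom_ext (nonZeroDivisors A) ?_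
    ext a
    simp [derivationDualHom]
  exact RingHom.congr_fun this x

theorem derivationFraction_algebraMap {R : Type*} [CommRing R] [Algebra R A]
    (d : Derivation R A A) (a : A) :
    derivationFraction (K := K) d (algebraMap A K a) = algebraMap A K (d a) := by
  simp [derivationFraction, derivationDualHom]

theorem derivationFraction_add {R : Type*} [CommRing R] [Algebra R A] (d : Derivation R A A)
    (x y : K) :
    derivationFraction d (x + y) = derivationFraction d x + derivationFraction d y := by
  simp [derivationFraction]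

theorem derivationFraction_mul {R : Type*} [CommRing R] [Algebra R A] (d : Derivation R A A)
    (x y : K) :
    derivationFraction d (x * y)
      = x * derivationFraction d y + y * derivationFraction d x := by
  simp only [derivationFraction, map_mul, TrivSqZeroExt.snd_mul, derivationFraction_lift_fst,
    smul_eq_mul, MulOpposite.smul_eq_mul_unop, MulOpposite.unop_op]
  ring

/-- Quotient rule. -/
theorem derivationFraction_div {R : Type*} [CommRing R] [Algebra R A] (d : Derivation R A A)
    (a b : A) (hb : b ≠ 0) :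
    derivationFraction d (algebraMap A K a / algebraMap A K b)
      * algebraMap A K b ^ 2
        = algebraMap A K (d a * b - a * d b) := by
  have hb' : algebraMap A K b ≠ 0 := by simpa using hb
  have h := derivationFraction_mul d (algebraMap A K a / algebraMap A K b) (algebraMap A K b)
  rw [div_mul_cancel₀ _ hb', derivationFraction_algebraMap, derivationFraction_algebraMap] at h
  have h2 : algebraMap A K a / algebraMap A K b * algebraMap A K b = algebraMap A K a :=
    div_mul_cancel₀ _ hb'
  rw [map_sub, map_mul, map_mul, h]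
  linear_combination -(algebraMap A K (d b)) * h2

end FractionDerivation

section Independence

/-- Coefficient families over `L` which are independent over `L` stay independent over a larger
field. -/
theorem linearIndependent_coeff_map {L M : Type*} [Field L] [Field M] (f : L →+* M)
    {ι κ : Type*} [Fintype ι] (v : ι → κ → L) (hv : LinearIndependent L v) :
    LinearIndependent M (fun i k => f (v i k)) := by
  let _ := f.toAlgebra
  rw [Fintype.linearIndependent_iff] at hv ⊢
  intro c hc i
  apply (Module.Free.chooseBasis L M).ext_elem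
  intro b
  simp only [map_zero, Finsupp.coe_zero, Pi.zero_apply]
  refine hv (fun j => (Module.Free.chooseBasis L M).repr (c j) b) ?_ i
  funext k
  have h1 := congr_fun hc k
  simp only [Finset.sum_apply, Pi.smul_apply, smul_eq_mul, Pi.zero_apply] at h1 ⊢
  have h2 : ∀ j, c j * f (v j k) = v j k • c j := fun j => by
    rw [mul_comm]; rfl
  simp only [h2] at h1
  have h3 := congrArg (fun m => (Module.Free.chooseBasis L M).repr m b) h1
  simpa [map_sum, mul_comm] using h3

/-- Laurent series version. -/
theorem linearIndependent_laurent_map {L M : Type*} [Field L] [Field M] (f : L →+* M)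
    {ι : Type*} [Fintype ι] (v : ι → LaurentSeries L) (hv : LinearIndependent L v)
    (w : ι → LaurentSeries M) (hw : ∀ i k, (w i).coeff k = f ((v i).coeff k)) :
    LinearIndependent M w := by
  have h1 : LinearIndependent L fun i k => (v i).coeff k := by
    rw [Fintype.linearIndependent_iff] at hv ⊢
    intro c hc i
    refine hv c ?_ i
    ext k
    have := congr_fun hc k
    simpa [HahnSeries.coeff_sum, HahnSeries.coeff_smul, ← algebraMap_smul (PowerSeries L)] using this
  have h2 := linearIndependent_coeff_map f _ h1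
  rw [Fintype.linearIndependent_iff] at h2 ⊢
  intro c hc i
  refine h2 c ?_ i
  funext k
  have := congrArg (fun s : LaurentSeries M => s.coeff k) hc
  simpa [HahnSeries.coeff_sum, HahnSeries.coeff_smul, hw] using this

end Independence

end Fermat.Agent.Modular
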