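import Fermat.Agent.Modular.JOrder
import Fermat.Agent.Modular.EllipticCount
import Fermat.Agent.Modular.Index

/-!
# Stabilisers of points of `ℍ` and their orbits on the cosets of `Γ₀(N)`
-/

set_option autoImplicit false

noncomputable section

open UpperHalfPlane hiding I
open Complex ModularForm EisensteinSeries CongruenceSubgroup ModularGroup
open scoped MatrixGroups

namespace Fermat.Agent.Modular

/-- The point `ρ = (-1 + √-3)/2`. -/
def pointRho : ℍ := ⟨⟨-1 / 2, Real.sqrt 3 / 2⟩, by simp⟩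

theorem pointRho_sq : (pointRho : ℂ) ^ 2 + pointRho + 1 = 0 := by
  have h3 : Real.sqrt 3 ^ 2 = 3 := Real.sq_sqrt (by norm_num)
  apply Complex.ext <;> simp [pointRho, pow_two] <;> nlinarith

theorem det_entries (γ : SL(2, ℤ)) : γ 0 0 * γ 1 1 - γ 0 1 * γ 1 0 = 1 :=
  (Matrix.det_fin_two (γ : Matrix (Fin 2) (Fin 2) ℤ)).symm.trans γ.det_coe

theorem smul_eq_self_iff (γ : SL(2, ℤ)) (z : ℍ) :
    γ • z = z ↔
      (γ 0 0 : ℂ) * z + (γ 0 1 : ℂ) = (z : ℂ) * ((γ 1 0 : ℂ) * z + (γ 1 1 : ℂ)) := by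
  have hne : ((γ 1 0 : ℂ) * z + (γ 1 1 : ℂ)) ≠ 0 := by
    simpa [UpperHalfPlane.denom] using denom_ne_zero (γ : GL (Fin 2) ℝ) z
  rw [UpperHalfPlane.ext_iff, UpperHalfPlane.coe_specialLinearGroup_apply, div_eq_iff]
  · simp
  · simpa using hne

theorem stabilizer_I_iff (γ : SL(2, ℤ)) :
    γ • UpperHalfPlane.I = UpperHalfPlane.I ↔ γ = 1 ∨ γ = -1 ∨ γ = S ∨ γ = -S := by
  constructor
  · intro h
    rw [smul_eq_self_iff, UpperHalfPlane.coe_I] at h
    have h1 := congrArg Complex.re h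
    have h2 := congrArg Complex.im h
    simp at h1 h2
    have h1' : γ 0 1 = -γ 1 0 := by exact_mod_cast h1
    have h2' : γ 0 0 = γ 1 1 := by exact_mod_cast h2
    have hd := det_entries γ
    rw [h1', h2'] at hd
    obtain ⟨_, _⟩ : -1 ≤ γ 1 0 ∧ γ 1 0 ≤ 1 := ⟨by nlinarith, by nlinarith⟩
    obtain ⟨_, _⟩ : -1 ≤ γ 1 1 ∧ γ 1 1 ≤ 1 := ⟨by nlinarith, by nlinarith⟩
    interval_cases hc : γ 1 0 <;> interval_cases hd' : γ 1 1 <;> norm_num at hd
    · right; right; right
      ext i j; fin_cases i <;> fin_cases j <;> simp [coe_S, h1', h2', hc, hd']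
    · right; left
      ext i j; fin_cases i <;> fin_cases j <;> simp [h1', h2', hc, hd']
    · left
      ext i j; fin_cases i <;> fin_cases j <;> simp [h1', h2', hc, hd']
    · right; right; left
      ext i j; fin_cases i <;> fin_cases j <;> simp [coe_S, h1', h2', hc, hd']
  · rintro (rfl | rfl | rfl | rfl) <;> rw [smul_eq_self_iff] <;>
      simp [coe_S, UpperHalfPlane.coe_I]

theorem stabilizer_pointRho_iff (γ : SL(2, ℤ)) :
    γ • pointRho = pointRho ↔ γ = 1 ∨ γ = -1 ∨ γ = S * T ∨ γ = -(S * T)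
      ∨ γ = (S * T) ^ 2 ∨ γ = -((S * T) ^ 2) := by
  rw [smul_eq_self_iff]
  constructor
  · intro h
    have h' : ((γ 0 0 + γ 1 0 - γ 1 1 : ℤ) : ℂ) * pointRho + ((γ 0 1 + γ 1 0 : ℤ) : ℂ) = 0 := by
      push_cast
      linear_combination h + (γ 1 0 : ℂ) * pointRho_sq
    have h2 := congrArg Complex.im h'
    have h1 := congrArg Complex.re h'
    simp [pointRho] at h1 h2
    have h2' : γ 0 0 = γ 1 1 - γ 1 0 := by
      have : ((γ 0 0 : ℝ) + γ 1 0 - γ 1 1) = 0 := h2
      have : (γ 0 0 : ℤ) + γ 1 0 - γ 1 1 = 0 := by exact_mod_cast this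
      omega
    have h1' : γ 0 1 = -γ 1 0 := by
      rw [h2'] at h1
      push_cast at h1
      have : ((γ 0 1 : ℝ) + γ 1 0) = 0 := by linarith
      have : (γ 0 1 : ℤ) + γ 1 0 = 0 := by exact_mod_cast this
      omega
    have hd := det_entries γ
    rw [h1', h2'] at hd
    obtain ⟨_, _⟩ : -1 ≤ γ 1 0 ∧ γ 1 0 ≤ 1 :=
      ⟨by nlinarith [sq_nonneg (2 * γ 1 1 - γ 1 0)], by nlinarith [sq_nonneg (2 * γ 1 1 - γ 1 0)]⟩
    obtain ⟨_, _⟩ : -1 ≤ γ 1 1 ∧ γ 1 1 ≤ 1 :=
      ⟨by nlinarith [sq_nonneg (2 * γ 1 0 - γ 1 1)], by nlinarith [sq_nonneg (2 * γ 1 0 - γ 1 1)]⟩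
    interval_cases hc : γ 1 0 <;> interval_cases hd' : γ 1 1 <;> norm_num at hd
    · right; right; right; left
      ext i j; fin_cases i <;> fin_cases j <;>
        simp [coe_S, coe_T, Matrix.mul_apply, h1', h2', hc, hd']
    · right; right; right; right; right
      ext i j; fin_cases i <;> fin_cases j <;>
        simp [pow_two, coe_S, coe_T, Matrix.mul_apply, h1', h2', hc, hd']
    · right; left
      ext i j; fin_cases i <;> fin_cases j <;> simp [h1', h2', hc, hd']
    · left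
      ext i j; fin_cases i <;> fin_cases j <;> simp [h1', h2', hc, hd']
    · right; right; right; right; left
      ext i j; fin_cases i <;> fin_cases j <;>
        simp [pow_two, coe_S, coe_T, Matrix.mul_apply, h1', h2', hc, hd']
    · right; right; left
      ext i j; fin_cases i <;> fin_cases j <;>
        simp [coe_S, coe_T, Matrix.mul_apply, h1', h2', hc, hd']
  · have h := pointRho_sq
    rintro (rfl | rfl | rfl | rfl | rfl | rfl) <;>
      simp [pow_two, coe_S, coe_T, Matrix.mul_apply] <;>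
      (first | linear_combination h | linear_combination -h)

theorem denom_S_mul_T (z : ℂ) : denom ((S * T : SL(2, ℤ)) : GL (Fin 2) ℝ) z = z + 1 := by
  simp [UpperHalfPlane.denom, coe_S, coe_T, Matrix.mul_apply, Fin.sum_univ_two]

theorem form_eq_zero_or_denom_pow_eq_one {k : ℤ} (f : ModularForm 𝒮ℒ k) {γ : SL(2, ℤ)} {z : ℍ}
    (h : γ • z = z) : f z = 0 ∨ denom (γ : GL (Fin 2) ℝ) z ^ k = 1 := by
  have hmem : (γ : GL (Fin 2) ℝ) ∈ 𝒮ℒ := ⟨γ, rfl⟩
  have := SlashInvariantForm.slash_action_eqn'' f hmem z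
  rw [show (γ : GL (Fin 2) ℝ) • z = z from h] at this
  rcases eq_or_ne (f z) 0 with h0 | h0
  · exact Or.inl h0
  · right
    exact mul_right_cancel₀ h0 (by linear_combination -this)

theorem E6_I : E₆ UpperHalfPlane.I = 0 := by
  rcases form_eq_zero_or_denom_pow_eq_one E₆
    ((stabilizer_I_iff S).2 (by tauto)) with h | h
  · exact h
  · exfalso
    rw [denom_S, UpperHalfPlane.coe_I] at h
    norm_num [zpow_ofNat, pow_succ] at h

theorem E4_pointRho : E₄ pointRho = 0 := by
  rcases form_eq_zero_or_denom_pow_eq_one E₄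
    ((stabilizer_pointRho_iff (S * T)).2 (by tauto)) with h | h
  · exact h
  · exfalso
    rw [denom_S_mul_T] at h
    have h4 : ((pointRho : ℂ) + 1) ^ (4 : ℕ) = 1 := by exact_mod_cast h
    have h2 : (pointRho : ℂ) ^ 2 = 1 := by
      linear_combination h4 - ((pointRho : ℂ) ^ 2 + 3 * pointRho + 1) * pointRho_sq
    have : (pointRho : ℂ) = -2 := by linear_combination pointRho_sq - h2
    have := congrArg Complex.im this
    simp [pointRho] at this

theorem jDegree_pointRho : jDegree pointRho = 3 := by simp [jDegree, E4_pointRho]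

theorem jDegree_I : jDegree UpperHalfPlane.I = 2 := by
  simp [jDegree, E4_ne_zero_of_E6_eq_zero E6_I, E6_I]

/-- Away from the zeros of `E₄` and `E₆` the stabiliser is `±1`. -/
theorem stabilizer_generic {z : ℍ} (h4 : E₄ z ≠ 0) (h6 : E₆ z ≠ 0) (γ : SL(2, ℤ)) :
    γ • z = z ↔ γ = 1 ∨ γ = -1 := by
  constructor
  · intro h
    have e4 := (form_eq_zero_or_denom_pow_eq_one E₄ h).resolve_left h4
    have e6 := (form_eq_zero_or_denom_pow_eq_one E₆ h).resolve_left h6
    have e2 : denom (γ : GL (Fin 2) ℝ) z ^ 2 = 1 := by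
      have e4' : denom (γ : GL (Fin 2) ℝ) z ^ (4 : ℕ) = 1 := by exact_mod_cast e4
      have e6' : denom (γ : GL (Fin 2) ℝ) z ^ (6 : ℕ) = 1 := by exact_mod_cast e6
      linear_combination -(denom (γ : GL (Fin 2) ℝ) z ^ 2) * e4' + e6'
    simp [UpperHalfPlane.denom] at e2
    rw [smul_eq_self_iff] at h
    have hz := z.im_pos
    rcases e2 with e | e
    all_goals
      have ei := congrArg Complex.im e
      have er := congrArg Complex.re e
      simp [hz.ne'] at ei er
      simp [ei] at er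
      rw [show (γ 1 0 : ℤ) = 0 by exact_mod_cast ei] at h
      have hd' : (γ 1 1 : ℤ) ^ 2 = 1 := by
        have : ((γ 1 1 : ℤ) : ℝ) ^ 2 = 1 := by rw [er]; norm_num
        exact_mod_cast this
      have hi := congrArg Complex.im h
      have hr := congrArg Complex.re h
      simp at hi hr
      have ha : ((γ 0 0 : ℤ) : ℝ) = (γ 1 1 : ℤ) := by
        nlinarith [mul_right_cancel₀ hz.ne' (hi.trans (mul_comm _ _))]
      have hb : ((γ 0 1 : ℤ) : ℝ) = 0 := by
        rw [ha] at hr; nlinarith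
      have ei' : γ 1 0 = 0 := by exact_mod_cast ei
      have ha' : γ 0 0 = γ 1 1 := by exact_mod_cast ha
      have hb' : γ 0 1 = 0 := by exact_mod_cast hb
      have er' : γ 1 1 = 1 ∨ γ 1 1 = -1 := sq_eq_one_iff.mp hd'
      rcases er' with hh | hh
      · left; ext i j; fin_cases i <;> fin_cases j <;> simp [ei', ha', hb', hh]
      · right; ext i j; fin_cases i <;> fin_cases j <;> simp [ei', ha', hb', hh]
  · rintro (rfl | rfl) <;> rw [smul_eq_self_iff] <;> simp

/-- The orbits of the stabiliser of `z` on the cosets of `Γ₀(N)`. -/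
abbrev StabOrbit (N : ℕ) (z : ℍ) : Type :=
  Quotient (MulAction.orbitRel (MulAction.stabilizer SL(2, ℤ) z) (SL(2, ℤ) ⧸ Gamma0 N))

theorem neg_one_smul_coset (N : ℕ) (q : SL(2, ℤ) ⧸ Gamma0 N) : (-1 : SL(2, ℤ)) • q = q := by
  induction q using QuotientGroup.induction_on with
  | H h =>
    rw [smul_coset_eq_iff]
    simp

theorem neg_smul_coset (N : ℕ) (g : SL(2, ℤ)) (q : SL(2, ℤ) ⧸ Gamma0 N) : (-g) • q = g • q := by
  rw [show -g = -1 * g by simp, mul_smul, neg_one_smul_coset]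

/-- Burnside's lemma for a stabiliser given as a list of elements. -/
theorem natCard_stabOrbit_mul (N : ℕ) [NeZero N] (z : ℍ) (s : Finset SL(2, ℤ))
    (hs : ∀ γ : SL(2, ℤ), γ • z = z ↔ γ ∈ s) :
    Nat.card (StabOrbit N z) * s.card =
      ∑ γ ∈ s, Nat.card {q : SL(2, ℤ) ⧸ Gamma0 N // γ • q = q} := by
  classical
  let +nondep : Fintype (MulAction.stabilizer SL(2, ℤ) z) :=
    Fintype.ofFinset s fun γ => (hs γ).symm
  let +nondep : Fintype (SL(2, ℤ) ⧸ Gamma0 N) := Fintype.ofFinite _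
  let +nondep : Fintype (StabOrbit N z) := Fintype.ofFinite _
  have h := MulAction.sum_card_fixedBy_eq_card_orbits_mul_card_group
    (MulAction.stabilizer SL(2, ℤ) z) (SL(2, ℤ) ⧸ Gamma0 N)
  have hc : Fintype.card (MulAction.stabilizer SL(2, ℤ) z) = s.card := by
    rw [← Nat.card_eq_fintype_card, ← Nat.card_eq_finsetCard]
    exact Nat.card_congr (Equiv.subtypeEquivRight hs)
  rw [hc, ← Nat.card_eq_fintype_card] at h
  rw [← h]
  refine Finset.sum_bij (fun γ _ => (γ : SL(2, ℤ))) (fun γ _ => (hs _).1 γ.2)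
    (fun γ _ γ' _ e => Subtype.ext e) (fun γ hγ => ⟨⟨γ, (hs γ).2 hγ⟩, Finset.mem_univ _, rfl⟩)
    fun γ _ => ?_
  rw [← Nat.card_eq_fintype_card]
  exact Nat.card_congr (Equiv.subtypeEquivRight fun q => Iff.rfl)

theorem natCard_stabOrbit_I (N : ℕ) [NeZero N] :
    2 * Nat.card (StabOrbit N UpperHalfPlane.I)
      = ModularCurve.dedekindPsi N + ModularCurve.nuTwo N := by
  classical
  have h := natCard_stabOrbit_mul N UpperHalfPlane.I {1, -1, S, -S} fun γ =>
    (stabilizer_I_iff γ).trans (by simp only [Finset.mem_insert, Finset.mem_singleton])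
  simp +decide [natCard_fixed_S, neg_smul_coset] at h
  have hu : Nat.card (SL(2, ℤ) ⧸ Gamma0 N) = ModularCurve.dedekindPsi N := index_Gamma0 N
  omega

theorem natCard_stabOrbit_pointRho (N : ℕ) [NeZero N] :
    3 * Nat.card (StabOrbit N pointRho)
      = ModularCurve.dedekindPsi N + 2 * ModularCurve.nuThree N := by
  classical
  have h := natCard_stabOrbit_mul N pointRho
    {1, -1, S * T, -(S * T), (S * T) ^ 2, -((S * T) ^ 2)} fun γ =>
    (stabilizer_pointRho_iff γ).trans (by simp only [Finset.mem_insert, Finset.mem_singleton])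
  have hsq : ∀ q : SL(2, ℤ) ⧸ Gamma0 N, (S * T) ^ 2 • q = q ↔ (S * T) • q = q := by
    intro q
    have h3 : (S * T) ^ 3 = (-1 : SL(2, ℤ)) := by decide +kernel
    constructor
    · intro e
      calc (S * T) • q = (S * T) • ((S * T) ^ 2 • q) := by rw [e]
        _ = q := by rw [← mul_smul, ← pow_succ', h3, neg_one_smul_coset]
    · intro e
      rw [pow_two, mul_smul, e, e]
  simp +decide [natCard_fixed_S_mul_T, neg_smul_coset, hsq] at h
  have hu : Nat.card (SL(2, ℤ) ⧸ Gamma0 N) = ModularCurve.dedekindPsi N := index_Gamma0 N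
  omega

theorem stabilizer_smul_coset_generic {N : ℕ} {z : ℍ} (h4 : E₄ z ≠ 0) (h6 : E₆ z ≠ 0)
    (γ : MulAction.stabilizer SL(2, ℤ) z) (q : SL(2, ℤ) ⧸ Gamma0 N) : γ • q = q := by
  rcases (stabilizer_generic h4 h6 γ).1 γ.2 with e | e 
  · show (γ : SL(2, ℤ)) • q = q
    rw [e, one_smul]
  · show (γ : SL(2, ℤ)) • q = q
    rw [e, neg_one_smul_coset]

theorem natCard_stabOrbit_generic (N : ℕ) [NeZero N] {z : ℍ} (h4 : E₄ z ≠ 0) (h6 : E₆ z ≠ 0) :
    Nat.card (StabOrbit N z) = ModularCurve.dedekindPsi N := by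
  rw [← index_Gamma0 N, Subgroup.index]
  refine (Nat.card_eq_of_bijective (fun q => Quotient.mk'' q) ⟨fun q q' e => ?_,
    Quotient.mk''_surjective⟩).symm
  obtain ⟨γ, hγ⟩ := MulAction.orbitRel_apply.1 (Quotient.eq''.1 e)
  exact hγ.symm.trans (stabilizer_smul_coset_generic h4 h6 γ q')

end Fermat.Agent.Modular

end
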