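import Fermat.Agent.Modular.Hol
import Fermat.Agent.Modular.EllipticStabilizer
import Mathlib.RingTheory.RootsOfUnity.PrimitiveRoots

/-!
# Orders at elliptic points of invariant meromorphic functions

If `γ` fixes `z` and `φ` is invariant under `γ`, then the multiplier of `γ` at `z` is killed by
`ordPt z φ`. Hence orders at `i` (resp. `ρ`) of invariant functions are even
(resp. divisible by `3`).
-/

set_option autoImplicit false

noncomputable section

open UpperHalfPlane hiding I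
open Complex Filter Topology CongruenceSubgroup ModularGroup
open scoped MatrixGroups Manifold

namespace Fermat.Agent.Modular

theorem exists_leading (z : ℍ) {F : Hol} (hF : F ≠ 0) :
    ∃ c : ℂ, c ≠ 0 ∧ Tendsto (fun w : ℂ => (F : ℍ → ℂ) (ofComplex w) / (w - z) ^ holOrd z F)
      (𝓝[≠] (z : ℂ)) (𝓝 c) := by
  obtain ⟨g, hg, hg0, hev⟩ :=
    ((Hol.analyticAt F z).analyticOrderAt_eq_natCast).mp (analyticOrderAt_hol (z := z) hF)
  refine ⟨g z, hg0, Tendsto.congr' ?_ (hg.continuousAt.tendsto.mono_left nhdsWithin_le_nhds)⟩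
  filter_upwards [hev.filter_mono nhdsWithin_le_nhds, self_mem_nhdsWithin] with w hw hne
  simp only [Function.comp_apply] at hw
  rw [hw, smul_eq_mul]
  field_simp [pow_ne_zero _ (sub_ne_zero.mpr hne)]

theorem multiplier_ne_zero (γ : SL(2, ℤ)) (z : ℍ) :
    1 / denom (γ : GL (Fin 2) ℝ) z ^ 2 ≠ 0 :=
  div_ne_zero one_ne_zero (pow_ne_zero _ (denom_ne_zero _ _))

theorem tendsto_leading_smul {γ : SL(2, ℤ)} {z : ℍ} (hγ : γ • z = z) {F : Hol} {n : ℕ} {c : ℂ}
    (hF : Tendsto (fun w : ℂ => (F : ℍ → ℂ) (ofComplex w) / (w - z) ^ n) (𝓝[≠] (z : ℂ)) (𝓝 c)) :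
    Tendsto (fun w : ℂ => ((γ⁻¹ • F : Hol) : ℍ → ℂ) (ofComplex w) / (w - z) ^ n)
      (𝓝[≠] (z : ℂ)) (𝓝 (c * (1 / denom (γ : GL (Fin 2) ℝ) z ^ 2) ^ n)) := by
  set G : ℂ → ℂ := fun w => ((γ • ofComplex w : ℍ) : ℂ) with hG
  have hdet : (γ : GL (Fin 2) ℝ).val.det = 1 := by
    rw [← Matrix.GeneralLinearGroup.val_det_apply]; simp
  have hd : HasDerivAt G (1 / denom (γ : GL (Fin 2) ℝ) z ^ 2) (z : ℂ) := by
    have := (hasStrictDerivAt_smul (g := (γ : GL (Fin 2) ℝ)) (by rw [hdet]; exact one_pos) z).hasDerivAt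
    rw [hdet] at this
    simpa [hG] using! this
  have hGz : G z = z := by rw [hG]; simp only [ofComplex_apply, hγ]
  have hne : Tendsto G (𝓝[≠] (z : ℂ)) (𝓝[≠] (z : ℂ)) := by
    have := hd.tendsto_nhdsNE (multiplier_ne_zero γ z)
    rwa [hGz] at this
  have hslope := hd.tendsto_slope
  have h1 := (hF.comp hne).mul (hslope.pow n)
  refine Tendsto.congr' ?_ h1
  filter_upwards [hne.eventually self_mem_nhdsWithin, self_mem_nhdsWithin] with w hw hwz
  have e1 : (G w - z) ≠ 0 := sub_ne_zero.mpr hw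
  have e2 : (w - (z : ℂ)) ≠ 0 := sub_ne_zero.mpr hwz
  have e3 : ((γ⁻¹ • F : Hol) : ℍ → ℂ) (ofComplex w) = (F : ℍ → ℂ) (ofComplex (G w)) := by
    show (F : ℍ → ℂ) (γ⁻¹⁻¹ • ofComplex w) = _
    rw [inv_inv, hG]
    simp only [ofComplex_apply]
  rw [e3, Function.comp_apply, slope_def_field, hGz, div_pow, div_mul_div_comm]
  field_simp

theorem holOrd_smul_of_fixed {γ : SL(2, ℤ)} {z : ℍ} (hγ : γ • z = z) (F : Hol) :
    holOrd z (γ⁻¹ • F) = holOrd z F := by
  rw [holOrd_smul, inv_inv, hγ]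

/-- The multiplier at a fixed point is killed by the order of an invariant function. -/
theorem multiplier_zpow_ordPt {γ : SL(2, ℤ)} {z : ℍ} (hγ : γ • z = z) {φ : Mero} (hφ : φ ≠ 0)
    (hinv : translate γ φ = φ) :
    (1 / denom (γ : GL (Fin 2) ℝ) z ^ 2) ^ ordPt z φ = 1 := by
  obtain ⟨a, b, hb, rfl⟩ := IsFractionRing.div_surjective (A := Hol) φ
  have hb0 : b ≠ 0 := nonZeroDivisors.ne_zero hb
  have ha0 : a ≠ 0 := by rintro rfl; simp at hφ
  have hinv' : translate γ⁻¹ (algebraMap Hol Mero a / algebraMap Hol Mero b)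
      = algebraMap Hol Mero a / algebraMap Hol Mero b := by
    conv_lhs => rw [← hinv, ← translate_mul, inv_mul_cancel, map_one]
    rfl
  rw [map_div₀, translate_algebraMap, translate_algebraMap, div_eq_div_iff
    (by simpa using (smul_ne_zero_iff_ne γ⁻¹).mpr hb0) (by simpa using hb0),
    ← map_mul, ← map_mul] at hinv'
  have he := IsFractionRing.injective Hol Mero hinv'
  obtain ⟨ca, hca, hta⟩ := exists_leading z ha0
  obtain ⟨cb, hcb, htb⟩ := exists_leading z hb0
  set ζ := 1 / denom (γ : GL (Fin 2) ℝ) z ^ 2 with hζ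
  set na := holOrd z a with hna
  set nb := holOrd z b with hnb
  have l1 := (tendsto_leading_smul hγ hta).mul htb
  have l2 := hta.mul (tendsto_leading_smul hγ htb)
  have heq : (fun w : ℂ => ((γ⁻¹ • a : Hol) : ℍ → ℂ) (ofComplex w) / (w - z) ^ na *
      ((b : ℍ → ℂ) (ofComplex w) / (w - z) ^ nb)) = fun w : ℂ =>
      (a : ℍ → ℂ) (ofComplex w) / (w - z) ^ na *
      (((γ⁻¹ • b : Hol) : ℍ → ℂ) (ofComplex w) / (w - z) ^ nb) := by
    funext w
    have := congrArg (fun F : Hol => (F : ℍ → ℂ) (ofComplex w)) he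
    simp only [MulMemClass.coe_mul, Pi.mul_apply] at this
    rw [div_mul_div_comm, div_mul_div_comm, this, mul_comm]
  rw [heq] at l1
  have h := tendsto_nhds_unique l1 l2
  rw [← hζ] at h
  have hpow : ζ ^ na = ζ ^ nb := mul_left_cancel₀ (mul_ne_zero hca hcb) (by linear_combination h)
  have hord : ordPt z (algebraMap Hol Mero a / algebraMap Hol Mero b) = (na : ℤ) - nb := by
    have h2 := ordPt_mul (z := z) (φ := algebraMap Hol Mero a / algebraMap Hol Mero b)
      (ψ := algebraMap Hol Mero b) hφ (by simpa using hb0)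
    rw [div_mul_cancel₀ _ (by simpa using hb0), ordPt_algebraMap ha0, ordPt_algebraMap hb0] at h2
    omega
  rw [hord, zpow_sub₀ (multiplier_ne_zero γ z), zpow_natCast, zpow_natCast, hpow,
    div_self (pow_ne_zero _ (multiplier_ne_zero γ z))]

theorem two_dvd_ordPt_I {φ : Mero} (hφ : φ ≠ 0) (hinv : translate S φ = φ) :
    2 ∣ ordPt UpperHalfPlane.I φ := by
  have h := multiplier_zpow_ordPt ((stabilizer_I_iff S).2 (by tauto)) hφ hinv
  rw [denom_S, UpperHalfPlane.coe_I, Complex.I_sq] at h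
  have h' : IsPrimitiveRoot (1 / (-1 : ℂ)) 2 := by
    rw [one_div, inv_neg, inv_one]
    exact IsPrimitiveRoot.neg_one 0 (by norm_num)
  exact_mod_cast (h'.zpow_eq_one_iff_dvd _).mp h

theorem three_dvd_ordPt_pointRho {φ : Mero} (hφ : φ ≠ 0) (hinv : translate (S * T) φ = φ) :
    3 ∣ ordPt pointRho φ := by
  have h := multiplier_zpow_ordPt ((stabilizer_pointRho_iff (S * T)).2 (by tauto)) hφ hinv
  rw [denom_S_mul_T] at h
  have hρ := pointRho_sq
  have hne : (pointRho : ℂ) ≠ 0 := by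
    intro h0; rw [h0] at hρ; simp at hρ
  have hval : (1 : ℂ) / ((pointRho : ℂ) + 1) ^ 2 = (pointRho : ℂ) ^ 2 := by
    have h2 : ((pointRho : ℂ) + 1) ^ 2 = pointRho := by linear_combination hρ
    rw [h2, div_eq_iff hne]
    linear_combination -(pointRho - 1 : ℂ) * hρ
  rw [hval] at h
  have h3 : ((pointRho : ℂ) ^ 2) ^ 3 = 1 := by
    linear_combination ((pointRho : ℂ) ^ 4 - pointRho ^ 3 + pointRho - 1) * hρ
  have h1 : (pointRho : ℂ) ^ 2 ≠ 1 := by
    intro h1
    have : (pointRho : ℂ) = -2 := by linear_combination hρ - h1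
    have := congrArg Complex.im this
    simp [pointRho] at this
  have h' : IsPrimitiveRoot ((pointRho : ℂ) ^ 2) 3 := by
    have : Fact (Nat.Prime 3) := ⟨Nat.prime_three⟩
    rw [IsPrimitiveRoot.iff_orderOf]
    exact orderOf_eq_prime h3 h1
  exact_mod_cast (h'.zpow_eq_one_iff_dvd _).mp h

/-- The orbit class of a coset. -/
def stabClass (N : ℕ) (z : ℍ) (q : SL(2, ℤ) ⧸ Gamma0 N) : StabOrbit N z := Quotient.mk'' q

theorem stabClass_surjective (N : ℕ) (z : ℍ) : Function.Surjective (stabClass N z) :=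
  Quotient.mk''_surjective

theorem stabClass_eq_iff (N : ℕ) (z : ℍ) (q q' : SL(2, ℤ) ⧸ Gamma0 N) :
    stabClass N z q = stabClass N z q' ↔ ∃ γ : SL(2, ℤ), γ • z = z ∧ γ • q' = q := by
  rw [stabClass, stabClass, Quotient.eq'', MulAction.orbitRel_apply]
  constructor
  · rintro ⟨γ, rfl⟩; exact ⟨γ, γ.2, rfl⟩
  · rintro ⟨γ, hγ, rfl⟩; exact ⟨⟨γ, hγ⟩, rfl⟩

theorem natCard_stabClass_I {N : ℕ} {q : SL(2, ℤ) ⧸ Gamma0 N} (h : S • q ≠ q) :
    Nat.card {q' // stabClass N UpperHalfPlane.I q' = stabClass N UpperHalfPlane.I q} = 2 := by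
  classical
  have : ∀ q', stabClass N UpperHalfPlane.I q' = stabClass N UpperHalfPlane.I q ↔
      q' ∈ ({q, S • q} : Finset _) := by
    intro q'
    rw [stabClass_eq_iff]
    simp only [Finset.mem_insert, Finset.mem_singleton]
    constructor
    · rintro ⟨γ, hγ, rfl⟩
      rcases (stabilizer_I_iff γ).1 hγ with rfl | rfl | rfl | rfl <;>
        simp [neg_smul_coset]
    · rintro (rfl | rfl)
      · exact ⟨1, one_smul _ _, one_smul _ _⟩
      · exact ⟨S, (stabilizer_I_iff S).2 (by tauto), rfl⟩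
  rw [Nat.card_congr (Equiv.subtypeEquivRight this), Nat.card_eq_finsetCard,
    Finset.card_pair h.symm]

theorem natCard_stabClass_pointRho {N : ℕ} {q : SL(2, ℤ) ⧸ Gamma0 N} (h : (S * T) • q ≠ q) :
    Nat.card {q' // stabClass N pointRho q' = stabClass N pointRho q} = 3 := by
  classical
  have h3 : ∀ x : SL(2, ℤ) ⧸ Gamma0 N, (S * T) ^ 3 • x = x := fun x => by
    rw [show (S * T) ^ 3 = (-1 : SL(2, ℤ)) by decide +kernel, neg_one_smul_coset]
  have : ∀ q', stabClass N pointRho q' = stabClass N pointRho q ↔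
      q' ∈ ({q, (S * T) • q, (S * T) ^ 2 • q} : Finset _) := by
    intro q'
    rw [stabClass_eq_iff]
    simp only [Finset.mem_insert, Finset.mem_singleton]
    constructor
    · rintro ⟨γ, hγ, rfl⟩
      rcases (stabilizer_pointRho_iff γ).1 hγ with rfl | rfl | rfl | rfl | rfl | rfl <;>
        simp [neg_smul_coset]
    · rintro (rfl | rfl | rfl)
      · exact ⟨1, one_smul _ _, one_smul _ _⟩
      · exact ⟨S * T, (stabilizer_pointRho_iff _).2 (by tauto), rfl⟩
      · exact ⟨(S * T) ^ 2, (stabilizer_pointRho_iff _).2 (by tauto), rfl⟩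
  rw [Nat.card_congr (Equiv.subtypeEquivRight this), Nat.card_eq_finsetCard, Finset.card_eq_three]
  refine ⟨q, (S * T) • q, (S * T) ^ 2 • q, h.symm, fun e => h ?_, fun e => h ?_, rfl⟩
  · calc (S * T) • q = (S * T) • ((S * T) ^ 2 • q) := by rw [← e]
      _ = q := by rw [← mul_smul, ← pow_succ', h3]
  · rw [pow_two, mul_smul (S * T) (S * T) q] at e
    exact (MulAction.injective (S * T) e).symm

end Fermat.Agent.Modular

end
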