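import Fermat.Agent.Modular.CuspForms
import Fermat.Agent.Modular.Genus

/-!
# The lower bound `genusFormula N ≤ dim S₂(Γ₀(N))`
-/

noncomputable section

open CongruenceSubgroup ModularCurve

namespace Fermat.Agent.Modular

theorem genusFormula_le_finrank_cuspForm (N : ℕ) [NeZero N]
    [FiniteDimensional ℂ (CuspForm (Gamma0 N) 2)] :
    genusFormula N ≤ (Module.finrank ℂ (CuspForm (Gamma0 N) 2) : ℚ) := by
  have := isFunctionField1_FL N (RingHom.id ℂ)
  rw [← genusFF_eq_genusFormula N (RingHom.id ℂ), ← Curve.finrank_regularDifferentials]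
  exact_mod_cast finrank_regularDifferentials_le N (RingHom.id ℂ)

end Fermat.Agent.Modular
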